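import Fermat.Agent.Igusa.Fricke
import Fermat.Agent.Red.FrickeGen
import Fermat.Prelude.Def_ModularCurve_HeckeOperator
import Fermat.Prelude.Thm_ModularCurve_coeffMap_qExpand

/-! PROJECT G, [AL]: the Atkin-Lehner involution at `ℓ` of the function field of `X₀(N ℓ)` over an
arbitrary field `K ⊆ ℂ`. -/

set_option autoImplicit false

open Polynomial IntermediateField ModularCurve UpperHalfPlane FA_IS FAIg
open scoped MatrixGroups

noncomputable section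

namespace FAG

section generic

variable (K : Type*) [Field K] [Algebra ℚ K]

/-- the function field of `X₀(N)` over `K`. -/
abbrev FK (N : ℕ) : Type _ := ↥(laurentBaseChange K (modularFunctionFieldFull N))

/-- the generators `j(q^d)`. -/
def JK (N : ℕ) {d : ℕ} [NeZero d] (hd : d ∣ N) : FK K N :=
  ⟨coeffEmb K (qExpand ℚ d jq), coeffEmb_mem_laurentBaseChange _ (jqd_mem_full N hd)⟩

lemma coe_JK (N : ℕ) {d : ℕ} [NeZero d] (hd : d ∣ N) :
    (JK K N hd : LaurentSeries K) = coeffEmb K (qExpand ℚ d jq) := rfl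

variable {K}

lemma FK_le (N : ℕ) (𝒮 : Subfield (LaurentSeries K))
    (hc : ∀ a : K, algebraMap K (LaurentSeries K) a ∈ 𝒮)
    (hJ : ∀ (d : ℕ) (_ : NeZero d), d ∣ N → coeffEmb K (qExpand ℚ d jq) ∈ 𝒮) :
    ∀ f ∈ laurentBaseChange K (modularFunctionFieldFull N), f ∈ 𝒮 := by
  intro f hf
  rw [mem_laurentBaseChange_iff] at hf
  refine (Subfield.closure_le.mpr ?_) hf
  rintro y (⟨a, rfl⟩ | ⟨z, hz, rfl⟩)
  · exact hc a
  · have hz' : z ∈ Subfield.closure (Set.range (algebraMap ℚ (LaurentSeries ℚ)) ∪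
        divisorExpansions N) := hz
    have hle : Subfield.closure (Set.range (algebraMap ℚ (LaurentSeries ℚ)) ∪
        divisorExpansions N) ≤ 𝒮.comap (coeffEmb K) := by
      rw [Subfield.closure_le]
      rintro w (⟨c, rfl⟩ | ⟨d, hd, hdN, rfl⟩)
      · rw [eq_ratCast]
        exact SubfieldClass.ratCast_mem _ c
      · exact hJ d hd hdN
    exact hle hz'

/-- induction principle for the function field -/
lemma FK_induction {N : ℕ} {P : FK K N → Prop} (hc : ∀ a : K, P (algebraMap K (FK K N) a))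
    (hJ : ∀ (d : ℕ) (_ : NeZero d) (hd : d ∣ N), P (JK K N hd))
    (hadd : ∀ f g, P f → P g → P (f + g)) (hneg : ∀ f, P f → P (-f))
    (hmul : ∀ f g, P f → P g → P (f * g)) (hinv : ∀ f, P f → P f⁻¹) : ∀ f, P f := by
  let 𝒮 : Subfield (FK K N) :=
    { carrier := {f | P f}
      mul_mem' := fun {f g} hf hg => hmul f g hf hg
      one_mem' := by simpa using hc 1
      add_mem' := fun {f g} hf hg => hadd f g hf hg
      zero_mem' := by simpa using hc 0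
      neg_mem' := fun {f} hf => hneg f hf
      inv_mem' := fun f hf => hinv f hf }
  intro f
  have := FK_le N (𝒮.map (laurentBaseChange K (modularFunctionFieldFull N)).val.toRingHom)
    (fun a => ⟨algebraMap K (FK K N) a, hc a, rfl⟩) (fun d hd hdN => ⟨JK K N hdN, hJ d hd hdN, rfl⟩)
    f.1 f.2
  obtain ⟨f', hf', e⟩ := this
  have : f' = f := Subtype.ext e
  exact this ▸ hf'

/-- two `K`-algebra homomorphisms agreeing on the `j(q^d)` are equal. -/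
lemma FK_algHom_ext {N : ℕ} {L : Type*} [Field L] [Algebra K L] {φ ψ : FK K N →ₐ[K] L}
    (h : ∀ (d : ℕ) (_ : NeZero d) (hd : d ∣ N), φ (JK K N hd) = ψ (JK K N hd)) : φ = ψ := by
  ext f
  show φ.toRingHom f = ψ.toRingHom f
  induction f using FK_induction with
  | hc a => exact (φ.commutes a).trans (ψ.commutes a).symm
  | hJ d hd hdN => exact h d hd hdN
  | hadd f g hf hg => rw [RingHom.map_add, RingHom.map_add, hf, hg]
  | hneg f hf => rw [RingHom.map_neg, RingHom.map_neg, hf]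
  | hmul f g hf hg => rw [RingHom.map_mul, RingHom.map_mul, hf, hg]
  | hinv f hf => rw [map_inv₀, map_inv₀, hf]

variable {N : ℕ} [NeZero N]

variable (K) in
/-- the generators, indexed by the divisors -/
def genK (d : Dv N) : FK K N := JK K N d.2

lemma genK_eq {D : Dv N} {e : ℕ} [NeZero e] (h : D.1 = e) (he : e ∣ N) :
    genK K D = JK K N he := by
  subst h
  rfl

lemma adjoin_genK : adjoin K (Set.range (genK K (N := N))) = ⊤ := by
  rw [eq_top_iff]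
  intro f _
  induction f using FK_induction with
  | hc a => exact IntermediateField.algebraMap_mem _ a
  | hJ d hd hdN => exact subset_adjoin _ _ ⟨⟨d, hdN⟩, rfl⟩
  | hadd f g hf hg => exact add_mem (hf trivial) (hg trivial)
  | hneg f hf => exact neg_mem (hf trivial)
  | hmul f g hf hg => exact mul_mem (hf trivial) (hg trivial)
  | hinv f hf => exact inv_mem (hf trivial)

/-- evaluation of polynomials at the functions `j(dτ)` -/
def evanK (ι : K →+* ℂ) : MvPolynomial (Dv N) K →+* FA24.RN N :=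
  MvPolynomial.eval₂Hom (FA24.cstHom.comp ι) (fun d => FA24.jdR d.2)

lemma Lam_evanK (ι : K →+* ℂ) (P : MvPolynomial (Dv N) K) :
    FA24.Lam (evanK ι P) = coeffMap ι (MvPolynomial.aeval (genK K (N := N)) P).1 := by
  have : (FA24.Lam (N := N)).comp (evanK ι) =
      (coeffMap ι).comp ((laurentBaseChange K (modularFunctionFieldFull N)).val.toRingHom.comp
        (MvPolynomial.aeval (R := K) (genK K (N := N))).toRingHom) := by
    apply MvPolynomial.ringHom_ext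
    · intro a
      simp only [RingHom.comp_apply, evanK, MvPolynomial.coe_eval₂Hom, MvPolynomial.eval₂_C,
        AlgHom.toRingHom_eq_coe, RingHom.coe_coe, MvPolynomial.aeval_C]
      rw [show (FA24.cstHom (N := N) (ι a)) = FA24.cst (ι a) from rfl, FA24.Lam_cst]
      show _ = coeffMap ι (algebraMap K (LaurentSeries K) a)
      rw [algebraMap_laurentSeries_eq_single, coeffMap_single]
      rfl
    · intro d
      simp only [RingHom.comp_apply, evanK, MvPolynomial.coe_eval₂Hom, MvPolynomial.eval₂_X,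
        AlgHom.toRingHom_eq_coe, RingHom.coe_coe, MvPolynomial.aeval_X]
      show FA24.lau 1 (FA24.jd d.1) = coeffMap ι (coeffEmb K (qExpand ℚ d.1 jq))
      rw [FA24.lau_jd, coeffEmb, coeffMap_coeffMap, ← coeffMap_qExpand]
      exact coeffMap_congr (Subsingleton.elim _ _) _
  exact RingHom.congr_fun this P

/-- a point transformation realising a permutation of the `j(dτ)` preserves the relations. -/
theorem aeval_rename_eq_zero (ι : K →+* ℂ) (σ : Dv N → Dv N) (W : ℍ → ℍ)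
    (hW : ∀ (d : Dv N) (τ : ℍ), FA24.jd d.1 (W τ) = FA24.jd (σ d).1 τ)
    {P : MvPolynomial (Dv N) K} (h : MvPolynomial.aeval (genK K (N := N)) P = 0) :
    MvPolynomial.aeval (genK K (N := N)) (MvPolynomial.rename σ P) = 0 := by
  have h1 : evanK ι P = 0 := by
    apply FA24.Lam_injective
    rw [Lam_evanK, h, map_zero]
    exact map_zero (coeffMap ι)
  have hren : ∀ τ, (evanK ι (MvPolynomial.rename σ P)).1 τ = (evanK ι P).1 (W τ) := by
    intro τ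
    have : ((Pi.evalRingHom (fun _ : ℍ => ℂ) τ).comp ((FA24.RN N).subtype.comp
        ((evanK ι).comp (MvPolynomial.rename σ).toRingHom))) =
        (Pi.evalRingHom (fun _ : ℍ => ℂ) (W τ)).comp ((FA24.RN N).subtype.comp (evanK ι)) := by
      apply MvPolynomial.ringHom_ext
      · intro a
        simp [evanK, FA24.cstHom, FA24.cst]
      · intro d
        simp only [RingHom.comp_apply, AlgHom.toRingHom_eq_coe, RingHom.coe_coe,
          MvPolynomial.rename_X, evanK, MvPolynomial.coe_eval₂Hom, MvPolynomial.eval₂_X]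
        exact (hW d τ).symm
    exact RingHom.congr_fun this P
  have h2 : evanK ι (MvPolynomial.rename σ P) = 0 := by
    apply Subtype.ext
    funext τ
    rw [hren, h1]
    rfl
  apply Subtype.ext
  apply (coeffMap ι).injective
  rw [← Lam_evanK, h2, map_zero]
  exact (map_zero (coeffMap ι)).symm

end generic

section points

/-- comparing `a • (γ z)` with `γ' z'`. -/
lemma affPt_smul_eq {a : ℕ} (ha : 0 < a) (γ γ' : SL(2, ℤ)) (z z' : ℍ) (t : ℂ) (ht : t ≠ 0)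
    (h1 : (a : ℂ) * ((γ 0 0 : ℂ) * z + (γ 0 1 : ℂ)) = t * ((γ' 0 0 : ℂ) * z' + (γ' 0 1 : ℂ)))
    (h2 : (γ 1 0 : ℂ) * z + (γ 1 1 : ℂ) = t * ((γ' 1 0 : ℂ) * z' + (γ' 1 1 : ℂ))) :
    affPt a 1 0 (γ • z) = γ' • z' := by
  apply UpperHalfPlane.ext
  have hden : (γ 1 0 : ℂ) * z + (γ 1 1 : ℂ) ≠ 0 := by
    rw [← denom_SL γ z]; exact denom_ne_zero _ _
  have hden' : (γ' 1 0 : ℂ) * z' + (γ' 1 1 : ℂ) ≠ 0 := by
    rw [← denom_SL γ' z']; exact denom_ne_zero _ _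
  rw [coe_affPt ha one_pos, coe_specialLinearGroup_apply, coe_specialLinearGroup_apply]
  simp only [algebraMap_int_eq, Int.coe_castRingHom, Complex.ofReal_intCast]
  rw [Int.cast_zero, add_zero, Nat.cast_one, div_one, mul_div_assoc', h1, h2,
    mul_div_mul_left _ _ ht]

variable {N ℓ : ℕ}

/-- the matrices -/
def alG (x y a b : ℤ) (h : x * b - y * a = 1) : SL(2, ℤ) :=
  ⟨!![x, y; a, b], by rw [Matrix.det_fin_two_of]; exact h⟩

/-- `j(d W τ) = j(d ℓ τ)` -/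
lemma jd_al_A {x y : ℤ} (hxy : x * ℓ - y * N = 1) (hℓ : 0 < ℓ) {d c : ℕ} (hd : 0 < d)
    (hdc : d * c = N) (τ : ℍ) :
    FA24.jd d (alG x y N ℓ hxy • affPt ℓ 1 0 τ) = FA24.jd (d * ℓ) τ := by
  show FA24.jf (affPt d 1 0 _) = FA24.jf (affPt (d * ℓ) 1 0 τ)
  have hxy' : x * ℓ - (d * y) * c = 1 := by
    rw [← hxy, ← hdc]; push_cast; ring
  rw [← FA24.jf_smul (alG x (d * y) c ℓ hxy') (affPt (d * ℓ) 1 0 τ)]
  congr 1
  apply affPt_smul_eq hd _ _ _ _ 1 one_ne_zero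
  · rw [coe_affPt hℓ one_pos, coe_affPt (Nat.mul_pos hd hℓ) one_pos]
    simp [alG]
    ring
  · rw [coe_affPt hℓ one_pos, coe_affPt (Nat.mul_pos hd hℓ) one_pos]
    simp [alG, ← hdc]
    ring

/-- `j(d ℓ W τ) = j(d τ)` -/
lemma jd_al_B {x y : ℤ} (hxy : x * ℓ - y * N = 1) (hℓ : 0 < ℓ) {d c : ℕ} (hd : 0 < d)
    (hdc : d * c = N) (τ : ℍ) :
    FA24.jd (d * ℓ) (alG x y N ℓ hxy • affPt ℓ 1 0 τ) = FA24.jd d τ := by
  show FA24.jf (affPt (d * ℓ) 1 0 _) = FA24.jf (affPt d 1 0 τ)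
  have hxy' : (x * ℓ) * 1 - (d * y) * c = 1 := by
    have h := hxy
    rw [← hdc] at h
    push_cast at h
    linarith
  rw [← FA24.jf_smul (alG (x * ℓ) (d * y) c 1 hxy') (affPt d 1 0 τ)]
  congr 1
  apply affPt_smul_eq (Nat.mul_pos hd hℓ) _ _ _ _ (ℓ : ℂ) (by exact_mod_cast hℓ.ne')
  · rw [coe_affPt hℓ one_pos, coe_affPt hd one_pos]
    simp [alG]
    ring
  · rw [coe_affPt hℓ one_pos, coe_affPt hd one_pos]
    simp [alG, ← hdc]
    ring

end points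

section al

variable {N ℓ : ℕ}

/-- the permutation `d ↔ ℓ d` of the divisors of `N ℓ`. -/
def alD (hℓ : ℓ.Prime) (d : Dv (N * ℓ)) : Dv (N * ℓ) :=
  if h : ℓ ∣ d.1 then ⟨d.1 / ℓ, (Nat.div_dvd_of_dvd h).trans d.2⟩
  else ⟨ℓ * d.1, (Nat.mul_dvd_mul_left ℓ
      (((Nat.Prime.coprime_iff_not_dvd hℓ).2 h).symm.dvd_of_dvd_mul_right d.2)).trans
        (dvd_of_eq (mul_comm ℓ N))⟩

lemma alD_A (hℓ : ℓ.Prime) (hℓN : ¬ ℓ ∣ N) {d : ℕ} (hd : d ∣ N) (h1 : d ∣ N * ℓ) :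
    (alD hℓ ⟨d, h1⟩).1 = ℓ * d := by
  have h : ¬ ℓ ∣ d := fun h => hℓN (h.trans hd)
  rw [alD, dif_neg h]

lemma alD_B (hℓ : ℓ.Prime) {d : ℕ} (h1 : ℓ * d ∣ N * ℓ) :
    (alD hℓ ⟨ℓ * d, h1⟩).1 = d := by
  rw [alD, dif_pos (dvd_mul_right ℓ d)]
  exact Nat.mul_div_cancel_left d hℓ.pos

lemma Dv_cases (hℓ : ℓ.Prime) (D : Dv (N * ℓ)) :
    ∃ d, d ∣ N ∧ (D.1 = d ∨ D.1 = ℓ * d) := by
  by_cases h : ℓ ∣ D.1
  · obtain ⟨d, hd⟩ := h
    refine ⟨d, ?_, Or.inr hd⟩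
    have := D.2
    rw [hd, mul_comm N ℓ] at this
    exact Nat.dvd_of_mul_dvd_mul_left hℓ.pos this
  · exact ⟨D.1, ((Nat.Prime.coprime_iff_not_dvd hℓ).2 h).symm.dvd_of_dvd_mul_right D.2, Or.inl rfl⟩

lemma alD_alD (hℓ : ℓ.Prime) (hℓN : ¬ ℓ ∣ N) (D : Dv (N * ℓ)) : alD hℓ (alD hℓ D) = D := by
  obtain ⟨D, hD⟩ := D
  obtain ⟨d, hd, rfl | rfl⟩ := Dv_cases hℓ ⟨D, hD⟩
  · have h1 := alD_A hℓ hℓN hd hD
    have h2 : alD hℓ ⟨D, hD⟩ = ⟨ℓ * D, h1 ▸ (alD hℓ ⟨D, hD⟩).2⟩ := Subtype.ext h1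
    rw [h2]
    exact Subtype.ext (alD_B hℓ _)
  · have h1 := alD_B hℓ hD
    have h2 : alD hℓ ⟨ℓ * d, hD⟩ = ⟨d, h1 ▸ (alD hℓ ⟨ℓ * d, hD⟩).2⟩ := Subtype.ext h1
    rw [h2]
    exact Subtype.ext (alD_A hℓ hℓN hd _)

variable (K : Type*) [Field K] [Algebra ℚ K]

lemma heckeAlphaBar_JK [NeZero N] [NeZero ℓ] {d : ℕ} [NeZero d] (hd : d ∣ N) :
    heckeAlphaBar K N ℓ (JK K N hd) = JK K (N * ℓ) (hd.trans (dvd_mul_right N ℓ)) :=
  Subtype.ext (coe_heckeAlphaBar N ℓ _)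

lemma heckeBetaBar_JK [NeZero N] [NeZero ℓ] {d : ℕ} [NeZero d] [NeZero (ℓ * d)] (hd : d ∣ N) :
    heckeBetaBar K N ℓ (JK K N hd) =
      JK K (N * ℓ) ((Nat.mul_dvd_mul_left ℓ hd).trans (dvd_of_eq (mul_comm ℓ N))) := by
  apply Subtype.ext
  rw [coe_heckeBetaBar, coe_JK, coe_JK, coeffEmb, ← coeffMap_qExpand, qExpand_qExpand]

/-- **[AL]** the Atkin-Lehner involution at `ℓ`. -/
theorem exists_atkinLehner (ι : K →+* ℂ) (N ℓ : ℕ) [NeZero N] [NeZero ℓ] (hℓ : ℓ.Prime)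
    (hℓN : ¬ ℓ ∣ N) :
    ∃ w : FK K (N * ℓ) ≃ₐ[K] FK K (N * ℓ),
      (∀ f, w (heckeAlphaBar K N ℓ f) = heckeBetaBar K N ℓ f) ∧
      (∀ f, w (heckeBetaBar K N ℓ f) = heckeAlphaBar K N ℓ f) ∧ ∀ g, w (w g) = g := by
  have hN : 0 < N := Nat.pos_of_ne_zero (NeZero.ne N)
  have : NeZero (N * ℓ) := ⟨Nat.mul_ne_zero (NeZero.ne N) (NeZero.ne ℓ)⟩
  -- Bezout
  have hcop : IsCoprime (ℓ : ℤ) (N : ℤ) :=
    Nat.isCoprime_iff_coprime.2 ((Nat.Prime.coprime_iff_not_dvd hℓ).2 hℓN)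
  obtain ⟨x, y', hxy'⟩ := hcop
  have hxy : x * ℓ - (-y') * N = 1 := by linarith
  set W : ℍ → ℍ := fun τ => alG x (-y') N ℓ hxy • affPt ℓ 1 0 τ with hWdef
  have hW : ∀ (D : Dv (N * ℓ)) (τ : ℍ), FA24.jd D.1 (W τ) = FA24.jd (alD hℓ D).1 τ := by
    rintro ⟨D, hD⟩ τ
    obtain ⟨d, hd, rfl | rfl⟩ := Dv_cases hℓ ⟨D, hD⟩
    · obtain ⟨c, hc⟩ := hd
      rw [alD_A hℓ hℓN ⟨c, hc⟩ hD, mul_comm ℓ D]
      exact jd_al_A hxy hℓ.pos (Nat.pos_of_dvd_of_pos ⟨c, hc⟩ hN) hc.symm τ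
    · obtain ⟨c, hc⟩ := hd
      rw [alD_B hℓ hD]
      show FA24.jd (ℓ * d) (W τ) = _
      rw [mul_comm ℓ d]
      exact jd_al_B hxy hℓ.pos (Nat.pos_of_dvd_of_pos ⟨c, hc⟩ hN) hc.symm τ
  obtain ⟨w, hw, hww⟩ := (FA18.FrData.of_adjoin (K := K) (gen := genK K (N := N * ℓ))
    (σ := alD hℓ) (alD_alD hℓ hℓN) adjoin_genK
    (fun P hP => aeval_rename_eq_zero ι (alD hℓ) W hW hP)).exists_aut
  have hA : (w : FK K (N * ℓ) →ₐ[K] FK K (N * ℓ)).comp (heckeAlphaBar K N ℓ) =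
      heckeBetaBar K N ℓ := by
    apply FK_algHom_ext
    intro d _ hd
    have : NeZero (ℓ * d) := ⟨Nat.mul_ne_zero (NeZero.ne ℓ) (NeZero.ne d)⟩
    rw [AlgHom.comp_apply, heckeAlphaBar_JK, heckeBetaBar_JK]
    exact (hw ⟨d, hd.trans (dvd_mul_right N ℓ)⟩).trans (genK_eq (alD_A hℓ hℓN hd _) _)
  have hA' : ∀ f, w (heckeAlphaBar K N ℓ f) = heckeBetaBar K N ℓ f :=
    fun f => DFunLike.congr_fun hA f
  refine ⟨w, hA', fun f => ?_, hww⟩
  rw [← hA', hww]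

end al

end FAG
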