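import Mathlib

/-! PROJECT G, [ALG]: a representation on which `g + u(g) g⁻¹` is a scalar `a(g)` for all `g`
gives a two-dimensional representation with characteristic polynomials `X² - a(g) X + u(g)`. -/

set_option autoImplicit false

namespace FAG

open Polynomial Module

section alg2
variable {k : Type*} [Field k] {W : Type*} [AddCommGroup W] [Module k W]

lemma alg_quad_monic (a u : k) : (X ^ 2 - C a * X + C u : k[X]).Monic := by
  have : (X ^ 2 - C a * X + C u : k[X]) = X ^ 2 + (C (-a) * X + C u) := by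
    rw [C_neg]; ring
  rw [this]
  apply monic_X_pow_add
  compute_degree!

lemma alg_quad_natDegree (a u : k) : (X ^ 2 - C a * X + C u : k[X]).natDegree = 2 := by
  compute_degree!

lemma alg_charpoly_of_not_scalar [FiniteDimensional k W] (hd : finrank k W = 2)
    (T : Module.End k W) (a u : k) (hT : T * T - a • T + u • 1 = 0)
    (hns : ¬ ∃ l : k, T = l • 1) : T.charpoly = X ^ 2 - C a * X + C u := by
  have : Nontrivial W := Module.nontrivial_of_finrank_pos (R := k) (by omega)
  have hint : IsIntegral k T := Algebra.IsIntegral.isIntegral T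
  have h1 : minpoly k T ∣ X ^ 2 - C a * X + C u := by
    apply minpoly.dvd
    simp only [map_add, map_sub, map_pow, aeval_X, map_mul, aeval_C]
    rw [← hT, pow_two, Algebra.algebraMap_eq_smul_one, Algebra.algebraMap_eq_smul_one,
      smul_mul_assoc, one_mul]
  have h2 : minpoly k T ∣ T.charpoly := LinearMap.minpoly_dvd_charpoly T
  have h3 : 2 ≤ (minpoly k T).natDegree := by
    have h4 := minpoly.natDegree_pos hint
    have h5 : (minpoly k T).natDegree ≠ 1 := by
      intro h6
      obtain ⟨l, hl⟩ := (minpoly.natDegree_eq_one_iff).1 h6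
      exact hns ⟨l, by rw [← hl, Algebra.algebraMap_eq_smul_one]⟩
    omega
  have hm := minpoly.monic hint
  have e1 := eq_of_monic_of_dvd_of_natDegree_le hm (alg_quad_monic a u) h1
    (by rw [alg_quad_natDegree]; exact h3)
  have e2 := eq_of_monic_of_dvd_of_natDegree_le hm (LinearMap.charpoly_monic T) h2
    (by rw [LinearMap.charpoly_natDegree, hd]; exact h3)
  rw [e2, ← e1]

lemma alg_charpoly_scalar [FiniteDimensional k W] (hd : finrank k W = 2) (l : k) :
    (l • (1 : Module.End k W)).charpoly = X ^ 2 - C (2 * l) * X + C (l ^ 2) := by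
  classical
  let b := Module.finBasisOfFinrankEq k W hd
  rw [← LinearMap.charpoly_toMatrix _ b]
  have : LinearMap.toMatrix b b (l • (1 : Module.End k W)) = Matrix.diagonal (fun _ => l) := by
    rw [map_smul]
    have : LinearMap.toMatrix b b (1 : Module.End k W) = 1 := LinearMap.toMatrix_one b
    rw [this]
    ext i j
    simp [Matrix.diagonal_apply, Matrix.one_apply]
  rw [this, Matrix.charpoly_diagonal]
  simp only [Finset.prod_const, Finset.card_univ, Fintype.card_fin]
  simp only [map_mul, map_pow, map_ofNat]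
  ring

end alg2

section alg
variable {k : Type*} [Field k] {G : Type*} [Group G] {W : Type*} [AddCommGroup W] [Module k W]
  {ρ : G →* Module.End k W} {u : G →* k} {a : G → k}

lemma alg_anticomm (h : ∀ g, ρ g + u g • ρ g⁻¹ = a g • 1) (g h' : G) (w : W) :
    ρ g (ρ h' w) + ρ h' (ρ g w) =
      a h' • ρ g w + a g • ρ h' w + (a (g * h') - a g * a h') • w := by
  have e1 : u g • ρ g⁻¹ = a g • 1 - ρ g := eq_sub_of_add_eq' (h g)
  have e2 : u h' • ρ h'⁻¹ = a h' • 1 - ρ h' := eq_sub_of_add_eq' (h h')
  have e3 := h (g * h')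
  rw [mul_inv_rev, map_mul, map_mul, map_mul] at e3
  have e4 : (u g * u h') • (ρ h'⁻¹ * ρ g⁻¹) = (u h' • ρ h'⁻¹) * (u g • ρ g⁻¹) := by
    rw [smul_mul_smul_comm, mul_comm]
  rw [e4, e1, e2] at e3
  have e5 := LinearMap.congr_fun e3 w
  simp only [LinearMap.add_apply, Module.End.mul_apply, LinearMap.sub_apply, LinearMap.smul_apply,
    Module.End.one_apply, map_sub, map_smul] at e5
  linear_combination (norm := module) e5

lemma alg_quadratic (h : ∀ g, ρ g + u g • ρ g⁻¹ = a g • 1) (g : G) :
    ρ g * ρ g - a g • ρ g + u g • 1 = 0 := by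
  have e1 := congrArg (fun T => T * ρ g) (h g)
  simp only [add_mul, smul_mul_assoc, one_mul, ← map_mul, inv_mul_cancel, map_one] at e1
  rw [map_mul] at e1
  rw [← e1]; abel

lemma alg_orbit_top (hs : ∀ U : Submodule k W, (∀ g, ∀ x ∈ U, ρ g x ∈ U) → U = ⊥ ∨ U = ⊤)
    {v : W} (hv : v ≠ 0) : Submodule.span k (Set.range fun g : G => ρ g v) = ⊤ := by
  refine (hs _ ?_).resolve_left ?_
  · intro g x hx
    induction hx using Submodule.span_induction with
    | mem x hx =>
      obtain ⟨g', rfl⟩ := hx
      apply Submodule.subset_span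
      exact ⟨g * g', by simp [map_mul]⟩
    | zero => simp
    | add x y _ _ hx hy => rw [map_add]; exact Submodule.add_mem _ hx hy
    | smul c x _ hx => rw [map_smul]; exact Submodule.smul_mem _ _ hx
  · intro hbot
    have : v ∈ Submodule.span k (Set.range fun g : G => ρ g v) :=
      Submodule.subset_span ⟨1, by simp⟩
    rw [hbot] at this
    exact hv (by simpa using this)

lemma alg_eigen (h : ∀ g, ρ g + u g • ρ g⁻¹ = a g • 1)
    (hs : ∀ U : Submodule k W, (∀ g, ∀ x ∈ U, ρ g x ∈ U) → U = ⊥ ∨ U = ⊤)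
    (g : G) {v : W} (hv : v ≠ 0) {l : k} (hl : ρ g v = l • v) (w : W) :
    ρ g w - (a g - l) • w ∈ Submodule.span k {v} := by
  have hw : w ∈ Submodule.span k (Set.range fun g : G => ρ g v) := by
    rw [alg_orbit_top hs hv]; trivial
  induction hw using Submodule.span_induction with
  | mem x hx =>
    obtain ⟨g', rfl⟩ := hx
    have e := alg_anticomm h g g' v
    rw [hl, map_smul] at e
    have : ρ g (ρ g' v) - (a g - l) • ρ g' v = (a g' * l + (a (g * g') - a g * a g')) • v := by
      linear_combination (norm := module) e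
    simp only
    rw [this]
    exact Submodule.smul_mem _ _ (Submodule.mem_span_singleton_self v)
  | zero => simp
  | add x y _ _ hx hy =>
    have : ρ g (x + y) - (a g - l) • (x + y) =
        (ρ g x - (a g - l) • x) + (ρ g y - (a g - l) • y) := by
      rw [map_add, smul_add]; abel
    rw [this]; exact Submodule.add_mem _ hx hy
  | smul c x _ hx =>
    have : ρ g (c • x) - (a g - l) • (c • x) = c • (ρ g x - (a g - l) • x) := by
      rw [map_smul, smul_sub, smul_comm]
    rw [this]; exact Submodule.smul_mem _ _ hx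

lemma alg_scalar_of_three [IsAlgClosed k] [FiniteDimensional k W]
    (h : ∀ g, ρ g + u g • ρ g⁻¹ = a g • 1)
    (hs : ∀ U : Submodule k W, (∀ g, ∀ x ∈ U, ρ g x ∈ U) → U = ⊥ ∨ U = ⊤)
    (hd : 3 ≤ finrank k W) (g : G) : ∃ l : k, ∀ w, ρ g w = l • w := by
  classical
  have : Nontrivial W := Module.nontrivial_of_finrank_pos (R := k) (by omega)
  obtain ⟨l, hl⟩ := Module.End.exists_eigenvalue (ρ g)
  obtain ⟨v, hv⟩ := hl.exists_hasEigenvector
  have hv0 : v ≠ 0 := hv.2
  have hlv : ρ g v = l • v := hv.apply_eq_smul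
  set m := a g - l with hm
  set T : Module.End k W := ρ g - m • 1 with hT
  have hrange : LinearMap.range T ≤ Submodule.span k {v} := by
    rintro _ ⟨w, rfl⟩
    exact alg_eigen h hs g hv0 hlv w
  have h1 : finrank k (LinearMap.range T) ≤ 1 :=
    (Submodule.finrank_mono hrange).trans (finrank_span_singleton hv0).le
  have h2 := LinearMap.finrank_range_add_finrank_ker T
  have h3 : 2 ≤ finrank k (LinearMap.ker T) := by omega
  obtain ⟨v', hv'ker, hv'⟩ : ∃ v' ∈ LinearMap.ker T, v' ∉ Submodule.span k {v} := by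
    by_contra hcon
    push Not at hcon
    have h4 : LinearMap.ker T ≤ Submodule.span k {v} := hcon
    have h5 := Submodule.finrank_mono h4
    rw [finrank_span_singleton hv0] at h5
    omega
  have hv'0 : v' ≠ 0 := by
    rintro rfl
    exact hv' (zero_mem _)
  have hmv' : ρ g v' = m • v' := by
    have h4 := LinearMap.mem_ker.1 hv'ker
    simpa [hT, sub_eq_zero] using h4
  have hA' : ∀ w, ρ g w - l • w ∈ Submodule.span k {v'} := by
    intro w
    have h4 := alg_eigen h hs g hv'0 hmv' w
    have h5 : a g - m = l := by rw [hm]; ring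
    rwa [h5] at h4
  have hlm : l = m := by
    by_contra hne
    have htop : (⊤ : Submodule k W) ≤ Submodule.span k (({v, v'} : Finset W) : Set W) := by
      intro w _
      have e1 := alg_eigen h hs g hv0 hlv w
      have e2 := hA' w
      have e3 : (l - m) • w = (ρ g w - m • w) - (ρ g w - l • w) := by module
      have h4 : (l - m) • w ∈ Submodule.span k (({v, v'} : Finset W) : Set W) := by
        rw [e3]
        exact sub_mem (Submodule.span_mono (by simp) e1) (Submodule.span_mono (by simp) e2)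
      have h5 := Submodule.smul_mem _ (l - m)⁻¹ h4
      rwa [smul_smul, inv_mul_cancel₀ (sub_ne_zero.2 hne), one_smul] at h5
    have h5 := Submodule.finrank_mono htop
    rw [finrank_top] at h5
    have h6 : finrank k (Submodule.span k (({v, v'} : Finset W) : Set W)) ≤
        ({v, v'} : Finset W).card := finrank_span_finset_le_card (R := k) ({v, v'} : Finset W)
    have h7 : ({v, v'} : Finset W).card ≤ 2 := Finset.card_le_two
    omega
  refine ⟨l, fun w => ?_⟩
  have e1 := alg_eigen h hs g hv0 hlv w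
  have e2 := hA' w
  rw [← hm, ← hlm] at e1
  obtain ⟨c, hc⟩ := Submodule.mem_span_singleton.1 e1
  obtain ⟨c', hc'⟩ := Submodule.mem_span_singleton.1 e2
  by_cases hc0 : c' = 0
  · rw [hc0, zero_smul] at hc'
    exact sub_eq_zero.1 hc'.symm
  · exfalso
    apply hv'
    have : v' = (c'⁻¹ * c) • v := by
      rw [mul_smul, hc, ← hc', smul_smul, inv_mul_cancel₀ hc0, one_smul]
    rw [this]
    exact Submodule.smul_mem _ _ (Submodule.mem_span_singleton_self v)

lemma alg_finrank_le_one_of_scalar [FiniteDimensional k W]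
    (hs : ∀ U : Submodule k W, (∀ g, ∀ x ∈ U, ρ g x ∈ U) → U = ⊥ ∨ U = ⊤)
    (hsc : ∀ g, ∃ l : k, ∀ w, ρ g w = l • w) : finrank k W ≤ 1 := by
  by_cases hW : ∃ v : W, v ≠ 0
  · obtain ⟨v, hv⟩ := hW
    have h1 : Submodule.span k {v} = ⊤ := by
      refine (hs _ ?_).resolve_left ?_
      · intro g x hx
        obtain ⟨l, hl⟩ := hsc g
        rw [hl]
        exact Submodule.smul_mem _ _ hx
      · intro hb
        exact hv (Submodule.span_singleton_eq_bot.1 hb)
    rw [← finrank_top, ← h1, finrank_span_singleton hv]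
  · push Not at hW
    have : Subsingleton W := ⟨fun x y => by rw [hW x, hW y]⟩
    rw [finrank_zero_of_subsingleton]
    omega

theorem alg_finrank_le_two [IsAlgClosed k] [FiniteDimensional k W]
    (h : ∀ g, ρ g + u g • ρ g⁻¹ = a g • 1)
    (hs : ∀ U : Submodule k W, (∀ g, ∀ x ∈ U, ρ g x ∈ U) → U = ⊥ ∨ U = ⊤) :
    finrank k W ≤ 2 := by
  by_contra hcon
  push Not at hcon
  have := alg_finrank_le_one_of_scalar hs (alg_scalar_of_three h hs (by omega))
  omega

theorem alg_charpoly [FiniteDimensional k W] (h : ∀ g, ρ g + u g • ρ g⁻¹ = a g • 1)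
    (hs : ∀ U : Submodule k W, (∀ g, ∀ x ∈ U, ρ g x ∈ U) → U = ⊥ ∨ U = ⊤)
    (hd : finrank k W = 2) (g : G) :
    (ρ g).charpoly = X ^ 2 - C (a g) * X + C (u g) := by
  have hnt : Nontrivial W := Module.nontrivial_of_finrank_pos (R := k) (by omega)
  by_cases hsc : ∃ l : k, ρ g = l • 1
  swap
  · exact alg_charpoly_of_not_scalar hd _ _ _ (alg_quadratic h g) hsc
  obtain ⟨l, hl⟩ := hsc
  obtain ⟨h', hh'⟩ : ∃ h' : G, ¬ ∃ c : k, ρ h' = c • 1 := by
    by_contra hcon
    push Not at hcon
    have := alg_finrank_le_one_of_scalar hs (fun g' => by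
      obtain ⟨c, hc⟩ := hcon g'
      exact ⟨c, fun w => by rw [hc]; simp⟩)
    omega
  have hinv : ρ g * ρ g⁻¹ = 1 := by rw [← map_mul, mul_inv_cancel, map_one]
  have hl0 : l ≠ 0 := by
    rintro rfl
    rw [hl, zero_smul, zero_mul] at hinv
    exact zero_ne_one hinv
  have hginv : ρ g⁻¹ = l⁻¹ • 1 := by
    rw [hl, smul_mul_assoc, one_mul] at hinv
    rw [← hinv, smul_smul, inv_mul_cancel₀ hl0, one_smul]
  have hgh : ρ (g * h') = l • ρ h' := by rw [map_mul, hl, smul_mul_assoc, one_mul]
  have hns : ¬ ∃ c : k, ρ (g * h') = c • 1 := by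
    rintro ⟨c, hc⟩
    apply hh'
    refine ⟨l⁻¹ * c, ?_⟩
    rw [mul_smul, ← hc, hgh, smul_smul, inv_mul_cancel₀ hl0, one_smul]
  have c1 := alg_charpoly_of_not_scalar hd _ _ _ (alg_quadratic h (g * h')) hns
  have hq : ρ (g * h') * ρ (g * h') - (l * a h') • ρ (g * h') + (l ^ 2 * u h') • 1 = 0 := by
    have e := alg_quadratic h h'
    rw [hgh]
    have : l • ρ h' * l • ρ h' - (l * a h') • l • ρ h' + (l ^ 2 * u h') • (1 : Module.End k W) =
        (l ^ 2) • (ρ h' * ρ h' - a h' • ρ h' + u h' • 1) := by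
      rw [smul_mul_smul_comm, smul_add, smul_sub, smul_smul, smul_smul, smul_smul]
      congr 2
      · rw [pow_two]
      · congr 1; ring
    rw [this, e, smul_zero]
  have c2 := alg_charpoly_of_not_scalar hd _ _ _ hq hns
  rw [c1] at c2
  have c3 := congrArg (fun q : k[X] => q.coeff 0) c2
  simp only [coeff_add, coeff_sub, coeff_X_pow, coeff_C_mul, coeff_X_zero, coeff_C_zero,
    mul_zero] at c3
  have huh : u h' ≠ 0 := by
    intro h0
    have : u h' * u h'⁻¹ = 1 := by rw [← map_mul, mul_inv_cancel, map_one]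
    rw [h0, zero_mul] at this
    exact zero_ne_one this
  have hug : u g = l ^ 2 := by
    have : u g * u h' = l ^ 2 * u h' := by
      rw [← map_mul]
      simpa using c3
    exact mul_right_cancel₀ huh this
  have hag : a g = 2 * l := by
    have e := h g
    rw [hl, hginv, hug, smul_smul, ← add_smul] at e
    obtain ⟨w, hw⟩ := exists_ne (0 : W)
    have e' := LinearMap.congr_fun e w
    simp only [LinearMap.smul_apply, Module.End.one_apply] at e'
    have := smul_left_injective k hw e'
    rw [← this]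
    field_simp
    ring
  rw [hl, hag, hug]
  exact alg_charpoly_scalar hd l

/-- the one-dimensional case: `ψ ⊕ u ψ⁻¹` -/
theorem alg_exists_matrix_of_one [FiniteDimensional k W]
    (h : ∀ g, ρ g + u g • ρ g⁻¹ = a g • 1) (hd : finrank k W = 1) :
    ∃ R : G →* Matrix (Fin 2) (Fin 2) k,
      (∀ g, (R g).charpoly = X ^ 2 - C (a g) * X + C (u g)) ∧
      ∀ g, ρ g = 1 → u g = 1 → R g = 1 := by
  classical
  have hnt : Nontrivial W := Module.nontrivial_of_finrank_pos (R := k) (by omega)
  obtain ⟨v, hv⟩ := exists_ne (0 : W)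
  have hsp := (finrank_eq_one_iff_of_nonzero' v hv).1 hd
  have hsc : ∀ T : Module.End k W, T = LinearMap.det T • 1 := by
    intro T
    obtain ⟨c, hc⟩ := hsp (T v)
    have hT : T = c • 1 := by
      ext w
      obtain ⟨d, rfl⟩ := hsp w
      rw [map_smul, ← hc, LinearMap.smul_apply, Module.End.one_apply, smul_comm]
    have : LinearMap.det T = c := by
      rw [hT, LinearMap.det_smul, hd, pow_one, map_one, mul_one]
    rw [this]; exact hT
  set ψ : G →* k := (LinearMap.det : Module.End k W →* k).comp ρ with hψ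
  have hρ : ∀ g, ρ g = ψ g • 1 := fun g => hsc (ρ g)
  have hψinv : ∀ g, ψ g * ψ g⁻¹ = 1 := fun g => by rw [← map_mul, mul_inv_cancel, map_one]
  have hrel : ∀ g, ψ g + u g * ψ g⁻¹ = a g := by
    intro g
    have e := h g
    rw [hρ g, hρ g⁻¹, smul_smul, ← add_smul] at e
    have e' := LinearMap.congr_fun e v
    simp only [LinearMap.smul_apply, Module.End.one_apply] at e'
    exact smul_left_injective k hv e'
  let ψ' : G →* k :=
    { toFun := fun g => u g * ψ g⁻¹
      map_one' := by simp
      map_mul' := fun g g' => by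
        rw [map_mul, mul_inv_rev, map_mul]; ring }
  let D : G →* (Fin 2 → k) :=
    { toFun := fun g => ![ψ g, ψ' g]
      map_one' := by
        ext i; fin_cases i <;> simp
      map_mul' := fun g g' => by
        ext i; fin_cases i <;> simp }
  refine ⟨(Matrix.diagonalRingHom (Fin 2) k).toMonoidHom.comp D, fun g => ?_, fun g hg hu => ?_⟩
  · show (Matrix.diagonal ![ψ g, ψ' g]).charpoly = _
    rw [Matrix.charpoly_diagonal, Fin.prod_univ_two]
    simp only [Matrix.cons_val_zero, Matrix.cons_val_one]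
    have e1 : ψ g + ψ' g = a g := hrel g
    have e2 : ψ g * ψ' g = u g := by
      show ψ g * (u g * ψ g⁻¹) = u g
      rw [mul_left_comm, hψinv, mul_one]
    rw [← e1, ← e2]
    simp only [map_add, map_mul]
    ring
  · show Matrix.diagonal ![ψ g, ψ' g] = 1
    have e1 : ψ g = 1 := by
      show LinearMap.det (ρ g) = 1
      rw [hg, map_one]
    have e2 : ψ' g = 1 := by
      show u g * ψ g⁻¹ = 1
      have := hψinv g
      rw [e1, one_mul] at this
      rw [hu, this, one_mul]
    rw [e1, e2]
    ext i j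
    fin_cases i <;> fin_cases j <;> simp

theorem alg_exists_matrix_of_simple [IsAlgClosed k] [FiniteDimensional k W] [Nontrivial W]
    (h : ∀ g, ρ g + u g • ρ g⁻¹ = a g • 1)
    (hs : ∀ U : Submodule k W, (∀ g, ∀ x ∈ U, ρ g x ∈ U) → U = ⊥ ∨ U = ⊤) :
    ∃ R : G →* Matrix (Fin 2) (Fin 2) k,
      (∀ g, (R g).charpoly = X ^ 2 - C (a g) * X + C (u g)) ∧
      ∀ g, ρ g = 1 → u g = 1 → R g = 1 := by
  classical
  have h2 := alg_finrank_le_two h hs
  have h0 : 0 < finrank k W := Module.finrank_pos
  rcases (by omega : finrank k W = 1 ∨ finrank k W = 2) with hd | hd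
  · exact alg_exists_matrix_of_one h hd
  · let b := Module.finBasisOfFinrankEq k W hd
    refine ⟨((LinearMap.toMatrixAlgEquiv b : Module.End k W ≃ₐ[k] _) : Module.End k W →* _).comp ρ,
      fun g => ?_, fun g hg _ => ?_⟩
    · show (LinearMap.toMatrix b b (ρ g)).charpoly = _
      rw [LinearMap.charpoly_toMatrix, alg_charpoly h hs hd]
    · show LinearMap.toMatrixAlgEquiv b (ρ g) = 1
      rw [hg, map_one]

/-- restriction of a representation to an invariant subspace -/
def algRestrict (ρ : G →* Module.End k W) (U : Submodule k W)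
    (hU : ∀ g, ∀ x ∈ U, ρ g x ∈ U) : G →* Module.End k U where
  toFun g := (ρ g).restrict (hU g)
  map_one' := by
    ext x
    simp
  map_mul' g g' := by
    ext x
    simp

lemma algRestrict_apply (ρ : G →* Module.End k W) (U : Submodule k W)
    (hU : ∀ g, ∀ x ∈ U, ρ g x ∈ U) (g : G) (x : U) :
    ((algRestrict ρ U hU g x : U) : W) = ρ g x := rfl

/-- **[ALG]**: a nonzero finite-dimensional representation over an algebraically closed field on
which `g + u(g) g⁻¹` is the scalar `a(g)` for every `g` yields a two-dimensional representation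
with characteristic polynomials `X² - a(g) X + u(g)`. -/
theorem alg_exists_matrix [IsAlgClosed k] [FiniteDimensional k W] [Nontrivial W]
    (h : ∀ g, ρ g + u g • ρ g⁻¹ = a g • 1) :
    ∃ R : G →* Matrix (Fin 2) (Fin 2) k,
      (∀ g, (R g).charpoly = X ^ 2 - C (a g) * X + C (u g)) ∧
      ∀ g, ρ g = 1 → u g = 1 → R g = 1 := by
  obtain ⟨U, ⟨hU0, hU⟩, hmin⟩ := WellFounded.has_min (wellFounded_lt (α := Submodule k W))
    {U : Submodule k W | U ≠ ⊥ ∧ ∀ g, ∀ x ∈ U, ρ g x ∈ U} ⟨⊤, top_ne_bot, fun _ _ _ => trivial⟩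
  have hnt : Nontrivial U := (Submodule.nontrivial_iff_ne_bot).2 hU0
  have hrel : ∀ g, algRestrict ρ U hU g + u g • algRestrict ρ U hU g⁻¹ = a g • 1 := by
    intro g
    ext x
    have e := LinearMap.congr_fun (h g) (x : W)
    simpa [algRestrict_apply] using e
  have hs : ∀ U' : Submodule k U, (∀ g, ∀ x ∈ U', algRestrict ρ U hU g x ∈ U') →
      U' = ⊥ ∨ U' = ⊤ := by
    intro U' hU'
    by_cases hb : U' = ⊥
    · exact Or.inl hb
    right
    have h1 : U'.map U.subtype ≠ ⊥ := by
      intro h0
      apply hb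
      rw [eq_bot_iff]
      intro x hx
      have h6 : (x : W) ∈ U'.map U.subtype := ⟨x, hx, rfl⟩
      rw [h0, Submodule.mem_bot] at h6
      rw [Submodule.mem_bot]
      exact Subtype.ext h6
    have h2 : ∀ g, ∀ x ∈ U'.map U.subtype, ρ g x ∈ U'.map U.subtype := by
      rintro g _ ⟨x, hx, rfl⟩
      exact ⟨algRestrict ρ U hU g x, hU' g x hx, rfl⟩
    have h3 := hmin _ ⟨h1, h2⟩
    have h4 : U'.map U.subtype ≤ U := Submodule.map_subtype_le U U'
    have h5 : U'.map U.subtype = U := by
      by_contra hne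
      exact h3 (lt_of_le_of_ne h4 hne)
    rw [eq_top_iff]
    rintro x -
    have h6 : (x : W) ∈ U'.map U.subtype := by rw [h5]; exact x.2
    obtain ⟨y, hy, hyx⟩ := h6
    have : y = x := Subtype.ext hyx
    rwa [← this]
  obtain ⟨R, hR1, hR2⟩ := alg_exists_matrix_of_simple hrel hs
  refine ⟨R, hR1, fun g hg hu => hR2 g ?_ hu⟩
  ext x
  rw [algRestrict_apply, hg]
  rfl

end alg

end FAG
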