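import Fermat.Agent.Gal.Alg
import Fermat.Prelude.Def_GaloisRep_Residual

/-! PROJECT G, [ALG], packaging: from a matrix representation to a `ResidualGaloisRep`. -/

set_option autoImplicit false

namespace FAG

open Polynomial Module

/-- base change of a matrix representation along a ring homomorphism -/
def matMap {G : Type*} [Group G] {k1 k : Type*} [Field k1] [Field k] (j : k1 →+* k)
    (R : G →* Matrix (Fin 2) (Fin 2) k1) : G →* Matrix (Fin 2) (Fin 2) k :=
  (RingHom.mapMatrix j : Matrix (Fin 2) (Fin 2) k1 →+* Matrix (Fin 2) (Fin 2) k).toMonoidHom.comp R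

lemma matMap_charpoly {G : Type*} [Group G] {k1 k : Type*} [Field k1] [Field k] (j : k1 →+* k)
    (R : G →* Matrix (Fin 2) (Fin 2) k1) (g : G) :
    (matMap j R g).charpoly = (R g).charpoly.map j :=
  Matrix.charpoly_map (R g) j

lemma matMap_eq_one {G : Type*} [Group G] {k1 k : Type*} [Field k1] [Field k] (j : k1 →+* k)
    (R : G →* Matrix (Fin 2) (Fin 2) k1) {g : G} (h : R g = 1) : matMap j R g = 1 := by
  show RingHom.mapMatrix j (R g) = 1
  rw [h, map_one]

/-- the residual representation attached to a matrix representation -/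
noncomputable def residualOfMatrix {k : Type} [Field k]
    (R : (AlgebraicClosure ℚ ≃ₐ[ℚ] AlgebraicClosure ℚ) →* Matrix (Fin 2) (Fin 2) k)
    (hR : GaloisFactorsThroughFiniteLevel R) : ResidualGaloisRep k where
  V := Fin 2 → k
  finrank_eq := by simp
  ρ := ((Matrix.toLinAlgEquiv' : Matrix (Fin 2) (Fin 2) k ≃ₐ[k] _) :
    Matrix (Fin 2) (Fin 2) k →* Module.End k (Fin 2 → k)).comp R
  factorsThroughFiniteLevel := by
    obtain ⟨L, hL, h⟩ := hR
    refine ⟨L, hL, fun σ hσ => ?_⟩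
    show Matrix.toLinAlgEquiv' (R σ) = 1
    rw [h σ hσ, map_one]

lemma residualOfMatrix_charpoly {k : Type} [Field k]
    (R : (AlgebraicClosure ℚ ≃ₐ[ℚ] AlgebraicClosure ℚ) →* Matrix (Fin 2) (Fin 2) k)
    (hR : GaloisFactorsThroughFiniteLevel R) (σ : AlgebraicClosure ℚ ≃ₐ[ℚ] AlgebraicClosure ℚ) :
    LinearMap.charpoly ((residualOfMatrix R hR).ρ σ) = (R σ).charpoly :=
  Matrix.charpoly_toLin' (R σ)

lemma residualOfMatrix_eq_one {k : Type} [Field k]
    (R : (AlgebraicClosure ℚ ≃ₐ[ℚ] AlgebraicClosure ℚ) →* Matrix (Fin 2) (Fin 2) k)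
    (hR : GaloisFactorsThroughFiniteLevel R) {σ : AlgebraicClosure ℚ ≃ₐ[ℚ] AlgebraicClosure ℚ}
    (h : R σ = 1) : (residualOfMatrix R hR).ρ σ = 1 := by
  show Matrix.toLinAlgEquiv' (R σ) = 1
  rw [h, map_one]

end FAG
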