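import Fermat.Agent.CFT.AN3

/-!
# [CHEB], part 1: the prime Dirichlet series of a number field is `log (1/(s-1)) + O(1)`
-/

set_option autoImplicit false
set_option linter.deprecated false

open NumberField Ideal Filter Topology

namespace FAG

open FA14

/-- the term of the prime Dirichlet series with coefficients `a`. -/
noncomputable def pT (a : ℕ → ℝ) (s : ℝ) (l : ℕ) : ℝ :=
  if l.Prime then a l * (l : ℝ) ^ (-s) else 0

/-- the prime Dirichlet series with coefficients `a`. -/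
noncomputable def pS (a : ℕ → ℝ) (s : ℝ) : ℝ := ∑' l, pT a s l

/-- the prime Dirichlet series converges for `s > 1` and is `log (1/(s-1)) + O(1)`. -/
def IsD1 (a : ℕ → ℝ) : Prop :=
  (∀ s : ℝ, 1 < s → Summable (pT a s)) ∧
    ∃ C : ℝ, ∀ᶠ s in 𝓝[>] (1 : ℝ), |pS a s - Real.log (1 / (s - 1))| ≤ C

variable (F : Type*) [Field F] [NumberField F]

theorem pT_aK_nonneg (s : ℝ) (l : ℕ) : 0 ≤ pT (aK F) s l := by
  unfold pT
  split_ifs
  · exact mul_nonneg (aK_nonneg F l) (Real.rpow_nonneg (Nat.cast_nonneg _) _)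
  · exact le_rfl

theorem summable_pT_aK {s : ℝ} (hs : 1 < s) : Summable (pT (aK F) s) := by
  refine Summable.of_nonneg_of_le (pT_aK_nonneg F s) (fun l => ?_) (hasSum_zR F hs).summable
  unfold pT
  split_ifs
  · exact le_rfl
  · exact mul_nonneg (aK_nonneg F l) (Real.rpow_nonneg (Nat.cast_nonneg _) _)

theorem sum_wt_le_pS {s : ℝ} (hs : 1 < s) (𝓘 : Finset (Ideal (𝓞 F)))
    (h𝓘 : ∀ I ∈ 𝓘, (absNorm I).Prime) : ∑ I ∈ 𝓘, wt F s I ≤ pS (aK F) s := by
  classical
  refine le_trans ?_ ((summable_pT_aK F hs).sum_le_tsum (𝓘.image absNorm)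
    (fun n _ => pT_aK_nonneg F s n))
  rw [← Finset.sum_fiberwise_of_maps_to (g := absNorm) (t := 𝓘.image absNorm)
    (fun I hI => Finset.mem_image_of_mem _ hI)]
  refine Finset.sum_le_sum fun n hn => ?_
  have hnp : n.Prime := by
    obtain ⟨I, hI, rfl⟩ := Finset.mem_image.mp hn
    exact h𝓘 I hI
  rw [pT, if_pos hnp]
  have h1 : ∀ I ∈ 𝓘.filter (fun I => absNorm I = n), wt F s I = (n : ℝ) ^ (-s) := by
    intro I hI
    rw [wt, (Finset.mem_filter.mp hI).2]
  rw [Finset.sum_congr rfl h1, Finset.sum_const, nsmul_eq_mul]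
  refine mul_le_mul_of_nonneg_right ?_ (Real.rpow_nonneg (Nat.cast_nonneg _) _)
  unfold aK
  rw [Nat.cast_le]
  have hfin : {I : Ideal (𝓞 F) | absNorm I = n}.Finite := finite_setOfPred_absNorm_eq n
  rw [← Set.coe_setOf, Nat.card_coe_set_eq, Set.ncard_eq_toFinset_card _ hfin]
  refine Finset.card_le_card fun I hI => ?_
  simpa using (Finset.mem_filter.mp hI).2

theorem zR_pos {s : ℝ} (hs : 1 < s) : 0 < zR F s :=
  lt_of_lt_of_le (Real.exp_pos _) (exp_le_zR F hs ∅ (by simp))

/-- upper bound. -/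
theorem pS_le {s : ℝ} (hs : 1 < s) : pS (aK F) s ≤ Real.log (zR F s) + zR F 2 := by
  classical
  refine (summable_pT_aK F hs).tsum_le_of_sum_le fun t => ?_
  have hfin : ∀ n : ℕ, {I : Ideal (𝓞 F) | absNorm I = n}.Finite :=
    fun n => finite_setOfPred_absNorm_eq n
  set t' := t.filter Nat.Prime with ht'
  set S : Finset (Ideal (𝓞 F)) := t'.biUnion fun n => (hfin n).toFinset with hS
  have hmem : ∀ I, I ∈ S ↔ absNorm I ∈ t' := by
    intro I
    simp only [hS, Finset.mem_biUnion, Set.Finite.mem_toFinset, Set.mem_setOf_eq]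
    constructor
    · rintro ⟨n, hn, rfl⟩; exact hn
    · intro h; exact ⟨_, h, rfl⟩
  have hSp : ∀ P ∈ S, P.IsPrime ∧ P ≠ ⊥ := by
    intro P hP
    have h1 : (absNorm P).Prime := (Finset.mem_filter.mp ((hmem P).mp hP)).2
    refine ⟨Ideal.isPrime_of_irreducible_absNorm h1, fun hb => ?_⟩
    rw [hb, absNorm_bot] at h1
    exact Nat.not_prime_zero h1
  have h2 : ∑ l ∈ t, pT (aK F) s l = ∑ P ∈ S, wt F s P := by
    unfold pT
    rw [← Finset.sum_filter, ← Finset.sum_fiberwise_of_maps_to (g := absNorm) (t := t')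
      (fun I hI => (hmem I).mp hI)]
    refine Finset.sum_congr rfl fun n hn => ?_
    have h1 : ∀ I ∈ S.filter (fun I => absNorm I = n), wt F s I = (n : ℝ) ^ (-s) := by
      intro I hI
      rw [wt, (Finset.mem_filter.mp hI).2]
    rw [Finset.sum_congr rfl h1, Finset.sum_const, nsmul_eq_mul]
    congr 1
    unfold aK
    rw [Nat.cast_inj, ← Set.coe_setOf, Nat.card_coe_set_eq,
      Set.ncard_eq_toFinset_card _ (hfin n)]
    congr 1
    ext I
    simp only [Set.Finite.mem_toFinset, Set.mem_setOf_eq, Finset.mem_filter, hmem]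
    constructor
    · intro h; exact ⟨h ▸ hn, h⟩
    · intro h; exact h.2
  rw [h2]
  have h3 := exp_le_zR F hs S hSp
  have h4 : ∑ P ∈ S, wt F s P - zR F 2 ≤ Real.log (zR F s) := by
    rw [Real.le_log_iff_exp_le (zR_pos F hs)]
    exact h3
  linarith

/-- lower bound. -/
theorem le_pS {s : ℝ} (hs : 1 < s) :
    Real.log (zR F s) ≤ pS (aK F) s + (Module.finrank ℚ F * cTwo + 2 * zR F 2) := by
  classical
  rw [Real.log_le_iff_le_exp (zR_pos F hs)]
  refine zR_le_of_forall F hs _ fun 𝓘 h0 => ?_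
  obtain ⟨S, hS, hle⟩ := sum_wt_le_exp F hs.le 𝓘 h0
  refine hle.trans (Real.exp_le_exp.mpr ?_)
  have h1 := sum_wt_primes_le F hs.le ∅ S hS
  have h2 := sum_wt_le_pS F hs (S.filter (fun P => (absNorm P).Prime ∧ P ∉ (∅ : Finset _)))
    (fun I hI => (Finset.mem_filter.mp hI).2.1)
  simp only [Finset.card_empty, Nat.cast_zero, zero_add] at h1
  linarith

theorem isD1_aK : IsD1 (aK F) := by
  refine ⟨fun s hs => summable_pT_aK F hs, ?_⟩
  have h1 := tendsto_zR F
  have hρ := dedekindZeta_residue_pos F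
  have h2 : Tendsto (fun s : ℝ => Real.log ((s - 1) * zR F s)) (𝓝[>] 1)
      (𝓝 (Real.log (dedekindZeta_residue F))) :=
    (Real.continuousAt_log hρ.ne').tendsto.comp h1
  have h3 : ∀ᶠ s in 𝓝[>] (1 : ℝ),
      |Real.log ((s - 1) * zR F s) - Real.log (dedekindZeta_residue F)| < 1 := by
    have := (Metric.tendsto_nhds.mp h2) 1 one_pos
    simpa [Real.dist_eq] using this
  refine ⟨1 + |Real.log (dedekindZeta_residue F)| + (zR F 2 +
    (Module.finrank ℚ F * cTwo + 2 * zR F 2)), ?_⟩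
  filter_upwards [h3, self_mem_nhdsWithin] with s hs3 hs
  have hs' : (1 : ℝ) < s := hs
  have hpos : 0 < s - 1 := by linarith
  have e : Real.log ((s - 1) * zR F s) = Real.log (zR F s) - Real.log (1 / (s - 1)) := by
    rw [Real.log_mul hpos.ne' (zR_pos F hs').ne', one_div, Real.log_inv]
    ring
  rw [e] at hs3
  have hu := pS_le F hs'
  have hl := le_pS F hs'
  have hz2 : 0 ≤ zR F 2 := (zR_pos F (by norm_num)).le
  have hc : 0 ≤ (Module.finrank ℚ F : ℝ) * cTwo := by
    refine mul_nonneg (Nat.cast_nonneg _) (tsum_nonneg fun n => by positivity)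
  have h5 := abs_lt.mp hs3
  have h6 := neg_abs_le (Real.log (dedekindZeta_residue F))
  have h7 := le_abs_self (Real.log (dedekindZeta_residue F))
  rw [abs_le]
  constructor <;> linarith [h5.1, h5.2]

theorem tendsto_log_one_div : Tendsto (fun s : ℝ => Real.log (1 / (s - 1))) (𝓝[>] 1) atTop := by
  have h1 : Tendsto (fun s : ℝ => s - 1) (𝓝[>] 1) (𝓝[>] 0) := by
    refine tendsto_nhdsWithin_of_tendsto_nhds_of_eventually_within _ ?_ ?_
    · have : Tendsto (fun s : ℝ => s - 1) (𝓝 1) (𝓝 (1 - 1)) :=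
        (continuous_id.sub continuous_const).tendsto 1
      rw [sub_self] at this
      exact tendsto_nhdsWithin_of_tendsto_nhds this
    · filter_upwards [self_mem_nhdsWithin] with s hs
      have hs' : (1 : ℝ) < s := hs
      exact sub_pos.mpr hs'
  have h2 := tendsto_inv_nhdsGT_zero.comp h1
  have h3 := Real.tendsto_log_atTop.comp h2
  refine h3.congr fun s => ?_
  simp [Function.comp]

/-- a real linear combination, of positive total weight, of coefficient functions of "density one"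
cannot vanish at almost all primes. -/
theorem exists_prime_of_isD1 {ι : Type*} (D : Finset ι) (a : ι → ℕ → ℝ) (w : ι → ℝ)
    (ha : ∀ d ∈ D, IsD1 (a d)) (hw : 0 < ∑ d ∈ D, w d) (Z : Set ℕ) (hZ : Z.Finite) :
    ∃ l : ℕ, l.Prime ∧ l ∉ Z ∧ ∑ d ∈ D, w d * a d l ≠ 0 := by
  classical
  by_contra hcon
  push Not at hcon
  choose! C hC using fun d (hd : d ∈ D) => (ha d hd).2
  have hev : ∀ᶠ s in 𝓝[>] (1 : ℝ), ∀ d ∈ D, |pS (a d) s - Real.log (1 / (s - 1))| ≤ C d :=
    (Finset.eventually_all D).mpr hC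
  set B : ℝ := ∑ l ∈ hZ.toFinset, |∑ d ∈ D, w d * a d l| with hB
  have hterm : ∀ (s : ℝ) (l : ℕ), ∑ d ∈ D, w d * pT (a d) s l =
      if l.Prime then (∑ d ∈ D, w d * a d l) * (l : ℝ) ^ (-s) else 0 := by
    intro s l
    unfold pT
    split_ifs with hp
    · rw [Finset.sum_mul]
      exact Finset.sum_congr rfl fun d _ => by ring
    · simp
  have hcomb : ∀ s : ℝ, 1 < s → ∑ d ∈ D, w d * pS (a d) s ≤ B := by
    intro s hs
    have h1 : ∑ d ∈ D, w d * pS (a d) s = ∑' l, ∑ d ∈ D, w d * pT (a d) s l := by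
      rw [Summable.tsum_finsetSum (fun d hd => ((ha d hd).1 s hs).mul_left _)]
      refine Finset.sum_congr rfl fun d hd => ?_
      rw [pS, tsum_mul_left]
    rw [h1, tsum_eq_sum (s := hZ.toFinset) ?_]
    · refine Finset.sum_le_sum fun l hl => ?_
      rw [hterm]
      split_ifs with hp
      · refine (le_abs_self _).trans ?_
        rw [abs_mul]
        refine mul_le_of_le_one_right (abs_nonneg _) ?_
        rw [abs_of_nonneg (Real.rpow_nonneg (Nat.cast_nonneg _) _)]
        exact Real.rpow_le_one_of_one_le_of_nonpos (by exact_mod_cast hp.one_lt.le) (by linarith)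
      · exact abs_nonneg _
    · intro l hl
      rw [hterm]
      split_ifs with hp
      · rw [hcon l hp (by simpa using hl), zero_mul]
      · rfl
  have h4 := (tendsto_log_one_div.const_mul_atTop hw).eventually_gt_atTop
    (B + ∑ d ∈ D, |w d| * C d)
  obtain ⟨s, hs1, hs2, hs3⟩ := (hev.and (h4.and self_mem_nhdsWithin)).exists
  have hs' : (1 : ℝ) < s := hs3
  have h5 := hcomb s hs'
  have h6 : ∑ d ∈ D, (w d * Real.log (1 / (s - 1)) - |w d| * C d) ≤ ∑ d ∈ D, w d * pS (a d) s := by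
    refine Finset.sum_le_sum fun d hd => ?_
    have h7 := hs1 d hd
    have h8 : |w d * (pS (a d) s - Real.log (1 / (s - 1)))| ≤ |w d| * C d := by
      rw [abs_mul]
      exact mul_le_mul_of_nonneg_left h7 (abs_nonneg _)
    have h9 := (abs_le.mp h8).1
    linarith
  rw [Finset.sum_sub_distrib, ← Finset.sum_mul] at h6
  linarith

end FAG
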