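import Fermat.Agent.Gal.Cheb1

/-!
# [CHEB], part 2: counting the primes of degree one of a fixed field
-/

set_option autoImplicit false
set_option linter.deprecated false
set_option linter.unusedSectionVars false

open NumberField Ideal
open scoped Pointwise

namespace FAG

theorem card_le_of_pow_eq (k : Type*) [Field k] [Finite k] (l : ℕ) (hl : 1 < l)
    (h : ∀ x : k, x ^ l = x) : Nat.card k ≤ l := by
  classical
  have := Fintype.ofFinite k
  have hne : (Polynomial.X ^ l - Polynomial.X : Polynomial k) ≠ 0 :=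
    FiniteField.X_pow_card_sub_X_ne_zero k hl
  have hsub : (Finset.univ : Finset k) ⊆
      (Polynomial.X ^ l - Polynomial.X : Polynomial k).roots.toFinset := by
    intro x _
    rw [Multiset.mem_toFinset, Polynomial.mem_roots hne]
    simp [h x]
  calc Nat.card k = (Finset.univ : Finset k).card := by
        rw [Nat.card_eq_fintype_card, Finset.card_univ]
    _ ≤ _ := Finset.card_le_card hsub
    _ ≤ _ := Multiset.toFinset_card_le _
    _ ≤ _ := Polynomial.card_roots' _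
    _ = l := FiniteField.X_pow_card_sub_X_natDegree_eq k hl

theorem under_eq_span {K : Type*} [Field K] [NumberField K] (Q : Ideal (𝓞 K)) (hQ : Q.IsPrime)
    {l : ℕ} (hl : l.Prime) (h : (l : 𝓞 K) ∈ Q) : Q.under ℤ = span {(l : ℤ)} := by
  have hmax : (span {(l : ℤ)} : Ideal ℤ).IsMaximal := by
    have : (span {(l : ℤ)} : Ideal ℤ).IsPrime := by
      rw [span_singleton_prime (by exact_mod_cast hl.ne_zero)]
      exact Nat.prime_iff_prime_int.mp hl
    exact this.isMaximal (by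
      rw [Ne, span_singleton_eq_bot]
      exact_mod_cast hl.ne_zero)
  refine (hmax.eq_of_le ?_ ?_).symm
  · exact (hQ.under ℤ).ne_top
  · rw [span_singleton_le_iff_mem, Ideal.mem_comap]
    simpa using h

theorem natCast_mem_of_absNorm_eq {K : Type*} [Field K] [NumberField K] (P : Ideal (𝓞 K))
    {l : ℕ} (h : absNorm P = l) : (l : 𝓞 K) ∈ P := by
  rw [← h]
  exact absNorm_mem P

theorem ne_bot_of_natCast_mem {K : Type*} [Field K] [NumberField K] (Q : Ideal (𝓞 K))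
    {l : ℕ} (hl : l.Prime) (h : (l : 𝓞 K) ∈ Q) : Q ≠ ⊥ := by
  rintro rfl
  rw [Ideal.mem_bot] at h
  exact hl.ne_zero (by exact_mod_cast h)

theorem absNorm_eq_pow {K : Type*} [Field K] [NumberField K] (Q : Ideal (𝓞 K)) (hQ : Q.IsPrime)
    {l : ℕ} (hl : l.Prime) (h : (l : 𝓞 K) ∈ Q) : absNorm Q = l ^ Q.inertiaDeg ℤ := by
  have h1 : Q.LiesOver (span {(l : ℤ)}) := ⟨(under_eq_span Q hQ hl h).symm⟩
  have hmax : Q.IsMaximal := hQ.isMaximal (ne_bot_of_natCast_mem Q hl h)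
  have hmax' : (span {(l : ℤ)} : Ideal ℤ).IsMaximal := by
    rw [← under_eq_span Q hQ hl h]
    exact Ideal.IsMaximal.under ℤ Q
  rw [absNorm_eq_pow_inertiaDeg' Q hl, inertiaDeg'_eq_inertiaDeg]

variable (F L : Type*) [Field F] [NumberField F] [Field L] [NumberField L] [Algebra F L]
  (Γ : Type*) [Group Γ] [Finite Γ] [MulSemiringAction Γ L] [IsGaloisGroup Γ ℚ L]
  (H : Subgroup Γ) [IsGaloisGroup H F L]

theorem isGaloisGroup_sub : IsGaloisGroup H (𝓞 F) (𝓞 L) :=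
  IsGaloisGroup.of_isFractionRing H (𝓞 F) (𝓞 L) F L

variable {L Γ} in
/-- `σ` is a Frobenius element at `Q` over the rational prime `l`. -/
def IsFr (l : ℕ) (σ : Γ) (Q : Ideal (𝓞 L)) : Prop := ∀ x : 𝓞 L, σ • x - x ^ l ∈ Q

/-- the primes of `L` above `l` having a Frobenius element in `H`. -/
def XH (l : ℕ) : Set (Ideal (𝓞 L)) :=
  {Q | Q.IsPrime ∧ (l : 𝓞 L) ∈ Q ∧ ∃ σ ∈ H, IsFr l σ Q}

theorem finite_primes_over (l : ℕ) (hl : l.Prime) :
    {Q : Ideal (𝓞 L) | Q.IsPrime ∧ (l : 𝓞 L) ∈ Q}.Finite := by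
  have h1 : ((span {(l : ℤ)} : Ideal ℤ).primesOver (𝓞 L)).Finite := by
    have hmax : (span {(l : ℤ)} : Ideal ℤ).IsPrime := by
      rw [span_singleton_prime (by exact_mod_cast hl.ne_zero)]
      exact Nat.prime_iff_prime_int.mp hl
    exact Algebra.QuasiFinite.finite_primesOver _
  refine h1.subset ?_
  rintro Q ⟨hQ, h⟩
  exact ⟨hQ, ⟨(under_eq_span Q hQ hl h).symm⟩⟩

theorem finite_XH (l : ℕ) (hl : l.Prime) : (XH L Γ H l).Finite :=
  (finite_primes_over L l hl).subset fun _ hQ => ⟨hQ.1, hQ.2.1⟩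

/-- Claim 1. -/
theorem absNorm_under_of_mem_XH {l : ℕ} (hl : l.Prime) {Q : Ideal (𝓞 L)} (hQ : Q ∈ XH L Γ H l) :
    absNorm (Q.under (𝓞 F)) = l := by
  obtain ⟨hQp, hlQ, σ, hσ, hfr⟩ := hQ
  have := isGaloisGroup_sub F L Γ H
  set P := Q.under (𝓞 F) with hP
  have hPp : P.IsPrime := hQp.under (𝓞 F)
  have hlP : (l : 𝓞 F) ∈ P := by
    rw [hP, Ideal.under, Ideal.mem_comap, map_natCast]
    exact hlQ
  have hP0 : P ≠ ⊥ := ne_bot_of_natCast_mem P hl hlP
  have hmax : P.IsMaximal := hPp.isMaximal hP0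
  let _ : Field (𝓞 F ⧸ P) := Ideal.Quotient.field P
  have : Finite (𝓞 F ⧸ P) := Ring.HasFiniteQuotients.finiteQuotient hP0
  have h1 : ∀ x : 𝓞 F ⧸ P, x ^ l = x := by
    intro x
    obtain ⟨x, rfl⟩ := Ideal.Quotient.mk_surjective x
    rw [← map_pow, eq_comm, Ideal.Quotient.eq, hP, Ideal.under, Ideal.mem_comap, map_sub, map_pow]
    have h2 := hfr (algebraMap (𝓞 F) (𝓞 L) x)
    have h3 : σ • (algebraMap (𝓞 F) (𝓞 L) x) = algebraMap (𝓞 F) (𝓞 L) x :=
      smul_algebraMap (⟨σ, hσ⟩ : H) x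
    rwa [h3] at h2
  have h2 := card_le_of_pow_eq (𝓞 F ⧸ P) l hl.one_lt h1
  have h3 : absNorm P = Nat.card (𝓞 F ⧸ P) := by
    rw [Ideal.absNorm_apply, Submodule.cardQuot_apply]
  have h4 := absNorm_eq_pow P hPp hl hlP
  have h5 : 0 < P.inertiaDeg ℤ := P.inertiaDeg_pos ℤ
  refine le_antisymm (h3 ▸ h2) ?_
  rw [h4]
  exact Nat.le_self_pow h5.ne' l

theorem natCast_mem_of_liesOver {l : ℕ} {P : Ideal (𝓞 F)} (hP : absNorm P = l)
    {Q : Ideal (𝓞 L)} (hQP : Q.LiesOver P) : (l : 𝓞 L) ∈ Q := by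
  have hlP := natCast_mem_of_absNorm_eq P hP
  have : (l : 𝓞 F) ∈ Q.under (𝓞 F) := by rw [← hQP.over]; exact hlP
  simpa [Ideal.under, Ideal.mem_comap] using this

/-- Claim 2a. -/
theorem mem_XH_of_liesOver {l : ℕ} (hl : l.Prime) {P : Ideal (𝓞 F)} (hP : absNorm P = l)
    {Q : Ideal (𝓞 L)} (hQ : Q.IsPrime) (hQP : Q.LiesOver P) : Q ∈ XH L Γ H l := by
  have := isGaloisGroup_sub F L Γ H
  have hlQ : (l : 𝓞 L) ∈ Q := natCast_mem_of_liesOver F L hP hQP
  have hQ0 := ne_bot_of_natCast_mem Q hl hlQ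
  have : Finite (𝓞 L ⧸ Q) := Ring.HasFiniteQuotients.finiteQuotient hQ0
  obtain ⟨σ, hσ⟩ := IsArithFrobAt.exists_of_isInvariant (𝓞 F) H Q
  refine ⟨hQ, hlQ, σ, σ.2, fun x => ?_⟩
  have h1 := hσ x
  rw [← hQP.over, ← Submodule.cardQuot_apply, ← Ideal.absNorm_apply, hP] at h1
  exact h1

/-- Claim 2b. -/
theorem ncard_primesOver_mul {l : ℕ} (hl : l.Prime)
    (hI : ∀ Q : Ideal (𝓞 L), Q.IsPrime → (l : 𝓞 L) ∈ Q → ∀ σ ∈ Q.inertia Γ, σ = 1)
    {P : Ideal (𝓞 F)} (hP : absNorm P = l) :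
    (P.primesOver (𝓞 L)).ncard * (span {(l : ℤ)}).inertiaDegIn (𝓞 L) = Nat.card H := by
  have := isGaloisGroup_sub F L Γ H
  have hPp : P.IsPrime := Ideal.isPrime_of_irreducible_absNorm (hP ▸ hl)
  have hlP := natCast_mem_of_absNorm_eq P hP
  have hP0 : P ≠ ⊥ := ne_bot_of_natCast_mem P hl hlP
  have hmax : P.IsMaximal := hPp.isMaximal hP0
  have : Finite (𝓞 F ⧸ P) := Ring.HasFiniteQuotients.finiteQuotient hP0
  obtain ⟨⟨Q, hQ, hQP⟩⟩ := (inferInstance : Nonempty (P.primesOver (𝓞 L)))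
  have hlQ : (l : 𝓞 L) ∈ Q := natCast_mem_of_liesOver F L hP hQP
  have h1 := ncard_primesOver_mul_card_inertia_mul_finrank (G := H) P Q
  have h2 : Nat.card (Q.inertia H) = 1 := by
    rw [Subgroup.card_eq_one, Subgroup.eq_bot_iff_forall]
    intro σ hσ
    have := hI Q hQ hlQ σ (Ideal.coe_mem_inertia.mpr hσ)
    exact Subtype.ext this
  have h3 : Q.inertiaDeg ℤ = P.inertiaDeg ℤ * Q.inertiaDeg (𝓞 F) := inertiaDeg_tower P Q
  have h4 : P.inertiaDeg ℤ = 1 := by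
    have h5 := absNorm_eq_pow P hPp hl hlP
    rw [hP] at h5
    exact (Nat.pow_right_injective hl.two_le (by simpa using h5.symm))
  have h6 : Q.LiesOver (span {(l : ℤ)}) := ⟨(under_eq_span Q hQ hl hlQ).symm⟩
  have h7 : (span {(l : ℤ)}).inertiaDegIn (𝓞 L) = Q.inertiaDeg ℤ :=
    inertiaDegIn_eq_inertiaDeg _ Q Γ
  rw [h7, h3, h4, one_mul, ← h1, h2, mul_one]

/-- the counting formula. -/
theorem card_mul_card {l : ℕ} (hl : l.Prime)
    (hI : ∀ Q : Ideal (𝓞 L), Q.IsPrime → (l : 𝓞 L) ∈ Q → ∀ σ ∈ Q.inertia Γ, σ = 1) :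
    Nat.card {I : Ideal (𝓞 F) // absNorm I = l} * Nat.card H =
      (XH L Γ H l).ncard * (span {(l : ℤ)}).inertiaDegIn (𝓞 L) := by
  classical
  have hfinY : {I : Ideal (𝓞 F) | absNorm I = l}.Finite := finite_setOfPred_absNorm_eq l
  have hfinX := finite_XH L Γ H l hl
  rw [← Set.coe_setOf, Nat.card_coe_set_eq, Set.ncard_eq_toFinset_card _ hfinY,
    Set.ncard_eq_toFinset_card _ hfinX,
    Finset.card_eq_sum_card_fiberwise (f := fun Q : Ideal (𝓞 L) => Q.under (𝓞 F))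
      (s := hfinX.toFinset) (t := hfinY.toFinset) ?_, Finset.sum_mul]
  · rw [← smul_eq_mul, ← Finset.sum_const]
    refine Finset.sum_congr rfl fun P hP => ?_
    have hP' : absNorm P = l := by simpa using hP
    rw [← ncard_primesOver_mul F L Γ H hl hI hP']
    congr 1
    rw [← Set.ncard_coe_finset]
    congr 1
    ext Q
    simp only [Finset.coe_filter, Set.Finite.mem_toFinset, Set.mem_setOf_eq]
    constructor
    · rintro ⟨hQ, hQP⟩
      exact ⟨mem_XH_of_liesOver F L Γ H hl hP' hQ hQP, hQP.over.symm⟩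
    · rintro ⟨hQ, rfl⟩
      exact ⟨hQ.1, ⟨rfl⟩⟩
  · intro Q hQ
    have hQ' : Q ∈ XH L Γ H l := by simpa using hQ
    simpa using absNorm_under_of_mem_XH F L Γ H hl hQ'

end FAG
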