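import Fermat.Agent.Gal.Cheb2

/-!
# [CHEB], part 3: Moebius inversion; a Frobenius element generating a given cyclic subgroup
-/

set_option autoImplicit false
set_option linter.deprecated false
set_option linter.unusedSectionVars false

open NumberField Ideal
open scoped Pointwise ArithmeticFunction.Moebius ArithmeticFunction.zeta

namespace FAG

theorem sum_moebius_divisors (N : ℕ) :
    ∑ d ∈ N.divisors, (μ d : ℤ) = if N = 1 then 1 else 0 := by
  rw [← ArithmeticFunction.coe_mul_zeta_apply, ArithmeticFunction.moebius_mul_coe_zeta,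
    ArithmeticFunction.one_apply]

theorem sum_moebius_filter (n a : ℕ) (hn : n ≠ 0) :
    ∑ d ∈ n.divisors.filter (· ∣ a), (μ d : ℤ) = if Nat.gcd n a = 1 then 1 else 0 := by
  rw [← sum_moebius_divisors]
  refine Finset.sum_congr ?_ fun _ _ => rfl
  ext d
  simp only [Finset.mem_filter, Nat.mem_divisors, Nat.dvd_gcd_iff]
  have : Nat.gcd n a ≠ 0 := fun h => hn (Nat.eq_zero_of_gcd_eq_zero_left h)
  tauto

theorem sum_moebius_mul_div (n : ℕ) (hn : n ≠ 0) :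
    ∑ d ∈ n.divisors, (μ d : ℤ) * ((n / d : ℕ) : ℤ) =
      ((Finset.Ioc 0 n).filter fun a => Nat.gcd n a = 1).card := by
  have h1 : ∑ a ∈ Finset.Ioc 0 n, ∑ d ∈ n.divisors.filter (· ∣ a), (μ d : ℤ) =
      ((Finset.Ioc 0 n).filter fun a => Nat.gcd n a = 1).card := by
    rw [Finset.sum_congr rfl fun a _ => sum_moebius_filter n a hn, Finset.sum_boole]
  rw [← h1]
  simp only [Finset.sum_filter]
  rw [Finset.sum_comm]
  refine Finset.sum_congr rfl fun d _ => ?_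
  rw [← Finset.sum_filter, Finset.sum_const, Nat.Ioc_filter_dvd_card_eq_div, nsmul_eq_mul, mul_comm]

theorem sum_moebius_div_pos (n : ℕ) (hn : n ≠ 0) :
    0 < ∑ d ∈ n.divisors, (μ d : ℝ) / (d : ℝ) := by
  have h1 := sum_moebius_mul_div n hn
  have h2 : 0 < ((Finset.Ioc 0 n).filter fun a => Nat.gcd n a = 1).card := by
    refine Finset.card_pos.mpr ⟨1, ?_⟩
    simp only [Finset.mem_filter, Finset.mem_Ioc, Nat.gcd_one_right, and_true]
    omega
  have h3 : (n : ℝ) * ∑ d ∈ n.divisors, (μ d : ℝ) / (d : ℝ) =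
      ((∑ d ∈ n.divisors, (μ d : ℤ) * ((n / d : ℕ) : ℤ) : ℤ) : ℝ) := by
    rw [Int.cast_sum, Finset.mul_sum]
    refine Finset.sum_congr rfl fun d hd => ?_
    have hd' := Nat.dvd_of_mem_divisors hd
    have hd0 : (d : ℝ) ≠ 0 := by
      have : d ≠ 0 := fun h => hn (by rw [h] at hd'; exact Nat.eq_zero_of_zero_dvd hd')
      exact_mod_cast this
    rw [Int.cast_mul, Int.cast_natCast, Nat.cast_div hd' hd0]
    ring
  rw [h1] at h3
  have hn' : (0 : ℝ) < n := by exact_mod_cast Nat.pos_of_ne_zero hn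
  have h4 : (0 : ℝ) < (n : ℝ) * ∑ d ∈ n.divisors, (μ d : ℝ) / (d : ℝ) := by
    rw [h3]
    exact_mod_cast h2
  exact (mul_pos_iff_of_pos_left hn').mp h4

theorem pow_mem_zpowers_pow_iff {G : Type*} [Group G] (g : G) {d a : ℕ} (hd : d ∣ orderOf g) :
    g ^ a ∈ Subgroup.zpowers (g ^ d) ↔ d ∣ a := by
  constructor
  · rintro ⟨k, hk⟩
    simp only at hk
    rw [← zpow_natCast, ← zpow_mul, ← zpow_natCast g a, ← mul_inv_eq_one, ← zpow_neg, ← zpow_add,
      ← orderOf_dvd_iff_zpow_eq_one] at hk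
    have h1 : (d : ℤ) ∣ (d : ℤ) * k + -(a : ℤ) := (Int.natCast_dvd_natCast.mpr hd).trans hk
    have h2 : (d : ℤ) ∣ (a : ℤ) := by
      have := (Int.dvd_add_right (Dvd.intro k rfl)).mp h1
      exact (Int.dvd_neg).mp this
    exact_mod_cast h2
  · rintro ⟨k, rfl⟩
    rw [pow_mul]
    exact Subgroup.pow_mem _ (Subgroup.mem_zpowers _) _

theorem card_zpowers_pow {G : Type*} [Group G] (g : G) {d : ℕ} (hd : d ∣ orderOf g)
    (hd0 : d ≠ 0) : Nat.card (Subgroup.zpowers (g ^ d)) = orderOf g / d := by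
  rw [Nat.card_zpowers, orderOf_pow_of_dvd hd0 hd]

variable (L : Type*) [Field L] [NumberField L]
  (Γ : Type*) [Group Γ] [Finite Γ] [MulSemiringAction Γ L] [IsGaloisGroup Γ ℚ L]

/-- outside a finite set of rational primes all inertia groups are trivial. -/
theorem exists_finite_bad : ∃ Z₀ : Set ℕ, Z₀.Finite ∧ ∀ l : ℕ, l.Prime → l ∉ Z₀ →
    ∀ Q : Ideal (𝓞 L), Q.IsPrime → (l : 𝓞 L) ∈ Q → ∀ σ ∈ Q.inertia Γ, σ = 1 := by
  classical
  have := Fintype.ofFinite Γ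
  have hf : FaithfulSMul Γ (𝓞 L) := IsGaloisGroup.faithful ℤ
  have hx : ∀ τ : Γ, ∃ x : 𝓞 L, τ ≠ 1 → τ • x - x ≠ 0 := by
    intro τ
    by_cases h : τ = 1
    · exact ⟨0, fun h' => absurd h h'⟩
    · by_contra hcon
      push Not at hcon
      apply h
      apply hf.eq_of_smul_eq_smul
      intro x
      rw [one_smul]
      exact sub_eq_zero.mp (hcon x).2
  choose x hx using hx
  set y : 𝓞 L := ∏ τ ∈ Finset.univ.filter (fun τ : Γ => τ ≠ 1), (τ • x τ - x τ) with hy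
  have hy0 : y ≠ 0 := Finset.prod_ne_zero_iff.mpr fun τ hτ => hx τ (Finset.mem_filter.mp hτ).2
  have hN : absNorm (span {y}) ≠ 0 := by
    rw [Ne, absNorm_eq_zero_iff, span_singleton_eq_bot]
    exact hy0
  refine ⟨{l | l ∣ absNorm (span {y})}, ?_, ?_⟩
  · refine (Finset.finite_toSet (Nat.divisors (absNorm (span {y})))).subset fun l hl => ?_
    exact Finset.mem_coe.mpr (Nat.mem_divisors.mpr ⟨hl, hN⟩)
  · intro l hl hlZ Q hQ hlQ σ hσ
    by_contra hne
    apply hlZ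
    have h1 : y ∈ Q := by
      rw [hy]
      exact Ideal.mem_of_dvd Q (Finset.dvd_prod_of_mem _
        (Finset.mem_filter.mpr ⟨Finset.mem_univ _, hne⟩)) (hσ (x σ))
    have h2 : Q ∣ span {y} := Ideal.dvd_iff_le.mpr ((span_singleton_le_iff_mem _).mpr h1)
    have h3 : absNorm Q ∣ absNorm (span {y}) := map_dvd absNorm h2
    have h4 := absNorm_eq_pow Q hQ hl hlQ
    have h5 : 0 < Q.inertiaDeg ℤ := Q.inertiaDeg_pos ℤ
    exact (dvd_pow_self l h5.ne').trans (h4 ▸ h3)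

variable {L Γ} in
theorem IsFr.eq {l : ℕ} {σ σ' : Γ} {Q : Ideal (𝓞 L)} (h : IsFr l σ Q) (h' : IsFr l σ' Q)
    (hI : ∀ τ ∈ Q.inertia Γ, τ = 1) : σ' = σ := by
  have h1 : σ' * σ⁻¹ ∈ Q.inertia Γ := by
    intro x
    have h2 := sub_mem (h' (σ⁻¹ • x)) (h (σ⁻¹ • x))
    simpa [mul_smul] using h2
  exact mul_inv_eq_one.mp (hI _ h1)

/-- the fixed field of `⟨g ^ d⟩`. -/
abbrev Fd (g : Γ) (d : ℕ) : IntermediateField ℚ L :=
  FixedPoints.intermediateField (Subgroup.zpowers (g ^ d))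

/-- **Frobenius density, existence form**: every element `g` of the Galois group is a power of a
Frobenius element at a prime above some rational prime `l ∉ Z`. -/
theorem exists_frob_generator (g : Γ) (Z : Set ℕ) (hZ : Z.Finite) :
    ∃ (l : ℕ) (Q : Ideal (𝓞 L)) (σ : Γ), l.Prime ∧ l ∉ Z ∧ Q.IsPrime ∧ (l : 𝓞 L) ∈ Q ∧
      IsFr l σ Q ∧ g ∈ Subgroup.zpowers σ ∧ ∀ τ ∈ Q.inertia Γ, τ = 1 := by
  classical
  obtain ⟨Z₀, hZ₀, hbad⟩ := exists_finite_bad L Γ
  set n := orderOf g with hn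
  have hn0 : n ≠ 0 := (orderOf_pos g).ne'
  obtain ⟨l, hl, hlZ, hsum⟩ := exists_prime_of_isD1 n.divisors
    (fun d => FA14.aK (Fd L Γ g d)) (fun d => (μ d : ℝ) / (d : ℝ))
    (fun d _ => isD1_aK (Fd L Γ g d)) (sum_moebius_div_pos n hn0) (Z ∪ Z₀) (hZ.union hZ₀)
  have hI := hbad l hl (fun h => hlZ (Or.inr h))
  set f := (span {(l : ℤ)}).inertiaDegIn (𝓞 L) with hf
  have hd0 : ∀ d ∈ n.divisors, d ≠ 0 := fun d hd h => by
    rw [h] at hd
    simp at hd
  have hcount : ∀ d ∈ n.divisors, FA14.aK (Fd L Γ g d) l * ((n / d : ℕ) : ℝ) =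
      ((XH L Γ (Subgroup.zpowers (g ^ d)) l).ncard : ℝ) * f := by
    intro d hd
    have := card_mul_card (Fd L Γ g d) L Γ (Subgroup.zpowers (g ^ d)) hl hI
    rw [card_zpowers_pow g (Nat.dvd_of_mem_divisors hd) (hd0 d hd)] at this
    unfold FA14.aK
    exact_mod_cast this
  have hsum2 : ∑ d ∈ n.divisors,
      (μ d : ℤ) * ((XH L Γ (Subgroup.zpowers (g ^ d)) l).ncard : ℤ) ≠ 0 := by
    intro h0
    apply hsum
    have h1 : ∀ d ∈ n.divisors, (μ d : ℝ) / (d : ℝ) * FA14.aK (Fd L Γ g d) l =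
        ((f : ℝ) / (n : ℝ)) *
          (((μ d : ℤ) * ((XH L Γ (Subgroup.zpowers (g ^ d)) l).ncard : ℤ) : ℤ) : ℝ) := by
      intro d hd
      have h2 := hcount d hd
      have hdr : (d : ℝ) ≠ 0 := by exact_mod_cast hd0 d hd
      have hnr : (n : ℝ) ≠ 0 := by exact_mod_cast hn0
      rw [Nat.cast_div (Nat.dvd_of_mem_divisors hd) hdr] at h2
      rw [Int.cast_mul, Int.cast_natCast]
      field_simp
      field_simp at h2
      linear_combination (μ d : ℝ) * h2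
    rw [Finset.sum_congr rfl h1, ← Finset.mul_sum, ← Int.cast_sum, h0, Int.cast_zero, mul_zero]
  set X := (finite_primes_over L l hl).toFinset with hXdef
  have hX : ∀ d, ((XH L Γ (Subgroup.zpowers (g ^ d)) l).ncard : ℤ) =
      ∑ Q ∈ X, if Q ∈ XH L Γ (Subgroup.zpowers (g ^ d)) l then 1 else 0 := by
    intro d
    rw [Finset.sum_boole, Set.ncard_eq_toFinset_card _ (finite_XH L Γ _ l hl)]
    congr 2
    ext Q
    simp only [Set.Finite.mem_toFinset, Finset.mem_filter, hXdef, Set.mem_setOf_eq]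
    constructor
    · intro h
      exact ⟨⟨h.1, h.2.1⟩, h⟩
    · intro h
      exact h.2
  have hex : ∃ Q ∈ X, ∑ d ∈ n.divisors,
      (μ d : ℤ) * (if Q ∈ XH L Γ (Subgroup.zpowers (g ^ d)) l then 1 else 0) ≠ 0 := by
    by_contra hcon
    push Not at hcon
    apply hsum2
    simp only [hX, Finset.mul_sum]
    rw [Finset.sum_comm]
    exact Finset.sum_eq_zero hcon
  obtain ⟨Q, hQX, hQ⟩ := hex
  have hQp : Q.IsPrime ∧ (l : 𝓞 L) ∈ Q := by simpa [hXdef] using hQX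
  obtain ⟨d₀, hd₀, hd₀'⟩ := Finset.exists_ne_zero_of_sum_ne_zero hQ
  have hQd₀ : Q ∈ XH L Γ (Subgroup.zpowers (g ^ d₀)) l := by
    by_contra h
    simp [h] at hd₀'
  obtain ⟨-, -, σ, hσ, hfr⟩ := hQd₀
  have hσg : σ ∈ Subgroup.zpowers g :=
    (Subgroup.zpowers_le.mpr (Subgroup.pow_mem _ (Subgroup.mem_zpowers g) d₀)) hσ
  obtain ⟨a, ha⟩ : ∃ a : ℕ, g ^ a = σ := mem_powers_iff_mem_zpowers.mpr hσg
  have hiff : ∀ d ∈ n.divisors, (Q ∈ XH L Γ (Subgroup.zpowers (g ^ d)) l ↔ d ∣ a) := by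
    intro d hd
    rw [← pow_mem_zpowers_pow_iff g (Nat.dvd_of_mem_divisors hd), ha]
    constructor
    · rintro ⟨-, -, σ', hσ', hfr'⟩
      rwa [← hfr.eq hfr' (hI Q hQp.1 hQp.2)]
    · intro h
      exact ⟨hQp.1, hQp.2, σ, h, hfr⟩
  have hval : ∑ d ∈ n.divisors,
      (μ d : ℤ) * (if Q ∈ XH L Γ (Subgroup.zpowers (g ^ d)) l then 1 else 0) =
      if Nat.gcd n a = 1 then 1 else 0 := by
    rw [← sum_moebius_filter n a hn0, Finset.sum_filter]
    refine Finset.sum_congr rfl fun d hd => ?_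
    simp only [hiff d hd]
    split_ifs <;> simp
  have hcop : Nat.gcd n a = 1 := by
    by_contra h
    rw [hval, if_neg h] at hQ
    exact hQ rfl
  obtain ⟨m, hm⟩ := exists_pow_eq_self_of_coprime (x := g) (n := a) (Nat.Coprime.symm hcop)
  refine ⟨l, Q, σ, hl, fun h => hlZ (Or.inl h), hQp.1, hQp.2, hfr, ?_, hI Q hQp.1 hQp.2⟩
  rw [← ha]
  exact ⟨m, by simpa using hm⟩

end FAG
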