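import Fermat.Agent.Gal.Cheb3
import Fermat.Agent.Maz.Mink

/-!
# [CHEB], part 4: translation to valuation subrings of `ℚ̄`
-/

set_option autoImplicit false
set_option linter.deprecated false
set_option linter.unusedSectionVars false

open NumberField Ideal
open scoped Pointwise

namespace FAG

section General

variable {K Ω : Type*} [Field K] [Field Ω] [Algebra K Ω]

theorem isFrobeniusAt_iff (A : ValuationSubring Ω) (σ : Ω ≃ₐ[K] Ω) (q : ℕ) :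
    A.IsFrobeniusAt σ q ↔ σ • A = A ∧ ∀ x ∈ A, σ x - x ^ q ∈ A.nonunits := by
  constructor
  · rintro ⟨hσ, h⟩
    refine ⟨hσ, fun x hx => ?_⟩
    have h1 := h (IsLocalRing.residue A ⟨x, hx⟩)
    rw [← IsLocalRing.ResidueField.residue_smul, ← map_pow, ← sub_eq_zero, ← map_sub,
      IsLocalRing.residue_eq_zero_iff, ← ValuationSubring.coe_mem_nonunits_iff] at h1
    exact h1
  · rintro ⟨hσ, h⟩
    refine ⟨hσ, fun x => ?_⟩
    obtain ⟨a, rfl⟩ := IsLocalRing.residue_surjective x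
    rw [← IsLocalRing.ResidueField.residue_smul, ← map_pow, ← sub_eq_zero, ← map_sub,
      IsLocalRing.residue_eq_zero_iff, ← ValuationSubring.coe_mem_nonunits_iff]
    exact h a.1 a.2

theorem apply_mem_nonunits_smul (A : ValuationSubring Ω) (τ : Ω ≃ₐ[K] Ω) {z : Ω}
    (hz : z ∈ A.nonunits) : τ z ∈ (τ • A).nonunits := by
  rw [ValuationSubring.mem_nonunits_iff_or] at hz ⊢
  rcases hz with rfl | hz
  · left
    exact map_zero τ
  · right
    intro h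
    apply hz
    rw [ValuationSubring.mem_pointwise_smul_iff_inv_smul_mem] at h
    have e : τ⁻¹ • (τ z)⁻¹ = z⁻¹ := by
      rw [← map_inv₀]
      exact τ.symm_apply_apply _
    rwa [e] at h

theorem isFrobeniusAt_conj {A : ValuationSubring Ω} {σ : Ω ≃ₐ[K] Ω} {q : ℕ}
    (h : A.IsFrobeniusAt σ q) (τ : Ω ≃ₐ[K] Ω) : (τ • A).IsFrobeniusAt (τ * σ * τ⁻¹) q := by
  rw [isFrobeniusAt_iff] at h ⊢
  obtain ⟨h1, h2⟩ := h
  constructor
  · rw [mul_smul, mul_smul, inv_smul_smul, h1]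
  · intro x hx
    rw [ValuationSubring.mem_pointwise_smul_iff_inv_smul_mem] at hx
    have h3 := apply_mem_nonunits_smul A τ (h2 _ hx)
    have e : τ (σ (τ⁻¹ • x) - (τ⁻¹ • x) ^ q) = (τ * σ * τ⁻¹) x - x ^ q := by
      rw [map_sub, map_pow]
      have e1 : τ (τ⁻¹ • x) = x := τ.apply_symm_apply x
      rw [e1]
      rfl
    rwa [e] at h3

theorem liesOverPrime_smul {A : ValuationSubring Ω} {q : ℕ} (h : A.LiesOverPrime q)
    (τ : Ω ≃ₐ[K] Ω) : (τ • A).LiesOverPrime q := by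
  have := apply_mem_nonunits_smul A τ h
  rwa [map_natCast] at this

end General

/-- **[CHEB]** Every element of `G_ℚ` acts on a given finite Galois extension `L/ℚ` as a power of a
Frobenius element at a place above some prime `l ∉ Z`. -/
theorem exists_frobenius_pow (L : IntermediateField ℚ (AlgebraicClosure ℚ))
    [FiniteDimensional ℚ L] [IsGalois ℚ L]
    (g : AlgebraicClosure ℚ ≃ₐ[ℚ] AlgebraicClosure ℚ) (Z : Set ℕ) (hZ : Z.Finite) :
    ∃ (l : ℕ) (A : ValuationSubring (AlgebraicClosure ℚ))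
      (σ : AlgebraicClosure ℚ ≃ₐ[ℚ] AlgebraicClosure ℚ) (b : ℕ),
      l.Prime ∧ l ∉ Z ∧ A.LiesOverPrime l ∧ A.IsFrobeniusAt σ l ∧ ∀ x ∈ L, g x = (σ ^ b) x := by
  have : Algebra.IsAlgebraic ℚ (AlgebraicClosure ℚ) := AlgebraicClosure.isAlgebraic ℚ
  have : IsAlgClosure ℚ (AlgebraicClosure ℚ) := ⟨inferInstance, inferInstance⟩
  have : Normal ℚ (AlgebraicClosure ℚ) := IsAlgClosure.normal ℚ (AlgebraicClosure ℚ)
  have : NumberField L := ⟨⟩
  obtain ⟨l, Q, σL, hl, hlZ, hQ, hlQ, hfr, hgen, hI⟩ :=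
    exists_frob_generator L (L ≃ₐ[ℚ] L) (AlgEquiv.restrictNormalHom L g) Z hZ
  obtain ⟨A₀, σ₀, hA₀, hF₀⟩ := FA_exists_isFrobeniusAt l hl
  set Q₀ : Ideal (𝓞 L) := (FA13.primeOf A₀).under (𝓞 L) with hQ₀
  have hQ₀p : Q₀.IsPrime := inferInstance
  have hmem₀ : ∀ x : 𝓞 L, x ∈ Q₀ ↔ ((x : L) : AlgebraicClosure ℚ) ∈ A₀.nonunits := fun x => Iff.rfl
  have hlQ₀ : (l : 𝓞 L) ∈ Q₀ := by
    rw [hmem₀]
    have h0 : (l : AlgebraicClosure ℚ) ∈ A₀.nonunits := hA₀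
    simpa using h0
  have h1 : Q₀.LiesOver (span {(l : ℤ)}) := ⟨(under_eq_span Q₀ hQ₀p hl hlQ₀).symm⟩
  have h2 : Q.LiesOver (span {(l : ℤ)}) := ⟨(under_eq_span Q hQ hl hlQ).symm⟩
  obtain ⟨τL, hτL⟩ := exists_smul_eq_of_isGaloisGroup (span {(l : ℤ)}) Q₀ Q (L ≃ₐ[ℚ] L)
  obtain ⟨τ, hτ⟩ := AlgEquiv.restrictNormalHom_surjective (AlgebraicClosure ℚ) τL
  have hres : ∀ (χ : AlgebraicClosure ℚ ≃ₐ[ℚ] AlgebraicClosure ℚ) (x : L),
      ((AlgEquiv.restrictNormalHom L χ x : L) : AlgebraicClosure ℚ) = χ x :=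
    fun χ x => AlgEquiv.restrictNormal_commutes χ L x
  set σ := τ * σ₀ * τ⁻¹ with hσ
  have hF₀' := (isFrobeniusAt_iff A₀ σ₀ l).mp hF₀
  have hfr' : IsFr l (AlgEquiv.restrictNormalHom L σ) Q := by
    intro x
    rw [← hτL, Ideal.mem_pointwise_smul_iff_inv_smul_mem, hmem₀, ← hτ, ← map_inv]
    have e : (((AlgEquiv.restrictNormalHom L τ⁻¹ •
        (AlgEquiv.restrictNormalHom L σ • x - x ^ l) : 𝓞 L) : L) : AlgebraicClosure ℚ) =
        σ₀ (τ⁻¹ ((x : L) : AlgebraicClosure ℚ)) - (τ⁻¹ ((x : L) : AlgebraicClosure ℚ)) ^ l := by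
      have e1 : (((AlgEquiv.restrictNormalHom L τ⁻¹ •
        (AlgEquiv.restrictNormalHom L σ • x - x ^ l) : 𝓞 L) : L) : AlgebraicClosure ℚ) =
        ((AlgEquiv.restrictNormalHom L τ⁻¹ (AlgEquiv.restrictNormalHom L σ (x : L) - (x : L) ^ l)
          : L) : AlgebraicClosure ℚ) := rfl
      rw [e1, hres]
      push_cast
      rw [hres, map_sub, map_pow, hσ]
      congr 1
      change τ⁻¹ (τ (σ₀ (τ⁻¹ _))) = _
      exact τ.symm_apply_apply _
    rw [e]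
    refine hF₀'.2 _ (FA13.mem_of_isIntegral A₀ ?_)
    have hx : IsIntegral ℤ ((x : L) : AlgebraicClosure ℚ) :=
      (x.2 : IsIntegral ℤ (x : L)).map (IsScalarTower.toAlgHom ℤ L (AlgebraicClosure ℚ))
    exact hx.map τ⁻¹
  have hσL : AlgEquiv.restrictNormalHom L σ = σL := hfr.eq hfr' hI
  obtain ⟨b, hb⟩ : ∃ b : ℕ, σL ^ b = AlgEquiv.restrictNormalHom L g :=
    mem_powers_iff_mem_zpowers.mpr hgen
  refine ⟨l, τ • A₀, σ, b, hl, hlZ, liesOverPrime_smul hA₀ τ, isFrobeniusAt_conj hF₀ τ, ?_⟩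
  intro x hx
  have h3 := hres g ⟨x, hx⟩
  rw [← hb, ← hσL, ← map_pow, hres] at h3
  exact h3.symm

/-- `exists_frobenius_pow` with a `Finset` of excluded primes. -/
theorem CHEB (L : IntermediateField ℚ (AlgebraicClosure ℚ))
    [FiniteDimensional ℚ L] [IsGalois ℚ L]
    (g : AlgebraicClosure ℚ ≃ₐ[ℚ] AlgebraicClosure ℚ) (Z : Finset ℕ) :
    ∃ (ℓ : ℕ) (A : ValuationSubring (AlgebraicClosure ℚ))
      (σ : AlgebraicClosure ℚ ≃ₐ[ℚ] AlgebraicClosure ℚ) (b : ℕ),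
      ℓ.Prime ∧ ℓ ∉ Z ∧ A.LiesOverPrime ℓ ∧ A.IsFrobeniusAt σ ℓ ∧ ∀ x ∈ L, g x = (σ ^ b) x := by
  obtain ⟨l, A, σ, b, h1, h2, h3⟩ := exists_frobenius_pow L g (Z : Set ℕ) Z.finite_toSet
  exact ⟨l, A, σ, b, h1, fun h => h2 (Finset.mem_coe.mpr h), h3⟩

end FAG
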