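import Mathlib

/-! PROJECT G, [CHEV]: Chevalley's extension theorem (places with values in an algebraically
closed subfield). -/

set_option autoImplicit false

namespace FAG

open Polynomial

section chev
variable {R K K0 : Type*} [CommRing R] [Field K] [Field K0] [IsAlgClosed K0]
  {φ : R →+* K} {g : R →+* K0}

lemma chev_a (hg : Function.Surjective g)
    (MAX : ∀ (x : K) (c : K0), (∀ p : R[X], eval₂ φ x p = 0 → eval₂ g c p = 0) → x ∈ φ.range)
    {x : K} (hx : x ∉ φ.range) : ∃ p : R[X], eval₂ φ x p = 0 ∧ p.map g = 1 := by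
  set I := RingHom.ker (eval₂RingHom φ x) with hI
  set J := I.map (mapRingHom g) with hJdef
  by_cases hJ : J = ⊤
  · have h1 : (1 : K0[X]) ∈ J := by rw [hJ]; trivial
    obtain ⟨p, hp, hp1⟩ :=
      (Ideal.mem_map_iff_of_surjective (mapRingHom g) (map_surjective g hg)).1 h1
    exact ⟨p, hp, hp1⟩
  · exfalso
    apply hx
    obtain ⟨f, hf⟩ : ∃ f, J = Ideal.span {f} :=
      ⟨_, (Submodule.IsPrincipal.span_singleton_generator J).symm⟩
    obtain ⟨c, hc⟩ : ∃ c, eval c f = 0 := by
      by_cases hd : f.degree = 0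
      · exfalso
        apply hJ
        rw [hf, Ideal.span_singleton_eq_top]
        exact isUnit_iff_degree_eq_zero.2 hd
      · exact IsAlgClosed.exists_root f hd
    apply MAX x c
    intro p hp
    have h2 : mapRingHom g p ∈ J := Ideal.mem_map_of_mem _ hp
    rw [hf, Ideal.mem_span_singleton] at h2
    obtain ⟨q, hq⟩ := h2
    rw [eval₂_eq_eval_map, ← coe_mapRingHom, hq, eval_mul, hc, zero_mul]

lemma chev_b (hφ : Function.Injective φ) (hg : Function.Surjective g)
    (MAX : ∀ (x : K) (c : K0), (∀ p : R[X], eval₂ φ x p = 0 → eval₂ g c p = 0) → x ∈ φ.range)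
    {r : R} (hr : g r ≠ 0) : (φ r)⁻¹ ∈ φ.range := by
  by_contra hx
  obtain ⟨p, hp0, hp1⟩ := chev_a hg MAX hx
  have hr0 : r ≠ 0 := by
    rintro rfl
    exact hr (map_zero g)
  have hφr : φ r ≠ 0 := fun h => hr0 (hφ (by rw [h, map_zero]))
  let _ := invertibleOfNonzero (inv_ne_zero hφr)
  have h1 := (eval₂_reverse_eq_zero_iff φ (φ r)⁻¹ p).2 hp0
  rw [invOf_eq_inv, inv_inv, eval₂_at_apply] at h1
  have h2 : eval r (reverse p) = 0 := hφ (by rw [h1, map_zero])
  have h3 : eval (g r) ((reverse p).map g) = 0 := by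
    rw [eval_map, eval₂_at_apply, h2, map_zero]
  have h4 : (reverse p).map g = X ^ p.natDegree := by
    rw [reverse, ← reflect_map, hp1, ← C_1, reflect_C, C_1, one_mul]
  rw [h4, eval_pow, eval_X] at h3
  exact hr (eq_zero_of_pow_eq_zero h3)

lemma chev_c (hφ : Function.Injective φ) (hg : Function.Surjective g)
    (MAX : ∀ (x : K) (c : K0), (∀ p : R[X], eval₂ φ x p = 0 → eval₂ g c p = 0) → x ∈ φ.range)
    {y : K} (q : R[X]) (hq : q.Monic) (hqy : eval₂ φ y q = 0) : y ∈ φ.range := by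
  by_contra hx
  obtain ⟨p, hp0, hp1⟩ := chev_a hg MAX hx
  let _ := φ.toAlgebra
  have hy : IsIntegral R y := ⟨q, hq, hqy⟩
  set S := Algebra.adjoin R {y} with hS
  have : Algebra.IsIntegral R S := Algebra.IsIntegral.adjoin (by simpa using hy)
  have hm : (RingHom.ker g).IsMaximal := RingHom.ker_isMaximal_of_surjective g hg
  have hker : RingHom.ker (algebraMap R S) ≤ RingHom.ker g := by
    intro r hr
    have h1 : φ r = 0 := congrArg Subtype.val (RingHom.mem_ker.1 hr)
    have : r = 0 := hφ (by rw [h1, map_zero])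
    rw [this]; exact zero_mem _
  obtain ⟨Q, hQmax, hQ⟩ := Ideal.exists_ideal_over_maximal_of_isIntegral (S := S) (RingHom.ker g) hker
  set y' : S := ⟨y, Algebra.self_mem_adjoin_singleton R y⟩ with hy'
  have h1 : aeval y' p = 0 := by
    apply Subtype.ext
    rw [← Subalgebra.aeval_coe]
    exact hp0
  have h2 : aeval y' (p - 1) ∈ Q := by
    rw [aeval_eq_sum_range]
    refine Ideal.sum_mem _ fun i _ => ?_
    rw [Algebra.smul_def]
    apply Ideal.mul_mem_right
    have h3 : (p - 1).coeff i ∈ RingHom.ker g := by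
      rw [RingHom.mem_ker, ← coeff_map, Polynomial.map_sub, hp1, Polynomial.map_one, sub_self,
        coeff_zero]
    rw [← hQ] at h3
    exact h3
  rw [map_sub, h1, map_one, zero_sub] at h2
  exact hQmax.ne_top ((Ideal.eq_top_iff_one Q).2 (by simpa using h2))

theorem chev_d (hφ : Function.Injective φ) (hg : Function.Surjective g)
    (MAX : ∀ (x : K) (c : K0), (∀ p : R[X], eval₂ φ x p = 0 → eval₂ g c p = 0) → x ∈ φ.range)
    (x : K) : x ∈ φ.range ∨ x⁻¹ ∈ φ.range := by
  by_cases hx : x ∈ φ.range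
  · exact Or.inl hx
  right
  obtain ⟨p, hp0, hp1⟩ := chev_a hg MAX hx
  have hx0 : x ≠ 0 := by
    rintro rfl
    exact hx (zero_mem _)
  have hg0 : g (p.coeff 0) = 1 := by
    rw [← coeff_map, hp1, coeff_one_zero]
  obtain ⟨s, hs⟩ := chev_b hφ hg MAX (r := p.coeff 0) (by rw [hg0]; exact one_ne_zero)
  have hc0 : p.coeff 0 ≠ 0 := by
    intro h0
    rw [h0, map_zero] at hg0
    exact zero_ne_one hg0
  have hφc : φ (p.coeff 0) ≠ 0 := fun h => hc0 (hφ (by rw [h, map_zero]))
  have hs1 : s * p.coeff 0 = 1 := by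
    apply hφ
    rw [map_mul, hs, map_one, inv_mul_cancel₀ hφc]
  let _ := invertibleOfNonzero hx0
  have h1 := (eval₂_reverse_eq_zero_iff φ x p).2 hp0
  rw [invOf_eq_inv] at h1
  have hlead : (reverse p).leadingCoeff = p.coeff 0 := by
    rw [reverse_leadingCoeff, trailingCoeff, natTrailingDegree_eq_zero.2 (Or.inr hc0)]
  refine chev_c hφ hg MAX (C s * reverse p)
    (monic_C_mul_of_mul_leadingCoeff_eq_one (by rw [hlead]; exact hs1)) ?_
  rw [eval₂_mul, h1, mul_zero]

end chev

/-- **[CHEV]** Chevalley's extension theorem: a field `K` containing an algebraically closed field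
`K0` has a valuation subring with a place onto `K0` which is the identity on `K0`. -/
theorem exists_place (K0 K : Type*) [Field K0] [IsAlgClosed K0] [Field K] [Algebra K0 K] :
    ∃ (B : ValuationSubring K) (lam : B →+* K0),
      ∀ c : K0, ∃ h : algebraMap K0 K c ∈ B, lam ⟨algebraMap K0 K c, h⟩ = c := by
  classical
  set s : Set (Subalgebra K0 (K × K0)) := {Γ | ∀ d : K0, ((0 : K), d) ∈ Γ → d = 0} with hs
  have hbot : (⊥ : Subalgebra K0 (K × K0)) ∈ s := by
    intro d hd
    obtain ⟨c, hc⟩ := Algebra.mem_bot.1 hd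
    have h1 : algebraMap K0 K c = 0 := congrArg Prod.fst hc
    have h2 : c = d := congrArg Prod.snd hc
    rw [← h2]
    exact (map_eq_zero _).1 h1
  obtain ⟨Γ, -, hΓs, hΓmax⟩ := zorn_le_nonempty₀ s (by
    intro c hcs hc y hy
    have hne : Nonempty c := ⟨⟨y, hy⟩⟩
    have hdir : Directed (· ≤ ·) (fun i : c => (i : Subalgebra K0 (K × K0))) :=
      hc.directed
    refine ⟨⨆ i : c, (i : Subalgebra K0 (K × K0)), ?_, fun z hz => le_iSup
      (fun i : c => (i : Subalgebra K0 (K × K0))) ⟨z, hz⟩⟩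
    intro d hd
    have h1 : ((0 : K), d) ∈ ((⨆ i : c, (i : Subalgebra K0 (K × K0)) : Subalgebra K0 (K × K0)) :
        Set (K × K0)) := hd
    rw [Subalgebra.coe_iSup_of_directed hdir, Set.mem_iUnion] at h1
    obtain ⟨i, hi⟩ := h1
    exact hcs i.2 d hi) ⊥ hbot
  set φ : Γ →+* K := (RingHom.fst K K0).comp Γ.val.toRingHom with hφdef
  set g : Γ →+* K0 := (RingHom.snd K K0).comp Γ.val.toRingHom with hgdef
  have hφ : Function.Injective φ := by
    rw [injective_iff_map_eq_zero]
    intro γ hγ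
    have h1 : (γ : K × K0).1 = 0 := hγ
    have h2 : ((0 : K), (γ : K × K0).2) ∈ Γ := by
      rw [← h1]; exact γ.2
    have h3 := hΓs _ h2
    apply Subtype.ext
    exact Prod.ext h1 h3
  have hgc : ∀ c : K0, g (algebraMap K0 Γ c) = c := fun c => rfl
  have hφc : ∀ c : K0, φ (algebraMap K0 Γ c) = algebraMap K0 K c := fun c => rfl
  have hg : Function.Surjective g := fun c => ⟨algebraMap K0 Γ c, hgc c⟩
  have MAX : ∀ (x : K) (c : K0), (∀ p : (Γ : Type _)[X], eval₂ φ x p = 0 → eval₂ g c p = 0) →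
      x ∈ φ.range := by
    intro x c hxc
    set Γ' : Subalgebra K0 (K × K0) :=
      ((aeval ((x, c) : K × K0) : (Γ : Type _)[X] →ₐ[Γ] K × K0).restrictScalars K0).range with hΓ'
    have hcomp1 : ∀ p : (Γ : Type _)[X], (aeval ((x, c) : K × K0) p).1 = eval₂ φ x p := by
      intro p
      have := hom_eval₂ p (algebraMap Γ (K × K0)) (RingHom.fst K K0) (x, c)
      exact this
    have hcomp2 : ∀ p : (Γ : Type _)[X], (aeval ((x, c) : K × K0) p).2 = eval₂ g c p := by
      intro p
      have := hom_eval₂ p (algebraMap Γ (K × K0)) (RingHom.snd K K0) (x, c)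
      exact this
    have h1 : Γ' ∈ s := by
      rintro d ⟨p, hp⟩
      have hp' : aeval ((x, c) : K × K0) p = (0, d) := hp
      have e1 : eval₂ φ x p = 0 := by rw [← hcomp1, hp']
      have e2 : eval₂ g c p = d := by rw [← hcomp2, hp']
      rw [← e2]; exact hxc p e1
    have h2 : Γ ≤ Γ' := by
      intro γ hγ
      refine ⟨C ⟨γ, hγ⟩, ?_⟩
      show aeval ((x, c) : K × K0) (C (⟨γ, hγ⟩ : Γ)) = γ
      rw [aeval_C]; rfl
    have h3 : ((x, c) : K × K0) ∈ Γ' := ⟨X, by
      show aeval ((x, c) : K × K0) (X : (Γ : Type _)[X]) = _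
      rw [aeval_X]⟩
    have h4 := hΓmax h1 h2 h3
    exact ⟨⟨_, h4⟩, rfl⟩
  have hval := chev_d hφ hg MAX
  let B : ValuationSubring K := { φ.range with mem_or_inv_mem' := hval }
  let e : Γ ≃+* φ.range := RingEquiv.ofBijective φ.rangeRestrict
    ⟨fun a b hab => hφ (congrArg Subtype.val hab), φ.rangeRestrict_surjective⟩
  let lam : B →+* K0 := g.comp (e.symm : φ.range →+* Γ)
  refine ⟨B, lam, fun c => ⟨⟨algebraMap K0 Γ c, hφc c⟩, ?_⟩⟩
  have h5 : e.symm ⟨algebraMap K0 K c, ⟨algebraMap K0 Γ c, hφc c⟩⟩ = algebraMap K0 Γ c := by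
    rw [RingEquiv.symm_apply_eq]
    rfl
  show g (e.symm _) = c
  rw [h5, hgc]

end FAG
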