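import Fermat.Agent.ES.Inj
import Fermat.Agent.ES.Parabolic
import Fermat.Agent.H3.Hecke
import Fermat.Agent.H7.QCoeff

/-!
# PROJECT G, [COH] part 4: the period homomorphism of an eigenform is a Hecke eigenclass
-/

set_option autoImplicit false

open UpperHalfPlane hiding I
open CongruenceSubgroup Matrix.SpecialLinearGroup ModularFormClass
open scoped MatrixGroups ModularForm
open FAH3 FAES ModularCurve ModularCurve.Period Fermat.Agent.H7

namespace FAG

variable {N : ℕ} [NeZero N]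

/-- a normalised eigenform is an eigenvector of `T_ℓ`. -/
theorem heckeTLin_eq_smul {g : CuspForm (Gamma0 N) 2} (hg : g.IsNormalizedEigenform) {ℓ : ℕ}
    (hℓ : ℓ.Prime) (hℓN : ¬ ℓ ∣ N) :
    CuspForm.heckeTLin 2 hℓ hℓN g = qCoeff g ℓ • g := by
  rw [← sub_eq_zero]
  apply eq_zero_of_qCoeff_eq_zero
  intro n
  rw [qCoeff_sub, qCoeff_smul, qCoeff_heckeTLin, sub_eq_zero]
  have h21 : ((ℓ : ℂ) ^ ((2 : ℤ) - 1)) = ℓ := by norm_num
  rw [h21]
  rcases Nat.eq_zero_or_pos n with rfl | hn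
  · simp [qCoeff_at_zero]
  obtain ⟨r, m, hm, rfl⟩ := Nat.exists_eq_pow_mul_and_not_dvd hn.ne' ℓ hℓ.ne_one
  have hcop : ∀ s : ℕ, (ℓ ^ s).Coprime m := fun s =>
    Nat.Coprime.pow_left s ((Nat.Prime.coprime_iff_not_dvd hℓ).2 hm)
  cases r with
  | zero =>
    have h1 : ¬ ℓ ∣ ℓ ^ 0 * m := by simpa using hm
    rw [if_neg h1, add_zero, pow_zero, one_mul]
    have := hg.qCoeff_mul_of_coprime ℓ m (by simpa using hcop 1)
    exact this
  | succ s =>
    have h1 : ℓ ∣ ℓ ^ (s + 1) * m := Dvd.dvd.mul_right (dvd_pow_self ℓ (Nat.succ_ne_zero s)) m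
    have h2 : ℓ ^ (s + 1) * m / ℓ = ℓ ^ s * m := by
      rw [pow_succ, mul_assoc, mul_comm ℓ m, ← mul_assoc]
      exact Nat.mul_div_cancel _ hℓ.pos
    have h3 : ℓ * (ℓ ^ (s + 1) * m) = ℓ ^ (s + 2) * m := by ring
    rw [if_pos h1, h2, h3, hg.qCoeff_mul_of_coprime _ _ (hcop (s + 2)),
      hg.qCoeff_mul_of_coprime _ _ (hcop (s + 1)), hg.qCoeff_mul_of_coprime _ _ (hcop s),
      hg.qCoeff_prime_pow_of_not_dvd ℓ s hℓ hℓN]
    ring

theorem chainOf_one_eq_prim (f : CuspForm (Gamma0 N) 2) : chainOf f 1 = prim f := by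
  apply eq_prim f
  · have := (chainOf_zchain f).hd 0
    rwa [chainOf_zero] at this
  · exact (chainOf_zchain f).zero 1

/-- the primitive of `T_p f`. -/
theorem prim_heckeTLin {p : ℕ} (hp : p.Prime) (hpN : ¬ p ∣ N) (f : CuspForm (Gamma0 N) 2)
    (τ : ℍ) :
    prim (CuspForm.heckeTLin 2 hp hpN f) τ =
      ∑ j ∈ Finset.range p, prim f (ModularForm.heckeMatrix p j • τ) +
        prim f (ModularForm.heckeDiagMatrix p • τ) := by
  have hp' : (p : ℂ) ≠ 0 := by exact_mod_cast hp.ne_zero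
  rw [← chainOf_one_eq_prim, chainOf_heckeT]
  beta_reduce
  rw [chainOf_one_eq_prim]
  simp only [Pi.smul_apply, smul_eq_mul, pow_one]
  rw [ModularForm.heckeT_apply _ hp.ne_zero]
  have : ((2 : ℤ) - 2 * ((1 : ℕ) : ℤ) - 1) = -1 := by norm_num
  rw [this, zpow_neg_one]
  field_simp

/-- the period relation: for any system `δ i * γ = κ i * δ (π i)`. -/
theorem periodMap_heckeTLin {p : ℕ} (hp : p.Prime) (hpN : ¬ p ∣ N) (f : CuspForm (Gamma0 N) 2)
    {ι : Type*} [Fintype ι] (δ : ι → GL (Fin 2) ℝ)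
    (hδ : ∀ (F : ℍ → ℂ) (τ : ℍ), ∑ i, F (δ i • τ) =
      ∑ j ∈ Finset.range p, F (ModularForm.heckeMatrix p j • τ) +
        F (ModularForm.heckeDiagMatrix p • τ))
    (γ : Gamma0 N) (π : ι ≃ ι) (κ : ι → Gamma0 N)
    (h : ∀ i, δ i * mapGL ℝ (γ : SL(2, ℤ)) = mapGL ℝ (κ i : SL(2, ℤ)) * δ (π i)) :
    periodMap N (CuspForm.heckeTLin 2 hp hpN f) (Additive.ofMul γ) =
      ∑ i, periodMap N f (Additive.ofMul (κ i)) := by
  rw [periodMap_apply _ γ UpperHalfPlane.I, prim_heckeTLin, prim_heckeTLin, ← hδ, ← hδ,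
    ← Equiv.sum_comp π (fun i => prim f (δ i • UpperHalfPlane.I)), ← Finset.sum_sub_distrib]
  refine Finset.sum_congr rfl fun i _ => ?_
  rw [periodMap_apply f (κ i) (δ (π i) • UpperHalfPlane.I)]
  congr 2
  have h1 : δ i • ((γ : SL(2, ℤ)) • UpperHalfPlane.I) =
      (δ i * mapGL ℝ (γ : SL(2, ℤ))) • UpperHalfPlane.I := by
    rw [mul_smul]; rfl
  rw [h1, h i, mul_smul]
  rfl

theorem periodMap_ne_zero {f : CuspForm (Gamma0 N) 2} (hf : f ≠ 0) : periodMap N f ≠ 0 := by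
  intro h0
  apply hf
  refine (eq_zero_of_periodMap_add f 0 ?_).1
  have h1 : periodMap N (0 : CuspForm (Gamma0 N) 2) = 0 := (pml N).map_zero
  rw [h0, h1, map_zero, add_zero]

theorem periodMap_smul (c : ℂ) (f : CuspForm (Gamma0 N) 2) :
    periodMap N (c • f) = c • periodMap N f := (pml N).map_smul c f

end FAG
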