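import Fermat.Agent.Gal.HeckeHom
import Fermat.Prelude.Def_ModularForm_HeckeOperator
import Fermat.Prelude.Def_ModularCurve_PeriodMap

/-! PROJECT G: the concrete Hecke system `Γ₀(N) \ Γ₀(N) diag(1,ℓ) Γ₀(N)`, `ℓ ∤ N`. -/

set_option autoImplicit false

open CongruenceSubgroup ModularForm
open scoped MatrixGroups

namespace FAG

/-- the integral representatives. -/
def dZ (ℓ : ℕ) : Option (Fin ℓ) → Matrix (Fin 2) (Fin 2) ℤ
  | some j => !![1, ((j : ℕ) : ℤ); 0, (ℓ : ℤ)]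
  | none => !![(ℓ : ℤ), 0; 0, 1]

lemma exists_fin_of_dvd {ℓ : ℕ} (hℓ : 0 < ℓ) (x y z t j0 : ℤ) (h1 : (ℓ : ℤ) ∣ y - x * j0)
    (h2 : (ℓ : ℤ) ∣ t - z * j0) :
    ∃ j : Fin ℓ, (ℓ : ℤ) ∣ y - x * ((j : ℕ) : ℤ) ∧ (ℓ : ℤ) ∣ t - z * ((j : ℕ) : ℤ) := by
  have hℓ' : (0 : ℤ) < ℓ := by exact_mod_cast hℓ
  have h0 : 0 ≤ j0 % ℓ := Int.emod_nonneg _ hℓ'.ne'
  have h3 : j0 % ℓ < ℓ := Int.emod_lt_of_pos _ hℓ'
  refine ⟨⟨(j0 % ℓ).toNat, by omega⟩, ?_, ?_⟩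
  · have e : (((j0 % ℓ).toNat : ℕ) : ℤ) = j0 - ℓ * (j0 / ℓ) := by
      rw [Int.toNat_of_nonneg h0, Int.emod_def]
    show (ℓ : ℤ) ∣ y - x * (((j0 % ℓ).toNat : ℕ) : ℤ)
    rw [e]
    have : y - x * (j0 - ℓ * (j0 / ℓ)) = (y - x * j0) + ℓ * (x * (j0 / ℓ)) := by ring
    rw [this]
    exact dvd_add h1 (dvd_mul_right _ _)
  · have e : (((j0 % ℓ).toNat : ℕ) : ℤ) = j0 - ℓ * (j0 / ℓ) := by
      rw [Int.toNat_of_nonneg h0, Int.emod_def]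
    show (ℓ : ℤ) ∣ t - z * (((j0 % ℓ).toNat : ℕ) : ℤ)
    rw [e]
    have : t - z * (j0 - ℓ * (j0 / ℓ)) = (t - z * j0) + ℓ * (z * (j0 / ℓ)) := by ring
    rw [this]
    exact dvd_add h2 (dvd_mul_right _ _)

lemma exists_j {ℓ : ℕ} (hℓ : ℓ.Prime) (x y z t : ℤ) (hdet : x * t - y * z = ℓ)
    (h : ¬ ((ℓ : ℤ) ∣ x ∧ (ℓ : ℤ) ∣ z)) :
    ∃ j : Fin ℓ, (ℓ : ℤ) ∣ y - x * ((j : ℕ) : ℤ) ∧ (ℓ : ℤ) ∣ t - z * ((j : ℕ) : ℤ) := by
  have hp : Prime (ℓ : ℤ) := Nat.prime_iff_prime_int.mp hℓ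
  by_cases hx : (ℓ : ℤ) ∣ x
  · have hz : ¬ (ℓ : ℤ) ∣ z := fun hz => h ⟨hx, hz⟩
    obtain ⟨u, v, huv⟩ : IsCoprime z (ℓ : ℤ) :=
      ((Prime.coprime_iff_not_dvd hp).mpr hz).symm
    have h2 : (ℓ : ℤ) ∣ t - z * (u * t) := ⟨v * t, by linear_combination (-t) * huv⟩
    refine exists_fin_of_dvd hℓ.pos x y z t (u * t) ?_ h2
    have h3 : (ℓ : ℤ) ∣ z * (y - x * (u * t)) := by
      obtain ⟨w, hw⟩ := h2
      exact ⟨-1 + x * w, by linear_combination (-1 : ℤ) * hdet + x * hw⟩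
    exact (hp.dvd_or_dvd h3).resolve_left hz
  · obtain ⟨u, v, huv⟩ : IsCoprime x (ℓ : ℤ) :=
      ((Prime.coprime_iff_not_dvd hp).mpr hx).symm
    have h1 : (ℓ : ℤ) ∣ y - x * (u * y) := ⟨v * y, by linear_combination (-y) * huv⟩
    refine exists_fin_of_dvd hℓ.pos x y z t (u * y) h1 ?_
    have h3 : (ℓ : ℤ) ∣ x * (t - z * (u * y)) := by
      obtain ⟨w, hw⟩ := h1
      exact ⟨1 + z * w, by linear_combination hdet + z * hw⟩
    exact (hp.dvd_or_dvd h3).resolve_left hx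

/-- constructor for `SL₂(ℤ)`. -/
def mkSL (a b c d : ℤ) (h : a * d - b * c = 1) : SL(2, ℤ) :=
  ⟨!![a, b; c, d], by rw [Matrix.det_fin_two_of]; exact h⟩

lemma coe_mkSL (a b c d : ℤ) (h : a * d - b * c = 1) :
    ((mkSL a b c d h : SL(2, ℤ)) : Matrix (Fin 2) (Fin 2) ℤ) = !![a, b; c, d] := rfl

lemma mk_mem_Gamma0 {N : ℕ} (a b c d : ℤ) (h : a * d - b * c = 1)
    (hc : (N : ℤ) ∣ c) : mkSL a b c d h ∈ Gamma0 N := by
  rw [Gamma0_mem, coe_mkSL]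
  simpa using (ZMod.intCast_zmod_eq_zero_iff_dvd c N).mpr hc

/-- Hermite normal form in the shape we need. -/
lemma exists_decomp {ℓ : ℕ} (hℓ : ℓ.Prime) {N : ℕ} (hN : ¬ ℓ ∣ N)
    (A : Matrix (Fin 2) (Fin 2) ℤ) (hdet : A.det = ℓ) (hA : (N : ℤ) ∣ A 1 0) :
    ∃ (i : Option (Fin ℓ)) (γ' : SL(2, ℤ)), γ' ∈ Gamma0 N ∧
      A = (γ' : Matrix (Fin 2) (Fin 2) ℤ) * dZ ℓ i := by
  rw [Matrix.det_fin_two] at hdet
  have hℓ0 : (ℓ : ℤ) ≠ 0 := by exact_mod_cast hℓ.ne_zero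
  by_cases h : (ℓ : ℤ) ∣ A 0 0 ∧ (ℓ : ℤ) ∣ A 1 0
  · obtain ⟨⟨x', hx'⟩, ⟨z', hz'⟩⟩ := h
    have hd : x' * A 1 1 - A 0 1 * z' = 1 := by
      apply mul_left_cancel₀ hℓ0
      rw [hx', hz'] at hdet
      linear_combination hdet
    refine ⟨none, mkSL x' (A 0 1) z' (A 1 1) hd, ?_, ?_⟩
    · apply mk_mem_Gamma0
      have hc : IsCoprime (N : ℤ) (ℓ : ℤ) := by
        rw [Nat.isCoprime_iff_coprime]
        exact ((Nat.Prime.coprime_iff_not_dvd hℓ).mpr hN).symm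
      rw [hz'] at hA
      exact hc.dvd_of_dvd_mul_left hA
    · rw [coe_mkSL]
      ext a b
      fin_cases a <;> fin_cases b <;>
        simp [dZ, Matrix.mul_apply, Fin.sum_univ_two, hx', hz', mul_comm]
  · obtain ⟨j, ⟨y', hy'⟩, ⟨t', ht'⟩⟩ := exists_j hℓ _ _ _ _ hdet h
    have hd : A 0 0 * t' - y' * A 1 0 = 1 := by
      apply mul_left_cancel₀ hℓ0
      linear_combination hdet - A 0 0 * ht' + A 1 0 * hy'
    refine ⟨some j, mkSL (A 0 0) y' (A 1 0) t' hd, ?_, ?_⟩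
    · exact mk_mem_Gamma0 _ _ _ _ _ hA
    · rw [coe_mkSL]
      ext a b
      fin_cases a <;> fin_cases b <;>
        simp [dZ, Matrix.mul_apply, Fin.sum_univ_two]
      · linear_combination hy'
      · linear_combination ht'

lemma dZ_det (ℓ : ℕ) (i : Option (Fin ℓ)) : (dZ ℓ i).det = ℓ := by
  cases i <;> simp [dZ, Matrix.det_fin_two_of]

lemma dZ_inj {ℓ : ℕ} (hℓ : 1 < ℓ) {i j : Option (Fin ℓ)} {γ : SL(2, ℤ)}
    (h : dZ ℓ i = (γ : Matrix (Fin 2) (Fin 2) ℤ) * dZ ℓ j) : i = j := by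
  have h00 := congrFun (congrFun h 0) 0
  have h01 := congrFun (congrFun h 0) 1
  have h10 := congrFun (congrFun h 1) 0
  have h11 := congrFun (congrFun h 1) 1
  have hℓ' : (1 : ℤ) < ℓ := by exact_mod_cast hℓ
  cases i with
  | none =>
    cases j with
    | none => rfl
    | some j =>
      exfalso
      simp [dZ, Matrix.mul_apply, Fin.sum_univ_two] at h00 h01 h10 h11
      rw [← h10] at h11
      have : (ℓ : ℤ) ∣ 1 := ⟨γ 1 1, by linear_combination h11⟩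
      exact absurd (Int.le_of_dvd one_pos this) (by omega)
  | some i =>
    cases j with
    | none =>
      exfalso
      simp [dZ, Matrix.mul_apply, Fin.sum_univ_two] at h00 h01 h10 h11
      have : (ℓ : ℤ) ∣ 1 := ⟨γ 0 0, by linear_combination h00⟩
      exact absurd (Int.le_of_dvd one_pos this) (by omega)
    | some j =>
      simp [dZ, Matrix.mul_apply, Fin.sum_univ_two] at h00 h01 h10 h11
      rw [← h00] at h01
      have h1 : (ℓ : ℤ) ∣ ((i : ℕ) : ℤ) - ((j : ℕ) : ℤ) := ⟨γ 0 1, by linear_combination h01⟩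
      have hi := i.2
      have hj := j.2
      have h2 : ((i : ℕ) : ℤ) - ((j : ℕ) : ℤ) = 0 := by
        apply Int.eq_zero_of_abs_lt_dvd h1
        rw [abs_lt]
        constructor <;> omega
      congr 1
      apply Fin.ext
      omega

end FAG

namespace FAG

open Matrix.SpecialLinearGroup

/-- the real representatives (the Prelude's matrices). -/
noncomputable def dR (ℓ : ℕ) : Option (Fin ℓ) → GL (Fin 2) ℝ
  | some j => heckeMatrix ℓ j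
  | none => heckeDiagMatrix ℓ

lemma val_dR {ℓ : ℕ} (hℓ : ℓ ≠ 0) (i : Option (Fin ℓ)) :
    ((dR ℓ i : GL (Fin 2) ℝ) : Matrix (Fin 2) (Fin 2) ℝ) = (dZ ℓ i).map (Int.cast : ℤ → ℝ) := by
  cases i with
  | none =>
    rw [dR, val_heckeDiagMatrix hℓ, dZ]
    ext a b
    fin_cases a <;> fin_cases b <;> simp
  | some j =>
    rw [dR, val_heckeMatrix hℓ, dZ]
    ext a b
    fin_cases a <;> fin_cases b <;> simp

lemma val_mapGL (γ : SL(2, ℤ)) :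
    ((mapGL ℝ γ : GL (Fin 2) ℝ) : Matrix (Fin 2) (Fin 2) ℝ) =
      (γ : Matrix (Fin 2) (Fin 2) ℤ).map (Int.cast : ℤ → ℝ) := by
  rw [mapGL_coe_matrix]
  rfl

lemma map_cast_injective :
    Function.Injective (fun A : Matrix (Fin 2) (Fin 2) ℤ => A.map (Int.cast : ℤ → ℝ)) :=
  Matrix.map_injective Int.cast_injective

lemma map_cast_mul (A B : Matrix (Fin 2) (Fin 2) ℤ) :
    (A * B).map (Int.cast : ℤ → ℝ) = A.map (Int.cast : ℤ → ℝ) * B.map (Int.cast : ℤ → ℝ) :=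
  Matrix.map_mul (f := Int.castRingHom ℝ)

/-- translation between the integral and the real matrix identities. -/
lemma dR_mul_iff {ℓ : ℕ} (hℓ : ℓ ≠ 0) (i j : Option (Fin ℓ)) (γ γ' : SL(2, ℤ)) :
    dR ℓ i * mapGL ℝ γ = mapGL ℝ γ' * dR ℓ j ↔
      dZ ℓ i * (γ : Matrix (Fin 2) (Fin 2) ℤ) = (γ' : Matrix (Fin 2) (Fin 2) ℤ) * dZ ℓ j := by
  rw [← Units.val_inj, Units.val_mul, Units.val_mul, val_dR hℓ, val_dR hℓ, val_mapGL, val_mapGL,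
    ← map_cast_mul, ← map_cast_mul]
  exact map_cast_injective.eq_iff

/-- decomposition `δ_i γ = γ' δ_j`, `γ ∈ Γ₀(N)`. -/
lemma exists_dR_mul {ℓ : ℕ} (hℓ : ℓ.Prime) {N : ℕ} (hN : ¬ ℓ ∣ N) (i : Option (Fin ℓ))
    {γ : SL(2, ℤ)} (hγ : γ ∈ Gamma0 N) :
    ∃ (j : Option (Fin ℓ)) (γ' : SL(2, ℤ)), γ' ∈ Gamma0 N ∧
      dR ℓ i * mapGL ℝ γ = mapGL ℝ γ' * dR ℓ j := by
  have hγ' : (N : ℤ) ∣ γ 1 0 := by
    rw [Gamma0_mem, ZMod.intCast_zmod_eq_zero_iff_dvd] at hγ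
    exact hγ
  obtain ⟨j, γ', h1, h2⟩ := exists_decomp hℓ hN (dZ ℓ i * (γ : Matrix (Fin 2) (Fin 2) ℤ))
    (by rw [Matrix.det_mul, dZ_det, γ.det_coe, mul_one]) (by
      cases i <;> simp [dZ, Matrix.mul_apply, Fin.sum_univ_two, hγ', Dvd.dvd.mul_left])
  exact ⟨j, γ', h1, (dR_mul_iff hℓ.ne_zero i j γ γ').mpr h2⟩

/-- the inclusion `Γ₀(N) → GL₂(ℝ)`. -/
noncomputable def iotaG (N : ℕ) : ↥(Gamma0 N) →* GL (Fin 2) ℝ :=
  (mapGL ℝ).comp (Gamma0 N).subtype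

lemma iotaG_apply (N : ℕ) (γ : ↥(Gamma0 N)) : iotaG N γ = mapGL ℝ (γ : SL(2, ℤ)) := rfl

lemma iotaG_smul (N : ℕ) (γ : ↥(Gamma0 N)) (τ : UpperHalfPlane) :
    iotaG N γ • τ = (γ : SL(2, ℤ)) • τ := rfl

/-- **the Hecke system at `ℓ ∤ N`.** -/
noncomputable def hsys (N : ℕ) {ℓ : ℕ} (hℓ : ℓ.Prime) (hN : ¬ ℓ ∣ N) :
    HSys ↥(Gamma0 N) (GL (Fin 2) ℝ) (Option (Fin ℓ)) where
  ι := iotaG N
  inj := fun a b h => Subtype.ext (mapGL_injective h)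
  δ := dR ℓ
  h1 := fun i γ => by
    obtain ⟨j, γ', h1, h2⟩ := exists_dR_mul hℓ hN i γ.2
    exact ⟨j, ⟨γ', h1⟩, h2⟩
  h2 := fun i j γ h => by
    have h' : dR ℓ i * mapGL ℝ (1 : SL(2, ℤ)) = mapGL ℝ (γ : SL(2, ℤ)) * dR ℓ j := by
      rw [map_one, mul_one]; exact h
    rw [dR_mul_iff hℓ.ne_zero] at h'
    rw [Matrix.SpecialLinearGroup.coe_one, mul_one] at h'
    exact dZ_inj hℓ.one_lt h'

@[simp] lemma hsys_ι (N : ℕ) {ℓ : ℕ} (hℓ : ℓ.Prime) (hN : ¬ ℓ ∣ N) :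
    (hsys N hℓ hN).ι = iotaG N := rfl

@[simp] lemma hsys_δ (N : ℕ) {ℓ : ℕ} (hℓ : ℓ.Prime) (hN : ¬ ℓ ∣ N) :
    (hsys N hℓ hN).δ = dR ℓ := rfl

/-! ### parabolic elements -/

lemma sq_eq_of_det_one (M : Matrix (Fin 2) (Fin 2) ℤ) (h : M.det = 1) :
    M * M = M.trace • M - 1 := by
  rw [Matrix.det_fin_two] at h
  ext a b
  fin_cases a <;> fin_cases b <;>
    simp [-zsmul_eq_mul, Matrix.mul_apply, Fin.sum_univ_two, Matrix.trace_fin_two,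
      Matrix.smul_apply] <;>
    first
      | linear_combination (-1 : ℤ) * h
      | linear_combination (0 : ℤ) * h

lemma trace_pow_aux (M : Matrix (Fin 2) (Fin 2) ℤ) (h : M.det = 1) (ht : M.trace ^ 2 = 4) (n : ℕ) :
    (M ^ n).trace ^ 2 = 4 ∧ 2 * (M ^ (n + 1)).trace = M.trace * (M ^ n).trace := by
  induction n with
  | zero => simp [Matrix.trace_fin_two]; ring
  | succ n ih =>
    obtain ⟨h1, h2⟩ := ih
    have h3 : (M ^ (n + 1 + 1)).trace = M.trace * (M ^ (n + 1)).trace - (M ^ n).trace := by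
      rw [pow_succ, pow_succ, mul_assoc, sq_eq_of_det_one M h, mul_sub, mul_one, Matrix.mul_smul,
        Matrix.trace_sub, Matrix.trace_smul, ← pow_succ, smul_eq_mul]
    constructor
    · have : 4 * (M ^ (n + 1)).trace ^ 2 = 4 * 4 := by
        have e : 4 * (M ^ (n + 1)).trace ^ 2 = (2 * (M ^ (n + 1)).trace) ^ 2 := by ring
        rw [e, h2, mul_pow, ht, h1]
      linarith
    · rw [h3]
      have : 2 * (M.trace * (M ^ (n + 1)).trace) = 2 * (2 * (M ^ n).trace) := by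
        have e : 2 * (M.trace * (M ^ (n + 1)).trace) = M.trace * (2 * (M ^ (n + 1)).trace) := by
          ring
        rw [e, h2, ← mul_assoc, ← sq, ht]
        ring
      linarith

lemma trace_sq_pow {γ : SL(2, ℤ)} (h : (γ : Matrix (Fin 2) (Fin 2) ℤ).trace ^ 2 = 4) (n : ℕ) :
    ((γ ^ n : SL(2, ℤ)) : Matrix (Fin 2) (Fin 2) ℤ).trace ^ 2 = 4 := by
  rw [Matrix.SpecialLinearGroup.coe_pow]
  exact (trace_pow_aux _ γ.det_coe h n).1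

lemma trace_eq_of_conj {γ γ' : SL(2, ℤ)} {g : GL (Fin 2) ℝ}
    (h : mapGL ℝ γ' = g * mapGL ℝ γ * g⁻¹) :
    (γ' : Matrix (Fin 2) (Fin 2) ℤ).trace = (γ : Matrix (Fin 2) (Fin 2) ℤ).trace := by
  have h1 := congrArg (fun x : GL (Fin 2) ℝ => (x : Matrix (Fin 2) (Fin 2) ℝ).trace) h
  simp only [Units.val_mul] at h1
  rw [Matrix.trace_mul_cycle, ← Units.val_mul, inv_mul_cancel, Units.val_one, one_mul, val_mapGL,
    val_mapGL] at h1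
  have e : ∀ A : Matrix (Fin 2) (Fin 2) ℤ, (A.map (Int.cast : ℤ → ℝ)).trace = ((A.trace : ℤ) : ℝ) := by
    intro A
    simp [Matrix.trace_fin_two]
  rw [e, e] at h1
  exact_mod_cast h1

open ModularCurve.Period in
/-- **`T_ℓ` preserves the parabolic classes** (torsion free coefficients). -/
theorem heckeAdd_isParabolicHom (N : ℕ) {ℓ : ℕ} (hℓ : ℓ.Prime) (hN : ¬ ℓ ∣ N)
    {A : Type*} [AddCommGroup A] [IsAddTorsionFree A] {χ : Additive ↥(Gamma0 N) →+ A}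
    (hχ : IsParabolicHom (Gamma0 N) χ) :
    IsParabolicHom (Gamma0 N) ((hsys N hℓ hN).heckeAdd χ) := by
  intro γ hγ
  refine (hsys N hℓ hN).heckeAdd_eq_zero
    (fun γ : ↥(Gamma0 N) => ((γ : SL(2, ℤ)) : Matrix (Fin 2) (Fin 2) ℤ).trace ^ 2 = 4)
    (fun γ n h => trace_sq_pow h n) (fun γ γ' i h h' => ?_) hχ hγ
  have e := trace_eq_of_conj (γ := (γ : SL(2, ℤ))) (γ' := (γ' : SL(2, ℤ))) h'
  show ((γ' : SL(2, ℤ)) : Matrix (Fin 2) (Fin 2) ℤ).trace ^ 2 = 4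
  rw [e]
  exact h

open ModularCurve.Period in
/-- `T_ℓ` on the parabolic classes. -/
noncomputable def heckePar (N : ℕ) {ℓ : ℕ} (hℓ : ℓ.Prime) (hN : ¬ ℓ ∣ N) (R A : Type*) [Semiring R]
    [AddCommGroup A] [Module R A] [IsAddTorsionFree A] :
    parabolicHoms R (Gamma0 N) A →ₗ[R] parabolicHoms R (Gamma0 N) A :=
  ((hsys N hℓ hN).heckeLin R A).restrict fun _ hχ => heckeAdd_isParabolicHom N hℓ hN hχ

open ModularCurve.Period in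
lemma coe_heckePar (N : ℕ) {ℓ : ℕ} (hℓ : ℓ.Prime) (hN : ¬ ℓ ∣ N) (R A : Type*) [Semiring R]
    [AddCommGroup A] [Module R A] [IsAddTorsionFree A] (χ : parabolicHoms R (Gamma0 N) A) :
    (heckePar N hℓ hN R A χ : Additive ↥(Gamma0 N) →+ A) = (hsys N hℓ hN).heckeAdd χ := rfl

/-- decomposition `δ_i γ = γ' δ_j` for an arbitrary `γ ∈ SL₂(ℤ)`. -/
lemma exists_dR_mul_one {ℓ : ℕ} (hℓ : ℓ.Prime) (i : Option (Fin ℓ)) (γ : SL(2, ℤ)) :
    ∃ (j : Option (Fin ℓ)) (γ' : SL(2, ℤ)), dR ℓ i * mapGL ℝ γ = mapGL ℝ γ' * dR ℓ j := by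
  obtain ⟨j, γ', -, h⟩ := exists_dR_mul hℓ (N := 1) (by simpa using hℓ.one_lt.ne') i (γ := γ)
    (by rw [Gamma0_mem]; exact Subsingleton.elim _ _)
  exact ⟨j, γ', h⟩

end FAG
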