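import Fermat.Agent.Gal.CohCore
import Fermat.Agent.Gal.CohPer
import Fermat.Agent.Gal.HeckeSys
import Fermat.Agent.H3.Final

/-!
# PROJECT G, [COH]: the eigenclass of a normalised eigenform in `k ⊗ Hpar(ℤ)`
-/

set_option autoImplicit false

open UpperHalfPlane hiding I
open CongruenceSubgroup Matrix.SpecialLinearGroup ModularFormClass Module
open scoped MatrixGroups ModularForm TensorProduct
open ModularCurve ModularCurve.Period

namespace FAG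

variable {N : ℕ} [NeZero N]

/-- the period homomorphism of an eigenform is an eigenvector of `T_ℓ` on `Hom(Γ₀(N), ℂ)`. -/
theorem heckeAdd_periodMap {g : CuspForm (Gamma0 N) 2} (hg : g.IsNormalizedEigenform) {ℓ : ℕ}
    (hℓ : ℓ.Prime) (hℓN : ¬ ℓ ∣ N) (γ : Gamma0 N) :
    ∑ i, periodMap N g (Additive.ofMul ((hsys N hℓ hℓN).kap γ i)) =
      qCoeff g ℓ * periodMap N g (Additive.ofMul γ) := by
  have h1 := periodMap_heckeTLin hℓ hℓN g (dR ℓ) (fun F τ => by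
    rw [Fintype.sum_option, add_comm, Finset.sum_range]
    rfl) γ ((hsys N hℓ hℓN).perm γ) ((hsys N hℓ hℓN).kap γ) (fun i => (hsys N hℓ hℓN).spec γ i)
  rw [← h1, heckeTLin_eq_smul hg, periodMap_smul]
  rfl

omit [NeZero N] in
theorem ne_zero_of_isNormalizedEigenform {g : CuspForm (Gamma0 N) 2}
    (hg : g.IsNormalizedEigenform) : g ≠ 0 := by
  rintro rfl
  have h1 := hg.qCoeff_one
  rw [Fermat.Agent.H7.qCoeff_zero_form] at h1
  exact zero_ne_one h1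

/-- **[COH]**, coordinate form. -/
theorem COH {g : CuspForm (Gamma0 N) 2} (hg : g.IsNormalizedEigenform) {k : Type*} [Field k]
    (φ : integralClosure ℤ ℂ →+* k) :
    ∃ (r : ℕ) (b : Basis (Fin r) ℤ (parabolicHoms ℤ (Gamma0 N) ℤ)) (w : Fin r → k), w ≠ 0 ∧
      ∀ (ℓ : ℕ) (hℓ : ℓ.Prime) (hℓN : ¬ ℓ ∣ N), ∃ a : integralClosure ℤ ℂ,
        (a : ℂ) = qCoeff g ℓ ∧
        ∀ i, ∑ j, ((b.repr (heckePar N hℓ hℓN ℤ ℤ (b j)) i : ℤ) : k) * w j = φ a * w i := by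
  have := FAH3.fg_Gamma0 N
  obtain ⟨r, b, w, hw, h⟩ := coh_core
    {γ : Gamma0 N | ((γ : SL(2, ℤ)) : Matrix (Fin 2) (Fin 2) ℤ).trace ^ 2 = 4}
    (parabolicHoms ℤ (Gamma0 N) ℤ) (fun χ => Iff.rfl)
    (I := {ℓ : ℕ // ℓ.Prime ∧ ¬ ℓ ∣ N}) (fun ℓ => Option (Fin ℓ.1))
    (fun ℓ m x => (hsys N ℓ.2.1 ℓ.2.2).kap x m)
    (fun ℓ => heckePar N ℓ.2.1 ℓ.2.2 ℤ ℤ)
    (fun ℓ χ x => by rw [coe_heckePar, HSys.heckeAdd_apply])
    (periodMap N g) (FAES.periodMap_mem_parabolicHoms g)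
    (periodMap_ne_zero (ne_zero_of_isNormalizedEigenform hg))
    (fun ℓ => qCoeff g ℓ.1) (fun ℓ x => heckeAdd_periodMap hg ℓ.2.1 ℓ.2.2 x) φ
  exact ⟨r, b, w, hw, fun ℓ hℓ hℓN => h ⟨ℓ, hℓ, hℓN⟩⟩

/-- **[COH]**, tensor form. -/
theorem COH_tensor {g : CuspForm (Gamma0 N) 2} (hg : g.IsNormalizedEigenform) {k : Type*}
    [Field k] (φ : integralClosure ℤ ℂ →+* k) :
    ∃ w : k ⊗[ℤ] (parabolicHoms ℤ (Gamma0 N) ℤ), w ≠ 0 ∧
      ∀ (ℓ : ℕ) (hℓ : ℓ.Prime) (hℓN : ¬ ℓ ∣ N), ∃ a : integralClosure ℤ ℂ,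
        (a : ℂ) = qCoeff g ℓ ∧ (heckePar N hℓ hℓN ℤ ℤ).baseChange k w = φ a • w := by
  classical
  obtain ⟨r, b, w, hw, h⟩ := COH hg φ
  refine ⟨(b.baseChange k).equivFun.symm w, ?_, fun ℓ hℓ hℓN => ?_⟩
  · intro h0
    apply hw
    have := congrArg (b.baseChange k).equivFun h0
    rwa [LinearEquiv.apply_symm_apply, map_zero] at this
  · obtain ⟨a, ha, hi⟩ := h ℓ hℓ hℓN
    refine ⟨a, ha, ?_⟩
    rw [Basis.equivFun_symm_apply, map_sum, Finset.smul_sum]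
    have h1 : ∀ j, (heckePar N hℓ hℓN ℤ ℤ).baseChange k (w j • (b.baseChange k) j) =
        ∑ i, (((b.repr (heckePar N hℓ hℓN ℤ ℤ (b j)) i : ℤ) : k) * w j) • (b.baseChange k) i := by
      intro j
      rw [map_smul, Basis.baseChange_apply, LinearMap.baseChange_tmul]
      conv_lhs => rw [← b.sum_repr (heckePar N hℓ hℓN ℤ ℤ (b j))]
      rw [TensorProduct.tmul_sum, Finset.smul_sum]
      refine Finset.sum_congr rfl fun i _ => ?_
      rw [Basis.baseChange_apply, TensorProduct.tmul_smul, mul_comm, mul_smul]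
      congr 1
      rw [← Int.cast_smul_eq_zsmul k]
    simp only [h1]
    rw [Finset.sum_comm]
    refine Finset.sum_congr rfl fun i _ => ?_
    rw [← Finset.sum_smul, hi i, mul_smul]

end FAG
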