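import Mathlib

/-!
# PROJECT G, [COH] part 2: the lattice of integral homomorphisms

`G` a finitely generated group, `P ⊆ G`.  The group of homomorphisms `G → ℤ` killing `P` has a
basis `χ i`, dual to elements `γ i` of `G`, which is also a `ℂ`-basis of the space of
homomorphisms `G → ℂ` killing `P`.
-/

set_option autoImplicit false

namespace FAG

open Module

theorem exists_dual_system {G : Type} [Group G] [Group.FG G] (P : Set G) :
    ∃ (r : ℕ) (γ : Fin r → G) (χ : Fin r → (Additive G →+ ℤ)),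
      (∀ i, ∀ x ∈ P, χ i (Additive.ofMul x) = 0) ∧
      (∀ i j, χ i (Additive.ofMul (γ j)) = if i = j then 1 else 0) ∧
      (∀ ψ : Additive G →+ ℂ, (∀ x ∈ P, ψ (Additive.ofMul x) = 0) →
        ∀ x, ψ x = ∑ i, (χ i x : ℂ) * ψ (Additive.ofMul (γ i))) := by
  classical
  let H : Type := {ψ : Additive G →+ ℂ // ∀ x ∈ P, ψ (Additive.ofMul x) = 0}
  let ev : Additive G →+ (H → ℂ) :=
    { toFun := fun x ψ => ψ.1 x
      map_zero' := by funext ψ; exact map_zero ψ.1
      map_add' := fun x y => by funext ψ; exact map_add ψ.1 x y }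
  let E : Submodule ℤ (H → ℂ) := AddSubgroup.toIntSubmodule ev.range
  have hmemE : ∀ x, ev x ∈ E := fun x => ⟨x, rfl⟩
  have hfg : AddGroup.FG ev.range := AddGroup.fg_range ev
  have hfin : Module.Finite ℤ E := Module.Finite.iff_addGroup_fg.2 hfg
  have hfree : Module.Free ℤ E := inferInstance
  let b := Module.finBasis ℤ E
  have hsurj : ∀ i, ∃ x : Additive G, ev x = (b i : H → ℂ) := fun i => (b i).2
  choose γ hγ using hsurj
  let χ : Fin (finrank ℤ E) → (Additive G →+ ℤ) := fun i =>
    { toFun := fun x => b.repr ⟨ev x, hmemE x⟩ i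
      map_zero' := by
        have : (⟨ev 0, hmemE 0⟩ : E) = 0 := Subtype.ext (map_zero ev)
        rw [this, map_zero]; rfl
      map_add' := fun x y => by
        have : (⟨ev (x + y), hmemE (x + y)⟩ : E) = ⟨ev x, hmemE x⟩ + ⟨ev y, hmemE y⟩ :=
          Subtype.ext (map_add ev x y)
        rw [this, map_add]; rfl }
  have hχ : ∀ i x, χ i x = b.repr ⟨ev x, hmemE x⟩ i := fun _ _ => rfl
  refine ⟨finrank ℤ E, fun i => Additive.toMul (γ i), χ, ?_, ?_, ?_⟩
  · intro i x hx
    have : (⟨ev (Additive.ofMul x), hmemE _⟩ : E) = 0 := by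
      apply Subtype.ext
      funext ψ
      exact ψ.2 x hx
    rw [hχ, this, map_zero]; rfl
  · intro i j
    have : (⟨ev (Additive.ofMul (Additive.toMul (γ j))), hmemE _⟩ : E) = b j :=
      Subtype.ext (hγ j)
    rw [hχ, this, b.repr_self, Finsupp.single_apply]
    simp only [eq_comm]
  · intro ψ hψ x
    have h1 := b.sum_repr ⟨ev x, hmemE x⟩
    have h2 := congrArg (fun e : E => (e : H → ℂ) ⟨ψ, hψ⟩) h1
    simp only [Submodule.coe_sum, Submodule.coe_smul, Finset.sum_apply, Pi.smul_apply] at h2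
    have h3 : ψ x = ev x ⟨ψ, hψ⟩ := rfl
    rw [h3, ← h2]
    refine Finset.sum_congr rfl fun i _ => ?_
    rw [← hγ i, zsmul_eq_mul, hχ]
    rfl

end FAG
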