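import Fermat.Agent.Gal.CohLA
import Fermat.Agent.Gal.CohLat

/-!
# PROJECT G, [COH] part 3: reduction of a complex eigenclass
-/

set_option autoImplicit false

namespace FAG

open Module TensorProduct

section

variable {G : Type} [Group G] [Group.FG G] (P : Set G) (Lam : Submodule ℤ (Additive G →+ ℤ))
  (hLam : ∀ χ : Additive G →+ ℤ, χ ∈ Lam ↔ ∀ x ∈ P, χ (Additive.ofMul x) = 0)

include hLam in
/-- a basis of the lattice, dual to group elements, which is also a basis of the complex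
homomorphisms. -/
theorem exists_basis_dual :
    ∃ (r : ℕ) (γ : Fin r → G) (b : Basis (Fin r) ℤ Lam),
      (∀ (χ : Lam) i, b.repr χ i = (χ : Additive G →+ ℤ) (Additive.ofMul (γ i))) ∧
      (∀ ψ : Additive G →+ ℂ, (∀ x ∈ P, ψ (Additive.ofMul x) = 0) →
        ∀ x, ψ x = ∑ i, (((b i : Lam) : Additive G →+ ℤ) x : ℂ) * ψ (Additive.ofMul (γ i))) := by
  classical
  obtain ⟨r, γ, χ, hχP, hχγ, hχψ⟩ := exists_dual_system P
  let χ' : Fin r → Lam := fun i => ⟨χ i, (hLam _).2 (hχP i)⟩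
  have hint : ∀ (ψ : Lam) x, (ψ : Additive G →+ ℤ) x =
      ∑ i, χ i x * (ψ : Additive G →+ ℤ) (Additive.ofMul (γ i)) := by
    intro ψ x
    have h1 := hχψ ((Int.castAddHom ℂ).comp (ψ : Additive G →+ ℤ)) (fun y hy => by
      simp [(hLam _).1 ψ.2 y hy]) x
    simp only [AddMonoidHom.coe_comp, Function.comp_apply, Int.coe_castAddHom] at h1
    exact_mod_cast h1
  let e : Lam ≃ₗ[ℤ] (Fin r → ℤ) :=
    { toFun := fun ψ i => (ψ : Additive G →+ ℤ) (Additive.ofMul (γ i))
      map_add' := fun ψ ψ' => rfl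
      map_smul' := fun n ψ => rfl
      invFun := fun n => ∑ i, n i • χ' i
      left_inv := by
        intro ψ
        apply Subtype.ext
        refine AddMonoidHom.ext fun x => ?_
        rw [hint ψ x]
        simp only [Submodule.coe_sum, Submodule.coe_smul, AddMonoidHom.finsetSum_apply,
          AddMonoidHom.coe_smul, Pi.smul_apply, smul_eq_mul, χ']
        exact Finset.sum_congr rfl fun i _ => mul_comm _ _
      right_inv := by
        intro n
        funext j
        simp only [Submodule.coe_sum, Submodule.coe_smul, AddMonoidHom.finsetSum_apply,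
          AddMonoidHom.coe_smul, Pi.smul_apply, smul_eq_mul, χ', hχγ]
        simp }
  refine ⟨r, γ, Basis.ofEquivFun e, fun χ i => rfl, fun ψ hψ x => ?_⟩
  rw [hχψ ψ hψ x]
  refine Finset.sum_congr rfl fun i _ => ?_
  have : (Basis.ofEquivFun e) i = χ' i := by
    rw [Basis.coe_ofEquivFun]
    show ∑ j, (Pi.single i (1 : ℤ) : Fin r → ℤ) j • χ' j = χ' i
    rw [Finset.sum_eq_single i]
    · simp
    · intro j _ hj
      simp [hj]
    · simp
  rw [this]

include hLam in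
/-- **[COH] core**: a complex eigenclass gives an eigenclass in `k ⊗ Lam`. -/
theorem coh_core {I : Type*} (ι : I → Type*) [∀ ℓ, Fintype (ι ℓ)] (κ : ∀ ℓ, ι ℓ → G → G)
    (T : I → Lam →ₗ[ℤ] Lam)
    (hT : ∀ ℓ (χ : Lam) x, (T ℓ χ : Additive G →+ ℤ) (Additive.ofMul x) =
      ∑ m, (χ : Additive G →+ ℤ) (Additive.ofMul (κ ℓ m x)))
    (c : Additive G →+ ℂ) (hcP : ∀ x ∈ P, c (Additive.ofMul x) = 0) (hc0 : c ≠ 0)
    (a : I → ℂ) (hc : ∀ ℓ x, ∑ m, c (Additive.ofMul (κ ℓ m x)) = a ℓ * c (Additive.ofMul x))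
    {k : Type*} [Field k] (φ : integralClosure ℤ ℂ →+* k) :
    ∃ (r : ℕ) (b : Basis (Fin r) ℤ Lam) (w : Fin r → k), w ≠ 0 ∧
      ∀ ℓ, ∃ a' : integralClosure ℤ ℂ, (a' : ℂ) = a ℓ ∧
        ∀ i, ∑ j, ((b.repr (T ℓ (b j)) i : ℤ) : k) * w j = φ a' * w i := by
  classical
  obtain ⟨r, γ, b, hb, hbψ⟩ := exists_basis_dual P Lam hLam
  set z : Fin r → ℂ := fun i => c (Additive.ofMul (γ i)) with hz
  have hz0 : z ≠ 0 := by
    intro h0
    apply hc0
    refine AddMonoidHom.ext fun x => ?_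
    rw [hbψ c hcP x]
    simp only [AddMonoidHom.zero_apply]
    refine Finset.sum_eq_zero fun i _ => ?_
    have : c (Additive.ofMul (γ i)) = 0 := congrFun h0 i
    rw [this, mul_zero]
  -- the eigen-equation in coordinates
  have heq : ∀ ℓ i, ∑ j, ((b.repr (T ℓ (b j)) i : ℤ) : ℂ) * z j = a ℓ * z i := by
    intro ℓ i
    rw [hz]
    simp only
    rw [← hc ℓ (γ i)]
    have h1 : ∀ m, c (Additive.ofMul (κ ℓ m (γ i))) =
        ∑ j, (((b j : Lam) : Additive G →+ ℤ) (Additive.ofMul (κ ℓ m (γ i))) : ℂ) *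
          c (Additive.ofMul (γ j)) := fun m => hbψ c hcP _
    simp only [h1]
    rw [Finset.sum_comm]
    refine Finset.sum_congr rfl fun j _ => ?_
    rw [hb, hT, ← Finset.sum_mul]
    push_cast
    rfl
  have hint : ∀ ℓ, IsIntegral ℤ (a ℓ) := fun ℓ =>
    isIntegral_of_mulVec_eq (Matrix.of fun i j => b.repr (T ℓ (b j)) i) (a ℓ) z hz0 (heq ℓ)
  let a' : I → integralClosure ℤ ℂ := fun ℓ => ⟨a ℓ, hint ℓ⟩
  obtain ⟨w, hw0, hw⟩ := exists_common_kernel (algebraMap (integralClosure ℤ ℂ) ℂ)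
    Subtype.val_injective φ
    (fun (s : I × Fin r) j => ((b.repr (T s.1 (b j)) s.2 : ℤ) : integralClosure ℤ ℂ) -
      if j = s.2 then a' s.1 else 0) z hz0 (by
      rintro ⟨ℓ, i⟩
      simp only [map_sub, map_intCast, sub_mul, Finset.sum_sub_distrib]
      rw [heq ℓ i, sub_eq_zero, Finset.sum_eq_single i]
      · simp [a']
      · intro j _ hj
        simp [hj]
      · simp)
  refine ⟨r, b, w, hw0, fun ℓ => ⟨a' ℓ, rfl, fun i => ?_⟩⟩
  have h2 := hw (ℓ, i)
  simp only [map_sub, map_intCast, sub_mul, Finset.sum_sub_distrib] at h2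
  rw [sub_eq_zero] at h2
  rw [h2, Finset.sum_eq_single i]
  · simp
  · intro j _ hj
    simp [hj]
  · simp

end

end FAG
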