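import Mathlib

/-!
# PROJECT G, [COH] part 1: linear algebra

A homogeneous linear system with coefficients in a ring `R ⊆ L` which has a nonzero solution over
the field `L`, has a nonzero solution over every field `k` receiving a ring hom from `R`
(the vanishing of the maximal minors is preserved).
-/

set_option autoImplicit false

namespace FAG

open Matrix

theorem exists_ne_zero_of_det_eq_zero {k : Type*} [Field k] {r : ℕ} {S : Type*}
    (rows : S → Fin r → k)
    (hdet : ∀ f : Fin r → S, (Matrix.of fun a => rows (f a)).det = 0) :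
    ∃ w : Fin r → k, w ≠ 0 ∧ ∀ s, ∑ i, rows s i * w i = 0 := by
  classical
  set U : Submodule k (Fin r → k) := Submodule.span k (Set.range rows) with hU
  have hUtop : U ≠ ⊤ := by
    intro htop
    obtain ⟨b, hbsub, hbspan, hbli⟩ := exists_linearIndependent k (Set.range rows)
    have hbtop : ⊤ ≤ Submodule.span k (Set.range ((↑) : b → Fin r → k)) := by
      rw [Subtype.range_coe, hbspan, ← hU, htop]
    let B := Module.Basis.mk hbli hbtop
    have hfin : Finite b := Module.Finite.finite_basis B
    have hcard : Nat.card b = r := by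
      rw [← Module.finrank_eq_nat_card_basis B, Module.finrank_fin_fun]
    let e : Fin r ≃ b := (Finite.equivFinOfCardEq hcard).symm
    have hex : ∀ a : Fin r, ∃ s : S, rows s = (e a : Fin r → k) := fun a => hbsub (e a).2
    choose f hf using hex
    have hli : LinearIndependent k (Matrix.of fun a => rows (f a)).row := by
      have h1 : (Matrix.of fun a => rows (f a)).row = ((↑) : b → Fin r → k) ∘ e := by
        funext a
        exact hf a
      rw [h1]
      exact hbli.comp _ e.injective
    rw [Matrix.linearIndependent_rows_iff_isUnit, Matrix.isUnit_iff_isUnit_det, hdet f] at hli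
    exact not_isUnit_zero hli
  obtain ⟨g, hg0, hg⟩ := Submodule.exists_le_ker_of_lt_top U (lt_top_iff_ne_top.2 hUtop)
  have hgv : ∀ v : Fin r → k, g v = ∑ i, v i * g (Pi.single i 1) := by
    intro v
    rw [LinearMap.pi_apply_eq_sum_univ g v]
    refine Finset.sum_congr rfl fun i _ => ?_
    rw [smul_eq_mul]
    congr 2
    funext j
    simp [Pi.single_apply, eq_comm]
  refine ⟨fun i => g (Pi.single i 1), ?_, fun s => ?_⟩
  · intro h0
    apply hg0
    ext i
    have := congrFun h0 i
    simpa using this
  · rw [← hgv]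
    exact hg (Submodule.subset_span ⟨s, rfl⟩)

theorem exists_common_kernel {R L k : Type*} [CommRing R] [Field L] [Field k] (j : R →+* L)
    (hj : Function.Injective j) (φ : R →+* k) {r : ℕ} {S : Type*} (rows : S → Fin r → R)
    (z : Fin r → L) (hz : z ≠ 0) (hz0 : ∀ s, ∑ i, j (rows s i) * z i = 0) :
    ∃ w : Fin r → k, w ≠ 0 ∧ ∀ s, ∑ i, φ (rows s i) * w i = 0 := by
  classical
  have hdet : ∀ f : Fin r → S, (Matrix.of fun a => rows (f a)).det = 0 := by
    intro f
    apply hj
    rw [map_zero, RingHom.map_det]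
    apply Matrix.exists_mulVec_eq_zero_iff.1
    refine ⟨z, hz, ?_⟩
    funext a
    exact hz0 (f a)
  refine exists_ne_zero_of_det_eq_zero (fun s i => φ (rows s i)) fun f => ?_
  have h1 := congrArg φ (hdet f)
  rw [map_zero, RingHom.map_det] at h1
  exact h1

/-- an eigenvalue of an integer matrix is an algebraic integer. -/
theorem isIntegral_of_mulVec_eq {r : ℕ} (M : Matrix (Fin r) (Fin r) ℤ) (a : ℂ) (z : Fin r → ℂ)
    (hz : z ≠ 0) (h : ∀ i, ∑ j, (M i j : ℂ) * z j = a * z i) : IsIntegral ℤ a := by
  classical
  refine ⟨M.charpoly, M.charpoly_monic, ?_⟩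
  rw [Polynomial.eval₂_eq_eval_map, ← Matrix.charpoly_map, Matrix.eval_charpoly]
  apply Matrix.exists_mulVec_eq_zero_iff.1
  refine ⟨z, hz, ?_⟩
  funext i
  rw [Matrix.sub_mulVec]
  simp only [Pi.sub_apply, Pi.zero_apply]
  have h1 : (Matrix.scalar (Fin r) a *ᵥ z) i = a * z i := by
    simp [Matrix.scalar_apply, Matrix.mulVec_diagonal]
  have h2 : ((M.map (algebraMap ℤ ℂ)) *ᵥ z) i = ∑ j, (M i j : ℂ) * z j := by
    simp [Matrix.mulVec, dotProduct]
  rw [h1, h2, h i, sub_self]

end FAG
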