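import Mathlib

/-! PROJECT G, [COH] part (b): reduction of eigenvectors.  A linear system with coefficients in
`ℤ̄` which has a nonzero complex solution has a nonzero solution modulo every maximal ideal. -/

set_option autoImplicit false

namespace FAG

/-- a linear system over `k₁` with a nonzero solution in an extension field has a nonzero
solution in `k₁`. -/
theorem exists_solution_of_extension {k₁ κ : Type*} [Field k₁] [Field κ] [Algebra k₁ κ] {n : ℕ}
    {I : Type*} (M : I → Fin n → k₁) (x : Fin n → κ) (hx : x ≠ 0)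
    (h : ∀ i, ∑ j, algebraMap k₁ κ (M i j) * x j = 0) :
    ∃ y : Fin n → k₁, y ≠ 0 ∧ ∀ i, ∑ j, M i j * y j = 0 := by
  obtain ⟨j₀, hj₀⟩ := Function.ne_iff.mp hx
  obtain ⟨f, hf⟩ : ∃ f : κ →ₗ[k₁] k₁, f (x j₀) ≠ 0 := by
    by_contra hcon
    push Not at hcon
    exact hj₀ ((Module.forall_dual_apply_eq_zero_iff k₁ (x j₀)).mp hcon)
  refine ⟨fun j => f (x j), fun h0 => hf (congrFun h0 j₀), fun i => ?_⟩
  have h1 := congrArg f (h i)
  rw [map_zero, map_sum] at h1
  rw [← h1]
  refine Finset.sum_congr rfl fun j _ => ?_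
  rw [← Algebra.smul_def, map_smul, smul_eq_mul]

/-- in a valuation ring, a nonzero finite family can be scaled to be integral with one
coordinate equal to `1`. -/
theorem exists_scale_valuationSubring {K : Type*} [Field K] (B : ValuationSubring K) {n : ℕ}
    (v : Fin n → K) (hv : v ≠ 0) : ∃ j₀, v j₀ ≠ 0 ∧ ∀ j, v j / v j₀ ∈ B := by
  obtain ⟨j₁, hj₁⟩ := Function.ne_iff.mp hv
  have : Nonempty (Fin n) := ⟨j₁⟩
  obtain ⟨j₀, hj₀⟩ := Finite.exists_max (fun j => B.valuation (v j))
  have h0 : v j₀ ≠ 0 := by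
    intro h
    have h1 := hj₀ j₁
    rw [h, map_zero, le_zero_iff, map_eq_zero] at h1
    exact hj₁ h1
  refine ⟨j₀, h0, fun j => ?_⟩
  rw [← ValuationSubring.valuation_le_one_iff, map_div₀]
  exact div_le_one_of_le₀ (hj₀ j) zero_le

/-- **reduction of solutions of linear systems.** -/
theorem exists_solution_mod {K : Type*} [Field K] (A : Subring K) {n : ℕ} {I : Type*}
    (M : I → Fin n → A) (v : Fin n → K) (hv : v ≠ 0) (h : ∀ i, ∑ j, (M i j : K) * v j = 0)
    {k : Type*} [Field k] (φ : A →+* k) (hφ : (RingHom.ker φ).IsMaximal) :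
    ∃ w : Fin n → k, w ≠ 0 ∧ ∀ i, ∑ j, φ (M i j) * w j = 0 := by
  obtain ⟨B, hAB, hpB⟩ := Ideal.image_subset_nonunits_valuationSubring (RingHom.ker φ) hφ.ne_top
  obtain ⟨j₀, hj₀, hB⟩ := exists_scale_valuationSubring B v hv
  let _ : Field (A ⧸ RingHom.ker φ) := Ideal.Quotient.field _
  let ρ : A →+* IsLocalRing.ResidueField B :=
    (IsLocalRing.residue B).comp (Subring.inclusion hAB)
  have hρ : ∀ a ∈ RingHom.ker φ, ρ a = 0 := by
    intro a ha
    have h1 : (a : K) ∈ B.nonunits := hpB ⟨a, ha, rfl⟩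
    show IsLocalRing.residue B (Subring.inclusion hAB a) = 0
    rw [IsLocalRing.residue_eq_zero_iff]
    have h2 := (ValuationSubring.mem_nonunits_iff_exists_mem_maximalIdeal).mp h1
    obtain ⟨hb, hm⟩ := h2
    exact hm
  let _ : Algebra (A ⧸ RingHom.ker φ) (IsLocalRing.ResidueField B) :=
    (Ideal.Quotient.lift (RingHom.ker φ) ρ hρ).toAlgebra
  have halg : ∀ a : A, algebraMap (A ⧸ RingHom.ker φ) (IsLocalRing.ResidueField B)
      (Ideal.Quotient.mk _ a) = ρ a := fun a => Ideal.Quotient.lift_mk _ _ _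
  let x : Fin n → IsLocalRing.ResidueField B := fun j => IsLocalRing.residue B ⟨v j / v j₀, hB j⟩
  have hx : x ≠ 0 := by
    intro h0
    have h1 : x j₀ = 0 := congrFun h0 j₀
    have h2 : (⟨v j₀ / v j₀, hB j₀⟩ : B) = 1 := Subtype.ext (div_self hj₀)
    simp only [x, h2, map_one] at h1
    exact one_ne_zero h1
  obtain ⟨y, hy, hy2⟩ := exists_solution_of_extension
    (fun i j => Ideal.Quotient.mk (RingHom.ker φ) (M i j)) x hx (by
      intro i
      have e : ∑ j, (Subring.inclusion hAB (M i j) : B) * ⟨v j / v j₀, hB j⟩ = 0 := by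
        apply Subtype.ext
        have : ((∑ j, (Subring.inclusion hAB (M i j) : B) * ⟨v j / v j₀, hB j⟩ : B) : K) =
            ∑ j, (M i j : K) * (v j / v j₀) := by
          push_cast
          rfl
        rw [this]
        have h3 : ∑ j, (M i j : K) * (v j / v j₀) = (∑ j, (M i j : K) * v j) / v j₀ := by
          rw [Finset.sum_div]
          exact Finset.sum_congr rfl fun j _ => by rw [mul_div_assoc]
        rw [h3, h i, zero_div]
        rfl
      have e2 := congrArg (IsLocalRing.residue B) e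
      rw [map_zero, map_sum] at e2
      rw [← e2]
      refine Finset.sum_congr rfl fun j _ => ?_
      rw [halg, map_mul]
      rfl)
  let φb : (A ⧸ RingHom.ker φ) →+* k := Ideal.Quotient.lift (RingHom.ker φ) φ (fun a ha => ha)
  refine ⟨fun j => φb (y j), ?_, fun i => ?_⟩
  · intro h0
    apply hy
    funext j
    have : φb (y j) = 0 := congrFun h0 j
    exact (map_eq_zero φb).mp this
  · have h1 := congrArg φb (hy2 i)
    rw [map_zero, map_sum] at h1
    rw [← h1]
    refine Finset.sum_congr rfl fun j _ => ?_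
    rw [map_mul]
    rfl

/-- the kernel of a residue map of `ℤ̄` to a field of characteristic `p` is maximal. -/
theorem ker_isMaximal_of_charP {k : Type*} [Field k] (p : ℕ) [Fact p.Prime] [CharP k p]
    (φ : integralClosure ℤ ℂ →+* k) : (RingHom.ker φ).IsMaximal := by
  have hprime : (RingHom.ker φ).IsPrime := RingHom.ker_isPrime φ
  apply Ideal.isMaximal_of_isIntegral_of_isMaximal_comap (R := ℤ) (RingHom.ker φ)
  have h1 : (RingHom.ker φ).comap (algebraMap ℤ (integralClosure ℤ ℂ)) =
      Ideal.span {(p : ℤ)} := by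
    ext z
    rw [Ideal.mem_comap, RingHom.mem_ker, Ideal.mem_span_singleton, eq_intCast, map_intCast]
    exact CharP.intCast_eq_zero_iff k p z
  rw [h1]
  exact Int.ideal_span_isMaximal_of_prime p

/-- **reduction of eigenvectors.** -/
theorem exists_eigen_mod {n : ℕ} {I : Type*} (T : I → Matrix (Fin n) (Fin n) ℤ)
    (a : I → integralClosure ℤ ℂ) (v : Fin n → ℂ) (hv : v ≠ 0)
    (hT : ∀ i m, ∑ j, (T i m j : ℂ) * v j = (a i : ℂ) * v m)
    {k : Type*} [Field k] (φ : integralClosure ℤ ℂ →+* k) (hφ : (RingHom.ker φ).IsMaximal) :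
    ∃ w : Fin n → k, w ≠ 0 ∧ ∀ i m, ∑ j, (T i m j : k) * w j = φ (a i) * w m := by
  classical
  obtain ⟨w, hw, h⟩ := exists_solution_mod (integralClosure ℤ ℂ).toSubring
    (I := I × Fin n) (fun im j => ((T im.1 im.2 j : ℤ) : integralClosure ℤ ℂ) -
      if j = im.2 then a im.1 else 0) v hv (by
      rintro ⟨i, m⟩
      have e : ∀ j, (((((T i m j : ℤ) : integralClosure ℤ ℂ) - if j = m then a i else 0 :
          integralClosure ℤ ℂ) : ℂ)) * v j =
          (T i m j : ℂ) * v j - if j = m then (a i : ℂ) * v j else 0 := by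
        intro j
        split_ifs <;> simp [sub_mul]
      show ∑ j, (((((T i m j : ℤ) : integralClosure ℤ ℂ) - if j = m then a i else 0 :
          integralClosure ℤ ℂ) : ℂ)) * v j = 0
      rw [Finset.sum_congr rfl fun j _ => e j, Finset.sum_sub_distrib, hT i m]
      simp) φ hφ
  refine ⟨w, hw, fun i m => ?_⟩
  have h1 := h (i, m)
  have e : ∀ j, φ (((T i m j : ℤ) : integralClosure ℤ ℂ) - if j = m then a i else 0) * w j =
      (T i m j : k) * w j - if j = m then φ (a i) * w j else 0 := by
    intro j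
    split_ifs <;> simp [sub_mul]
  simp only at h1
  rw [Finset.sum_congr rfl fun j _ => e j, Finset.sum_sub_distrib] at h1
  simp only [Finset.sum_ite_eq', Finset.mem_univ, if_true] at h1
  exact sub_eq_zero.mp h1

end FAG
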