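/-
PROJECT G: shared definitions (Galois action on functions, the multiplicative Hecke operator).
-/
import Fermat.Agent.X0Genus.Theta
import Fermat.Prelude.Def_ModularCurve_HeckeOperator

set_option autoImplicit false

open AlgebraicCurve IntermediateField ModularCurve FA24

namespace FAG

/-- the absolute Galois group of `ℚ` -/
abbrev GQ : Type := Kb ≃ₐ[ℚ] Kb

/-- the Galois action on the function field of `X₀(N)` (on `q`-coefficients). -/
noncomputable def galF (N : ℕ) (σ : GQ) : FN N ≃+* FN N :=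
  arithmeticRingAut (modularFunctionFieldFull N) σ

theorem coe_galF (N : ℕ) (σ : GQ) (f : FN N) :
    ((galF N σ f : FN N) : LaurentSeries Kb) = coeffMap (σ : Kb →+* Kb) (f : LaurentSeries Kb) :=
  rfl

theorem galF_algebraMap (N : ℕ) (σ : GQ) (a : Kb) :
    galF N σ (algebraMap Kb (FN N) a) = algebraMap Kb (FN N) (σ a) :=
  arithmeticRingAut_algebraMap _ σ a

theorem galF_one (N : ℕ) (f : FN N) : galF N 1 f = f := by
  have := congrArg (fun g => SemilinearAut.toRingAut g f)
    (map_one (arithmeticGalois (L := Kb) (modularFunctionFieldFull N)))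
  exact this

theorem galF_mul (N : ℕ) (σ τ : GQ) (f : FN N) : galF N (σ * τ) f = galF N σ (galF N τ f) := by
  have := congrArg (fun g => SemilinearAut.toRingAut g f)
    (map_mul (arithmeticGalois (L := Kb) (modularFunctionFieldFull N)) σ τ)
  exact this

/-- orders are permuted by the Galois action -/
theorem ord_galF (N : ℕ) (σ : GQ) (P : Place Kb (FN N)) (f : FN N) :
    P.ord (galF N σ f) =
      ((arithmeticGalois (L := Kb) (modularFunctionFieldFull N) σ)⁻¹ • P).ord f := by
  set g := arithmeticGalois (L := Kb) (modularFunctionFieldFull N) σ with hg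
  have h := SemilinearAut.ord_smul g (g⁻¹ • P) f
  rw [smul_inv_smul] at h
  exact h

theorem dvd_ord_galF (N : ℕ) (σ : GQ) (p : ℤ) {f : FN N}
    (hf : ∀ P : Place Kb (FN N), p ∣ P.ord f) (P : Place Kb (FN N)) :
    p ∣ P.ord (galF N σ f) := by
  rw [ord_galF]
  exact hf _

/-- the multiplicative Hecke operator `f ↦ Nm_α (β f)`. -/
noncomputable def heckeM (N ℓ : ℕ) [NeZero N] [NeZero ℓ] : FN N →* FN N :=
  letI := algebraAlong (heckeAlphaBar Kb N ℓ)
  (Algebra.norm (FN N)).comp
    ((heckeBetaBar Kb N ℓ : FN N →+* FN (N * ℓ)) : FN N →* FN (N * ℓ))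

theorem heckeM_apply (N ℓ : ℕ) [NeZero N] [NeZero ℓ] (f : FN N) :
    heckeM N ℓ f = (letI := algebraAlong (heckeAlphaBar Kb N ℓ)
      Algebra.norm (FN N) (heckeBetaBar Kb N ℓ f)) := rfl

/-- the Hecke operator commutes with the Galois action. -/
theorem galF_heckeM (N ℓ : ℕ) [NeZero N] [NeZero ℓ] (σ : GQ) (f : FN N) :
    galF N σ (heckeM N ℓ f) = heckeM N ℓ (galF N σ f) := by
  let _ := algebraAlong (heckeAlphaBar Kb N ℓ)
  have h := Algebra.norm_eq_of_equiv_equiv (galF N σ) (galF (N * ℓ) σ) (by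
    refine RingHom.ext fun x => ?_
    apply Subtype.ext
    show ((heckeAlphaBar Kb N ℓ (galF N σ x) : FN (N * ℓ)) : LaurentSeries Kb) =
      ((galF (N * ℓ) σ (heckeAlphaBar Kb N ℓ x) : FN (N * ℓ)) : LaurentSeries Kb)
    rw [coe_heckeAlphaBar, coe_galF, coe_galF, coe_heckeAlphaBar]) (heckeBetaBar Kb N ℓ f)
  rw [heckeM_apply, heckeM_apply, h, RingEquiv.apply_symm_apply]
  congr 1
  apply Subtype.ext
  rw [coe_galF, coe_heckeBetaBar, coe_heckeBetaBar, coe_galF, coeffMap_qExpand]

end FAG
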