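/-
PROJECT G: the Frobenius on Laurent series in characteristic `ℓ`:
`x ^ ℓ = (coefficientwise Frobenius of x)(q ^ ℓ)`.
-/
import Fermat.Agent.Igusa.Leads
import Fermat.Prelude.Def_ModularCurve_X0ModL

set_option autoImplicit false

open ModularCurve

namespace FAG

theorem pow_char_eq_qExpand {k : Type*} [Field k] (ℓ : ℕ) [hℓ : Fact ℓ.Prime] [CharP k ℓ]
    (x : LaurentSeries k) :
    haveI : NeZero ℓ := ⟨hℓ.out.ne_zero⟩
    x ^ ℓ = qExpand k ℓ (coeffMap (frobenius k ℓ) x) := by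
  have : NeZero ℓ := ⟨hℓ.out.ne_zero⟩
  have hx := x.single_order_mul_powerSeriesPart
  set P := x.powerSeriesPart with hP
  have hx' : x = HahnSeries.single x.order 1 * HahnSeries.ofPowerSeries ℤ k P := hx.symm
  have h1 : P ^ ℓ = (PowerSeries.expand ℓ (NeZero.ne ℓ) P).map (frobenius k ℓ) :=
    (MvPowerSeries.map_frobenius_expand (R := k) ℓ (NeZero.ne ℓ) (f := P)).symm
  conv_lhs => rw [hx']
  conv_rhs => rw [hx']
  have h2 : frobenius k ℓ 1 = 1 := map_one _
  rw [mul_pow, HahnSeries.single_pow, one_pow, ← map_pow, h1, map_mul, map_mul, coeffMap_single,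
    h2, qExpand_single, coeffMap_ofPowerSeries, ← FAIg.ofPowerSeries_expand,
    PowerSeries.map_expand, nsmul_eq_mul]

end FAG
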