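/-
PROJECT G: level-independent compatibilities of the ring `WS` and the reduction `redFun`
with coefficientwise automorphisms (GAL) and with `q ↦ q ^ n` (COMP).
-/
import Fermat.Agent.Red.M1W
import Fermat.Agent.Maz.ValInt
import Fermat.Prelude.Thm_ModularCurve_coeffMap_qExpand
import Fermat.Prelude.Def_EllipticCurve_FrobeniusTrace

set_option autoImplicit false

open ModularCurve FA18.M1

namespace FAG

section Basic

variable {K : Type*} [Field K] {A : ValuationSubring K} {k : Type*} [Field k] {π : A →+* k}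

theorem redFun_one : redFun A π (1 : LaurentSeries K) = 1 := (redW A π).map_one

theorem redFun_mul {x y : LaurentSeries K} (hx : x ∈ WS A π) (hy : y ∈ WS A π) :
    redFun A π (x * y) = redFun A π x * redFun A π y :=
  (redW A π).map_mul ⟨x, hx⟩ ⟨y, hy⟩

theorem redFun_pow {x : LaurentSeries K} (hx : x ∈ WS A π) (n : ℕ) :
    redFun A π (x ^ n) = redFun A π x ^ n :=
  (redW A π).map_pow ⟨x, hx⟩ n

theorem redFun_inv {x : LaurentSeries K} (hx : x ∈ WS A π) (h0 : redFun A π x ≠ 0) :
    redFun A π x⁻¹ = (redFun A π x)⁻¹ := by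
  have hx0 : x ≠ 0 := by
    rintro rfl
    exact h0 (redW A π).map_zero
  have h1 := redFun_mul hx (inv_mem_of_redFun_ne_zero hx h0)
  rw [mul_inv_cancel₀ hx0, redFun_one] at h1
  exact eq_inv_of_mul_eq_one_right h1.symm

theorem coeffMap_injective {R S : Type*} [CommRing R] [CommRing S] (f : R →+* S)
    (hf : Function.Injective f) : Function.Injective (coeffMap f) := by
  intro x y h
  ext n
  apply hf
  have := congrArg (fun z => z.coeff n) h
  simpa using this

/-- (GAL) -/
theorem coeffMap_mem_WS (σ : K →+* K) (τ : k →+* k)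
    (hσ : ∀ a : A, ∃ h : σ (a : K) ∈ A, π ⟨σ (a : K), h⟩ = τ (π a)) {x : LaurentSeries K}
    (hx : x ∈ WS A π) :
    coeffMap σ x ∈ WS A π ∧ redFun A π (coeffMap σ x) = coeffMap τ (redFun A π x) := by
  obtain ⟨a, b, hb, h⟩ := hx
  let σA : A →+* A :=
    { toFun := fun a => ⟨σ (a : K), (hσ a).choose⟩
      map_one' := Subtype.ext (by simp)
      map_mul' := fun x y => Subtype.ext (by simp)
      map_zero' := Subtype.ext (by simp)
      map_add' := fun x y => Subtype.ext (by simp) }
  have h1 : ∀ y : LaurentSeries A, iotaA A (coeffMap σA y) = coeffMap σ (iotaA A y) := by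
    intro y
    rw [coeffMap_coeffMap, coeffMap_coeffMap]
    exact coeffMap_congr (RingHom.ext fun _ => rfl) y
  have h2 : ∀ y : LaurentSeries A, redA A π (coeffMap σA y) = coeffMap τ (redA A π y) := by
    intro y
    rw [coeffMap_coeffMap, coeffMap_coeffMap]
    exact coeffMap_congr (RingHom.ext fun a => (hσ a).choose_spec) y
  have hb' : redA A π (coeffMap σA b) ≠ 0 := by
    rw [h2]
    intro h0
    exact hb (coeffMap_injective τ τ.injective (by rw [h0, map_zero]))
  have h' : coeffMap σ x * iotaA A (coeffMap σA b) = iotaA A (coeffMap σA a) := by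
    rw [h1, h1, ← map_mul, h]
  refine ⟨⟨_, _, hb', h'⟩, ?_⟩
  rw [redFun_eq hb' h', redFun_eq hb h, h2, h2, map_div₀]

/-- (COMP) for `q ↦ q ^ n` -/
theorem qExpand_mem_WS (n : ℕ) [NeZero n] {x : LaurentSeries K} (hx : x ∈ WS A π) :
    qExpand K n x ∈ WS A π ∧ redFun A π (qExpand K n x) = qExpand k n (redFun A π x) := by
  obtain ⟨a, b, hb, h⟩ := hx
  have hb' : redA A π (qExpand A n b) ≠ 0 := by
    rw [coeffMap_qExpand]
    intro h0
    exact hb (qExpand_injective n (by rw [h0, map_zero]))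
  have h' : qExpand K n x * iotaA A (qExpand A n b) = iotaA A (qExpand A n a) := by
    rw [coeffMap_qExpand, coeffMap_qExpand, ← map_mul, h]
  refine ⟨⟨_, _, hb', h'⟩, ?_⟩
  rw [redFun_eq hb' h', redFun_eq hb h, coeffMap_qExpand, coeffMap_qExpand, map_div₀]

end Basic

section Translate

variable {K : Type*} [Field K] [Algebra ℚ K] {A : ValuationSubring K} {k : Type*} [Field k]
  {π : A →+* k}

theorem ker_eq_maximalIdeal (hπ : Function.Surjective π) :
    RingHom.ker π = IsLocalRing.maximalIdeal A :=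
  IsLocalRing.eq_maximalIdeal (RingHom.ker_isMaximal_of_surjective π hπ)

open scoped Pointwise in
theorem apply_mem_of_mem_decomposition {σ : K ≃ₐ[ℚ] K} (hσ : σ ∈ A.decompositionSubgroup ℚ)
    (a : A) : σ (a : K) ∈ A := by
  have h1 : σ • A = A := hσ
  have h2 : σ • (a : K) ∈ σ • A := ValuationSubring.smul_mem_pointwise_smul σ _ _ a.2
  rw [h1] at h2
  exact h2

/-- inertia acts trivially on the residue field -/
theorem hσ_of_mem_inertia (hπ : Function.Surjective π) {σ : K ≃ₐ[ℚ] K}
    (hσ : σ ∈ A.inertiaSubgroupIn ℚ) (a : A) :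
    ∃ h : (σ : K →+* K) (a : K) ∈ A, π ⟨(σ : K →+* K) (a : K), h⟩ = RingHom.id k (π a) := by
  obtain ⟨⟨σ', hdec⟩, hin, rfl⟩ := hσ
  have hmem : σ' (a : K) ∈ A := apply_mem_of_mem_decomposition hdec a
  refine ⟨hmem, ?_⟩
  have h1 : (⟨σ', hdec⟩ : A.decompositionSubgroup ℚ) • (IsLocalRing.residue A a) =
      IsLocalRing.residue A a := by
    have h2 : MulSemiringAction.toRingAut (A.decompositionSubgroup ℚ)
      (IsLocalRing.ResidueField A) ⟨σ', hdec⟩ = 1 := hin
    exact congrArg (fun e : RingAut (IsLocalRing.ResidueField A) => e (IsLocalRing.residue A a)) h2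
  rw [← IsLocalRing.ResidueField.residue_smul, ← sub_eq_zero, ← map_sub,
    IsLocalRing.residue_eq_zero_iff, ← ker_eq_maximalIdeal hπ, RingHom.mem_ker, map_sub,
    sub_eq_zero] at h1
  exact h1

/-- a Frobenius element acts as `x ↦ x ^ ℓ` on the residue field -/
theorem hσ_of_isFrobeniusAt (hπ : Function.Surjective π) {ℓ : ℕ} [Fact ℓ.Prime] [CharP k ℓ]
    {σ : K ≃ₐ[ℚ] K} (hσ : A.IsFrobeniusAt σ ℓ) (a : A) :
    ∃ h : (σ : K →+* K) (a : K) ∈ A, π ⟨(σ : K →+* K) (a : K), h⟩ = frobenius k ℓ (π a) := by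
  obtain ⟨hdec, hfr⟩ := hσ
  have hmem : σ (a : K) ∈ A := apply_mem_of_mem_decomposition hdec a
  refine ⟨hmem, ?_⟩
  have h1 := hfr (IsLocalRing.residue A a)
  rw [← IsLocalRing.ResidueField.residue_smul, ← map_pow, ← sub_eq_zero, ← map_sub,
    IsLocalRing.residue_eq_zero_iff, ← ker_eq_maximalIdeal hπ, RingHom.mem_ker, map_sub,
    sub_eq_zero, map_pow] at h1
  exact h1

end Translate

end FAG
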