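import Fermat.Agent.Gal.AL
import Fermat.Agent.X0Genus.Count
import Fermat.Agent.Igusa.DefsA

/-! PROJECT G, [HP]: the multiplicative Hecke operator `M f = Nm_α(β f)` and its `q`-expansion. -/

set_option autoImplicit false

open Polynomial IntermediateField ModularCurve AlgebraicCurve FAIg

noncomputable section

namespace FAG

/-- the norm along a homomorphism of fields. -/
def normAlong {K F F' : Type*} [Field K] [Field F] [Field F'] [Algebra K F] [Algebra K F']
    (φ : F →ₐ[K] F') : F' →* F :=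
  letI := algebraAlong φ
  Algebra.norm F

variable (K : Type*) [Field K] [Algebra ℚ K] (N ℓ : ℕ) [NeZero N] [NeZero ℓ]

/-- the multiplicative Hecke operator on functions. -/
def heckeMK : FK K N →* FK K N :=
  (normAlong (heckeAlphaBar K N ℓ)).comp (heckeBetaBar K N ℓ : FK K N →* FK K (N * ℓ))

lemma heckeMK_apply (f : FK K N) :
    heckeMK K N ℓ f = normAlong (heckeAlphaBar K N ℓ) (heckeBetaBar K N ℓ f) := rfl

variable {K N ℓ}

/-- **[HP]** -/
theorem qExpand_heckeMK (ι : K →+* ℂ) (hℓ : ℓ.Prime) (hℓN : ¬ ℓ ∣ N)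
    (hdeg : finrankAlong K (heckeAlphaBar K N ℓ) = ℓ + 1) (ζ : Kˣ) (hζ : IsPrimitiveRoot ζ ℓ)
    (f : FK K N) :
    qExpand K ℓ (heckeMK K N ℓ f : LaurentSeries K) =
      qExpand K ℓ (qExpand K ℓ (f : LaurentSeries K)) *
        ∏ b ∈ Finset.range ℓ, twistL (ζ ^ b) (f : LaurentSeries K) := by
  classical
  obtain ⟨w, hwα, hwβ, hww⟩ := exists_atkinLehner K ι N ℓ hℓ hℓN
  let _ := algebraAlong (heckeAlphaBar K N ℓ)
  have hfin : FiniteDimensional (FK K N) (FK K (N * ℓ)) :=
    Module.finite_of_finrank_pos (by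
      have : Module.finrank (FK K N) (FK K (N * ℓ)) = ℓ + 1 := hdeg
      omega)
  have hcharK : CharZero K := algebraRat.charZero K
  have hchar : CharZero (FK K N) :=
    charZero_of_injective_algebraMap (algebraMap K (FK K N)).injective
  have hsep : Algebra.IsSeparable (FK K N) (FK K (N * ℓ)) := inferInstance
  let vL : FK K (N * ℓ) →+* LaurentSeries K :=
    (laurentBaseChange K (modularFunctionFieldFull (N * ℓ))).val.toRingHom
  let φ : Option (Fin ℓ) → (FK K (N * ℓ) →+* LaurentSeries K) := fun o =>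
    match o with
    | none => (qExpand K ℓ).comp vL
    | some b => (twistL (ζ ^ (b : ℕ))).comp (vL.comp (w : FK K (N * ℓ) →+* FK K (N * ℓ)))
  have hφn : ∀ g, φ none g = qExpand K ℓ (g : LaurentSeries K) := fun g => rfl
  have hφs : ∀ (b : Fin ℓ) g, φ (some b) g = twistL (ζ ^ (b : ℕ)) (w g : LaurentSeries K) :=
    fun b g => rfl
  have key : ∀ i z, φ i (heckeAlphaBar K N ℓ z) = qExpand K ℓ (z : LaurentSeries K) := by
    intro i z
    cases i with
    | none => rw [hφn, coe_heckeAlphaBar]
    | some b =>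
      rw [hφs, hwα, coe_heckeBetaBar, twistL_qExpand, ← pow_mul, mul_comm, pow_mul,
        hζ.pow_eq_one, one_pow, twistL_one]
  have hcard : Fintype.card (Option (Fin ℓ)) = Module.finrank (FK K N) (FK K (N * ℓ)) := by
    rw [Fintype.card_option, Fintype.card_fin]
    exact hdeg.symm
  have hagree : ∀ i j (z : FK K N), φ i (algebraMap (FK K N) (FK K (N * ℓ)) z) =
      φ j (algebraMap (FK K N) (FK K (N * ℓ)) z) := fun i j z => (key i z).trans (key j z).symm
  -- the test element
  have hℓ2 : ¬ (ℓ : ℤ) ∣ -1 := by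
    intro h
    have h1 : (ℓ : ℤ) ∣ 1 := by simpa using h
    have h2 : ℓ ∣ 1 := by exact_mod_cast h1
    exact hℓ.one_lt.ne' (Nat.dvd_one.1 h2)
  set j₀ : FK K N := JK K N (one_dvd N) with hj₀
  have hj₀c : (j₀ : LaurentSeries K).coeff (-1) = 1 := by
    rw [hj₀, coe_JK, qExpand_one_apply, coeffEmb_coeff, coeff_jq_neg_one, map_one]
  have htn : (φ none (heckeBetaBar K N ℓ j₀)).coeff (-1) = 0 := by
    rw [hφn]
    exact qExpand_coeff_of_not_dvd _ _ hℓ2
  have hts : ∀ b : Fin ℓ, (φ (some b) (heckeBetaBar K N ℓ j₀)).coeff (-1) =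
      (((ζ ^ (b : ℕ)) ^ (-1 : ℤ) : Kˣ) : K) := by
    intro b
    rw [hφs, hwβ, coe_heckeAlphaBar, coeff_twistL, hj₀c, mul_one]
  have hinj : Function.Injective φ := by
    intro a b hab
    have h1 := congrArg (fun ψ : FK K (N * ℓ) →+* LaurentSeries K =>
      (ψ (heckeBetaBar K N ℓ j₀)).coeff (-1)) hab
    cases a with
    | none =>
      cases b with
      | none => rfl
      | some b =>
        rw [htn, hts] at h1
        exact absurd h1.symm (Units.ne_zero _)
    | some a =>
      cases b with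
      | none =>
        rw [htn, hts] at h1
        exact absurd h1 (Units.ne_zero _)
      | some b =>
        rw [hts, hts] at h1
        have h2 : ζ ^ (a : ℕ) = ζ ^ (b : ℕ) := by
          have := Units.ext h1
          simpa using this
        have := hζ.pow_inj a.2 b.2 h2
        rw [Fin.ext this]
  have hmain := FA24.map_norm_eq_prod hcard φ hinj hagree none (heckeBetaBar K N ℓ f)
  rw [Fintype.prod_option] at hmain
  have h1 : φ none (algebraMap (FK K N) (FK K (N * ℓ))
      (Algebra.norm (FK K N) (heckeBetaBar K N ℓ f))) =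
      qExpand K ℓ (heckeMK K N ℓ f : LaurentSeries K) := key none _
  rw [h1, hφn, coe_heckeBetaBar] at hmain
  rw [hmain, ← Fin.prod_univ_eq_prod_range (fun b => twistL (ζ ^ b) (f : LaurentSeries K)) ℓ]
  congr 1
  refine Finset.prod_congr rfl fun b _ => ?_
  rw [hφs, hwβ, coe_heckeAlphaBar]

end FAG
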