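/-
PROJECT G, package [TG]: Theorem G at every level `N` prime to `ℓ`, in level-independent form
(`WS`, `redFun`), and the scaling lemma.
-/
import Fermat.Agent.Red.FinalA

set_option autoImplicit false

open AlgebraicCurve IntermediateField ModularCurve FA24 FA18 FA18.M1

namespace FAG

section TG

variable (N : ℕ) [NeZero N] {ℓ : ℕ} [Fact ℓ.Prime] (hℓN : ¬ ℓ ∣ N)
  (A : ValuationSubring Kb) (hA : A.LiesOverPrime ℓ)
  {k : Type} [Field k] (π : A →+* k) (hπ : Function.Surjective π)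

include hA hπ in
/-- Theorem G at a level divisible by the auxiliary level. -/
theorem TG_aux (hℓN : ¬ ℓ ∣ N) (hM : auxLevel ℓ ∣ N) (m : ℕ) (hm : ¬ ℓ ∣ m) (f : FN N)
    (hf : (f : LaurentSeries Kb) ∈ WS A π) (hred : redFun A π (f : LaurentSeries Kb) = 1)
    (hdiv : ∀ P : Place Kb (FN N), (m : ℤ) ∣ P.ord f) : ∃ s : FN N, s ^ m = f := by
  have hℓ : ℓ.Prime := Fact.out
  have : IsAlgClosed k := isAlgClosed_of_surj A π hπ
  obtain ⟨B, H⟩ := exists_hyp1 N hℓN A hA π hπ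
  have hfO : f ∈ H.redData.O := hf
  have hρ : H.redData.ρ ⟨f, hfO⟩ = 1 := by
    apply Subtype.ext
    have h1 : ((H.redData.ρ ⟨f, hfO⟩ : FbN k N) : LaurentSeries k) =
        redFun A π (f : LaurentSeries Kb) := H.coe_ρ ⟨f, hfO⟩
    rw [h1, hred, OneMemClass.coe_one]
  exact thmG H.redData isFF_FN (isFF_FbN N hℓN A hA π hπ) (gN N) (I2 N)
    (I3 N hℓN A hA π hπ hM) m (natCast_ne_zero_of_not_dvd hℓ hA π hπ hm) ⟨f, hfO⟩ hρ hdiv

include hℓN hA hπ in
/-- **[TG]** Theorem G at every level prime to `ℓ`. -/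
theorem TG (m : ℕ) (hm : ¬ ℓ ∣ m) (f : FN N)
    (hf : (f : LaurentSeries Kb) ∈ WS A π) (hred : redFun A π (f : LaurentSeries Kb) = 1)
    (hdiv : ∀ P : Place Kb (FN N), (m : ℤ) ∣ P.ord f) : ∃ s : FN N, s ^ m = f := by
  have hℓ : ℓ.Prime := Fact.out
  have : NeZero (Nat.lcm N (auxLevel ℓ)) :=
    ⟨Nat.lcm_ne_zero (NeZero.ne N) (auxLevel_ne_zero ℓ)⟩
  have hNN' : N ∣ Nat.lcm N (auxLevel ℓ) := Nat.dvd_lcm_left _ _
  obtain ⟨s, hs⟩ := TG_aux (Nat.lcm N (auxLevel ℓ)) A hA π hπ (not_dvd_lcm_auxLevel hℓ hℓN)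
    (Nat.dvd_lcm_right _ _) m hm (St2.incl hNN' f) (by rw [St2.coe_incl]; exact hf)
    (by rw [St2.coe_incl]; exact hred) (St2.dvd_ord_incl hNN' f m hdiv)
  have hs' : (s : LaurentSeries Kb) ^ m = (f : LaurentSeries Kb) := by
    rw [← IntermediateField.coe_pow, hs, St2.coe_incl]
  exact St2.descend N hℓN m hm f (s : LaurentSeries Kb) s.2 hs'

include hℓN hA hπ in
/-- scaling: every non-zero function is a constant times a unit of `WS`. -/
theorem exists_scale_WS (f : FN N) (hf : f ≠ 0) :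
    ∃ c : Kb, c ≠ 0 ∧ ((algebraMap Kb (FN N) c * f : FN N) : LaurentSeries Kb) ∈ WS A π ∧
      redFun A π ((algebraMap Kb (FN N) c * f : FN N) : LaurentSeries Kb) ≠ 0 := by
  obtain ⟨B, H⟩ := exists_hyp1 N hℓN A hA π hπ
  obtain ⟨c, hc, h, hne⟩ := H.redData.scale f hf
  refine ⟨c, hc, h, fun h0 => hne ?_⟩
  apply Subtype.ext
  have h1 : ((H.redData.ρ ⟨_, h⟩ : FbN k N) : LaurentSeries k) =
      redFun A π ((algebraMap Kb (FN N) c * f : FN N) : LaurentSeries Kb) := H.coe_ρ ⟨_, h⟩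
  rw [h1, h0, ZeroMemClass.coe_zero]

end TG

end FAG
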