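/-
PROJECT G, package [CONG]: the Eichler–Shimura congruence for the multiplicative Hecke operator,
`red (M_ℓ f) = (red f)(q ^ ℓ) · Frob (red f)`.
-/
import Fermat.Agent.Gal.HP
import Fermat.Agent.Gal.TG
import Fermat.Agent.Gal.GalRed
import Fermat.Agent.Gal.FrobSer
import Fermat.Agent.Gal.Defs

set_option autoImplicit false

open AlgebraicCurve IntermediateField ModularCurve FA24 FA18 FA18.M1
open FAIg (twistL coeffMap_twistL twistL_injective twistL_one)

namespace FAG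

theorem finrankAlong_eq_finrank_fieldRange {K F F' : Type*} [Field K] [Field F] [Field F']
    [Algebra K F] [Algebra K F'] (φ : F →ₐ[K] F') :
    finrankAlong K φ = Module.finrank φ.fieldRange F' := by
  let _ := algebraAlong φ
  show Module.finrank F F' = _
  refine Algebra.finrank_eq_of_equiv_equiv (AlgEquiv.ofInjectiveField φ).toRingEquiv
    (RingEquiv.refl F') ?_
  ext x
  rfl

theorem finrankAlong_heckeAlphaBar (N : ℕ) [NeZero N] {ℓ : ℕ} [NeZero ℓ] (hℓ : ℓ.Prime)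
    (hℓN : ¬ ℓ ∣ N) : finrankAlong Kb (heckeAlphaBar Kb N ℓ) = ℓ + 1 := by
  rw [finrankAlong_eq_finrank_fieldRange]
  exact St2.finrank_range_incl ℓ hℓ hℓN

theorem heckeM_eq_heckeMK (N ℓ : ℕ) [NeZero N] [NeZero ℓ] : heckeM N ℓ = heckeMK Kb N ℓ := rfl

/-- **[HP]** over `ℚ̄`. -/
theorem qExpand_heckeM (N : ℕ) [NeZero N] {ℓ : ℕ} [NeZero ℓ] (hℓ : ℓ.Prime) (hℓN : ¬ ℓ ∣ N)
    (ζ : Kbˣ) (hζ : IsPrimitiveRoot ζ ℓ) (f : FN N) :
    qExpand Kb ℓ (heckeM N ℓ f : LaurentSeries Kb) =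
      qExpand Kb ℓ (qExpand Kb ℓ (f : LaurentSeries Kb)) *
        ∏ b ∈ Finset.range ℓ, twistL (ζ ^ b) (f : LaurentSeries Kb) :=
  qExpand_heckeMK iota hℓ hℓN (finrankAlong_heckeAlphaBar N hℓ hℓN) ζ hζ f

section Twist

variable {K : Type*} [Field K] {A : ValuationSubring K} {k : Type*} [Field k] {π : A →+* k}

/-- (COMP) for `q ↦ ξ q`, `ξ` a unit of `A`. -/
theorem twistL_mem_WS (ξ : Aˣ) {x : LaurentSeries K} (hx : x ∈ WS A π) :
    twistL (Units.map (A.subtype : A →* K) ξ) x ∈ WS A π ∧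
      redFun A π (twistL (Units.map (A.subtype : A →* K) ξ) x) =
        twistL (Units.map (π : A →* k) ξ) (redFun A π x) := by
  obtain ⟨a, b, hb, h⟩ := hx
  have hb' : redA A π (twistL ξ b) ≠ 0 := by
    rw [coeffMap_twistL]
    intro h0
    exact hb (twistL_injective _ (by rw [h0, map_zero]))
  have h' : twistL (Units.map (A.subtype : A →* K) ξ) x * iotaA A (twistL ξ b) =
      iotaA A (twistL ξ a) := by
    rw [coeffMap_twistL, coeffMap_twistL, ← map_mul, h]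
  refine ⟨⟨_, _, hb', h'⟩, ?_⟩
  rw [redFun_eq hb' h', redFun_eq hb h, coeffMap_twistL, coeffMap_twistL, map_div₀]

theorem prod_mem_WS {ι : Type*} (s : Finset ι) (x : ι → LaurentSeries K)
    (hx : ∀ i ∈ s, x i ∈ WS A π) :
    ∏ i ∈ s, x i ∈ WS A π ∧ redFun A π (∏ i ∈ s, x i) = ∏ i ∈ s, redFun A π (x i) := by
  classical
  induction s using Finset.induction_on with
  | empty => exact ⟨(WS A π).one_mem, by simpa using redFun_one⟩
  | insert i s hi ih =>
    obtain ⟨h1, h2⟩ := ih fun j hj => hx j (Finset.mem_insert_of_mem hj)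
    have h3 := hx i (Finset.mem_insert_self i s)
    rw [Finset.prod_insert hi, Finset.prod_insert hi]
    exact ⟨(WS A π).mul_mem h3 h1, by rw [redFun_mul h3 h1, h2]⟩

/-- a root of unity is a unit of any valuation ring. -/
theorem exists_unit_of_pow_eq_one (A : ValuationSubring K) (ζ : Kˣ) {n : ℕ} (hn : n ≠ 0)
    (h : ζ ^ n = 1) : ∃ ξ : Aˣ, Units.map (A.subtype : A →* K) ξ = ζ := by
  have key : ∀ η : Kˣ, η ^ n = 1 → (η : K) ∈ A := by
    intro η hη
    rcases A.mem_or_inv_mem (η : K) with h1 | h1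
    · exact h1
    · have h2 : (η : K) = ((η : K)⁻¹) ^ (n - 1) := by
        have h3 : (η : K) ^ n = 1 := by rw [← Units.val_pow_eq_pow_val, hη, Units.val_one]
        have h4 : (η : K) ^ (n - 1) * η = 1 := by
          rw [← pow_succ, Nat.sub_add_cancel (Nat.pos_of_ne_zero hn), h3]
        rw [inv_pow]
        exact eq_inv_of_mul_eq_one_right h4
      rw [h2]
      exact A.pow_mem h1 _
  have h1 := key ζ h
  have h2 := key ζ⁻¹ (by rw [inv_pow, h, inv_one])
  refine ⟨⟨⟨ζ, h1⟩, ⟨(ζ⁻¹ : Kˣ), h2⟩, Subtype.ext (by simp), Subtype.ext (by simp)⟩, ?_⟩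
  ext
  rfl

end Twist

section Cong

variable (N : ℕ) [NeZero N] {ℓ : ℕ} [hℓF : Fact ℓ.Prime] (hℓN : ¬ ℓ ∣ N)
  (A : ValuationSubring Kb) (hA : A.LiesOverPrime ℓ)
  {k : Type} [Field k] [CharP k ℓ] (π : A →+* k) (hπ : Function.Surjective π)

include hℓN hA hπ in
/-- **[CONG]** the Eichler–Shimura congruence for `M_ℓ`. -/
theorem CONG (f : FN N) (hf : (f : LaurentSeries Kb) ∈ WS A π)
    (hne : redFun A π (f : LaurentSeries Kb) ≠ 0) :
    haveI : NeZero ℓ := ⟨hℓF.out.ne_zero⟩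
    ((heckeM N ℓ f : FN N) : LaurentSeries Kb) ∈ WS A π ∧
      redFun A π ((heckeM N ℓ f : FN N) : LaurentSeries Kb) =
        qExpand k ℓ (redFun A π (f : LaurentSeries Kb)) *
          coeffMap (frobenius k ℓ) (redFun A π (f : LaurentSeries Kb)) := by
  have hℓ : ℓ.Prime := hℓF.out
  have : NeZero ℓ := ⟨hℓ.ne_zero⟩
  -- a primitive `ℓ`-th root of unity; it is a unit of `A` reducing to `1`
  obtain ⟨ζ0, hζ0⟩ : ∃ ζ : Kb, IsPrimitiveRoot ζ ℓ :=
    HasEnoughRootsOfUnity.exists_primitiveRoot Kb ℓ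
  obtain ⟨ζ, rfl⟩ := hζ0.isUnit hℓ.ne_zero
  have hζ : IsPrimitiveRoot ζ ℓ := IsPrimitiveRoot.coe_units_iff.1 hζ0
  obtain ⟨ξ, hξ⟩ := exists_unit_of_pow_eq_one A ζ hℓ.ne_zero hζ.pow_eq_one
  have hπξ : Units.map (π : A →* k) ξ = 1 := by
    have h1 : ξ ^ ℓ = 1 := by
      apply Units.map_injective (f := (A.subtype : A →* Kb)) Subtype.val_injective
      rw [map_pow, hξ, hζ.pow_eq_one, map_one]
    have h2 : (Units.map (π : A →* k) ξ) ^ ℓ = 1 := by rw [← map_pow, h1, map_one]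
    have h3 : ((Units.map (π : A →* k) ξ : kˣ) : k) ^ ℓ = 1 := by
      rw [← Units.val_pow_eq_pow_val, h2, Units.val_one]
    have h4 : frobenius k ℓ ((Units.map (π : A →* k) ξ : kˣ) : k) = frobenius k ℓ 1 := by
      rw [frobenius_def, h3, map_one]
    exact Units.ext (frobenius_inj k ℓ h4)
  have hHP := qExpand_heckeM N hℓ hℓN ζ hζ f
  set fb := redFun A π (f : LaurentSeries Kb) with hfb
  have htw : ∀ b ∈ Finset.range ℓ, twistL (ζ ^ b) (f : LaurentSeries Kb) ∈ WS A π ∧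
      redFun A π (twistL (ζ ^ b) (f : LaurentSeries Kb)) = fb := by
    intro b _
    have h := twistL_mem_WS (π := π) (ξ ^ b) hf
    rw [map_pow, map_pow, hξ, hπξ, one_pow, twistL_one] at h
    exact h
  obtain ⟨hP1, hP2⟩ := prod_mem_WS (π := π) (Finset.range ℓ)
    (fun b => twistL (ζ ^ b) (f : LaurentSeries Kb)) (fun b hb => (htw b hb).1)
  have hP3 : redFun A π (∏ b ∈ Finset.range ℓ, twistL (ζ ^ b) (f : LaurentSeries Kb)) = fb ^ ℓ := by
    rw [hP2, Finset.prod_congr rfl (fun b hb => (htw b hb).2), Finset.prod_const,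
      Finset.card_range]
  obtain ⟨hQ1, hQ2⟩ := qExpand_mem_WS (π := π) ℓ hf
  obtain ⟨hQ3, hQ4⟩ := qExpand_mem_WS (π := π) ℓ hQ1
  set g := heckeM N ℓ f with hg
  have hG1 : qExpand Kb ℓ (g : LaurentSeries Kb) ∈ WS A π := by
    rw [hHP]
    exact (WS A π).mul_mem hQ3 hP1
  have hG2 : redFun A π (qExpand Kb ℓ (g : LaurentSeries Kb)) =
      qExpand k ℓ (qExpand k ℓ fb * coeffMap (frobenius k ℓ) fb) := by
    rw [hHP, redFun_mul hQ3 hP1, hQ4, hQ2, hP3, pow_char_eq_qExpand, map_mul]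
  have hG3 : redFun A π (qExpand Kb ℓ (g : LaurentSeries Kb)) ≠ 0 := by
    rw [hG2]
    exact (map_ne_zero _).2 (mul_ne_zero ((map_ne_zero _).2 hne) ((map_ne_zero _).2 hne))
  -- descent along `q ↦ q ^ ℓ`
  have hg0 : g ≠ 0 := by
    intro h0
    apply hG3
    rw [h0, ZeroMemClass.coe_zero, map_zero]
    exact (redW A π).map_zero
  obtain ⟨c, hc, hc1, hc2⟩ := exists_scale_WS N hℓN A hA π hπ g hg0
  have hcoe : ((algebraMap Kb (FN N) c * g : FN N) : LaurentSeries Kb) =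
      HahnSeries.C c * (g : LaurentSeries Kb) := by
    rw [IntermediateField.coe_mul, IntermediateField.coe_algebraMap_apply,
      FA18.M1.algebraMap_eq_C']
  rw [hcoe] at hc1 hc2
  obtain ⟨hE1, hE2⟩ := qExpand_mem_WS (π := π) ℓ hc1
  have hE3 : redFun A π (qExpand Kb ℓ (HahnSeries.C c * (g : LaurentSeries Kb))) ≠ 0 := by
    rw [hE2]
    exact (map_ne_zero _).2 hc2
  have hG0 : qExpand Kb ℓ (g : LaurentSeries Kb) ≠ 0 := by
    intro h0
    apply hG3
    rw [h0]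
    exact (redW A π).map_zero
  have hcinv : (HahnSeries.C c⁻¹ : LaurentSeries Kb) ∈ WS A π := by
    have h := (WS A π).mul_mem hG1 (inv_mem_of_redFun_ne_zero hE1 hE3)
    rw [map_mul, qExpand_C, mul_inv, mul_comm (HahnSeries.C c)⁻¹, mul_inv_cancel_left₀ hG0,
      ← map_inv₀] at h
    exact h
  have hgW : (g : LaurentSeries Kb) ∈ WS A π := by
    have h := (WS A π).mul_mem hcinv hc1
    rwa [← mul_assoc, ← map_mul, inv_mul_cancel₀ hc, map_one, one_mul] at h
  refine ⟨hgW, ?_⟩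
  obtain ⟨-, hF⟩ := qExpand_mem_WS (π := π) ℓ hgW
  exact qExpand_injective ℓ (by rw [← hF, hG2])

end Cong

end FAG
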