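/-
PROJECT G: the mod `p` cyclotomic character at Frobenius and inertia.
-/
import Fermat.Agent.Gal.GalRed
import Fermat.Agent.Red.I3Of
import Fermat.Prelude.Def_ExtCitation_KummerBridge

set_option autoImplicit false

open ExtCitation FA24

namespace FAG

variable {p : ℕ} [Fact p.Prime]

theorem cyc_apply_root (σ : Kb ≃ₐ[ℚ] Kb) {ζ : Kb} (hζ : ζ ^ p = 1) :
    σ ζ = ζ ^ (cycloChar p σ : ZMod p).val := by
  have hp : p.Prime := Fact.out
  have : NeZero p := ⟨hp.ne_zero⟩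
  have h := modularCyclotomicCharacter.spec (L := Kb) (card_rootsOfUnity_eq_self p)
    (σ : Kb ≃+* Kb) (t := (rootsOfUnity.mkOfPowEq ζ hζ : Kbˣ)) (rootsOfUnity.mkOfPowEq ζ hζ).2
  have h' : σ ζ = ζ ^ ((modularCyclotomicCharacter Kb (card_rootsOfUnity_eq_self p)
      (σ : Kb ≃+* Kb) : (ZMod p)ˣ) : ZMod p).val := by simpa using h
  exact h'

theorem exists_primitive_root (p : ℕ) [Fact p.Prime] : ∃ ζ : Kb, IsPrimitiveRoot ζ p := by
  have hp : p.Prime := Fact.out
  have : NeZero p := ⟨hp.ne_zero⟩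
  have : NeZero (p : Kb) := ⟨Nat.cast_ne_zero.mpr hp.ne_zero⟩
  exact HasEnoughRootsOfUnity.exists_primitiveRoot Kb p

/-- in a field, an element `x ≠ 1` with `x ^ p = 1`: exponents are determined mod `p`. -/
theorem natCast_eq_of_pow_eq {F : Type*} [Field F] {x : F} (hx : x ^ p = 1) (hx1 : x ≠ 1)
    {a b : ℕ} (h : x ^ a = x ^ b) : (a : ZMod p) = (b : ZMod p) := by
  have hx0 : x ≠ 0 := by
    rintro rfl
    rw [zero_pow (Fact.out : p.Prime).ne_zero] at hx
    exact zero_ne_one hx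
  have h1 : (Units.mk0 x hx0) ^ a = (Units.mk0 x hx0) ^ b := Units.ext (by simpa using h)
  have h2 : orderOf (Units.mk0 x hx0) = p :=
    orderOf_eq_prime (Units.ext (by simpa using hx)) (fun h => hx1 (by simpa using congrArg Units.val h))
  rw [pow_eq_pow_iff_modEq, h2] at h1
  exact (ZMod.natCast_eq_natCast_iff a b p).2 h1

theorem cycloChar_eq_of_apply {σ : Kb ≃ₐ[ℚ] Kb} {ζ : Kb} (hζ : IsPrimitiveRoot ζ p) {n : ℕ}
    (h : σ ζ = ζ ^ n) : (cycloChar p σ : ZMod p) = (n : ZMod p) := by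
  have hp : p.Prime := Fact.out
  have : NeZero p := ⟨hp.ne_zero⟩
  rw [cyc_apply_root σ hζ.pow_eq_one] at h
  have := natCast_eq_of_pow_eq hζ.pow_eq_one (hζ.ne_one hp.one_lt) h
  rwa [ZMod.natCast_val, ZMod.cast_id] at this

theorem cycloChar_eq_one_of_fix {σ : Kb ≃ₐ[ℚ] Kb} {ζ : Kb} (hζ : IsPrimitiveRoot ζ p)
    (h : σ ζ = ζ) : cycloChar p σ = 1 := by
  apply Units.ext
  rw [cycloChar_eq_of_apply hζ (n := 1) (by rw [h, pow_one]), Nat.cast_one, Units.val_one]

section Red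

variable {ℓ : ℕ} [Fact ℓ.Prime] (hℓp : ℓ ≠ p) (A : ValuationSubring Kb) (hA : A.LiesOverPrime ℓ)

theorem root_mem {ζ : Kb} (hζ : ζ ^ p = 1) : ζ ∈ A := by
  have hp : p.Prime := Fact.out
  rw [← ValuationSubring.valuation_le_one_iff]
  by_contra h
  rw [not_le] at h
  have := one_lt_pow₀ h hp.ne_zero
  rw [← map_pow, hζ, map_one] at this
  exact lt_irrefl _ this

include hℓp hA in
theorem residue_root_ne_one {ζ : Kb} (hζ : IsPrimitiveRoot ζ p) :
    IsLocalRing.residue A ⟨ζ, root_mem A hζ.pow_eq_one⟩ ≠ 1 := by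
  have hp : p.Prime := Fact.out
  have hℓ : ℓ.Prime := Fact.out
  intro h1
  have : CharP (IsLocalRing.ResidueField A) ℓ :=
    FA18.charP_of_liesOver A hA (IsLocalRing.residue A) IsLocalRing.residue_surjective
  have h2 : Polynomial.aeval ζ (Polynomial.cyclotomic p ℤ) = 0 := by
    have := hζ.isRoot_cyclotomic hp.pos
    rw [Polynomial.IsRoot.def, ← Polynomial.map_cyclotomic_int, Polynomial.eval_map] at this
    exact this
  have h3 : Polynomial.aeval (⟨ζ, root_mem A hζ.pow_eq_one⟩ : A) (Polynomial.cyclotomic p ℤ) = 0 := by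
    apply Subtype.ext
    have := Polynomial.aeval_algHom_apply (Algebra.ofId A Kb |>.restrictScalars ℤ)
      (⟨ζ, root_mem A hζ.pow_eq_one⟩ : A) (Polynomial.cyclotomic p ℤ)
    exact this.symm.trans h2
  have h4 := congrArg (IsLocalRing.residue A) h3
  rw [map_zero, Polynomial.aeval_def, Polynomial.hom_eval₂, h1, Polynomial.eval₂_eq_eval_map,
    Polynomial.map_cyclotomic, Polynomial.eval_one_cyclotomic_prime,
    CharP.cast_eq_zero_iff (IsLocalRing.ResidueField A) ℓ] at h4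
  exact hℓp ((Nat.prime_dvd_prime_iff_eq hℓ hp).1 h4)

include hℓp hA in
/-- the cyclotomic character at a Frobenius element -/
theorem cycloChar_of_isFrobeniusAt {σ : Kb ≃ₐ[ℚ] Kb} (hσ : A.IsFrobeniusAt σ ℓ) :
    (cycloChar p σ : ZMod p) = (ℓ : ZMod p) := by
  have hp : p.Prime := Fact.out
  have : NeZero p := ⟨hp.ne_zero⟩
  have : CharP (IsLocalRing.ResidueField A) ℓ :=
    FA18.charP_of_liesOver A hA (IsLocalRing.residue A) IsLocalRing.residue_surjective
  obtain ⟨ζ, hζ⟩ := exists_primitive_root p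
  set ζA : A := ⟨ζ, root_mem A hζ.pow_eq_one⟩ with hζA
  obtain ⟨hm, h1⟩ := hσ_of_isFrobeniusAt (π := IsLocalRing.residue A)
    IsLocalRing.residue_surjective hσ ζA
  have h2 : (⟨(σ : Kb →+* Kb) (ζA : Kb), hm⟩ : A) = ζA ^ (cycloChar p σ : ZMod p).val :=
    Subtype.ext (cyc_apply_root σ hζ.pow_eq_one)
  rw [h2, map_pow, frobenius_def] at h1
  have h3 : (IsLocalRing.residue A ζA) ^ p = 1 := by
    rw [← map_pow]
    have : ζA ^ p = 1 := Subtype.ext hζ.pow_eq_one
    rw [this, map_one]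
  have := natCast_eq_of_pow_eq h3 (residue_root_ne_one hℓp A hA hζ) h1
  rwa [ZMod.natCast_val, ZMod.cast_id] at this

include hℓp hA in
/-- the cyclotomic character is unramified outside `p` -/
theorem cycloChar_of_mem_inertia {σ : Kb ≃ₐ[ℚ] Kb} (hσ : σ ∈ A.inertiaSubgroupIn ℚ) :
    cycloChar p σ = 1 := by
  have hp : p.Prime := Fact.out
  have : NeZero p := ⟨hp.ne_zero⟩
  obtain ⟨ζ, hζ⟩ := exists_primitive_root p
  set ζA : A := ⟨ζ, root_mem A hζ.pow_eq_one⟩ with hζA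
  obtain ⟨hm, h1⟩ := hσ_of_mem_inertia (π := IsLocalRing.residue A)
    IsLocalRing.residue_surjective hσ ζA
  have h2 : (⟨(σ : Kb →+* Kb) (ζA : Kb), hm⟩ : A) = ζA ^ (cycloChar p σ : ZMod p).val :=
    Subtype.ext (cyc_apply_root σ hζ.pow_eq_one)
  rw [h2, map_pow, RingHom.id_apply] at h1
  have h3 : (IsLocalRing.residue A ζA) ^ p = 1 := by
    rw [← map_pow]
    have : ζA ^ p = 1 := Subtype.ext hζ.pow_eq_one
    rw [this, map_one]
  have := natCast_eq_of_pow_eq (b := 1) h3 (residue_root_ne_one hℓp A hA hζ) (by rw [h1, pow_one])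
  rw [ZMod.natCast_val, ZMod.cast_id, Nat.cast_one] at this
  exact Units.ext this

end Red

end FAG
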