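/-
S37 (Eichler–Shimura relation), part 1: the boundedness principle.

Two positive homomorphisms `Div F → Div Fb` which multiply degrees by a constant and agree on
principal divisors agree on all divisors of degree `0`.
-/
import Fermat.Agent.Red.DeuringA
import Fermat.Prelude.Def_AlgebraicCurve_Correspondence

set_option autoImplicit false

open AlgebraicCurve FA18

namespace FAG

variable {K F k Fb : Type*} [Field K] [Field F] [Algebra K F] [Field k] [Field Fb] [Algebra k Fb]

/-- `D` is the divisor of the non-zero function `f`. -/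
def IsDivOf (D : Divisor K F) (f : F) : Prop := f ≠ 0 ∧ ∀ v : Place K F, D v = v.ord f

theorem IsDivOf.isPrincipal {D : Divisor K F} {f : F} (h : IsDivOf D f) : D.IsPrincipal :=
  ⟨f, h.1, h.2⟩

theorem IsDivOf.unique {D D' : Divisor K F} {f : F} (h : IsDivOf D f) (h' : IsDivOf D' f) :
    D = D' := by
  ext v
  rw [h.2, h'.2]

theorem IsDivOf.mul {D D' : Divisor K F} {f f' : F} (h : IsDivOf D f) (h' : IsDivOf D' f') :
    IsDivOf (D + D') (f * f') :=
  ⟨mul_ne_zero h.1 h'.1, fun v => by rw [Finsupp.add_apply, h.2, h'.2, v.ord_mul h.1 h'.1]⟩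

theorem IsDivOf.pow {D : Divisor K F} {f : F} (h : IsDivOf D f) (n : ℕ) :
    IsDivOf (n • D) (f ^ n) :=
  ⟨pow_ne_zero _ h.1, fun v => by
    rw [Finsupp.smul_apply, h.2, ← zpow_natCast, v.ord_zpow, nsmul_eq_mul]⟩

theorem IsDivOf.inv {D : Divisor K F} {f : F} (h : IsDivOf D f) : IsDivOf (-D) f⁻¹ :=
  ⟨inv_ne_zero h.1, fun v => by rw [Finsupp.neg_apply, h.2, v.ord_inv]⟩

theorem IsDivOf.smul_aut {D : Divisor K F} {f : F} (h : IsDivOf D f) (g : SemilinearAut K F) :
    IsDivOf (g • D) (g • f) := by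
  refine ⟨by simpa using h.1, fun w => ?_⟩
  rw [SemilinearAut.divisor_smul_apply, h.2 (g⁻¹ • w)]
  have h2 := SemilinearAut.ord_smul g (g⁻¹ • w) f
  rw [smul_inv_smul] at h2
  exact h2.symm

/-- A positive homomorphism of divisor groups multiplying degrees by `c`. -/
structure PosBdd (Ψ : Divisor K F →+ Divisor k Fb) (c : ℤ) : Prop where
  pos : ∀ D, 0 ≤ D → 0 ≤ Ψ D
  deg : ∀ D, Divisor.degree (Ψ D) = c * Divisor.degree D

theorem PosBdd.comp {k' Fb' : Type*} [Field k'] [Field Fb'] [Algebra k' Fb']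
    {Ψ : Divisor K F →+ Divisor k Fb} {Ψ' : Divisor k Fb →+ Divisor k' Fb'} {c c' : ℤ}
    (h' : PosBdd Ψ' c') (h : PosBdd Ψ c) : PosBdd (Ψ'.comp Ψ) (c' * c) where
  pos D hD := h'.pos _ (h.pos D hD)
  deg D := by rw [AddMonoidHom.comp_apply, h'.deg, h.deg, mul_assoc]

theorem PosBdd.add {Ψ Ψ' : Divisor K F →+ Divisor k Fb} {c c' : ℤ}
    (h : PosBdd Ψ c) (h' : PosBdd Ψ' c') : PosBdd (Ψ + Ψ') (c + c') where
  pos D hD := add_nonneg (h.pos D hD) (h'.pos D hD)
  deg D := by rw [AddMonoidHom.add_apply, map_add, h.deg, h'.deg, add_mul]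

theorem PosBdd.nsmul {Ψ : Divisor K F →+ Divisor k Fb} {c : ℤ}
    (h : PosBdd Ψ c) (n : ℕ) : PosBdd (n • Ψ) (n * c) where
  pos D hD := by
    rw [AddMonoidHom.nsmul_apply]
    exact nsmul_nonneg (h.pos D hD) n
  deg D := by rw [AddMonoidHom.nsmul_apply, map_nsmul, h.deg, nsmul_eq_mul, mul_assoc]

/-- the action of a semilinear automorphism on divisors -/
noncomputable def autDiv (g : SemilinearAut K F) : Divisor K F →+ Divisor K F :=
  DistribSMul.toAddMonoidHom (Divisor K F) g

@[simp] theorem autDiv_apply (g : SemilinearAut K F) (D : Divisor K F) : autDiv g D = g • D := rfl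

theorem posBdd_autDiv (g : SemilinearAut K F) : PosBdd (autDiv g) 1 where
  pos D hD := fun w => by
    rw [autDiv_apply, SemilinearAut.divisor_smul_apply]
    exact hD _
  deg D := by rw [autDiv_apply, SemilinearAut.degree_smul, one_mul]

theorem posBdd_mapDomain (h1 : ∀ v : Place K F, v.deg = 1) (h2 : ∀ v : Place k Fb, v.deg = 1)
    (r : Place K F → Place k Fb) :
    PosBdd (Finsupp.mapDomain.addMonoidHom r : Divisor K F →+ Divisor k Fb) 1 where
  pos D hD := by
    classical
    intro w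
    rw [Finsupp.mapDomain.addMonoidHom_apply, Finsupp.mapDomain, Finsupp.sum,
      Finsupp.finset_sum_apply]
    refine Finset.sum_nonneg fun v _ => ?_
    rw [Finsupp.single_apply]
    split_ifs
    · exact hD v
    · exact le_rfl
  deg D := by
    rw [Finsupp.mapDomain.addMonoidHom_apply, one_mul]
    induction D using Finsupp.induction_linear with
    | zero => simp
    | add f g hf hg => rw [Finsupp.mapDomain_add, map_add, map_add, hf, hg]
    | single v n =>
      rw [Finsupp.mapDomain_single, Divisor.degree_single, Divisor.degree_single, h1, h2]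

theorem apply_le_degree (h1 : ∀ v : Place K F, v.deg = 1) {D : Divisor K F} (hD : 0 ≤ D)
    (v : Place K F) : D v ≤ Divisor.degree D := by
  classical
  have h : Finsupp.single v (D v) ≤ D := by
    intro w
    rw [Finsupp.single_apply]
    split_ifs with hw
    · rw [hw]
    · exact hD w
  have := degree_mono' h1 h
  rwa [Divisor.degree_single, h1, Nat.cast_one, mul_one] at this

/-- **The boundedness principle.** -/
theorem eq_of_agree {gF cF : ℤ} (HF : RFacts K F gF cF) (hb1 : ∀ v : Place k Fb, v.deg = 1)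
    {Ψ₁ Ψ₂ : Divisor K F →+ Divisor k Fb} {c₁ c₂ : ℤ} (h₁ : PosBdd Ψ₁ c₁) (h₂ : PosBdd Ψ₂ c₂)
    (hag : ∀ D : Divisor K F, D.IsPrincipal → Ψ₁ D = Ψ₂ D) (D : Divisor K F)
    (hD : Divisor.degree D = 0) : Ψ₁ D = Ψ₂ D := by
  classical
  by_cases hne : Nonempty (Place K F)
  swap
  · rw [not_nonempty_iff] at hne
    rw [Subsingleton.elim D 0, map_zero, map_zero]
  obtain ⟨P₀⟩ := hne
  ext Q
  set n₀ : ℕ := gF.toNat with hn₀
  have hn₀' : gF ≤ n₀ := Int.self_le_toNat gF
  set a : ℤ := Ψ₁ D Q - Ψ₂ D Q with ha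
  set b : ℤ := n₀ * (Ψ₁ (Finsupp.single P₀ 1) Q - Ψ₂ (Finsupp.single P₀ 1) Q) with hb
  have key : ∀ n : ℕ, -(c₂ * n₀) ≤ n * a + b ∧ n * a + b ≤ c₁ * n₀ := by
    intro n
    set B : Divisor K F := n • D + n₀ • Finsupp.single P₀ 1 with hB
    have hdegB : Divisor.degree B = n₀ := by
      rw [hB, map_add, map_nsmul, map_nsmul, hD, Divisor.degree_single, HF.deg_one]
      simp
    have h1 := HF.riemann B
    rw [hdegB] at h1
    have h2 : 0 < Module.finrank K (riemannRochSpace B) := by
      have : (0 : ℤ) < (Module.finrank K (riemannRochSpace B) : ℤ) := by omega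
      exact_mod_cast this
    haveI := HF.finDim B
    obtain ⟨⟨f, hfB⟩, hf0⟩ := Module.finrank_pos_iff_exists_ne_zero.1 h2
    have hf : f ≠ 0 := fun h => hf0 (Subtype.ext h)
    obtain ⟨Df, hDf, hDf0⟩ := HF.exists_div f hf
    rw [mem_L_iff hf] at hfB
    have hE : 0 ≤ Df + B := by
      intro v
      have := hfB v
      rw [Finsupp.add_apply, hDf]
      simp only [Finsupp.coe_zero, Pi.zero_apply]
      omega
    have hdegE : Divisor.degree (Df + B) = n₀ := by rw [map_add, hDf0, hdegB, zero_add]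
    have e1 := apply_le_degree hb1 (h₁.pos _ hE) Q
    have e2 := apply_le_degree hb1 (h₂.pos _ hE) Q
    have p1 := h₁.pos _ hE Q
    have p2 := h₂.pos _ hE Q
    rw [h₁.deg, hdegE] at e1
    rw [h₂.deg, hdegE] at e2
    simp only [Finsupp.coe_zero, Pi.zero_apply] at p1 p2
    have hx : Ψ₁ (Df + B) Q - Ψ₂ (Df + B) Q = n * a + b := by
      rw [map_add, map_add, hag Df ⟨f, hf, hDf⟩, hB, map_add, map_add, map_nsmul, map_nsmul,
        map_nsmul, map_nsmul]
      simp only [Finsupp.add_apply, Finsupp.smul_apply, nsmul_eq_mul]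
      rw [ha, hb]
      ring
    constructor <;> omega
  have ha0 : a = 0 := by
    by_contra hne
    obtain ⟨l1, l2⟩ := key (b.natAbs + (c₁ * n₀).natAbs + (c₂ * n₀).natAbs + 1)
    push_cast at l1 l2
    rcases lt_or_gt_of_ne hne with h | h
    · have : (|b| + |c₁ * n₀| + |c₂ * n₀| + 1) * a ≤ -(|b| + |c₁ * n₀| + |c₂ * n₀| + 1) := by
        have hpos : 0 ≤ |b| + |c₁ * n₀| + |c₂ * n₀| + 1 := by positivity
        nlinarith
      have := le_abs_self b
      have := le_abs_self (c₂ * n₀)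
      have := abs_nonneg (c₁ * n₀)
      linarith
    · have : (|b| + |c₁ * n₀| + |c₂ * n₀| + 1) ≤ (|b| + |c₁ * n₀| + |c₂ * n₀| + 1) * a := by
        have hpos : 0 ≤ |b| + |c₁ * n₀| + |c₂ * n₀| + 1 := by positivity
        nlinarith
      have := neg_abs_le b
      have := le_abs_self (c₁ * n₀)
      have := abs_nonneg (c₂ * n₀)
      linarith
  rw [ha, sub_eq_zero] at ha0
  exact ha0

end FAG
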