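/-
S37 (Eichler–Shimura relation), part 2: from a "naive" specialisation map `sp0` (no Hecke structure
on the target) to the packaged form `IsSpecialization ∧ SpecialFibreRelation`.
-/
import Fermat.Prelude.Def_HeckeGalois_EichlerShimura

set_option autoImplicit false

open ModularCurve

namespace FAG

theorem specialization_of_sp0 {K L : Type*} [Field K] [Field L] [Algebra K L] (p : ℕ) (J : Type)
    [AddCommGroup J] [Module HeckeAlg J] [DistribMulAction (L ≃ₐ[K] L) J]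
    [SMulCommClass (L ≃ₐ[K] L) HeckeAlg J]
    (A : ValuationSubring L) (ℓ : ℕ) (hℓ : ℓ.Prime)
    {J₀ : Type*} [AddCommGroup J₀] (sp0 : J →+ J₀) (Φ : J₀ →+ J₀)
    (hI : ∀ σ ∈ A.inertiaSubgroupIn K, ∀ x : J, sp0 (σ • x) = sp0 x)
    (hFr : ∀ σ : L ≃ₐ[K] L, A.IsFrobeniusAt σ ℓ → ∀ x : J, sp0 (σ • x) = Φ (sp0 x))
    (hinj : ∀ x : J, (∃ n : ℕ, p ^ n • x = 0) → sp0 x = 0 → x = 0)
    (hES : ∀ z : J, Φ (sp0 (heckeGen ⟨ℓ, hℓ⟩ • z)) = Φ (Φ (sp0 z)) + ℓ • sp0 z) :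
    ∃ (J' : Type) (_ : AddCommGroup J') (_ : Module HeckeAlg J') (sp : J →+ J') (F : J' →+ J'),
      IsSpecialization (K := K) p J J' A ℓ sp F ∧ SpecialFibreRelation J' ℓ hℓ F := by
  have hc : ∀ (T : HeckeAlg) (σ : L ≃ₐ[K] L) (x : J), T • σ • x = σ • T • x :=
    fun T σ x => (smul_comm σ T x).symm
  let W : Submodule HeckeAlg J :=
    { carrier := {x | ∀ T : HeckeAlg, sp0 (T • x) = 0}
      zero_mem' := fun T => by rw [smul_zero, map_zero]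
      add_mem' := fun {x y} hx hy T => by rw [smul_add, map_add, hx T, hy T, add_zero]
      smul_mem' := fun c x hx T => by rw [← mul_smul]; exact hx _ }
  have hW : ∀ x : J, x ∈ W ↔ ∀ T : HeckeAlg, sp0 (T • x) = 0 := fun x => Iff.rfl
  have hin : ∀ σ ∈ A.inertiaSubgroupIn K, ∀ x : J, W.mkQ (σ • x) = W.mkQ x := by
    intro σ hσ x
    rw [← sub_eq_zero, ← map_sub, Submodule.mkQ_apply, Submodule.Quotient.mk_eq_zero, hW]
    intro T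
    rw [smul_sub, map_sub, hc, hI σ hσ, sub_self]
  have htor : ∀ x : J, (∃ n : ℕ, p ^ n • x = 0) → W.mkQ x = 0 → x = 0 := by
    intro x hx h1
    rw [Submodule.mkQ_apply, Submodule.Quotient.mk_eq_zero, hW] at h1
    have h2 := h1 1
    rw [one_smul] at h2
    exact hinj x hx h2
  by_cases hex : ∃ σ : L ≃ₐ[K] L, A.IsFrobeniusAt σ ℓ
  · obtain ⟨σ₀, hσ₀⟩ := hex
    let s₀ : J →ₗ[HeckeAlg] J := DistribMulAction.toLinearMap HeckeAlg J σ₀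
    have hs₀ : ∀ x, s₀ x = σ₀ • x := fun x => rfl
    have hstab : W ≤ W.comap s₀ := by
      intro x hx
      rw [Submodule.mem_comap, hW]
      intro T
      rw [hs₀, hc, hFr σ₀ hσ₀, (hW x).1 hx T, map_zero]
    let F : (J ⧸ W) →ₗ[HeckeAlg] (J ⧸ W) := W.mapQ W s₀ hstab
    have hF : ∀ x : J, F (W.mkQ x) = W.mkQ (σ₀ • x) := fun x => rfl
    refine ⟨J ⧸ W, inferInstance, inferInstance, W.mkQ.toAddMonoidHom, F.toAddMonoidHom, ?_, ?_⟩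
    · refine ⟨fun T x => ?_, hin, fun σ hσ x => ?_, htor⟩
      · exact map_smul W.mkQ T x
      · show W.mkQ (σ • x) = F (W.mkQ x)
        rw [hF, ← sub_eq_zero, ← map_sub, Submodule.mkQ_apply, Submodule.Quotient.mk_eq_zero, hW]
        intro T
        rw [smul_sub, map_sub, hc, hc, hFr σ hσ, hFr σ₀ hσ₀, sub_self]
    · intro y
      obtain ⟨x, rfl⟩ := W.mkQ_surjective y
      show F (F (W.mkQ x)) - heckeGen ⟨ℓ, hℓ⟩ • F (W.mkQ x) + ℓ • W.mkQ x = 0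
      rw [hF, hF, ← map_smul, ← map_nsmul, ← map_sub, ← map_add, Submodule.mkQ_apply,
        Submodule.Quotient.mk_eq_zero, hW]
      intro T
      have e1 : T • (σ₀ • σ₀ • x) = σ₀ • σ₀ • (T • x) := by
        rw [hc, hc]
      have e2 : T • (heckeGen ⟨ℓ, hℓ⟩ • (σ₀ • x)) = σ₀ • (heckeGen ⟨ℓ, hℓ⟩ • (T • x)) := by
        rw [smul_comm T (heckeGen ⟨ℓ, hℓ⟩), hc, hc]
      have e3 : T • (ℓ • x) = ℓ • (T • x) := smul_comm _ _ _
      rw [smul_add, smul_sub, e1, e2, e3, map_add, map_sub, map_nsmul, hFr σ₀ hσ₀, hFr σ₀ hσ₀,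
        hFr σ₀ hσ₀, hES]
      abel
  · -- no Frobenius element at `A`: use the companion matrix of `X ^ 2 - T_ℓ X + ℓ`
    let F : (J ⧸ W) × (J ⧸ W) →+ (J ⧸ W) × (J ⧸ W) :=
      AddMonoidHom.mk' (fun y => (-(ℓ • y.2), y.1 + heckeGen ⟨ℓ, hℓ⟩ • y.2)) (by
        intro a b
        refine Prod.ext ?_ ?_
        · show -(ℓ • (a.2 + b.2)) = -(ℓ • a.2) + -(ℓ • b.2)
          rw [smul_add, neg_add]
        · show (a.1 + b.1) + heckeGen ⟨ℓ, hℓ⟩ • (a.2 + b.2) =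
            (a.1 + heckeGen ⟨ℓ, hℓ⟩ • a.2) + (b.1 + heckeGen ⟨ℓ, hℓ⟩ • b.2)
          rw [smul_add]
          abel)
    have hF : ∀ y, F y = (-(ℓ • y.2), y.1 + heckeGen ⟨ℓ, hℓ⟩ • y.2) := fun y => rfl
    refine ⟨(J ⧸ W) × (J ⧸ W), inferInstance, inferInstance,
      (AddMonoidHom.inl (J ⧸ W) (J ⧸ W)).comp W.mkQ.toAddMonoidHom, F, ?_, ?_⟩
    · refine ⟨fun T x => ?_, fun σ hσ x => ?_, fun σ hσ x => absurd ⟨σ, hσ⟩ hex,
        fun x hx h0 => ?_⟩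
      · show ((W.mkQ (T • x), 0) : (J ⧸ W) × (J ⧸ W)) = T • (W.mkQ x, 0)
        rw [Prod.smul_mk, smul_zero, map_smul]
      · show ((W.mkQ (σ • x), 0) : (J ⧸ W) × (J ⧸ W)) = (W.mkQ x, 0)
        rw [hin σ hσ]
      · exact htor x hx (congrArg Prod.fst h0)
    · intro y
      rw [hF, hF]
      refine Prod.ext ?_ ?_
      · show -(ℓ • (y.1 + heckeGen ⟨ℓ, hℓ⟩ • y.2)) - heckeGen ⟨ℓ, hℓ⟩ • (-(ℓ • y.2)) + ℓ • y.1 = 0
        rw [smul_neg, smul_comm (heckeGen ⟨ℓ, hℓ⟩) ℓ, smul_add]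
        abel
      · show -(ℓ • y.2) + heckeGen ⟨ℓ, hℓ⟩ • (y.1 + heckeGen ⟨ℓ, hℓ⟩ • y.2) -
          heckeGen ⟨ℓ, hℓ⟩ • (y.1 + heckeGen ⟨ℓ, hℓ⟩ • y.2) + ℓ • y.2 = 0
        abel

end FAG
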