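/-
S37 (Eichler–Shimura relation), part 3: the reduction map of places (Deuring), in the
level-independent language `WS` / `redFun`.
-/
import Fermat.Agent.Gal.ES1
import Fermat.Agent.Gal.TG
import Fermat.Agent.Red.RSpecial

set_option autoImplicit false

open AlgebraicCurve IntermediateField ModularCurve FA24 FA18 FA18.M1

namespace FAG

/-- abstract form: the reduction of places attached to a `RedData` with "good reduction". -/
theorem exists_placeRed_abs {K k : Type*} [Field K] [Field k] [IsAlgClosed K] [IsAlgClosed k]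
    {A : ValuationSubring K} {π : A →+* k}
    {F Fb : Type*} [Field F] [Algebra K F] [Field Fb] [Algebra k Fb] (R : RedData A π F Fb)
    (hF : IsFF K F) (hFb : IsFF k Fb) (g : ℕ)
    (I2 : ∀ B : Divisor K F,
      Divisor.degree B + 1 - g ≤ (Module.finrank K (riemannRochSpace B) : ℤ))
    (I3 : ∃ S : Finset (Place k Fb), S.card = g ∧
      Module.finrank k (riemannRochSpace (sumDiv S)) = 1) :
    ∃ r : Place K F → Place k Fb, Function.Surjective r ∧
      ∀ x : R.O, R.ρ x ≠ 0 → ∀ D : Divisor K F, IsDivOf D (x : F) →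
        IsDivOf (Finsupp.mapDomain r D) (R.ρ x) := by
  obtain ⟨cF, HF⟩ := FAR.rfacts_of_isFF hF
  obtain ⟨cb, Hb⟩ := FAR.rfacts_of_isFF hFb
  obtain ⟨S, hS, hS1⟩ := I3
  have H : DeuringHyp K F k Fb R.O R.ρ g (FAR.gR hF) cF (FAR.gR hFb) cb :=
    { HF := HF
      Hb := Hb
      I2 := I2
      I3 := by
        have h1 := Hb.riemann (sumDiv S)
        rw [hS1, G4.sumDiv_eq_sumPts, G4.degree_sumPts Hb.deg_one, hS] at h1
        push_cast at h1
        omega
      surj := R.ρ_surj
      red := fun V hV => ⟨R.redSub V, fun _ => R.mem_redSub, R.finrank_redSub hF V hV⟩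
      FI := R.FI hF }
  have hne : Nonempty (Place K F) := (FAR.infinite_places hF).nonempty.to_type
  obtain ⟨r, hsurj, -, hR1⟩ := H.main (c0 := max (cb + g) (cb + 1)) (le_max_left _ _)
    (le_max_right _ _) hne
  refine ⟨r, hsurj, fun x hx D hD => ⟨hx, fun Q => ?_⟩⟩
  exact hR1 x ((R.isUnit_iff x).2 hx) D hD.2 Q

section Concrete

variable (M : ℕ) [NeZero M] {ℓ : ℕ} [Fact ℓ.Prime] (hℓM : ¬ ℓ ∣ M) (hM : auxLevel ℓ ∣ M)
  (A : ValuationSubring Kb) (hA : A.LiesOverPrime ℓ)
  {k : Type} [Field k] (π : A →+* k) (hπ : Function.Surjective π)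

/-- `fb` is the (non-zero) reduction of `f`. -/
def Red {N M : ℕ} (A : ValuationSubring Kb) {k : Type} [Field k] (π : A →+* k)
    (f : FN N) (fb : FbN k M) : Prop :=
  (f : LaurentSeries Kb) ∈ WS A π ∧ redFun A π (f : LaurentSeries Kb) = (fb : LaurentSeries k) ∧
    fb ≠ 0

include hℓM hM hA hπ in
/-- the reduction map of places at a level divisible by the auxiliary level. -/
theorem exists_placeRed :
    ∃ r : Place Kb (FN M) → Place k (FbN k M), Function.Surjective r ∧
      ∀ (f : FN M) (fb : FbN k M), Red A π f fb → ∀ D : Divisor Kb (FN M), IsDivOf D f →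
        IsDivOf (Finsupp.mapDomain r D) fb := by
  have : IsAlgClosed k := isAlgClosed_of_surj A π hπ
  obtain ⟨B, H⟩ := exists_hyp1 M hℓM A hA π hπ
  obtain ⟨r, hsurj, hr⟩ := exists_placeRed_abs H.redData isFF_FN (isFF_FbN M hℓM A hA π hπ) (gN M)
    (I2 M) (I3 M hℓM A hA π hπ hM)
  refine ⟨r, hsurj, fun f fb hred D hD => ?_⟩
  obtain ⟨hf, hfb, hne⟩ := hred
  have hfO : f ∈ H.redData.O := hf
  have hρ : H.redData.ρ ⟨f, hfO⟩ = fb := by
    apply Subtype.ext
    have h1 : ((H.redData.ρ ⟨f, hfO⟩ : FbN k M) : LaurentSeries k) =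
        redFun A π (f : LaurentSeries Kb) := H.coe_ρ ⟨f, hfO⟩
    rw [h1, hfb]
  have := hr ⟨f, hfO⟩ (by rw [hρ]; exact hne) D hD
  rwa [hρ] at this

include hℓM hA hπ in
/-- every non-zero function of the reduced field lifts. -/
theorem exists_lift_red (fb : FbN k M) (hfb : fb ≠ 0) : ∃ f : FN M, Red A π f fb := by
  obtain ⟨B, H⟩ := exists_hyp1 M hℓM A hA π hπ
  obtain ⟨x, hx⟩ := H.redData.ρ_surj fb
  refine ⟨x, x.2, ?_, hfb⟩
  have h1 : ((H.redData.ρ x : FbN k M) : LaurentSeries k) =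
      redFun A π ((x : FN M) : LaurentSeries Kb) := H.coe_ρ x
  rw [← h1, hx]

end Concrete

end FAG
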