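/-
S37 (Eichler–Shimura relation), part 4: the building blocks
(pull-back, push-forward, maps on `Pic0`, coefficientwise automorphisms of the reduced field).
-/
import Fermat.Agent.Gal.ES1
import Fermat.Agent.Red.ModDefs
import Fermat.Prelude.Def_ModularCurve_X0ModL

set_option autoImplicit false

open AlgebraicCurve IntermediateField ModularCurve FA18

namespace FAG

section Blocks

variable {K F F' : Type*} [Field K] [Field F] [Field F'] [Algebra K F] [Algebra K F']

theorem IsDivOf.const_mul {D : Divisor K F} {f : F} (h : IsDivOf D f) {c : K} (hc : c ≠ 0) :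
    IsDivOf D (algebraMap K F c * f) := by
  have hc' : algebraMap K F c ≠ 0 := by simpa using hc
  refine ⟨mul_ne_zero hc' h.1, fun v => ?_⟩
  rw [v.ord_mul hc' h.1, FAFF.ord_algebraMap, zero_add, h.2]

theorem IsDivOf.pullbackAlong [HasPrincipalDivisors K F'] (φ : F →ₐ[K] F')
    (hφ : φ.toRingHom.IsIntegral) {D : Divisor K F} {f : F} (h : IsDivOf D f) :
    IsDivOf (Divisor.pullbackAlong φ hφ D) (φ f) :=
  ⟨(_root_.map_ne_zero _).2 h.1, fun w => by
    rw [Divisor.pullbackAlong_apply, h.2, ← Place.ord_restrictAlong]⟩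

theorem posBdd_pullbackAlong [HasPrincipalDivisors K F'] (φ : F →ₐ[K] F')
    (hφ : φ.toRingHom.IsIntegral) (hFI : FundamentalIdentityAlong K φ hφ) :
    PosBdd (Divisor.pullbackAlong φ hφ) (finrankAlong K φ) where
  pos D hD := fun w => by
    rw [Divisor.pullbackAlong_apply]
    exact mul_nonneg (Int.natCast_nonneg _) (hD _)
  deg D := Divisor.degree_pullbackAlong φ hφ hFI D

theorem posBdd_pushforwardAlong (φ : F →ₐ[K] F') (hφ : φ.toRingHom.IsIntegral) :
    PosBdd (Divisor.pushforwardAlong φ hφ) 1 where
  pos D hD := by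
    classical
    rw [← Finsupp.sum_single D, Finsupp.sum, map_sum]
    refine Finset.sum_nonneg fun w _ => ?_
    rw [Divisor.pushforwardAlong_single]
    intro v
    rw [Finsupp.single_apply]
    split_ifs
    · exact mul_nonneg (hD w) (Int.natCast_nonneg _)
    · exact le_rfl
  deg D := by rw [Divisor.degree_pushforwardAlong, one_mul]

theorem posBdd_correspondence [HasPrincipalDivisors K F'] (φ ψ : F →ₐ[K] F')
    (hφ : φ.toRingHom.IsIntegral) (hψ : ψ.toRingHom.IsIntegral)
    (hFI : FundamentalIdentityAlong K φ hφ) :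
    PosBdd (Divisor.correspondence φ ψ hφ hψ) (1 * finrankAlong K φ) :=
  (posBdd_pushforwardAlong ψ hψ).comp (posBdd_pullbackAlong φ hφ hFI)

end Blocks

section Pic

variable {K F k Fb : Type*} [Field K] [Field F] [Algebra K F] [Field k] [Field Fb] [Algebra k Fb]

/-- the map induced on `Pic0` by a homomorphism of divisor groups. -/
noncomputable def pic0Map (Ψ : Divisor K F →+ Divisor k Fb)
    (hdeg : ∀ D, Divisor.degree D = 0 → Divisor.degree (Ψ D) = 0)
    (hprin : ∀ D : Divisor K F, D.IsPrincipal → (Ψ D).IsPrincipal) : Pic0 K F →+ Pic0 k Fb :=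
  QuotientAddGroup.map _ _
    ((Ψ.domRestrict (Divisor.degZero (K := K) (F := F))).codRestrict
      (Divisor.degZero (K := k) (F := Fb)) (fun D => hdeg D.1 D.2)) (by
    rintro ⟨D, hD0⟩ hD
    simp only [AddSubgroup.mem_addSubgroupOf] at hD ⊢
    exact hprin D hD)

theorem pic0Map_mk (Ψ : Divisor K F →+ Divisor k Fb)
    (hdeg : ∀ D, Divisor.degree D = 0 → Divisor.degree (Ψ D) = 0)
    (hprin : ∀ D : Divisor K F, D.IsPrincipal → (Ψ D).IsPrincipal)
    (D : Divisor.degZero (K := K) (F := F)) :
    pic0Map Ψ hdeg hprin (Pic0.mk D) = Pic0.mk ⟨Ψ D.1, hdeg D.1 D.2⟩ := rfl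

theorem pic0_mk_eq_zero_iff (D : Divisor.degZero (K := K) (F := F)) :
    Pic0.mk D = 0 ↔ (D : Divisor K F).IsPrincipal := by
  rw [Pic0.mk, QuotientAddGroup.eq_zero_iff, AddSubgroup.mem_addSubgroupOf]
  rfl

end Pic

section BarAut

variable {k : Type} [Field k] (M : ℕ)

theorem coeffMap_mem_FbN (s : k →+* k) {x : LaurentSeries k}
    (hx : x ∈ modularFunctionFieldFullC k M) : coeffMap s x ∈ modularFunctionFieldFullC k M := by
  rw [modularFunctionFieldFullC] at hx
  induction hx using IntermediateField.adjoin_induction with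
  | mem y hy =>
    obtain ⟨d, hd, hdM, rfl⟩ := hy
    rw [coeffMap_qExpand, coeffMap_jqModC]
    exact jqModCd_mem_full k M hdM
  | algebraMap a =>
    rw [coeffMap_algebraMap]
    exact (modularFunctionFieldFullC k M).algebraMap_mem _
  | add x y _ _ hx hy => rw [map_add]; exact add_mem hx hy
  | inv x _ hx => rw [map_inv₀]; exact inv_mem hx
  | mul x y _ _ hx hy => rw [map_mul]; exact mul_mem hx hy

/-- the ring automorphism of the reduced function field induced by an automorphism of `k`. -/
noncomputable def barRingAut (s : k ≃+* k) : FbN k M ≃+* FbN k M where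
  toFun x := ⟨coeffMap (s : k →+* k) (x : LaurentSeries k), coeffMap_mem_FbN M _ x.2⟩
  invFun x := ⟨coeffMap (s.symm : k →+* k) (x : LaurentSeries k), coeffMap_mem_FbN M _ x.2⟩
  left_inv x := Subtype.ext <| by
    show coeffMap (s.symm : k →+* k) (coeffMap (s : k →+* k) (x : LaurentSeries k))
      = (x : LaurentSeries k)
    rw [coeffMap_coeffMap,
      coeffMap_congr (g := RingHom.id k) (RingHom.ext fun a => s.symm_apply_apply a)
        (x : LaurentSeries k),
      coeffMap_id]
  right_inv x := Subtype.ext <| by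
    show coeffMap (s : k →+* k) (coeffMap (s.symm : k →+* k) (x : LaurentSeries k))
      = (x : LaurentSeries k)
    rw [coeffMap_coeffMap,
      coeffMap_congr (g := RingHom.id k) (RingHom.ext fun a => s.apply_symm_apply a)
        (x : LaurentSeries k),
      coeffMap_id]
  map_mul' x y :=
    Subtype.ext (map_mul (coeffMap (s : k →+* k)) (x : LaurentSeries k) (y : LaurentSeries k))
  map_add' x y :=
    Subtype.ext (map_add (coeffMap (s : k →+* k)) (x : LaurentSeries k) (y : LaurentSeries k))

/-- the semilinear automorphism of the reduced function field induced by an automorphism of `k`. -/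
noncomputable def barAut (s : k ≃+* k) : SemilinearAut k (FbN k M) :=
  ⟨(barRingAut M s, s), fun a => Subtype.ext (coeffMap_algebraMap (s : k →+* k) a)⟩

theorem coe_barAut_smul (s : k ≃+* k) (x : FbN k M) :
    ((barAut M s • x : FbN k M) : LaurentSeries k) =
      coeffMap (s : k →+* k) (x : LaurentSeries k) := rfl

end BarAut

end FAG
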