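/-
S37 (Eichler–Shimura relation), part 5: abstract comparison statements on `Div⁰` and `Pic0`,
deduced from identities between functions by the boundedness principle.
-/
import Fermat.Agent.Gal.ES4

set_option autoImplicit false

open AlgebraicCurve FA18

namespace FAG

variable {K F k Fb : Type*} [Field K] [Field F] [Algebra K F] [Field k] [Field Fb] [Algebra k Fb]

/-- `Ψ : Div F → Div Fb` is positive, multiplies degrees by `d`, and follows the "reduction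
relation" `Rd` on functions. -/
structure Track (Ψ : Divisor K F →+ Divisor k Fb) (Rd : F → Fb → Prop) (d : ℤ) : Prop where
  posBdd : PosBdd Ψ d
  scale : ∀ f : F, f ≠ 0 → ∃ c : K, c ≠ 0 ∧ ∃ fb : Fb, Rd (algebraMap K F c * f) fb
  track : ∀ f fb, Rd f fb → ∀ D, IsDivOf D f → IsDivOf (Ψ D) fb

namespace Track

variable {Ψ : Divisor K F →+ Divisor k Fb} {Rd : F → Fb → Prop} {d : ℤ} (H : Track Ψ Rd d)
include H

theorem hdeg (D : Divisor K F) (hD : Divisor.degree D = 0) : Divisor.degree (Ψ D) = 0 := by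
  rw [H.posBdd.deg, hD, mul_zero]

theorem hprin (D : Divisor K F) (hD : D.IsPrincipal) : (Ψ D).IsPrincipal := by
  obtain ⟨f, hf, hDf⟩ := hD
  obtain ⟨c, hc, fb, hfb⟩ := H.scale f hf
  exact (H.track _ _ hfb D (IsDivOf.const_mul ⟨hf, hDf⟩ hc)).isPrincipal

/-- the induced map on `Pic0`. -/
noncomputable def sp0 : Pic0 K F →+ Pic0 k Fb := pic0Map Ψ H.hdeg H.hprin

theorem sp0_mk (D : Divisor.degZero (K := K) (F := F)) :
    H.sp0 (Pic0.mk D) = Pic0.mk ⟨Ψ D.1, H.hdeg D.1 D.2⟩ := rfl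

variable {gF cF : ℤ} (HF : RFacts K F gF cF) (hb1 : ∀ v : Place k Fb, v.deg = 1)
include HF hb1

/-- (G) at the level of divisors. -/
theorem div_aut (g : SemilinearAut K F) (s : SemilinearAut k Fb)
    (h : ∀ f fb, Rd f fb → Rd (g • f) (s • fb)) (D : Divisor K F)
    (hD : Divisor.degree D = 0) : Ψ (g • D) = s • Ψ D := by
  have h1 : PosBdd (Ψ.comp (autDiv g)) (d * 1) := H.posBdd.comp (posBdd_autDiv g)
  have h2 : PosBdd ((autDiv s).comp Ψ) (1 * d) := (posBdd_autDiv s).comp H.posBdd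
  refine eq_of_agree HF hb1 h1 h2 ?_ D hD
  rintro E ⟨f, hf, hEf⟩
  obtain ⟨c, hc, fb, hfb⟩ := H.scale f hf
  have hE : IsDivOf E (algebraMap K F c * f) := IsDivOf.const_mul ⟨hf, hEf⟩ hc
  exact (H.track _ _ (h _ _ hfb) _ (hE.smul_aut g)).unique ((H.track _ _ hfb _ hE).smul_aut s)

/-- (G) at the level of `Pic0`. -/
theorem sp0_aut (g : SemilinearAut K F) (s : SemilinearAut k Fb)
    (h : ∀ f fb, Rd f fb → Rd (g • f) (s • fb)) (x : Pic0 K F) :
    H.sp0 (g • x) = s • H.sp0 x := by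
  obtain ⟨D, rfl⟩ := Pic0.mk_surjective x
  rw [SemilinearAut.pic0_smul_mk, sp0_mk, sp0_mk, SemilinearAut.pic0_smul_mk]
  exact congrArg Pic0.mk (Subtype.ext (H.div_aut HF hb1 g s h D.1 D.2))

/-- (E) at the level of divisors. -/
theorem div_ES (T : Divisor K F →+ Divisor K F) {t : ℤ} (hT : PosBdd T t) (Mf : F → F)
    (hTM : ∀ D f, IsDivOf D f → IsDivOf (T D) (Mf f)) (S : SemilinearAut k Fb) (ℓ : ℕ)
    (h : ∀ f fb, Rd f fb → ∃ hb, Rd (Mf f) hb ∧ S • hb = S • S • fb * fb ^ ℓ)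
    (D : Divisor K F) (hD : Divisor.degree D = 0) :
    S • Ψ (T D) = S • S • Ψ D + ℓ • Ψ D := by
  have h1 : PosBdd ((autDiv S).comp (Ψ.comp T)) (1 * (d * t)) :=
    (posBdd_autDiv S).comp (H.posBdd.comp hT)
  have h2 : PosBdd ((autDiv S).comp ((autDiv S).comp Ψ) + ℓ • Ψ) (1 * (1 * d) + ℓ * d) :=
    ((posBdd_autDiv S).comp ((posBdd_autDiv S).comp H.posBdd)).add (H.posBdd.nsmul ℓ)
  refine eq_of_agree HF hb1 h1 h2 ?_ D hD
  rintro E ⟨f, hf, hEf⟩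
  obtain ⟨c, hc, fb, hfb⟩ := H.scale f hf
  have hE : IsDivOf E (algebraMap K F c * f) := IsDivOf.const_mul ⟨hf, hEf⟩ hc
  obtain ⟨hb, hhb, heq⟩ := h _ _ hfb
  have e1 : IsDivOf (S • Ψ (T E)) (S • hb) := (H.track _ _ hhb _ (hTM _ _ hE)).smul_aut S
  have e0 : IsDivOf (Ψ E) fb := H.track _ _ hfb _ hE
  have e2 : IsDivOf (S • S • Ψ E + ℓ • Ψ E) (S • S • fb * fb ^ ℓ) :=
    ((e0.smul_aut S).smul_aut S).mul (e0.pow ℓ)
  rw [heq] at e1
  exact e1.unique e2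

/-- (E) at the level of `Pic0`. -/
theorem sp0_ES (T : Divisor K F →+ Divisor K F) {t : ℤ} (hT : PosBdd T t) (Mf : F → F)
    (hTM : ∀ D f, IsDivOf D f → IsDivOf (T D) (Mf f)) (S : SemilinearAut k Fb) (ℓ : ℕ)
    (h : ∀ f fb, Rd f fb → ∃ hb, Rd (Mf f) hb ∧ S • hb = S • S • fb * fb ^ ℓ)
    (Tp : Pic0 K F →+ Pic0 K F)
    (hTp : ∀ D : Divisor.degZero (K := K) (F := F), ∃ h0, Tp (Pic0.mk D) = Pic0.mk ⟨T D.1, h0⟩)
    (x : Pic0 K F) :
    S • H.sp0 (Tp x) = S • S • H.sp0 x + ℓ • H.sp0 x := by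
  obtain ⟨D, rfl⟩ := Pic0.mk_surjective x
  obtain ⟨h0, hTD⟩ := hTp D
  rw [hTD, sp0_mk, sp0_mk, SemilinearAut.pic0_smul_mk, SemilinearAut.pic0_smul_mk,
    SemilinearAut.pic0_smul_mk]
  have := H.div_ES HF hb1 T hT Mf hTM S ℓ h D.1 D.2
  have e : ∀ E : Divisor.degZero (K := k) (F := Fb), ℓ • Pic0.mk E = Pic0.mk (ℓ • E) := fun E => rfl
  rw [e, ← Pic0.mk_add]
  exact congrArg Pic0.mk (Subtype.ext this)

end Track

end FAG
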