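import Fermat.Agent.Gal.NF3
import Fermat.Agent.Gal.Defs
import Fermat.Agent.X0Genus.Degree
import Fermat.Prelude.Def_ModularCurve_HeckeOperatorTotal

/-!
# PROJECT G, [NF] part 4: the `Along` forms, and the Hecke correspondence
-/

set_option autoImplicit false

namespace FAG

open AlgebraicCurve IntermediateField FA24 FAR ModularCurve

section Along

variable {K F F' : Type*} [Field K] [Field F] [Field F'] [Algebra K F] [Algebra K F']

theorem finiteAlong_of_isFF (h : IsFF K F) (h' : IsFF K F') (φ : F →ₐ[K] F') :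
    FiniteAlong K φ := by
  let _ := algebraAlong φ
  have := isScalarTower_along φ
  exact finite_of_isFF h h'

theorem isIntegral_of_isFF (h : IsFF K F) (h' : IsFF K F') (φ : F →ₐ[K] F') :
    φ.toRingHom.IsIntegral := by
  let _ := algebraAlong φ
  have := isScalarTower_along φ
  have := finite_of_isFF h h'
  exact Algebra.IsIntegral.isIntegral (R := F) (A := F')

variable [IsAlgClosed K]

theorem fundamentalIdentityAlong_of_isFF (h : IsFF K F) (h' : IsFF K F') (φ : F →ₐ[K] F')
    (hφ : φ.toRingHom.IsIntegral) [HasPrincipalDivisors K F'] :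
    FundamentalIdentityAlong K φ hφ := by
  let _ := algebraAlong φ
  have := isScalarTower_along φ
  have := finite_of_isFF h h'
  exact fundamentalIdentity_of_isFF h

theorem normFormulaAlong_of_isFF [CharZero F] (h : IsFF K F) (φ : F →ₐ[K] F')
    (hfin : FiniteAlong K φ) : NormFormulaAlong K φ hfin := by
  let _ := algebraAlong φ
  have := isScalarTower_along φ
  have : Module.Finite F F' := hfin
  exact pushforwardNormFormula_of_isFF h

/-- `ord_v (N_φ f) = ∑_{w ∣ v} ord_w f`, `Along` form. -/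
theorem ord_norm_along [CharZero F] (h : IsFF K F) (h' : IsFF K F') (φ : F →ₐ[K] F')
    (hφ : φ.toRingHom.IsIntegral) [HasPrincipalDivisors K F'] (v : Place K F) (f : F')
    (hf : f ≠ 0) :
    v.ord (letI := algebraAlong φ; Algebra.norm F f) = ∑ w ∈ Place.fiberAlong φ hφ v, w.ord f := by
  let _ := algebraAlong φ
  have := isScalarTower_along φ
  have := finite_of_isFF h h'
  exact ord_norm h v f hf

omit [IsAlgClosed K] in
theorem norm_along_zero (h : IsFF K F) (h' : IsFF K F') (φ : F →ₐ[K] F') :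
    (letI := algebraAlong φ; Algebra.norm F (0 : F')) = 0 := by
  let _ := algebraAlong φ
  have := isScalarTower_along φ
  have := finite_of_isFF h h'
  exact Algebra.norm_zero

/-- a correspondence maps `div f` to `div (N_ψ (φ f))`. -/
theorem correspondence_apply_of_ord [CharZero F] (h : IsFF K F) (h' : IsFF K F')
    (φ ψ : F →ₐ[K] F') (hφ : φ.toRingHom.IsIntegral) (hψ : ψ.toRingHom.IsIntegral)
    [HasPrincipalDivisors K F'] (f : F) (hf : f ≠ 0) (D : Divisor K F)
    (hD : ∀ v, D v = v.ord f) (P : Place K F) :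
    Divisor.correspondence φ ψ hφ hψ D P =
      P.ord (letI := algebraAlong ψ; Algebra.norm F (φ f)) := by
  have hN := normFormulaAlong_of_isFF h ψ (finiteAlong_of_isFF h h' ψ)
  refine hN (φ f) ((_root_.map_ne_zero _).2 hf) _ (fun w => ?_) P
  rw [Divisor.pullbackAlong_apply, hD, ← Place.ord_restrictAlong]

end Along

section Hecke

variable (N ℓ : ℕ) [NeZero N] [NeZero ℓ]

theorem heckeAlphaBarIntegral : HeckeAlphaBarIntegral Kb N ℓ :=
  isIntegral_of_isFF isFF_FN isFF_FN _

theorem heckeBetaBarIntegral : HeckeBetaBarIntegral Kb N ℓ :=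
  isIntegral_of_isFF isFF_FN isFF_FN _

theorem hasPrincipalDivisors_FN : HasPrincipalDivisors Kb (FN N) :=
  hasPrincipalDivisors' isFF_FN

theorem heckeInputsAlong : HeckeInputsAlong Kb N ℓ :=
  ⟨heckeAlphaBarIntegral N ℓ, heckeBetaBarIntegral N ℓ, hasPrincipalDivisors_FN (N * ℓ),
    finiteAlong_of_isFF isFF_FN isFF_FN _,
    @fundamentalIdentityAlong_of_isFF _ _ _ _ _ _ _ _ _ isFF_FN isFF_FN _ _
      (hasPrincipalDivisors_FN (N * ℓ)),
    normFormulaAlong_of_isFF isFF_FN _ _⟩

/-- the order of `heckeM f` at a place. -/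
theorem ord_heckeM [HasPrincipalDivisors Kb (FN (N * ℓ))] (f : FN N) (hf : f ≠ 0)
    (P : Place Kb (FN N)) :
    P.ord (heckeM N ℓ f) =
      ∑ w ∈ Place.fiberAlong (heckeAlphaBar Kb N ℓ) (heckeAlphaBarIntegral N ℓ) P,
        (Place.ramificationIndexAlong (heckeBetaBar Kb N ℓ) w : ℤ) *
          (w.restrictAlong (heckeBetaBar Kb N ℓ) (heckeBetaBarIntegral N ℓ)).ord f := by
  rw [heckeM_apply, ord_norm_along isFF_FN isFF_FN _ (heckeAlphaBarIntegral N ℓ) P _
    ((_root_.map_ne_zero _).2 hf)]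
  exact Finset.sum_congr rfl fun w _ => Place.ord_restrictAlong _ _ w f

theorem dvd_ord_heckeM (p : ℤ) (f : FN N) (hf : ∀ P : Place Kb (FN N), p ∣ P.ord f)
    (P : Place Kb (FN N)) : p ∣ P.ord (heckeM N ℓ f) := by
  have := hasPrincipalDivisors_FN (N * ℓ)
  rcases eq_or_ne f 0 with rfl | hf0
  · have h0 : heckeM N ℓ (0 : FN N) = 0 := by
      rw [heckeM_apply, map_zero]
      exact norm_along_zero isFF_FN isFF_FN (heckeAlphaBar Kb N ℓ)
    rw [h0]
    simp
  · rw [ord_heckeM N ℓ f hf0 P]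
    exact Finset.dvd_sum fun w _ => Dvd.dvd.mul_left (hf _) _

/-- `T_ℓ (div f) = div (heckeM f)`. -/
theorem heckeDivBar_apply_of_ord [HasPrincipalDivisors Kb (FN (N * ℓ))]
    (hα : HeckeAlphaBarIntegral Kb N ℓ) (hβ : HeckeBetaBarIntegral Kb N ℓ)
    (f : FN N) (hf : f ≠ 0) (D : Divisor Kb (FN N)) (hD : ∀ v, D v = v.ord f)
    (P : Place Kb (FN N)) : heckeDivBar hα hβ D P = P.ord (heckeM N ℓ f) := by
  exact correspondence_apply_of_ord isFF_FN isFF_FN _ _ hβ hα f hf D hD P

end Hecke

end FAG
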