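/-
S37 (Eichler–Shimura relation), part 6: the naive specialisation map of `J₀(N)` at a place `A ∣ ℓ`
and its properties.
-/
import Fermat.Agent.Gal.ES3
import Fermat.Agent.Gal.ES5
import Fermat.Agent.Gal.NF4
import Fermat.Agent.Gal.FrobSer
import Fermat.Agent.Gal.GalRed

set_option autoImplicit false

open AlgebraicCurve IntermediateField ModularCurve FA24 FA18 FA18.M1

namespace FAG

section

variable (N M : ℕ) [NeZero N] [NeZero M] (hNM : N ∣ M) {ℓ : ℕ} [hℓ : Fact ℓ.Prime]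
  (hℓN : ¬ ℓ ∣ N) (hℓM : ¬ ℓ ∣ M) (hM : auxLevel ℓ ∣ M)
  (A : ValuationSubring Kb) (hA : A.LiesOverPrime ℓ)
  {k : Type} [Field k] (π : A →+* k) (hπ : Function.Surjective π)

include hNM hℓM hA hπ in
/-- the reduction of a function of level `N` lies in the reduced field of level `M`. -/
theorem exists_red_of_mem (f : FN N) (hf : (f : LaurentSeries Kb) ∈ WS A π)
    (hne : redFun A π (f : LaurentSeries Kb) ≠ 0) : ∃ fb : FbN k M, Red A π f fb := by
  obtain ⟨B, H⟩ := exists_hyp1 M hℓM A hA π hπ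
  have hfO : St2.incl hNM f ∈ H.redData.O := by
    show ((St2.incl hNM f : FN M) : LaurentSeries Kb) ∈ WS A π
    rw [St2.coe_incl]
    exact hf
  have h1 : ((H.redData.ρ ⟨_, hfO⟩ : FbN k M) : LaurentSeries k) =
      redFun A π ((St2.incl hNM f : FN M) : LaurentSeries Kb) := H.coe_ρ ⟨_, hfO⟩
  rw [St2.coe_incl] at h1
  refine ⟨H.redData.ρ ⟨_, hfO⟩, hf, h1.symm, fun h0 => hne ?_⟩
  rw [← h1, h0, ZeroMemClass.coe_zero]

include hNM hℓN hℓM hM hA hπ in
/-- the reduction of divisors `Div (X₀(N)) → Div (X₀(M) mod ℓ)`. -/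
theorem exists_track :
    ∃ (Ψ : Divisor Kb (FN N) →+ Divisor k (FbN k M)) (d : ℤ),
      Track Ψ (Red A π : FN N → FbN k M → Prop) d := by
  have : IsAlgClosed k := isAlgClosed_of_surj A π hπ
  have := hasPrincipalDivisors_FN M
  obtain ⟨r, -, hr⟩ := exists_placeRed M hℓM hM A hA π hπ
  have hι : (St2.incl hNM).toRingHom.IsIntegral := isIntegral_of_isFF isFF_FN isFF_FN _
  obtain ⟨cF, HF⟩ := FAR.rfacts_of_isFF (isFF_FN (N := M))
  obtain ⟨cb, Hb⟩ := FAR.rfacts_of_isFF (isFF_FbN M hℓM A hA π hπ)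
  refine ⟨(Finsupp.mapDomain.addMonoidHom r).comp (Divisor.pullbackAlong (St2.incl hNM) hι), _,
    (posBdd_mapDomain HF.deg_one Hb.deg_one r).comp (posBdd_pullbackAlong _ hι
      (fundamentalIdentityAlong_of_isFF isFF_FN isFF_FN _ hι)), fun f hf => ?_,
    fun f fb hfb D hD => ?_⟩
  · obtain ⟨c, hc, h1, h2⟩ := exists_scale_WS N hℓN A hA π hπ f hf
    exact ⟨c, hc, exists_red_of_mem N M hNM hℓM A hA π hπ _ h1 h2⟩
  · refine hr (St2.incl hNM f) fb ?_ _ (hD.pullbackAlong _ hι)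
    obtain ⟨h1, h2, h3⟩ := hfb
    exact ⟨by rw [St2.coe_incl]; exact h1, by rw [St2.coe_incl]; exact h2, h3⟩

variable {N M A π}
variable {Ψ : Divisor Kb (FN N) →+ Divisor k (FbN k M)} {d : ℤ}
  (H : Track Ψ (Red A π : FN N → FbN k M → Prop) d)

include hℓM hA hπ in
/-- inertia acts trivially after specialisation. -/
theorem sp0_inertia (σ : GQ) (hσ : σ ∈ A.inertiaSubgroupIn ℚ) (x : JZero N) :
    H.sp0 (σ • x) = H.sp0 x := by
  have : IsAlgClosed k := isAlgClosed_of_surj A π hπ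
  obtain ⟨cF, HF⟩ := FAR.rfacts_of_isFF (isFF_FN (N := N))
  obtain ⟨cb, Hb⟩ := FAR.rfacts_of_isFF (isFF_FbN M hℓM A hA π hπ)
  have h := H.sp0_aut HF Hb.deg_one (arithmeticGalois (modularFunctionFieldFull N) σ) 1
    (fun f fb hf => ?_) x
  · rw [one_smul] at h
    exact h
  · obtain ⟨h1, h2, h3⟩ := hf
    obtain ⟨e1, e2⟩ := coeffMap_mem_WS (σ : Kb →+* Kb) (RingHom.id k)
      (hσ_of_mem_inertia hπ hσ) h1
    rw [one_smul]
    refine ⟨e1, ?_, h3⟩
    rw [coeffMap_id] at e2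
    exact e2.trans h2

/-- the coefficientwise Frobenius of the reduced function field. -/
noncomputable def frobBar (k : Type) [Field k] (M ℓ : ℕ) [Fact ℓ.Prime] [CharP k ℓ]
    [PerfectRing k ℓ] : SemilinearAut k (FbN k M) := barAut M (frobeniusEquiv k ℓ)

theorem coe_frobBar_smul [CharP k ℓ] [PerfectRing k ℓ] (x : FbN k M) :
    ((frobBar k M ℓ • x : FbN k M) : LaurentSeries k) =
      coeffMap (frobenius k ℓ) (x : LaurentSeries k) := rfl

include hℓM hA hπ in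
/-- Frobenius elements act as the coefficientwise Frobenius after specialisation. -/
theorem sp0_frobenius [CharP k ℓ] [PerfectRing k ℓ] (σ : GQ) (hσ : A.IsFrobeniusAt σ ℓ)
    (x : JZero N) : H.sp0 (σ • x) = frobBar k M ℓ • H.sp0 x := by
  have : IsAlgClosed k := isAlgClosed_of_surj A π hπ
  obtain ⟨cF, HF⟩ := FAR.rfacts_of_isFF (isFF_FN (N := N))
  obtain ⟨cb, Hb⟩ := FAR.rfacts_of_isFF (isFF_FbN M hℓM A hA π hπ)
  refine H.sp0_aut HF Hb.deg_one (arithmeticGalois (modularFunctionFieldFull N) σ)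
    (frobBar k M ℓ) (fun f fb hf => ?_) x
  obtain ⟨h1, h2, h3⟩ := hf
  obtain ⟨e1, e2⟩ := coeffMap_mem_WS (σ : Kb →+* Kb) (frobenius k ℓ)
    (hσ_of_isFrobeniusAt hπ hσ) h1
  refine ⟨e1, ?_, by simpa using h3⟩
  rw [coe_frobBar_smul, ← h2]
  exact e2

end

end FAG
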