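/-
S37 (Eichler–Shimura relation), part 7: injectivity on prime-to-`ℓ` torsion and the
Eichler–Shimura relation for the naive specialisation map.
-/
import Fermat.Agent.Gal.ES6
import Fermat.Prelude.Def_ModularCurve_HeckeModule

set_option autoImplicit false

open AlgebraicCurve IntermediateField ModularCurve FA24 FA18 FA18.M1

namespace FAG

section

variable {N M : ℕ} [NeZero N] [NeZero M] (hNM : N ∣ M) {ℓ : ℕ} [hℓ : Fact ℓ.Prime]
  (hℓN : ¬ ℓ ∣ N) (hℓM : ¬ ℓ ∣ M) (hM : auxLevel ℓ ∣ M)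
  {A : ValuationSubring Kb} (hA : A.LiesOverPrime ℓ)
  {k : Type} [Field k] {π : A →+* k} (hπ : Function.Surjective π)
variable {Ψ : Divisor Kb (FN N) →+ Divisor k (FbN k M)} {d : ℤ}
  (H : Track Ψ (Red A π : FN N → FbN k M → Prop) d)

include hNM hℓN hℓM hM hA hπ in
/-- injectivity on prime-to-`ℓ` torsion. -/
theorem sp0_inj (hMeq : M = Nat.lcm N (auxLevel ℓ)) (m : ℕ) (hm : ¬ ℓ ∣ m) (x : JZero N)
    (hmx : m • x = 0) (hx : H.sp0 x = 0) : x = 0 := by
  have : IsAlgClosed k := isAlgClosed_of_surj A π hπ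
  have hm0 : m ≠ 0 := by
    rintro rfl
    exact hm (dvd_zero _)
  obtain ⟨D, rfl⟩ := Pic0.mk_surjective x
  have e : m • Pic0.mk D = Pic0.mk (m • D) := rfl
  rw [e, pic0_mk_eq_zero_iff] at hmx
  rw [Track.sp0_mk, pic0_mk_eq_zero_iff] at hx
  obtain ⟨f, hf, hDf⟩ := hmx
  obtain ⟨gb, hgb, hDg⟩ := hx
  obtain ⟨c, hc, fb, hfb⟩ := H.scale f hf
  set f' : FN N := algebraMap Kb (FN N) c * f with hf'
  have hD1 : IsDivOf (m • (D : Divisor Kb (FN N))) f' := IsDivOf.const_mul ⟨hf, hDf⟩ hc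
  have hD2 : IsDivOf (m • Ψ D.1) fb := by
    have := H.track _ _ hfb _ hD1
    rwa [map_nsmul] at this
  have hD3 : IsDivOf (m • Ψ D.1) (gb ^ m) := IsDivOf.pow ⟨hgb, hDg⟩ m
  -- `fb = a * gb ^ m` with `a` constant
  obtain ⟨a, ha⟩ : fb * (gb ^ m)⁻¹ ∈ Set.range (algebraMap k (FbN k M)) := by
    refine FAR.mem_range_of_ord_eq_zero (isFF_FbN M hℓM A hA π hπ) fun v => ?_
    rw [v.ord_mul hD2.1 (inv_ne_zero hD3.1), v.ord_inv, ← hD2.2, ← hD3.2, add_neg_cancel]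
  obtain ⟨e0, he0⟩ := IsAlgClosed.exists_pow_nat_eq a (Nat.pos_of_ne_zero hm0)
  set hb : FbN k M := algebraMap k (FbN k M) e0 * gb with hhb
  have hhbm : hb ^ m = fb := by
    rw [hhb, mul_pow, ← map_pow, he0, ha, inv_mul_cancel_right₀ hD3.1]
  have hhb0 : hb ≠ 0 := by
    intro h0
    rw [h0, zero_pow hm0] at hhbm
    exact hD2.1 hhbm.symm
  obtain ⟨h, hh1, hh2, -⟩ := exists_lift_red M hℓM A hA π hπ hb hhb0
  obtain ⟨hf1, hf2, hf3⟩ := hfb
  -- the quotient `u`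
  have hpw : ((h : LaurentSeries Kb)) ^ m ∈ WS A π := pow_mem hh1 m
  have hpr : redFun A π ((h : LaurentSeries Kb) ^ m) = (fb : LaurentSeries k) := by
    rw [redFun_pow hh1, hh2, ← hhbm, IntermediateField.coe_pow]
  have hfb0 : (fb : LaurentSeries k) ≠ 0 := fun h0 => hf3 (Subtype.ext h0)
  have hpr0 : redFun A π ((h : LaurentSeries Kb) ^ m) ≠ 0 := by rw [hpr]; exact hfb0
  set u : FN M := St2.incl hNM f' * (h ^ m)⁻¹ with hu
  have hucoe : (u : LaurentSeries Kb) = (f' : LaurentSeries Kb) * ((h : LaurentSeries Kb) ^ m)⁻¹ := by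
    rw [hu, IntermediateField.coe_mul, St2.coe_incl, IntermediateField.coe_inv,
      IntermediateField.coe_pow]
  have huW : (u : LaurentSeries Kb) ∈ WS A π := by
    rw [hucoe]
    exact mul_mem hf1 (inv_mem_of_redFun_ne_zero hpw hpr0)
  have hured : redFun A π (u : LaurentSeries Kb) = 1 := by
    rw [hucoe, redFun_mul hf1 (inv_mem_of_redFun_ne_zero hpw hpr0), redFun_inv hpw hpr0, hpr, hf2,
      mul_inv_cancel₀ hfb0]
  have hh0 : h ≠ 0 := by
    rintro rfl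
    apply hpr0
    rw [ZeroMemClass.coe_zero, zero_pow hm0]
    exact (redW A π).map_zero
  have hdiv : ∀ P : Place Kb (FN M), (m : ℤ) ∣ P.ord u := by
    intro P
    have h1 : (m : ℤ) ∣ P.ord (St2.incl hNM f') := by
      refine St2.dvd_ord_incl hNM f' m (fun Q => ?_) P
      rw [← hD1.2, Finsupp.smul_apply, nsmul_eq_mul]
      exact Dvd.intro _ rfl
    rw [hu, P.ord_mul ((_root_.map_ne_zero _).2 hD1.1) (inv_ne_zero (pow_ne_zero _ hh0)), P.ord_inv,
      ← zpow_natCast, P.ord_zpow]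
    exact dvd_add h1 ((dvd_neg).2 (Dvd.intro _ rfl))
  obtain ⟨s, hs⟩ := TG_aux M A hA π hπ hℓM hM m hm u huW hured hdiv
  have hsh : ((s * h : FN M) : LaurentSeries Kb) ^ m = (f' : LaurentSeries Kb) := by
    rw [← IntermediateField.coe_pow, mul_pow, hs, hu, inv_mul_cancel_right₀ (pow_ne_zero _ hh0),
      St2.coe_incl]
  obtain ⟨t, ht⟩ := St2.descend N hℓN m hm f' ((s * h : FN M) : LaurentSeries Kb)
    (hMeq ▸ (s * h : FN M).2) hsh
  have ht0 : t ≠ 0 := by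
    rintro rfl
    rw [zero_pow hm0] at ht
    exact hD1.1 ht.symm
  rw [pic0_mk_eq_zero_iff]
  refine ⟨t, ht0, fun v => ?_⟩
  have h1 := hD1.2 v
  rw [← ht, ← zpow_natCast, v.ord_zpow, Finsupp.smul_apply, nsmul_eq_mul] at h1
  exact mul_left_cancel₀ (by exact_mod_cast hm0) h1

/-- the statement of [CONG] for a given residue map. -/
def CongAt (N ℓ : ℕ) [NeZero N] [hℓ : Fact ℓ.Prime] (A : ValuationSubring Kb) {k : Type} [Field k]
    (π : A →+* k) [CharP k ℓ] : Prop :=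
  haveI : NeZero ℓ := ⟨hℓ.out.ne_zero⟩
  ∀ f : FN N, (f : LaurentSeries Kb) ∈ WS A π → redFun A π (f : LaurentSeries Kb) ≠ 0 →
    ((heckeM N ℓ f : FN N) : LaurentSeries Kb) ∈ WS A π ∧
      redFun A π ((heckeM N ℓ f : FN N) : LaurentSeries Kb) =
        qExpand k ℓ (redFun A π (f : LaurentSeries Kb)) *
          coeffMap (frobenius k ℓ) (redFun A π (f : LaurentSeries Kb))

include hNM hℓM hA hπ in
/-- the Eichler–Shimura relation. -/
theorem sp0_hecke [CharP k ℓ] [PerfectRing k ℓ] [NeZero ℓ] (hC : CongAt N ℓ A π) (x : JZero N) :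
    frobBar k M ℓ • H.sp0 (heckeOperatorAlong Kb N ℓ x) =
      frobBar k M ℓ • frobBar k M ℓ • H.sp0 x + ℓ • H.sp0 x := by
  have : IsAlgClosed k := isAlgClosed_of_surj A π hπ
  obtain ⟨cF, HF⟩ := FAR.rfacts_of_isFF (isFF_FN (N := N))
  obtain ⟨cb, Hb⟩ := FAR.rfacts_of_isFF (isFF_FbN M hℓM A hA π hπ)
  have := hasPrincipalDivisors_FN (N * ℓ)
  have hα := heckeAlphaBarIntegral N ℓ
  have hβ := heckeBetaBarIntegral N ℓ
  have hFI : FundamentalIdentityAlong Kb (heckeBetaBar Kb N ℓ) hβ :=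
    fundamentalIdentityAlong_of_isFF isFF_FN isFF_FN _ hβ
  have hfin : FiniteAlong Kb (heckeAlphaBar Kb N ℓ) := finiteAlong_of_isFF isFF_FN isFF_FN _
  have hN : NormFormulaAlong Kb (heckeAlphaBar Kb N ℓ) hfin := normFormulaAlong_of_isFF isFF_FN _ _
  rw [heckeOperatorAlong_eq hα hβ hFI hfin hN]
  refine H.sp0_ES HF Hb.deg_one (heckeDivBar hα hβ) (posBdd_correspondence _ _ hβ hα hFI)
    (heckeM N ℓ) (fun D f hD => ?_) (frobBar k M ℓ) ℓ (fun f fb hf => ?_) _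
    (fun D => ⟨_, Pic0.correspondence_mk _ _ hβ hα hFI hfin hN D⟩) x
  · refine ⟨?_, fun P => heckeDivBar_apply_of_ord N ℓ hα hβ f hD.1 D hD.2 P⟩
    exact ((IsUnit.mk0 f hD.1).map (heckeM N ℓ)).ne_zero
  · obtain ⟨h1, h2, h3⟩ := hf
    have hfb0 : (fb : LaurentSeries k) ≠ 0 := fun h0 => h3 (Subtype.ext h0)
    obtain ⟨e1, e2⟩ := hC f h1 (by rw [h2]; exact hfb0)
    rw [h2] at e2
    have hne : redFun A π ((heckeM N ℓ f : FN N) : LaurentSeries Kb) ≠ 0 := by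
      rw [e2]
      refine mul_ne_zero (fun h0 => hfb0 (qExpand_injective ℓ (by rw [h0, map_zero]))) ?_
      exact fun h0 => hfb0 (coeffMap_injective _ (frobenius k ℓ).injective (by rw [h0, map_zero]))
    obtain ⟨hb, hhb⟩ := exists_red_of_mem N M hNM hℓM A hA π hπ _ e1 hne
    refine ⟨hb, hhb, Subtype.ext ?_⟩
    rw [coe_frobBar_smul, ← hhb.2.1, e2, IntermediateField.coe_mul, IntermediateField.coe_pow,
      coe_frobBar_smul, coe_frobBar_smul, map_mul, coeffMap_qExpand, ← pow_char_eq_qExpand,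
      mul_comm]

end

end FAG
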