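/-
S37 (Eichler–Shimura relation), part 8: the final assembly.
-/
import Fermat.Agent.Gal.ES2
import Fermat.Agent.Gal.ES7
import Fermat.Agent.Gal.Cong

set_option autoImplicit false

open AlgebraicCurve IntermediateField ModularCurve FA24 FA18 FA18.M1

namespace FAG

set_option synthInstance.maxHeartbeats 400000 in
theorem specializationExists_JZero (N p : ℕ) [NeZero N] (hcomm : HeckeOperatorsCommuteBar N) :
    letI := heckeModuleBar N
    ∀ (_ : SMulCommClass (AlgebraicClosure ℚ ≃ₐ[ℚ] AlgebraicClosure ℚ) HeckeAlg (JZero N)),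
      SpecializationExists (K := ℚ) (L := AlgebraicClosure ℚ) N p (JZero N) := by
  letI := heckeModuleBar N
  intro _ ℓ hℓ hℓNp A hA
  haveI : Fact ℓ.Prime := ⟨hℓ⟩
  haveI : NeZero ℓ := ⟨hℓ.ne_zero⟩
  have hℓN : ¬ ℓ ∣ N := fun h => hℓNp (h.mul_right p)
  have hℓp : ¬ ℓ ∣ p := fun h => hℓNp (h.mul_left N)
  have hπ : Function.Surjective (IsLocalRing.residue A) := IsLocalRing.residue_surjective
  haveI : CharP (IsLocalRing.ResidueField A) ℓ := charP_of_liesOver A hA _ hπ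
  haveI : IsAlgClosed (IsLocalRing.ResidueField A) := isAlgClosed_of_surj A _ hπ
  haveI : PerfectRing (IsLocalRing.ResidueField A) ℓ := PerfectField.toPerfectRing ℓ
  haveI : NeZero (Nat.lcm N (auxLevel ℓ)) :=
    ⟨Nat.lcm_ne_zero (NeZero.ne N) (auxLevel_ne_zero ℓ)⟩
  have hNM : N ∣ Nat.lcm N (auxLevel ℓ) := Nat.dvd_lcm_left _ _
  have hℓM : ¬ ℓ ∣ Nat.lcm N (auxLevel ℓ) := not_dvd_lcm_auxLevel hℓ hℓN
  have hM : auxLevel ℓ ∣ Nat.lcm N (auxLevel ℓ) := Nat.dvd_lcm_right _ _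
  obtain ⟨Ψ, d, H⟩ := exists_track N (Nat.lcm N (auxLevel ℓ)) hNM hℓN hℓM hM A hA
    (IsLocalRing.residue A) hπ
  refine specialization_of_sp0 (K := ℚ) (L := AlgebraicClosure ℚ) p (JZero N) A ℓ hℓ H.sp0
    (DistribSMul.toAddMonoidHom _
      (frobBar (IsLocalRing.ResidueField A) (Nat.lcm N (auxLevel ℓ)) ℓ))
    (fun σ hσ x => sp0_inertia hℓM hA hπ H σ hσ x)
    (fun σ hσ x => sp0_frobenius hℓM hA hπ H σ hσ x)
    (fun x hx h0 => ?_) (fun z => ?_)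
  · obtain ⟨n, hn⟩ := hx
    exact sp0_inj hNM hℓN hℓM hM hA hπ H rfl (p ^ n) (fun h => hℓp (hℓ.dvd_of_dvd_pow h)) x hn h0
  · have e : (heckeGen ⟨ℓ, hℓ⟩ • z : JZero N) = heckeOperatorAlong Kb N ℓ z :=
      heckeModuleBar_heckeGen_smul hcomm ⟨ℓ, hℓ⟩ z
    have h := sp0_hecke hNM hℓM hA hπ H (fun f hf hne => CONG N hℓN A hA _ hπ f hf hne) z
    rw [← e] at h
    exact h

end FAG
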