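/-
PROJECT G, [ENG]: the abstract engine: an eigenclass in a smooth Galois module with
Eichler--Shimura relations gives a two-dimensional Galois representation.
-/
import Fermat.Agent.Gal.Cyc
import Fermat.Agent.Gal.AlgRep
import Fermat.Agent.Gal.Cheb4
import Fermat.Agent.Gal.Defs

set_option autoImplicit false

open ExtCitation FA24 Polynomial IntermediateField
open scoped TensorProduct

namespace FAG

/-- power sums of two commuting elements with scalar sum and product are scalars -/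
theorem pow_add_pow_scalar {k E : Type*} [CommRing k] [Ring E] [Algebra k E] {s t : E} {a c : k}
    (hst : s * t = c • 1) (hts : t * s = c • 1) (hadd : s + t = a • 1) (b : ℕ) :
    ∃ d : k, s ^ b + t ^ b = d • 1 := by
  induction b using Nat.twoStepInduction with
  | zero => exact ⟨2, by rw [pow_zero, pow_zero, two_smul]⟩
  | one => exact ⟨a, by rw [pow_one, pow_one, hadd]⟩
  | more n h0 h1 =>
    obtain ⟨d0, h0⟩ := h0
    obtain ⟨d1, h1⟩ := h1
    refine ⟨a * d1 - c * d0, ?_⟩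
    have h2 : s ^ (n + 2) + t ^ (n + 2) =
        (s + t) * (s ^ (n + 1) + t ^ (n + 1)) - (s * t) * t ^ n - (t * s) * s ^ n := by
      rw [pow_succ' s (n + 1), pow_succ' t (n + 1), pow_succ' t n, pow_succ' s n]
      noncomm_ring
    rw [h2, hadd, h1, hst, hts, sub_sub, ← mul_add, add_comm (t ^ n), h0]
    simp only [smul_mul_assoc, one_mul, sub_smul, mul_smul]

section Restrict

variable (L : IntermediateField ℚ Kb) [Normal ℚ L]

theorem restrictNormalHom_eq_iff (g g' : GQ) :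
    AlgEquiv.restrictNormalHom (F := ℚ) (K₁ := Kb) L g = AlgEquiv.restrictNormalHom L g' ↔
      ∀ x ∈ L, g x = g' x := by
  constructor
  · intro h x hx
    have h1 := AlgEquiv.restrictNormal_commutes g L ⟨x, hx⟩
    have h2 := AlgEquiv.restrictNormal_commutes g' L ⟨x, hx⟩
    have h3 : g.restrictNormal L = g'.restrictNormal L := h
    rw [h3] at h1
    exact h1.symm.trans h2
  · intro h
    refine AlgEquiv.ext fun x => Subtype.ext ?_
    have h1 := AlgEquiv.restrictNormal_commutes g L x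
    have h2 := AlgEquiv.restrictNormal_commutes g' L x
    exact h1.trans ((h x x.2).trans h2.symm)

end Restrict

/-- the mod `p` cyclotomic character with values in a field of characteristic `p` -/
noncomputable def chiK (p : ℕ) [Fact p.Prime] (k1 : Type*) [Field k1] [Algebra (ZMod p) k1] :
    GQ →* k1 :=
  ((algebraMap (ZMod p) k1 : ZMod p →* k1).comp (Units.coeHom (ZMod p))).comp (cycloChar p)

theorem chiK_apply (p : ℕ) [Fact p.Prime] (k1 : Type*) [Field k1] [Algebra (ZMod p) k1] (σ : GQ) :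
    chiK p k1 σ = algebraMap (ZMod p) k1 (cycloChar p σ : ZMod p) := rfl

section EngineY

variable {p : ℕ} [Fact p.Prime] (S : Set ℕ) (hS : S.Finite) (hpS : p ∈ S)
  {k1 : Type*} [Field k1] [Algebra (ZMod p) k1] [IsAlgClosed k1]
  {Y : Type*} [AddCommGroup Y] [Module k1 Y]
  (act : GQ →* Module.End k1 Y) (T : ℕ → Module.End k1 Y) (w : Y) (hw : w ≠ 0)
  (hsmooth : ∃ L : IntermediateField ℚ Kb, FiniteDimensional ℚ L ∧
    ∀ σ : GQ, (∀ y ∈ L, σ y = y) → act σ w = w)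
  (hcomm : ∀ ℓ σ, T ℓ * act σ = act σ * T ℓ)
  (hunr : ∀ ℓ : ℕ, ℓ.Prime → ℓ ∉ S → ∀ A : ValuationSubring Kb, A.LiesOverPrime ℓ →
    ∀ σ ∈ A.inertiaSubgroupIn ℚ, act σ = 1)
  (hES : ∀ ℓ : ℕ, ℓ.Prime → ℓ ∉ S → ∀ A : ValuationSubring Kb, A.LiesOverPrime ℓ →
    ∀ σ : GQ, A.IsFrobeniusAt σ ℓ → act σ * act σ + (ℓ : k1) • 1 = T ℓ * act σ)
  (a : ℕ → k1) (heig : ∀ ℓ : ℕ, ℓ.Prime → ℓ ∉ S → T ℓ w = a ℓ • w)

include hS hpS hw hsmooth hcomm hunr hES heig in
theorem engineY :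
    ∃ R : GQ →* Matrix (Fin 2) (Fin 2) k1,
      (∃ L : IntermediateField ℚ Kb, FiniteDimensional ℚ L ∧
        ∀ σ : GQ, (∀ x ∈ L, σ x = x) → R σ = 1) ∧
      (∀ ℓ : ℕ, ℓ.Prime → ℓ ∉ S → ∀ A : ValuationSubring Kb, A.LiesOverPrime ℓ →
        ∀ σ ∈ A.inertiaSubgroupIn ℚ, R σ = 1) ∧
      (∀ ℓ : ℕ, ℓ.Prime → ℓ ∉ S → ∀ A : ValuationSubring Kb, A.LiesOverPrime ℓ →
        ∀ σ : GQ, A.IsFrobeniusAt σ ℓ →
          (R σ).charpoly = X ^ 2 - C (a ℓ) * X + C (ℓ : k1)) := by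
  classical
  obtain ⟨L1, hL1fin, hL1⟩ := hsmooth
  obtain ⟨ζ, hζ⟩ := exists_primitive_root p
  have halg : Algebra.IsAlgebraic ℚ Kb := AlgebraicClosure.isAlgebraic ℚ
  have hcl : IsAlgClosure ℚ Kb := ⟨inferInstance, inferInstance⟩
  have hnorm : Normal ℚ Kb := IsAlgClosure.normal ℚ Kb
  have hζfin : FiniteDimensional ℚ ℚ⟮ζ⟯ :=
    IntermediateField.adjoin.finiteDimensional (Algebra.IsAlgebraic.isAlgebraic ζ).isIntegral
  have hL2fin : FiniteDimensional ℚ (L1 ⊔ ℚ⟮ζ⟯ : IntermediateField ℚ Kb) :=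
    IntermediateField.finiteDimensional_sup L1 ℚ⟮ζ⟯
  set L0 : IntermediateField ℚ Kb := IntermediateField.normalClosure ℚ
    (L1 ⊔ ℚ⟮ζ⟯ : IntermediateField ℚ Kb) Kb with hL0
  have hL0fin : FiniteDimensional ℚ L0 := normalClosure.is_finiteDimensional _ _ _
  have hL0n : Normal ℚ L0 := normalClosure.normal _ _ _
  have hL0g : IsGalois ℚ L0 := ⟨⟩
  have hle : (L1 ⊔ ℚ⟮ζ⟯ : IntermediateField ℚ Kb) ≤ L0 := IntermediateField.le_normalClosure _
  have hL1le : L1 ≤ L0 := le_trans le_sup_left hle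
  have hζL0 : ζ ∈ L0 := hle ((le_sup_right : ℚ⟮ζ⟯ ≤ L1 ⊔ ℚ⟮ζ⟯)
    (IntermediateField.mem_adjoin_simple_self ℚ ζ))
  set r : GQ →* (L0 ≃ₐ[ℚ] L0) := AlgEquiv.restrictNormalHom (F := ℚ) (K₁ := Kb) L0 with hr
  have hr1 : ∀ σ : GQ, r σ = 1 ↔ ∀ x ∈ L0, σ x = x := by
    intro σ
    rw [← map_one r, hr, restrictNormalHom_eq_iff]
    rfl
  -- the orbit of `w`
  have hfix : ∀ σ : GQ, r σ = 1 → act σ w = w := fun σ h =>
    hL1 σ fun y hy => (hr1 σ).1 h y (hL1le hy)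
  have hB : ∀ σ τ : GQ, r σ = r τ → act σ w = act τ w := by
    intro σ τ h
    have h1 : r (τ⁻¹ * σ) = 1 := by rw [map_mul, map_inv, h, inv_mul_cancel]
    have h2 := hfix _ h1
    have h3 : act σ w = act τ (act (τ⁻¹ * σ) w) := by
      rw [← Module.End.mul_apply, ← map_mul, mul_inv_cancel_left]
    rw [h3, h2]
  have hfinr : (Set.range fun σ : GQ => act σ w).Finite := by
    have : Finite (L0 ≃ₐ[ℚ] L0) := inferInstance
    have hinj : Function.Injective
        (fun y : Set.range (fun σ : GQ => act σ w) => r y.2.choose) := by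
      intro y y' h
      apply Subtype.ext
      rw [← y.2.choose_spec, ← y'.2.choose_spec]
      exact hB _ _ h
    exact Set.finite_coe_iff.mp (Finite.of_injective _ hinj)
  set W : Submodule k1 Y := Submodule.span k1 (Set.range fun σ : GQ => act σ w) with hW
  have hWfin : FiniteDimensional k1 W := FiniteDimensional.span_of_finite k1 hfinr
  have hwW : w ∈ W := Submodule.subset_span ⟨1, by
    show act 1 w = w
    rw [map_one, Module.End.one_apply]⟩
  have hWnt : Nontrivial W := ⟨⟨⟨w, hwW⟩, 0, fun h => hw (congrArg Subtype.val h)⟩⟩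
  have hWst : ∀ g : GQ, ∀ x ∈ W, act g x ∈ W := by
    intro g x hx
    induction hx using Submodule.span_induction with
    | mem y hy =>
      obtain ⟨σ, rfl⟩ := hy
      refine Submodule.subset_span ⟨g * σ, ?_⟩
      show act (g * σ) w = act g (act σ w)
      rw [map_mul, Module.End.mul_apply]
    | zero => rw [map_zero]; exact W.zero_mem
    | add y z _ _ hy hz => rw [map_add]; exact W.add_mem hy hz
    | smul c y _ hy => rw [map_smul]; exact W.smul_mem c hy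
  set ρ : GQ →* Module.End k1 W := algRestrict act W hWst with hρ
  -- `T ℓ` is scalar on `W`
  have hTW : ∀ ℓ : ℕ, ℓ.Prime → ℓ ∉ S → ∀ x ∈ W, T ℓ x = a ℓ • x := by
    intro ℓ hℓ hℓS x hx
    induction hx using Submodule.span_induction with
    | mem y hy =>
      obtain ⟨σ, rfl⟩ := hy
      show T ℓ (act σ w) = a ℓ • act σ w
      rw [← Module.End.mul_apply, hcomm, Module.End.mul_apply, heig ℓ hℓ hℓS, map_smul]
    | zero => rw [map_zero, smul_zero]
    | add y z _ _ hy hz => rw [map_add, hy, hz, smul_add]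
    | smul c y _ hy => rw [map_smul, hy, smul_comm]
  -- the action on `W` factors through `r`
  have hfixW : ∀ σ : GQ, r σ = 1 → ∀ x ∈ W, act σ x = x := by
    intro σ hσ x hx
    induction hx using Submodule.span_induction with
    | mem y hy =>
      obtain ⟨τ, rfl⟩ := hy
      show act σ (act τ w) = act τ w
      rw [← Module.End.mul_apply, ← map_mul]
      exact hB _ _ (by rw [map_mul, hσ, one_mul])
    | zero => rw [map_zero]
    | add y z _ _ hy hz => rw [map_add, hy, hz]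
    | smul c y _ hy => rw [map_smul, hy]
  have hρ1 : ∀ σ : GQ, (∀ x ∈ W, act σ x = x) → ρ σ = 1 := by
    intro σ h
    refine LinearMap.ext fun x => Subtype.ext ?_
    rw [hρ, algRestrict_apply, Module.End.one_apply]
    exact h x x.2
  have hρr : ∀ g g' : GQ, r g = r g' → ρ g = ρ g' := by
    intro g g' h
    have h1 : ρ (g'⁻¹ * g) = 1 :=
      hρ1 _ (hfixW _ (by rw [map_mul, map_inv, h, inv_mul_cancel]))
    have h2 : ρ g = ρ g' * ρ (g'⁻¹ * g) := by rw [← map_mul, mul_inv_cancel_left]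
    rw [h2, h1, mul_one]
  -- the cyclotomic character
  set u : GQ →* k1 := chiK p k1 with hu
  have hur1 : ∀ σ : GQ, r σ = 1 → u σ = 1 := by
    intro σ hσ
    rw [hu, chiK_apply, cycloChar_eq_one_of_fix hζ ((hr1 σ).1 hσ ζ hζL0), Units.val_one, map_one]
  have hur : ∀ g g' : GQ, r g = r g' → u g = u g' := by
    intro g g' h
    have h1 : u (g'⁻¹ * g) = 1 := hur1 _ (by rw [map_mul, map_inv, h, inv_mul_cancel])
    have h2 : u g = u g' * u (g'⁻¹ * g) := by rw [← map_mul, mul_inv_cancel_left]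
    rw [h2, h1, mul_one]
  have huF : ∀ ℓ : ℕ, ℓ.Prime → ℓ ∉ S → ∀ A : ValuationSubring Kb, A.LiesOverPrime ℓ →
      ∀ σ : GQ, A.IsFrobeniusAt σ ℓ → u σ = (ℓ : k1) := by
    intro ℓ hℓ hℓS A hA σ hσ
    have : Fact ℓ.Prime := ⟨hℓ⟩
    have hne : ℓ ≠ p := fun h => hℓS (h ▸ hpS)
    rw [hu, chiK_apply, cycloChar_of_isFrobeniusAt hne A hA hσ, map_natCast]
  have huI : ∀ ℓ : ℕ, ℓ.Prime → ℓ ∉ S → ∀ A : ValuationSubring Kb, A.LiesOverPrime ℓ →
      ∀ σ ∈ A.inertiaSubgroupIn ℚ, u σ = 1 := by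
    intro ℓ hℓ hℓS A hA σ hσ
    have : Fact ℓ.Prime := ⟨hℓ⟩
    have hne : ℓ ≠ p := fun h => hℓS (h ▸ hpS)
    rw [hu, chiK_apply, cycloChar_of_mem_inertia hne A hA hσ, Units.val_one,
      map_one]
  -- the relation at Frobenius elements
  have hFr : ∀ ℓ : ℕ, ℓ.Prime → ℓ ∉ S → ∀ A : ValuationSubring Kb, A.LiesOverPrime ℓ →
      ∀ σ : GQ, A.IsFrobeniusAt σ ℓ → ρ σ + u σ • ρ σ⁻¹ = a ℓ • 1 := by
    intro ℓ hℓ hℓS A hA σ hσ
    refine LinearMap.ext fun x => Subtype.ext ?_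
    have h1 := congrArg (fun e : Module.End k1 Y => e (act σ⁻¹ x)) (hES ℓ hℓ hℓS A hA σ hσ)
    have h2 : act σ (act σ⁻¹ (x : Y)) = x := by
      rw [← Module.End.mul_apply, ← map_mul, mul_inv_cancel, map_one, Module.End.one_apply]
    simp only [LinearMap.add_apply, Module.End.mul_apply, LinearMap.smul_apply,
      Module.End.one_apply, h2] at h1
    rw [hTW ℓ hℓ hℓS _ x.2] at h1
    rw [huF ℓ hℓ hℓS A hA σ hσ]
    exact h1
  -- the relation for all elements, by Chebotarev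
  have hall : ∀ g : GQ, ∃ c : k1, ρ g + u g • ρ g⁻¹ = c • 1 := by
    intro g
    obtain ⟨ℓ, A, σ, b, hℓ, hℓS, hA, hσ, hg⟩ := exists_frobenius_pow L0 g S hS
    have hrg : r g = r (σ ^ b) := (restrictNormalHom_eq_iff L0 g (σ ^ b)).2 hg
    have hrg' : r g⁻¹ = r (σ⁻¹ ^ b) := by rw [map_inv, hrg, inv_pow, map_inv]
    have h1 := hFr ℓ hℓ hℓS A hA σ hσ
    have hst : ρ σ * (u σ • ρ σ⁻¹) = u σ • 1 := by
      rw [mul_smul_comm, ← map_mul, mul_inv_cancel, map_one]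
    have hts : (u σ • ρ σ⁻¹) * ρ σ = u σ • 1 := by
      rw [smul_mul_assoc, ← map_mul, inv_mul_cancel, map_one]
    obtain ⟨d, hd⟩ := pow_add_pow_scalar hst hts h1 b
    refine ⟨d, ?_⟩
    rw [hρr _ _ hrg, hρr _ _ hrg', hur _ _ hrg, map_pow, map_pow, map_pow, ← _root_.smul_pow]
    exact hd
  choose a' ha' using hall
  obtain ⟨R, hR1, hR2⟩ := alg_exists_matrix (ρ := ρ) (u := u) (a := a') ha'
  refine ⟨R, ⟨L0, hL0fin, fun σ hσ => ?_⟩, ?_, ?_⟩
  · have h1 : r σ = 1 := (hr1 σ).2 hσ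
    exact hR2 σ (hρ1 σ (hfixW σ h1)) (hur1 σ h1)
  · intro ℓ hℓ hℓS A hA σ hσ
    refine hR2 σ (hρ1 σ fun x _ => ?_) (huI ℓ hℓ hℓS A hA σ hσ)
    rw [hunr ℓ hℓ hℓS A hA σ hσ, Module.End.one_apply]
  · intro ℓ hℓ hℓS A hA σ hσ
    have h1 : a' σ • (1 : Module.End k1 W) = a ℓ • 1 := by
      rw [← ha' σ, hFr ℓ hℓ hℓS A hA σ hσ]
    have h2 : a' σ = a ℓ := by
      have h3 := congrArg (fun e : Module.End k1 W => e ⟨w, hwW⟩) h1
      simp only [LinearMap.smul_apply, Module.End.one_apply] at h3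
      have h4 : (⟨w, hwW⟩ : W) ≠ 0 := fun h => hw (congrArg Subtype.val h)
      exact smul_left_injective k1 h4 h3
    rw [hR1 σ, h2, huF ℓ hℓ hℓS A hA σ hσ]

end EngineY

section Engine

variable {p : ℕ} [Fact p.Prime] (S : Set ℕ) (hS : S.Finite) (hpS : p ∈ S)
  {M : Type*} [AddCommGroup M] [Module (ZMod p) M]
  (act : GQ →* Module.End (ZMod p) M) (T : ℕ → Module.End (ZMod p) M)
  (hsmooth : ∀ x : M, ∃ L : IntermediateField ℚ Kb, FiniteDimensional ℚ L ∧
    ∀ σ : GQ, (∀ y ∈ L, σ y = y) → act σ x = x)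
  (hcomm : ∀ ℓ σ, T ℓ * act σ = act σ * T ℓ)
  (hunr : ∀ ℓ : ℕ, ℓ.Prime → ℓ ∉ S → ∀ A : ValuationSubring Kb, A.LiesOverPrime ℓ →
    ∀ σ ∈ A.inertiaSubgroupIn ℚ, act σ = 1)
  (hES : ∀ ℓ : ℕ, ℓ.Prime → ℓ ∉ S → ∀ A : ValuationSubring Kb, A.LiesOverPrime ℓ →
    ∀ σ : GQ, A.IsFrobeniusAt σ ℓ → act σ * act σ + (ℓ : ZMod p) • 1 = T ℓ * act σ)
  {k1 : Type*} [Field k1] [Algebra (ZMod p) k1] [IsAlgClosed k1]
  (a : ℕ → k1) (w : k1 ⊗[ZMod p] M) (hw : w ≠ 0)
  (heig : ∀ ℓ : ℕ, ℓ.Prime → ℓ ∉ S → (T ℓ).baseChange k1 w = a ℓ • w)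

/-- base change of an action -/
noncomputable def actBC (k1 : Type*) [Field k1] [Algebra (ZMod p) k1]
    (act : GQ →* Module.End (ZMod p) M) : GQ →* Module.End k1 (k1 ⊗[ZMod p] M) where
  toFun σ := (act σ).baseChange k1
  map_one' := by rw [map_one, LinearMap.baseChange_one]
  map_mul' σ τ := by rw [map_mul, LinearMap.baseChange_mul]

omit [IsAlgClosed k1] in
theorem actBC_apply (σ : GQ) : actBC k1 act σ = (act σ).baseChange k1 := rfl

include hS hpS hw hsmooth hcomm hunr hES heig in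
/-- **[ENG]** -/
theorem engine :
    ∃ R : GQ →* Matrix (Fin 2) (Fin 2) k1,
      (∃ L : IntermediateField ℚ Kb, FiniteDimensional ℚ L ∧
        ∀ σ : GQ, (∀ x ∈ L, σ x = x) → R σ = 1) ∧
      (∀ ℓ : ℕ, ℓ.Prime → ℓ ∉ S → ∀ A : ValuationSubring Kb, A.LiesOverPrime ℓ →
        ∀ σ ∈ A.inertiaSubgroupIn ℚ, R σ = 1) ∧
      (∀ ℓ : ℕ, ℓ.Prime → ℓ ∉ S → ∀ A : ValuationSubring Kb, A.LiesOverPrime ℓ →
        ∀ σ : GQ, A.IsFrobeniusAt σ ℓ →
          (R σ).charpoly = X ^ 2 - C (a ℓ) * X + C (ℓ : k1)) := by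
  have hsm : ∀ y : k1 ⊗[ZMod p] M, ∃ L : IntermediateField ℚ Kb, FiniteDimensional ℚ L ∧
      ∀ σ : GQ, (∀ x ∈ L, σ x = x) → actBC k1 act σ y = y := by
    intro y
    induction y using TensorProduct.induction_on with
    | zero => exact ⟨⊥, inferInstance, fun σ _ => map_zero _⟩
    | tmul c x =>
      obtain ⟨L, hL, h⟩ := hsmooth x
      refine ⟨L, hL, fun σ hσ => ?_⟩
      rw [actBC_apply, LinearMap.baseChange_tmul, h σ hσ]
    | add y z hy hz =>
      obtain ⟨L1, h1, h1'⟩ := hy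
      obtain ⟨L2, h2, h2'⟩ := hz
      refine ⟨L1 ⊔ L2, IntermediateField.finiteDimensional_sup L1 L2, fun σ hσ => ?_⟩
      rw [map_add, h1' σ fun x hx => hσ x ((le_sup_left : L1 ≤ L1 ⊔ L2) hx),
        h2' σ fun x hx => hσ x ((le_sup_right : L2 ≤ L1 ⊔ L2) hx)]
  refine engineY S hS hpS (actBC k1 act) (fun ℓ => (T ℓ).baseChange k1) w hw (hsm w) ?_ ?_ ?_ a
    heig
  · intro ℓ σ
    rw [actBC_apply, ← LinearMap.baseChange_mul, hcomm, LinearMap.baseChange_mul]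
  · intro ℓ hℓ hℓS A hA σ hσ
    rw [actBC_apply, hunr ℓ hℓ hℓS A hA σ hσ, LinearMap.baseChange_one]
  · intro ℓ hℓ hℓS A hA σ hσ
    have h1 := congrArg (LinearMap.baseChange k1) (hES ℓ hℓ hℓS A hA σ hσ)
    rw [LinearMap.baseChange_add, LinearMap.baseChange_mul, LinearMap.baseChange_smul,
      LinearMap.baseChange_one, LinearMap.baseChange_mul, Nat.cast_smul_eq_nsmul] at h1
    rw [actBC_apply, Nat.cast_smul_eq_nsmul]
    exact h1

end Engine

end FAG
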