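import Fermat.Agent.Gal.PortDeg
import Fermat.Agent.Red.BridgeM

/-! Project G, package [PORT], part 6: a `q`-series over `K` which is the expansion of a modular
function for `Γ₀(N)` lies in `K(X₀(N))` (generalisation of `Red/BridgeM`). -/

set_option autoImplicit false

open UpperHalfPlane ModularForm Function CongruenceSubgroup FA_IS FA24 FAIg ModularCurve Polynomial
open IntermediateField FA18
open scoped Manifold MatrixGroups

namespace FAGP

variable {K : Type} [Field K] [Algebra ℚ K] [CEmb K] {N : ℕ} [NeZero N]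

/-- the algebraic relation, for `q`-expansions -/
lemma exists_relation_lau_gen (W : LaurentSeries K) (hW : cm W ∈ (LamF (N := N)).fieldRange) :
    ∃ P : ℂ[X][X], P ≠ 0 ∧ P.natDegree ≤ Fintype.card (XN N) ∧
      P.eval₂ (eval₂RingHom HahnSeries.C (cm (xN K N).1)) (cm W) = 0 := by
  obtain ⟨t, ht⟩ := hW
  obtain ⟨P, hP0, hPd, hP⟩ := exists_relation_FR_gen t
  refine ⟨P, hP0, hPd, ?_⟩
  have := congrArg LamF hP
  rw [map_zero, hom_eval₂, ht] at this
  have h1 : LamF.comp ((algebraMap (RN N) (FR N)).comp evR) =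
      eval₂RingHom HahnSeries.C (cm (xN K N).1) := by
    apply Polynomial.ringHom_ext
    · intro a
      simp only [coe_eval₂RingHom, eval₂_C, RingHom.comp_apply, evR, LamF_algebraMap]
      exact Lam_cst a
    · simp only [coe_eval₂RingHom, eval₂_X, RingHom.comp_apply, evR, LamF_algebraMap]
      rw [← LamF_Theta, Theta_xN, LamF_algebraMap]
  rw [h1] at this
  exact this

/-- the relation over `ℚ̄`. -/
lemma exists_relation_Kb (W : LaurentSeries K) (hW : cm W ∈ (LamF (N := N)).fieldRange) :
    ∃ Q : K[X][X], Q ≠ 0 ∧ Q.natDegree ≤ Fintype.card (XN N) ∧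
      Q.eval₂ (eval₂RingHom HahnSeries.C (xN K N).1) W = 0 := by
  obtain ⟨P, hP0, hPd, hP⟩ := exists_relation_lau_gen W hW
  obtain ⟨Q, hQ0, hQd, hQ⟩ := descent _ _ P hP0 hP
  exact ⟨Q, hQ0, hQd.trans hPd, hQ⟩

/-- the field of `q`-series over `ℚ̄` which are expansions of modular functions. -/
noncomputable def modSer (K : Type) [Field K] [Algebra ℚ K] [CEmb K] (N : ℕ) [NeZero N] :
    IntermediateField K (LaurentSeries K) :=
  Subfield.toIntermediateField ((LamF (N := N)).fieldRange.comap cm) fun a => by
    refine ⟨algebraMap (RN N) (FR N) (cst (iota a)), ?_⟩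
    rw [LamF_algebraMap, Lam_cst, cm_algebraMap]

lemma mem_modSer {W : LaurentSeries K} : W ∈ modSer K N ↔ cm W ∈ (LamF (N := N)).fieldRange :=
  Iff.rfl

lemma bar_le_modSer : barK K N ≤ modSer K N := fun f hf => cm_mem_range f hf

variable [IsAlgClosed K] [CharZero K]

/-- **BR1**: a `q`-series over `K` which is the expansion of a modular function for `Γ₀(N)`
lies in the function field. -/
theorem mem_bar_of_mem_modSer (Y₀ : LaurentSeries K) (hY : Y₀ ∈ modSer K N) :
    Y₀ ∈ barK K N := by
  set FNf : IntermediateField K (LaurentSeries K) := barK K N with hFNf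
  set SL : Set (LaurentSeries K) := (FNf.val '' gens K N) ∪ {Y₀} with hSL
  set E : IntermediateField K (LaurentSeries K) := adjoin K SL with hE
  have hFE : FNf ≤ E := by
    have h1 : FNf = adjoin K (FNf.val '' gens K N) := by
      rw [← adjoin_map, adjoin_gens, ← AlgHom.fieldRange_eq_map, fieldRange_val]
    rw [h1]
    exact adjoin.mono _ _ _ Set.subset_union_left
  have hEM : E ≤ modSer K N := by
    rw [hE, adjoin_le_iff]
    rintro w (⟨f, -, rfl⟩ | rfl)
    · exact bar_le_modSer f.2
    · exact hY
  have hSfin : SL.Finite := (finite_gens.image _).union (Set.finite_singleton _)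
  set xE : E := ⟨(xN K N).1, hFE (xN K N).2⟩ with hxE
  have hxtr : Transcendental K xE := by
    intro halg
    apply transcendental_xN K N
    have h1 : IsAlgebraic K (E.val xE) := (isAlgebraic_algHom_iff E.val E.val.injective).mpr halg
    exact (isAlgebraic_algHom_iff FNf.val FNf.val.injective).mp h1
  have hrel : ∀ f : E, ∃ Q : K⟮xE⟯[X], Q ≠ 0 ∧ Q.natDegree ≤ Fintype.card (XN N) ∧
      aeval f Q = 0 := by
    intro f
    obtain ⟨Q, hQ0, hQd, hQ⟩ := exists_relation_Kb f.1 (hEM f.2)
    have hQ' : Q.eval₂ (aeval (R := K) xE).toRingHom f = 0 := by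
      apply Subtype.val_injective
      have h1 := hom_eval₂ Q (aeval (R := K) xE).toRingHom E.val.toRingHom f
      have h2 : E.val.toRingHom.comp (aeval (R := K) xE).toRingHom =
          eval₂RingHom HahnSeries.C (xN K N).1 := by
        apply Polynomial.ringHom_ext
        · intro a
          simp only [RingHom.comp_apply, AlgHom.toRingHom_eq_coe, RingHom.coe_coe, aeval_C,
            coe_eval₂RingHom, eval₂_C, C_eq_algebraMap]
          rfl
        · simp only [RingHom.comp_apply, AlgHom.toRingHom_eq_coe, RingHom.coe_coe, aeval_X,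
            coe_eval₂RingHom, eval₂_X]
          rfl
      rw [h2] at h1
      exact h1.trans hQ
    obtain ⟨Q', h0, hd, h⟩ := gen_relation xE hxtr f Q hQ0 hQ'
    exact ⟨Q', h0, hd.trans hQd, h⟩
  obtain ⟨hfd, hle⟩ := gen_finrank_le xE (Fintype.card (XN N)) (E.val ⁻¹' SL)
    (hSfin.preimage E.val.injective.injOn) (adjoin_preimage_eq_top SL) hrel
  have hpos : 0 < Module.finrank K⟮xE⟯ E := Module.finrank_pos
  rw [finrank_adjoin_eq_relfinrank] at hle hpos
  have hμ := finrank_FN (K := K) (N := N)
  rw [finrank_adjoin_eq_relfinrank] at hμ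
  have hjF : K⟮((xN K N : FN K N) : LaurentSeries K)⟯ ≤ FNf := by
    rw [adjoin_simple_le_iff]
    exact (xN K N).2
  have hmul := relfinrank_mul_relfinrank hjF hFE
  rw [hμ] at hmul
  have hx : ((xE : E) : LaurentSeries K) = ((xN K N : FN K N) : LaurentSeries K) := rfl
  rw [hx] at hle hpos
  rw [← hmul] at hle hpos
  have hr : relfinrank FNf E = 1 := by
    have h1 : 0 < relfinrank FNf E := Nat.pos_of_mul_pos_left hpos  
    have h2 : 0 < Fintype.card (XN N) := Nat.pos_of_mul_pos_right hpos
    nlinarith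
  exact relfinrank_eq_one_iff.mp hr (subset_adjoin K SL (Set.mem_union_right _ rfl))

theorem modSer_eq_bar : modSer K N = barK K N :=
  le_antisymm (fun Y hY => mem_bar_of_mem_modSer Y hY) bar_le_modSer

end FAGP
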