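import Fermat.Agent.Gal.PortPts
import Fermat.Agent.Gal.PortMod

/-! Project G, package [PORT]: summary.  `K` is an algebraically closed field of characteristic
zero with a fixed embedding into `ℂ` (`CEmb K`; instances for `ℂ` and `ℚ̄`),
`FN K N = K(X₀(N)) ⊆ K((q))`. -/

set_option autoImplicit false

open UpperHalfPlane ModularForm Function CongruenceSubgroup FA_IS FA24 ModularCurve
open IntermediateField AlgebraicCurve
open scoped Manifold MatrixGroups

namespace FAGP

variable {K : Type} [Field K] [Algebra ℚ K] [CEmb K] [IsAlgClosed K] [CharZero K]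
  {N : ℕ} [NeZero N]

/-- membership in the function field is detected analytically. -/
theorem mem_barK_iff {W : LaurentSeries K} :
    W ∈ barK K N ↔ cm W ∈ (LamF (N := N)).fieldRange := by
  rw [← modSer_eq_bar, mem_modSer]

theorem finrank_FN_eq_psi :
    Module.finrank K⟮xN K N⟯ (FN K N) = ModularCurve.dedekindPsi N := by
  rw [finrank_FN, ← Nat.card_eq_fintype_card, FAGenus.card_coset]

lemma iota_complex (z : ℂ) : (iota : ℂ →+* ℂ) z = z := rfl

lemma cm_complex (W : LaurentSeries ℂ) : cm W = W := by
  ext n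
  rfl

/-- over `ℂ`: the `q`-expansion of every modular function lies in the function field. -/
theorem LamF_mem_barK (t : FR N) : LamF t ∈ barK ℂ N := by
  rw [mem_barK_iff, cm_complex]
  exact ⟨t, rfl⟩

theorem Lam_mem_barK (g : RN N) : Lam g ∈ barK ℂ N := by
  rw [← LamF_algebraMap]
  exact LamF_mem_barK _

/-- over `ℂ`: the function field is the field of modular functions. -/
noncomputable def ThetaEquiv : FN ℂ N ≃+* FR N :=
  RingEquiv.ofBijective (Theta : FN ℂ N →+* FR N) ⟨RingHom.injective _, fun t => by
    refine ⟨⟨LamF t, LamF_mem_barK t⟩, ?_⟩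
    apply (LamF (N := N)).injective
    rw [LamF_Theta, cm_complex]⟩

lemma ThetaEquiv_apply (f : FN ℂ N) : ThetaEquiv f = Theta f := rfl

lemma LamF_ThetaEquiv (f : FN ℂ N) : LamF (ThetaEquiv f) = f.1 := by
  rw [ThetaEquiv_apply, LamF_Theta, cm_complex]

lemma coe_ThetaEquiv_symm (t : FR N) : ((ThetaEquiv.symm t : FN ℂ N) : LaurentSeries ℂ) = LamF t := by
  rw [← LamF_ThetaEquiv, RingEquiv.apply_symm_apply]

/-- the branch of an element given by a modular function. -/
lemma br_ThetaEquiv_symm (e : Expn N) (k : XN N) (g : RN N) :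
    br e k (ThetaEquiv.symm (algebraMap (RN N) (FR N) g) : FN ℂ N) = e.ε (trnM k g) := by
  rw [br_of_Theta e k (g := g) (by rw [← ThetaEquiv_apply, RingEquiv.apply_symm_apply]), brR_apply]

end FAGP
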