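/-
PROJECT G, [HP] over an arbitrary algebraically closed field `K ⊆ ℂ` (in particular `K = ℂ`):
the degree of `α` and the `q`-expansion of the multiplicative Hecke operator, without hypotheses.
-/
import Fermat.Agent.Gal.HP
import Fermat.Agent.Gal.Port
import Fermat.Agent.Genus.CardCoset

set_option autoImplicit false

open AlgebraicCurve IntermediateField ModularCurve
open FAIg (twistL)

namespace FAG

theorem finrankAlong_eq_finrank_fieldRange' {K F F' : Type*} [Field K] [Field F] [Field F']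
    [Algebra K F] [Algebra K F'] (φ : F →ₐ[K] F') :
    finrankAlong K φ = Module.finrank φ.fieldRange F' := by
  let _ := algebraAlong φ
  show Module.finrank F F' = _
  refine Algebra.finrank_eq_of_equiv_equiv (AlgEquiv.ofInjectiveField φ).toRingEquiv
    (RingEquiv.refl F') ?_
  ext x
  rfl

variable {K : Type} [Field K] [Algebra ℚ K] [FAGP.CEmb K] [IsAlgClosed K] [CharZero K]

theorem finrankAlong_heckeAlphaBarK (N : ℕ) [NeZero N] {ℓ : ℕ} [NeZero ℓ] (hℓ : ℓ.Prime)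
    (hℓN : ¬ ℓ ∣ N) : finrankAlong K (heckeAlphaBar K N ℓ) = ℓ + 1 := by
  rw [finrankAlong_eq_finrank_fieldRange']
  set ι := heckeAlphaBar K N ℓ with hι
  have hx : ι (FAGP.xN K N) = FAGP.xN K (N * ℓ) := by
    apply Subtype.ext
    rw [hι, coe_heckeAlphaBar]
    exact (FAGP.xN_val (K := K) (N := N)).trans (FAGP.xN_val (K := K) (N := N * ℓ)).symm
  have h1 : (K⟮FAGP.xN K N⟯).map ι = K⟮FAGP.xN K (N * ℓ)⟯ := by
    rw [IntermediateField.adjoin_map, Set.image_singleton, hx]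
  have h3 : relfinrank K⟮FAGP.xN K (N * ℓ)⟯ ι.fieldRange = dedekindPsi N := by
    rw [AlgHom.fieldRange_eq_map, ← h1, relfinrank_map_map, relfinrank_top_right,
      FAGP.finrank_FN_eq_psi]
  have h4 : K⟮FAGP.xN K (N * ℓ)⟯ ≤ ι.fieldRange := by
    rw [adjoin_simple_le_iff]
    exact ⟨FAGP.xN K N, hx⟩
  have h5 := relfinrank_mul_finrank_top h4
  rw [h3, FAGP.finrank_FN_eq_psi, FAGenus.dedekindPsi_mul_of_not_dvd N ℓ (NeZero.ne N) hℓ hℓN,
    mul_comm] at h5
  have hpos : 0 < dedekindPsi N := by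
    rw [← FAGP.finrank_FN_eq_psi (K := K) (N := N)]
    exact Module.finrank_pos
  exact Nat.eq_of_mul_eq_mul_right hpos h5

/-- **[HP]** over any algebraically closed `K ⊆ ℂ`. -/
theorem qExpand_heckeMK_of_isAlgClosed (N : ℕ) [NeZero N] {ℓ : ℕ} [NeZero ℓ] (hℓ : ℓ.Prime)
    (hℓN : ¬ ℓ ∣ N) (ζ : Kˣ) (hζ : IsPrimitiveRoot ζ ℓ) (f : FK K N) :
    qExpand K ℓ (heckeMK K N ℓ f : LaurentSeries K) =
      qExpand K ℓ (qExpand K ℓ (f : LaurentSeries K)) *
        ∏ b ∈ Finset.range ℓ, twistL (ζ ^ b) (f : LaurentSeries K) :=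
  qExpand_heckeMK FAGP.iota hℓ hℓN (finrankAlong_heckeAlphaBarK N hℓ hℓN) ζ hζ f

end FAG
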