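/-
PROJECT G, [K4-ASM], abstract part: from a total, functional, additive, Hecke-equivariant relation
`Rel ⊆ Λ × M` (`Λ` a free `ℤ`-module of finite rank, `M` an `𝔽_p`-space) with kernel `pΛ`, and a
nonzero complex eigenvector of the integer matrices of the Hecke operators on `Λ`,
to a nonzero eigenvector in `k₁ ⊗ M`.
-/
import Mathlib
import Fermat.Agent.Gal.CohLin

set_option autoImplicit false

open scoped TensorProduct

namespace FAG

section K4Abs

variable {p : ℕ} [Fact p.Prime] {Λ : Type*} [AddCommGroup Λ] {M : Type*} [AddCommGroup M]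
  [Module (ZMod p) M]

/-- a total, functional, additive relation is the graph of an additive map -/
theorem exists_hom_of_rel {Λ : Type*} [AddCommGroup Λ] {M : Type*} [AddCommGroup M]
    (Rel : Λ → M → Prop) (htot : ∀ χ, ∃ x, Rel χ x)
    (hfun : ∀ χ x y, Rel χ x → Rel χ y → x = y)
    (hadd : ∀ χ χ' x x', Rel χ x → Rel χ' x' → Rel (χ + χ') (x + x')) :
    ∃ Ψ : Λ →+ M, ∀ χ, Rel χ (Ψ χ) := by
  choose f hf using htot
  refine ⟨AddMonoidHom.mk' f fun a b => ?_, hf⟩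
  exact hfun _ _ _ (hf _) (hadd _ _ _ _ (hf a) (hf b))

/-- an additive map `Λ → M` with kernel `pΛ` maps a `ℤ`-basis to an `𝔽_p`-independent family -/
theorem linearIndependent_of_ker {n : ℕ} (b : Module.Basis (Fin n) ℤ Λ) (Ψ : Λ →+ M)
    (hker : ∀ χ, Ψ χ = 0 → ∃ χ', χ = p • χ') :
    LinearIndependent (ZMod p) (fun j => Ψ (b j)) := by
  rw [Fintype.linearIndependent_iff]
  intro c hc j
  choose z hz using fun j => ZMod.intCast_surjective (c j)
  have h1 : Ψ (∑ j, z j • b j) = 0 := by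
    rw [map_sum, ← hc]
    refine Finset.sum_congr rfl fun j _ => ?_
    rw [map_zsmul, ← hz j, Int.cast_smul_eq_zsmul]
  obtain ⟨χ', hχ'⟩ := hker _ h1
  have h2 := congrArg (fun x => b.repr x j) hχ'
  simp only [map_sum, map_zsmul, map_nsmul, Module.Basis.repr_self, Finsupp.coe_finsetSum,
    Finsupp.coe_smul, Finset.sum_apply, Pi.smul_apply, smul_eq_mul, nsmul_eq_mul] at h2
  rw [Finset.sum_eq_single j (fun i _ hij => by rw [Finsupp.single_eq_of_ne hij.symm, mul_zero])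
    (fun h => absurd (Finset.mem_univ j) h), Finsupp.single_eq_same, mul_one] at h2
  rw [← hz j, h2]
  push_cast
  rw [ZMod.natCast_self, zero_mul]

/-- the abstract form of (K4), given the eigenvector mod `p` -/
theorem K4_abs_mod {I : Type*} (TΛ : I → Λ →+ Λ) (TM : I → Module.End (ZMod p) M)
    (Ψ : Λ →+ M) (hker : ∀ χ, Ψ χ = 0 → ∃ χ', χ = p • χ')
    (hT : ∀ i χ, Ψ (TΛ i χ) = TM i (Ψ χ))
    {n : ℕ} (b : Module.Basis (Fin n) ℤ Λ)
    {k1 : Type*} [Field k1] [Algebra (ZMod p) k1]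
    (w : Fin n → k1) (hw : w ≠ 0) (c : I → k1)
    (hwT : ∀ i m, ∑ j, ((b.repr (TΛ i (b j)) m : ℤ) : k1) * w j = c i * w m) :
    ∃ W : k1 ⊗[ZMod p] M, W ≠ 0 ∧ ∀ i, (TM i).baseChange k1 W = c i • W := by
  have hli := Module.Flat.linearIndependent_one_tmul (S := k1) (linearIndependent_of_ker b Ψ hker)
  refine ⟨∑ j, w j • ((1 : k1) ⊗ₜ[ZMod p] Ψ (b j)), fun h0 => ?_, fun i => ?_⟩
  · exact hw (funext fun j => Fintype.linearIndependent_iff.1 hli w h0 j)
  · rw [map_sum, Finset.smul_sum]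
    have h1 : ∀ j, (TM i).baseChange k1 (w j • ((1 : k1) ⊗ₜ[ZMod p] Ψ (b j))) =
        ∑ m, (((b.repr (TΛ i (b j)) m : ℤ) : k1) * w j) • ((1 : k1) ⊗ₜ[ZMod p] Ψ (b m)) := by
      intro j
      rw [map_smul, LinearMap.baseChange_tmul, ← hT]
      conv_lhs => rw [← b.sum_repr (TΛ i (b j))]
      rw [map_sum, TensorProduct.tmul_sum, Finset.smul_sum]
      refine Finset.sum_congr rfl fun m _ => ?_
      rw [map_zsmul, ← Int.cast_smul_eq_zsmul (ZMod p), ← TensorProduct.smul_tmul, mul_comm,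
        mul_smul, TensorProduct.smul_tmul', TensorProduct.smul_tmul', TensorProduct.smul_tmul',
        Algebra.smul_def ((b.repr (TΛ i (b j)) m : ℤ) : ZMod p) (1 : k1), map_intCast, smul_eq_mul,
        smul_eq_mul, smul_eq_mul]
    rw [Finset.sum_congr rfl fun j _ => h1 j, Finset.sum_comm]
    refine Finset.sum_congr rfl fun m _ => ?_
    rw [← Finset.sum_smul, hwT, mul_smul]

/-- the abstract form of (K4) -/
theorem K4_abs {I : Type*} (TΛ : I → Λ →+ Λ) (TM : I → Module.End (ZMod p) M)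
    (Rel : Λ → M → Prop) (htot : ∀ χ, ∃ x, Rel χ x)
    (hfun : ∀ χ x y, Rel χ x → Rel χ y → x = y)
    (hadd : ∀ χ χ' x x', Rel χ x → Rel χ' x' → Rel (χ + χ') (x + x'))
    (hker : ∀ χ, Rel χ 0 → ∃ χ', χ = p • χ')
    (hT : ∀ i χ x, Rel χ x → Rel (TΛ i χ) (TM i x))
    {n : ℕ} (b : Module.Basis (Fin n) ℤ Λ)
    (a : I → integralClosure ℤ ℂ) (v : Fin n → ℂ) (hv : v ≠ 0)
    (hvT : ∀ i m, ∑ j, ((b.repr (TΛ i (b j)) m : ℤ) : ℂ) * v j = (a i : ℂ) * v m)
    {k1 : Type*} [Field k1] [Algebra (ZMod p) k1]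
    (ψ : integralClosure ℤ ℂ →+* k1) (hψ : Function.Surjective ψ) :
    ∃ W : k1 ⊗[ZMod p] M, W ≠ 0 ∧ ∀ i, (TM i).baseChange k1 W = ψ (a i) • W := by
  obtain ⟨Ψ, hΨ⟩ := exists_hom_of_rel Rel htot hfun hadd
  obtain ⟨w, hw, hwT⟩ := exists_eigen_mod (fun i => Matrix.of fun m j => b.repr (TΛ i (b j)) m) a v
    hv hvT ψ (RingHom.ker_isMaximal_of_surjective ψ hψ)
  refine K4_abs_mod TΛ TM Ψ (fun χ h => hker χ (h ▸ hΨ χ))
    (fun i χ => hfun _ _ _ (hΨ _) (hT i χ _ (hΨ χ))) b w hw (fun i => ψ (a i)) hwT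

end K4Abs

end FAG
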