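/-
PROJECT G: (K2) and (K3) at the level of functions.
-/
import Fermat.Agent.Gal.TG
import Fermat.Agent.Gal.GalRed
import Fermat.Agent.Gal.Defs
import Fermat.Agent.Gal.FrobSer
import Fermat.Agent.Gal.Cong
import Fermat.Agent.Gal.NF4

set_option autoImplicit false

open AlgebraicCurve IntermediateField ModularCurve FA24 FA18 FA18.M1

namespace FAG

/-- every constant is a `p`-th power -/
theorem exists_pow_eq_const (N : ℕ) (p : ℕ) (hp : 0 < p) (c : Kb) :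
    ∃ d : Kb, (algebraMap Kb (FN N) d) ^ p = algebraMap Kb (FN N) c := by
  obtain ⟨d, hd⟩ := IsAlgClosed.exists_pow_nat_eq c hp
  exact ⟨d, by rw [← map_pow, hd]⟩

section

variable (N : ℕ) [NeZero N] {ℓ : ℕ} [hℓ : Fact ℓ.Prime] (hℓN : ¬ ℓ ∣ N)
  (A : ValuationSubring Kb) (hA : A.LiesOverPrime ℓ)
  {k : Type} [Field k] (π : A →+* k) (hπ : Function.Surjective π)

include hℓN hA hπ in
/-- reduction to units of `WS`: a multiplicative map which sends the `p`-divisible units of `WS`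
to `p`-th powers sends all `p`-divisible functions to `p`-th powers. -/
theorem pow_of_unit (p : ℕ) (hp : 0 < p) (Φ : FN N →* FN N)
    (h : ∀ g : FN N, (g : LaurentSeries Kb) ∈ WS A π → redFun A π (g : LaurentSeries Kb) ≠ 0 →
      (∀ P : Place Kb (FN N), (p : ℤ) ∣ P.ord g) → ∃ s : FN N, s ^ p = Φ g)
    (f : FN N) (hf0 : f ≠ 0) (hdiv : ∀ P : Place Kb (FN N), (p : ℤ) ∣ P.ord f) :
    ∃ s : FN N, s ^ p = Φ f := by
  obtain ⟨c, hc, hW, hne⟩ := exists_scale_WS N hℓN A hA π hπ f hf0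
  obtain ⟨d, hd⟩ := exists_pow_eq_const N p hp c
  have hc' : algebraMap Kb (FN N) c ≠ 0 := by simpa using hc
  have hd0 : algebraMap Kb (FN N) d ≠ 0 := by
    intro h0
    rw [h0, zero_pow hp.ne'] at hd
    exact hc' hd.symm
  obtain ⟨s, hs⟩ := h _ hW hne (fun P => by
    rw [P.ord_mul hc' hf0, FA24.ord_algebraMap P hc, zero_add]
    exact hdiv P)
  have hΦd : Φ (algebraMap Kb (FN N) d) ≠ 0 := by
    intro h0
    have h1 : Φ (algebraMap Kb (FN N) d) * Φ (algebraMap Kb (FN N) d)⁻¹ = 1 := by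
      rw [← map_mul, mul_inv_cancel₀ hd0, map_one]
    rw [h0, zero_mul] at h1
    exact zero_ne_one h1
  refine ⟨s * (Φ (algebraMap Kb (FN N) d))⁻¹, ?_⟩
  rw [mul_pow, hs, map_mul, ← hd, map_pow, inv_pow]
  field_simp

/-- `f ↦ σ f / f` -/
noncomputable def phi2 (σ : GQ) : FN N →* FN N where
  toFun f := galF N σ f * f⁻¹
  map_one' := by simp
  map_mul' x y := by rw [map_mul, mul_inv]; ring

/-- `f ↦ σ² f * f ^ ℓ / T_ℓ (σ f)` -/
noncomputable def phi3 (ℓ : ℕ) [NeZero ℓ] (σ : GQ) : FN N →* FN N where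
  toFun f := galF N σ (galF N σ f) * f ^ ℓ * (heckeM N ℓ (galF N σ f))⁻¹
  map_one' := by simp
  map_mul' x y := by rw [map_mul, map_mul, map_mul, mul_inv, mul_pow]; ring

include hℓN hA hπ in
/-- **(K2)** at the level of functions. -/
theorem K2_fun (p : ℕ) (hp : 0 < p) (hℓp : ¬ ℓ ∣ p) (σ : GQ) (hσ : σ ∈ A.inertiaSubgroupIn ℚ)
    (f : FN N) (hf0 : f ≠ 0) (hdiv : ∀ P : Place Kb (FN N), (p : ℤ) ∣ P.ord f) :
    ∃ s : FN N, s ^ p = galF N σ f * f⁻¹ := by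
  refine pow_of_unit N hℓN A hA π hπ p hp (phi2 N σ) ?_ f hf0 hdiv
  intro g hg hne hd
  have hg0 : g ≠ 0 := by
    rintro rfl
    exact hne (by rw [ZeroMemClass.coe_zero]; exact (redW A π).map_zero)
  obtain ⟨h1, h2⟩ := coeffMap_mem_WS (σ : Kb →+* Kb) (RingHom.id k) (hσ_of_mem_inertia hπ hσ) hg
  rw [coeffMap_id] at h2
  have h3 := inv_mem_of_redFun_ne_zero hg hne
  refine TG N hℓN A hA π hπ p hℓp (galF N σ g * g⁻¹) ?_ ?_ ?_
  · rw [IntermediateField.coe_mul, IntermediateField.coe_inv, coe_galF]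
    exact (WS A π).mul_mem h1 h3
  · rw [IntermediateField.coe_mul, IntermediateField.coe_inv, coe_galF, redFun_mul h1 h3, h2,
      redFun_inv hg hne, mul_inv_cancel₀ hne]
  · intro P
    rw [P.ord_mul ((map_ne_zero_iff _ (galF N σ).injective).2 hg0) (inv_ne_zero hg0), P.ord_inv]
    exact dvd_add (dvd_ord_galF N σ p hd P) ((dvd_neg).2 (hd P))

include hℓN hA hπ in
/-- **(K3)** (Eichler--Shimura) at the level of functions. -/
theorem K3_fun [CharP k ℓ] (p : ℕ) (hp : 0 < p) (hℓp : ¬ ℓ ∣ p) (σ : GQ)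
    (hσ : A.IsFrobeniusAt σ ℓ)
    (f : FN N) (hf0 : f ≠ 0) (hdiv : ∀ P : Place Kb (FN N), (p : ℤ) ∣ P.ord f) :
    haveI : NeZero ℓ := ⟨hℓ.out.ne_zero⟩
    ∃ s : FN N, s ^ p = galF N σ (galF N σ f) * f ^ ℓ * (heckeM N ℓ (galF N σ f))⁻¹ := by
  have : NeZero ℓ := ⟨hℓ.out.ne_zero⟩
  refine pow_of_unit N hℓN A hA π hπ p hp (phi3 N ℓ σ) ?_ f hf0 hdiv
  intro g hg hne hd
  have hg0 : g ≠ 0 := by
    rintro rfl
    exact hne (by rw [ZeroMemClass.coe_zero]; exact (redW A π).map_zero)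
  have hinj : Function.Injective (coeffMap (frobenius k ℓ)) :=
    coeffMap_injective _ (frobenius k ℓ).injective
  set gb := redFun A π (g : LaurentSeries Kb) with hgb
  -- σ g
  obtain ⟨h1, h2⟩ := coeffMap_mem_WS (σ : Kb →+* Kb) (frobenius k ℓ)
    (hσ_of_isFrobeniusAt hπ hσ) hg
  rw [← coe_galF] at h1 h2
  have h2ne : redFun A π ((galF N σ g : FN N) : LaurentSeries Kb) ≠ 0 := by
    rw [h2]
    exact (map_ne_zero_iff _ hinj).2 hne
  -- σ² g
  obtain ⟨h3, h4⟩ := coeffMap_mem_WS (σ : Kb →+* Kb) (frobenius k ℓ)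
    (hσ_of_isFrobeniusAt hπ hσ) h1
  rw [← coe_galF, h2] at h4
  rw [← coe_galF] at h3
  -- T (σ g)
  obtain ⟨h5, h6⟩ := CONG N hℓN A hA π hπ (galF N σ g) h1 h2ne
  rw [h2] at h6
  have h6ne : redFun A π ((heckeM N ℓ (galF N σ g) : FN N) : LaurentSeries Kb) ≠ 0 := by
    rw [h6]
    exact mul_ne_zero ((map_ne_zero_iff _ (qExpand_injective ℓ)).2
      ((map_ne_zero_iff _ hinj).2 hne)) ((map_ne_zero_iff _ hinj).2
      ((map_ne_zero_iff _ hinj).2 hne))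
  have h7 := inv_mem_of_redFun_ne_zero h5 h6ne
  have h8 : (g : LaurentSeries Kb) ^ ℓ ∈ WS A π := (WS A π).pow_mem hg ℓ
  have hσg0 : galF N σ g ≠ 0 := (map_ne_zero_iff _ (galF N σ).injective).2 hg0
  have hσσg0 : galF N σ (galF N σ g) ≠ 0 := (map_ne_zero_iff _ (galF N σ).injective).2 hσg0
  have hT0 : heckeM N ℓ (galF N σ g) ≠ 0 := by
    intro h0
    apply h6ne
    rw [h0, ZeroMemClass.coe_zero]
    exact (redW A π).map_zero
  refine TG N hℓN A hA π hπ p hℓp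
    (galF N σ (galF N σ g) * g ^ ℓ * (heckeM N ℓ (galF N σ g))⁻¹) ?_ ?_ ?_
  · rw [IntermediateField.coe_mul, IntermediateField.coe_mul, IntermediateField.coe_inv,
      IntermediateField.coe_pow]
    exact (WS A π).mul_mem ((WS A π).mul_mem h3 h8) h7
  · rw [IntermediateField.coe_mul, IntermediateField.coe_mul, IntermediateField.coe_inv,
      IntermediateField.coe_pow, redFun_mul ((WS A π).mul_mem h3 h8) h7, redFun_mul h3 h8,
      redFun_inv h5 h6ne, redFun_pow hg, h4, h6, ← hgb, pow_char_eq_qExpand ℓ gb]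
    rw [h6] at h6ne
    rw [mul_comm (coeffMap (frobenius k ℓ) (coeffMap (frobenius k ℓ) gb))]
    exact mul_inv_cancel₀ h6ne
  · intro P
    rw [P.ord_mul (mul_ne_zero hσσg0 (pow_ne_zero _ hg0)) (inv_ne_zero hT0), P.ord_inv,
      P.ord_mul hσσg0 (pow_ne_zero _ hg0), ← zpow_natCast, P.ord_zpow]
    exact dvd_add (dvd_add (dvd_ord_galF N σ p (dvd_ord_galF N σ p hd) P)
      (Dvd.dvd.mul_left (hd P) _)) ((dvd_neg).2
      (dvd_ord_heckeM N ℓ p _ (dvd_ord_galF N σ p hd) P))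

end

/-- **(K2)**: inertia at `ℓ ∤ N p` acts trivially modulo `p`-th powers. -/
theorem K2 (N : ℕ) [NeZero N] {ℓ : ℕ} (hℓ : ℓ.Prime) (hℓN : ¬ ℓ ∣ N)
    (A : ValuationSubring Kb) (hA : A.LiesOverPrime ℓ) (p : ℕ) (hp : 0 < p) (hℓp : ¬ ℓ ∣ p)
    (σ : GQ) (hσ : σ ∈ A.inertiaSubgroupIn ℚ)
    (f : FN N) (hf0 : f ≠ 0) (hdiv : ∀ P : Place Kb (FN N), (p : ℤ) ∣ P.ord f) :
    ∃ s : FN N, s ^ p = galF N σ f * f⁻¹ :=
  have : Fact ℓ.Prime := ⟨hℓ⟩
  K2_fun N hℓN A hA (IsLocalRing.residue A) IsLocalRing.residue_surjective p hp hℓp σ hσ f hf0 hdiv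

/-- **(K3)**: the Eichler--Shimura relation modulo `p`-th powers. -/
theorem K3 (N : ℕ) [NeZero N] {ℓ : ℕ} [NeZero ℓ] (hℓ : ℓ.Prime) (hℓN : ¬ ℓ ∣ N)
    (A : ValuationSubring Kb) (hA : A.LiesOverPrime ℓ) (p : ℕ) (hp : 0 < p) (hℓp : ¬ ℓ ∣ p)
    (σ : GQ) (hσ : A.IsFrobeniusAt σ ℓ)
    (f : FN N) (hf0 : f ≠ 0) (hdiv : ∀ P : Place Kb (FN N), (p : ℤ) ∣ P.ord f) :
    ∃ s : FN N, s ^ p = galF N σ (galF N σ f) * f ^ ℓ * (heckeM N ℓ (galF N σ f))⁻¹ :=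
  have : Fact ℓ.Prime := ⟨hℓ⟩
  have : CharP (IsLocalRing.ResidueField A) ℓ :=
    charP_of_liesOver A hA (IsLocalRing.residue A) IsLocalRing.residue_surjective
  K3_fun N hℓN A hA (IsLocalRing.residue A) IsLocalRing.residue_surjective p hp hℓp σ hσ f hf0 hdiv

end FAG
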