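/-
PROJECT G: the Galois module `KK p N = {f ∈ F_N^× | p ∣ div f} / (F_N^×)^p`.
-/
import Fermat.Agent.Gal.K23

set_option autoImplicit false

open AlgebraicCurve IntermediateField ModularCurve FA24

namespace FAG

/-- smoothness of the Galois action on functions -/
theorem galF_smooth (N : ℕ) (f : FN N) :
    ∃ L : IntermediateField ℚ Kb, FiniteDimensional ℚ L ∧
      ∀ σ : GQ, (∀ x ∈ L, σ x = x) → galF N σ f = f := by
  induction f using FN_induction with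
  | hc a =>
    have : Algebra.IsAlgebraic ℚ Kb := AlgebraicClosure.isAlgebraic ℚ
    refine ⟨ℚ⟮a⟯, IntermediateField.adjoin.finiteDimensional
      (Algebra.IsAlgebraic.isAlgebraic a).isIntegral, fun σ hσ => ?_⟩
    rw [galF_algebraMap, hσ a (IntermediateField.mem_adjoin_simple_self ℚ a)]
  | hJ d _ hd =>
    refine ⟨⊥, inferInstance, fun σ _ => ?_⟩
    apply Subtype.ext
    rw [coe_galF]
    exact coeffMap_coeffEmb σ _
  | hadd f g hf hg =>
    obtain ⟨L1, h1, h1'⟩ := hf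
    obtain ⟨L2, h2, h2'⟩ := hg
    refine ⟨L1 ⊔ L2, IntermediateField.finiteDimensional_sup L1 L2, fun σ hσ => ?_⟩
    rw [map_add, h1' σ fun x hx => hσ x ((le_sup_left : L1 ≤ L1 ⊔ L2) hx),
      h2' σ fun x hx => hσ x ((le_sup_right : L2 ≤ L1 ⊔ L2) hx)]
  | hneg f hf =>
    obtain ⟨L1, h1, h1'⟩ := hf
    exact ⟨L1, h1, fun σ hσ => by rw [map_neg, h1' σ hσ]⟩
  | hmul f g hf hg =>
    obtain ⟨L1, h1, h1'⟩ := hf
    obtain ⟨L2, h2, h2'⟩ := hg
    refine ⟨L1 ⊔ L2, IntermediateField.finiteDimensional_sup L1 L2, fun σ hσ => ?_⟩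
    rw [map_mul, h1' σ fun x hx => hσ x ((le_sup_left : L1 ≤ L1 ⊔ L2) hx),
      h2' σ fun x hx => hσ x ((le_sup_right : L2 ≤ L1 ⊔ L2) hx)]
  | hinv f hf =>
    obtain ⟨L1, h1, h1'⟩ := hf
    exact ⟨L1, h1, fun σ hσ => by rw [map_inv₀, h1' σ hσ]⟩

variable (p N : ℕ)

/-- the units of `F_N` whose divisor is divisible by `p` -/
def UU : Subgroup (FN N)ˣ where
  carrier := {u | ∀ P : Place Kb (FN N), (p : ℤ) ∣ P.ord (u : FN N)}
  mul_mem' := by
    intro a b ha hb P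
    rw [Units.val_mul, P.ord_mul a.ne_zero b.ne_zero]
    exact dvd_add (ha P) (hb P)
  one_mem' := by
    intro P
    rw [Units.val_one, P.ord_one]
    exact dvd_zero _
  inv_mem' := by
    intro a ha P
    rw [Units.val_inv_eq_inv_val, P.ord_inv]
    exact (dvd_neg).2 (ha P)

/-- the `p`-th powers, inside `UU` -/
noncomputable def PP : Subgroup (UU p N) :=
  ((powMonoidHom p : (FN N)ˣ →* (FN N)ˣ).range).subgroupOf (UU p N)

/-- the Galois module (`= J₀(N)[p]`) -/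
def KK : Type := Additive (UU p N ⧸ PP p N)

noncomputable instance : AddCommGroup (KK p N) :=
  inferInstanceAs (AddCommGroup (Additive (UU p N ⧸ PP p N)))

variable {p N}

/-- the class of a function -/
noncomputable def KK.mk (u : UU p N) : KK p N := Additive.ofMul (QuotientGroup.mk u)

theorem KK.mk_surjective : Function.Surjective (KK.mk : UU p N → KK p N) := by
  intro x
  obtain ⟨u, hu⟩ := QuotientGroup.mk_surjective (Additive.toMul x : UU p N ⧸ PP p N)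
  exact ⟨u, congrArg Additive.ofMul hu⟩

theorem KK.mk_mul (u v : UU p N) : KK.mk (u * v) = KK.mk u + KK.mk v := rfl

theorem KK.mk_one : KK.mk (1 : UU p N) = 0 := rfl

theorem KK.mk_inv (u : UU p N) : KK.mk u⁻¹ = - KK.mk u := rfl

theorem KK.mk_pow (u : UU p N) (n : ℕ) : KK.mk (u ^ n) = n • KK.mk u := rfl

theorem KK.mk_eq_zero_iff [NeZero p] (u : UU p N) :
    KK.mk u = 0 ↔ ∃ s : FN N, s ^ p = ((u : (FN N)ˣ) : FN N) := by
  have h1 : KK.mk u = 0 ↔ u ∈ PP p N := by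
    rw [← QuotientGroup.eq_one_iff]
    exact Iff.rfl
  rw [h1, PP, Subgroup.mem_subgroupOf, MonoidHom.mem_range]
  constructor
  · rintro ⟨s, hs⟩
    refine ⟨(s : FN N), ?_⟩
    rw [← hs, powMonoidHom_apply, Units.val_pow_eq_pow_val]
  · rintro ⟨s, hs⟩
    have hs0 : s ≠ 0 := by
      rintro rfl
      rw [zero_pow (NeZero.ne p)] at hs
      exact (u : (FN N)ˣ).ne_zero hs.symm
    refine ⟨Units.mk0 s hs0, ?_⟩
    apply Units.ext
    rw [powMonoidHom_apply, Units.val_pow_eq_pow_val, Units.val_mk0, hs]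

theorem KK.nsmul_eq_zero (x : KK p N) : p • x = 0 := by
  obtain ⟨u, rfl⟩ := KK.mk_surjective x
  rw [← KK.mk_pow]
  have h1 : ∀ v : UU p N, KK.mk v = 0 ↔ v ∈ PP p N := by
    intro v
    rw [← QuotientGroup.eq_one_iff]
    exact Iff.rfl
  rw [h1, PP, Subgroup.mem_subgroupOf, MonoidHom.mem_range]
  exact ⟨(u : (FN N)ˣ), rfl⟩

noncomputable instance : Module (ZMod p) (KK p N) := AddCommGroup.zmodModule KK.nsmul_eq_zero

/-- a multiplicative self-map of `F_N` preserving `p ∣ div` acts on `UU` -/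
noncomputable def UU.map (φ : FN N →* FN N)
    (hφ : ∀ f : FN N, (∀ P : Place Kb (FN N), (p : ℤ) ∣ P.ord f) →
      ∀ P : Place Kb (FN N), (p : ℤ) ∣ P.ord (φ f)) : UU p N →* UU p N :=
  ((Units.map φ).comp (UU p N).subtype).codRestrict (UU p N) (fun u => hφ _ u.2)

theorem UU.coe_map (φ : FN N →* FN N)
    (hφ : ∀ f : FN N, (∀ P : Place Kb (FN N), (p : ℤ) ∣ P.ord f) →
      ∀ P : Place Kb (FN N), (p : ℤ) ∣ P.ord (φ f)) (u : UU p N) :
    (((UU.map φ hφ u : UU p N) : (FN N)ˣ) : FN N) = φ ((u : (FN N)ˣ) : FN N) := rfl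

/-- ... and on `KK` -/
noncomputable def KK.map (φ : FN N →* FN N)
    (hφ : ∀ f : FN N, (∀ P : Place Kb (FN N), (p : ℤ) ∣ P.ord f) →
      ∀ P : Place Kb (FN N), (p : ℤ) ∣ P.ord (φ f)) : Module.End (ZMod p) (KK p N) :=
  (MonoidHom.toAdditive (QuotientGroup.map (PP p N) (PP p N) (UU.map φ hφ) (by
    rintro u ⟨s, hs⟩
    refine ⟨Units.map φ s, ?_⟩
    have : (UU p N).subtype (UU.map φ hφ u) = Units.map φ ((UU p N).subtype u) := rfl
    rw [this, ← hs, powMonoidHom_apply, powMonoidHom_apply, map_pow]))).toZModLinearMap p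

theorem KK.map_mk (φ : FN N →* FN N)
    (hφ : ∀ f : FN N, (∀ P : Place Kb (FN N), (p : ℤ) ∣ P.ord f) →
      ∀ P : Place Kb (FN N), (p : ℤ) ∣ P.ord (φ f)) (u : UU p N) :
    KK.map φ hφ (KK.mk u) = KK.mk (UU.map φ hφ u) := rfl

theorem KK.end_ext {f g : Module.End (ZMod p) (KK p N)} (h : ∀ u : UU p N, f (KK.mk u) = g (KK.mk u)) :
    f = g := by
  refine LinearMap.ext fun x => ?_
  obtain ⟨u, rfl⟩ := KK.mk_surjective x
  exact h u

theorem UU.ext {u v : UU p N} (h : ((u : (FN N)ˣ) : FN N) = ((v : (FN N)ˣ) : FN N)) : u = v :=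
  Subtype.ext (Units.ext h)

variable (p N)

/-- `galF` as a monoid hom -/
noncomputable def galM (σ : GQ) : FN N →* FN N := (galF N σ : FN N →* FN N)

theorem galM_apply (σ : GQ) (f : FN N) : galM N σ f = galF N σ f := rfl

theorem dvd_ord_galM (σ : GQ) (f : FN N) (hf : ∀ P : Place Kb (FN N), (p : ℤ) ∣ P.ord f)
    (P : Place Kb (FN N)) : (p : ℤ) ∣ P.ord (galM N σ f) := dvd_ord_galF N σ p hf P

/-- the Galois action -/
noncomputable def KK.act : GQ →* Module.End (ZMod p) (KK p N) where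
  toFun σ := KK.map (galM N σ) (dvd_ord_galM p N σ)
  map_one' := by
    refine KK.end_ext fun u => ?_
    rw [KK.map_mk]
    refine congrArg KK.mk (UU.ext ?_)
    rw [UU.coe_map]
    exact galF_one N _
  map_mul' σ τ := by
    refine KK.end_ext fun u => ?_
    rw [Module.End.mul_apply, KK.map_mk, KK.map_mk, KK.map_mk]
    refine congrArg KK.mk (UU.ext ?_)
    rw [UU.coe_map, UU.coe_map, UU.coe_map]
    exact galF_mul N σ τ _

theorem KK.act_mk (σ : GQ) (u : UU p N) :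
    KK.act p N σ (KK.mk u) =
      KK.mk (UU.map (galM N σ) (dvd_ord_galM p N σ) u) := rfl

/-- the Hecke operators -/
noncomputable def KK.T [NeZero N] (ℓ : ℕ) : Module.End (ZMod p) (KK p N) :=
  if h : ℓ = 0 then 0 else
    haveI : NeZero ℓ := ⟨h⟩
    KK.map (heckeM N ℓ) (fun f hf => dvd_ord_heckeM N ℓ p f hf)

theorem KK.T_mk [NeZero N] (ℓ : ℕ) [NeZero ℓ] (u : UU p N) :
    KK.T p N ℓ (KK.mk u) =
      KK.mk (UU.map (heckeM N ℓ) (fun f hf => dvd_ord_heckeM N ℓ p f hf) u) := by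
  rw [KK.T, dif_neg (NeZero.ne ℓ), KK.map_mk]

theorem KK.act_smooth (x : KK p N) :
    ∃ L : IntermediateField ℚ Kb, FiniteDimensional ℚ L ∧
      ∀ σ : GQ, (∀ y ∈ L, σ y = y) → KK.act p N σ x = x := by
  obtain ⟨u, rfl⟩ := KK.mk_surjective x
  obtain ⟨L, hL, h⟩ := galF_smooth N ((u : (FN N)ˣ) : FN N)
  refine ⟨L, hL, fun σ hσ => ?_⟩
  rw [KK.act_mk]
  refine congrArg KK.mk (UU.ext ?_)
  rw [UU.coe_map]
  exact h σ hσ

theorem KK.T_comm [NeZero N] (ℓ : ℕ) (σ : GQ) :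
    KK.T p N ℓ * KK.act p N σ = KK.act p N σ * KK.T p N ℓ := by
  rcases eq_or_ne ℓ 0 with h | h
  · rw [KK.T, dif_pos h, zero_mul, mul_zero]
  have : NeZero ℓ := ⟨h⟩
  refine KK.end_ext fun u => ?_
  rw [Module.End.mul_apply, Module.End.mul_apply, KK.act_mk, KK.T_mk, KK.T_mk, KK.act_mk]
  refine congrArg KK.mk (UU.ext ?_)
  rw [UU.coe_map, UU.coe_map, UU.coe_map, UU.coe_map]
  exact (galF_heckeM N ℓ σ _).symm

theorem KK.mk_eq_mk_iff [NeZero p] (u v : UU p N) :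
    KK.mk u = KK.mk v ↔
      ∃ s : FN N, s ^ p = ((u : (FN N)ˣ) : FN N) * (((v : (FN N)ˣ) : FN N))⁻¹ := by
  rw [← sub_eq_zero, sub_eq_add_neg, ← KK.mk_inv, ← KK.mk_mul, KK.mk_eq_zero_iff,
    Subgroup.coe_mul, Subgroup.coe_inv, Units.val_mul, Units.val_inv_eq_inv_val]

/-- **(K2)** -/
theorem KK.unram [NeZero N] [NeZero p] {ℓ : ℕ} (hℓ : ℓ.Prime) (hℓN : ¬ ℓ ∣ N) (hℓp : ¬ ℓ ∣ p)
    (A : ValuationSubring Kb) (hA : A.LiesOverPrime ℓ) (σ : GQ)
    (hσ : σ ∈ A.inertiaSubgroupIn ℚ) : KK.act p N σ = 1 := by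
  refine KK.end_ext fun u => ?_
  rw [KK.act_mk, Module.End.one_apply, KK.mk_eq_mk_iff, UU.coe_map]
  exact K2 N hℓ hℓN A hA p (NeZero.pos p) hℓp σ hσ _ (u : (FN N)ˣ).ne_zero u.2

/-- **(K3)** -/
theorem KK.ES [NeZero N] [NeZero p] {ℓ : ℕ} (hℓ : ℓ.Prime) (hℓN : ¬ ℓ ∣ N) (hℓp : ¬ ℓ ∣ p)
    (A : ValuationSubring Kb) (hA : A.LiesOverPrime ℓ) (σ : GQ)
    (hσ : A.IsFrobeniusAt σ ℓ) :
    KK.act p N σ * KK.act p N σ + (ℓ : ZMod p) • 1 = KK.T p N ℓ * KK.act p N σ := by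
  have : NeZero ℓ := ⟨hℓ.ne_zero⟩
  refine KK.end_ext fun u => ?_
  rw [LinearMap.add_apply, LinearMap.smul_apply, Module.End.mul_apply, Module.End.mul_apply,
    Module.End.one_apply, KK.act_mk, KK.act_mk, KK.T_mk, Nat.cast_smul_eq_nsmul, ← KK.mk_pow,
    ← KK.mk_mul, KK.mk_eq_mk_iff]
  exact K3 N hℓ hℓN A hA p (NeZero.pos p) hℓp σ hσ _ (u : (FN N)ˣ).ne_zero u.2

end FAG
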