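/-
PROJECT G, [K4-ASM], second abstract part: (K4) from a relation between a lattice `Λ` and the
functions of `FN N`.
-/
import Fermat.Agent.Gal.KK
import Fermat.Agent.Gal.K4Abs

set_option autoImplicit false

open AlgebraicCurve ModularCurve FA24
open scoped TensorProduct

namespace FAG

/-- the element of `UU m N` defined by a nonzero function with divisor divisible by `m` -/
noncomputable def UU.of {m N : ℕ} (f : FN N) (hf : f ≠ 0)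
    (hd : ∀ P : Place Kb (FN N), (m : ℤ) ∣ P.ord f) : UU m N :=
  ⟨Units.mk0 f hf, hd⟩

theorem UU.coe_of {m N : ℕ} (f : FN N) (hf : f ≠ 0)
    (hd : ∀ P : Place Kb (FN N), (m : ℤ) ∣ P.ord f) :
    (((UU.of f hf hd : UU m N) : (FN N)ˣ) : FN N) = f := rfl

/-- the homomorphism `Λ → KK m N` defined by a relation `RelF ⊆ Λ × FN N` (any modulus `m`). -/
theorem exists_Psi_of_relF {N : ℕ} [NeZero N] {m : ℕ} [NeZero m] {Λ : Type*} [AddCommGroup Λ]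
    {I : Type*} (ell : I → ℕ) (hell : ∀ i, NeZero (ell i)) (TΛ : I → Λ →+ Λ)
    (RelF : Λ → FN N → Prop)
    (h0 : ∀ χ, ∃ f, RelF χ f)
    (h1 : ∀ χ f, RelF χ f → f ≠ 0 ∧ ∀ P : Place Kb (FN N), (m : ℤ) ∣ P.ord f)
    (h2 : ∀ χ f f', RelF χ f → RelF χ f' → ∃ s : FN N, s ^ m = f * f'⁻¹)
    (h3 : ∀ χ χ' f f', RelF χ f → RelF χ' f' → RelF (χ + χ') (f * f'))
    (h4 : ∀ χ f, RelF χ f → (∃ s : FN N, s ^ m = f) → ∃ χ', χ = m • χ')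
    (h5 : ∀ i χ f, RelF χ f →
      ∃ f', RelF (TΛ i χ) f' ∧ ∃ s : FN N, s ^ m = f' * (haveI := hell i; heckeM N (ell i) f)⁻¹) :
    ∃ Ψ : Λ →+ KK m N, (∀ χ, Ψ χ = 0 → ∃ χ', χ = m • χ') ∧
      (∀ i χ, Ψ (TΛ i χ) = KK.T m N (ell i) (Ψ χ)) ∧
      ∀ χ, ∃ f, ∃ h : RelF χ f, Ψ χ = KK.mk (UU.of f (h1 χ f h).1 (h1 χ f h).2) := by
  let Rel : Λ → KK m N → Prop := fun χ x => ∃ f, ∃ h : RelF χ f,
    x = KK.mk (UU.of f (h1 χ f h).1 (h1 χ f h).2)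
  have hfun : ∀ χ x y, Rel χ x → Rel χ y → x = y := by
    rintro χ _ _ ⟨f, hf, rfl⟩ ⟨f', hf', rfl⟩
    rw [KK.mk_eq_mk_iff]
    exact h2 χ f f' hf hf'
  obtain ⟨Ψ, hΨ⟩ := exists_hom_of_rel Rel
    (fun χ => by
      obtain ⟨f, hf⟩ := h0 χ
      exact ⟨_, f, hf, rfl⟩) hfun
    (by
      rintro χ χ' _ _ ⟨f, hf, rfl⟩ ⟨f', hf', rfl⟩
      refine ⟨f * f', h3 _ _ _ _ hf hf', ?_⟩
      rw [← KK.mk_mul]
      exact congrArg KK.mk (UU.ext rfl))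
  refine ⟨Ψ, fun χ h => ?_, fun i χ => ?_, hΨ⟩
  · obtain ⟨f, hf, h'⟩ := hΨ χ
    exact h4 χ f hf ((KK.mk_eq_zero_iff _).1 (h'.symm.trans h))
  · refine hfun _ _ _ (hΨ _) ?_
    obtain ⟨f, hf, h'⟩ := hΨ χ
    have := hell i
    obtain ⟨f', hf', hs⟩ := h5 i χ f hf
    refine ⟨f', hf', ?_⟩
    rw [h', KK.T_mk, eq_comm, KK.mk_eq_mk_iff]
    exact hs

/-- (K4) from a relation `RelF ⊆ Λ × FN N`. -/
theorem K4_of_relF {N : ℕ} [NeZero N] {p : ℕ} [Fact p.Prime] {Λ : Type*} [AddCommGroup Λ]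
    {I : Type*} (ell : I → ℕ) (hell : ∀ i, NeZero (ell i)) (TΛ : I → Λ →+ Λ)
    (RelF : Λ → FN N → Prop)
    (h0 : ∀ χ, ∃ f, RelF χ f)
    (h1 : ∀ χ f, RelF χ f → f ≠ 0 ∧ ∀ P : Place Kb (FN N), (p : ℤ) ∣ P.ord f)
    (h2 : ∀ χ f f', RelF χ f → RelF χ f' → ∃ s : FN N, s ^ p = f * f'⁻¹)
    (h3 : ∀ χ χ' f f', RelF χ f → RelF χ' f' → RelF (χ + χ') (f * f'))
    (h4 : ∀ χ f, RelF χ f → (∃ s : FN N, s ^ p = f) → ∃ χ', χ = p • χ')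
    (h5 : ∀ i χ f, RelF χ f →
      ∃ f', RelF (TΛ i χ) f' ∧ ∃ s : FN N, s ^ p = f' * (haveI := hell i; heckeM N (ell i) f)⁻¹)
    {n : ℕ} (b : Module.Basis (Fin n) ℤ Λ)
    {k1 : Type*} [Field k1] [Algebra (ZMod p) k1]
    (w : Fin n → k1) (hw : w ≠ 0) (c : I → k1)
    (hwT : ∀ i m, ∑ j, ((b.repr (TΛ i (b j)) m : ℤ) : k1) * w j = c i * w m) :
    ∃ W : k1 ⊗[ZMod p] KK p N, W ≠ 0 ∧ ∀ i, (KK.T p N (ell i)).baseChange k1 W = c i • W := by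
  have hp0 : NeZero p := ⟨(Fact.out : p.Prime).ne_zero⟩
  obtain ⟨Ψ, hker, hT, -⟩ := exists_Psi_of_relF ell hell TΛ RelF h0 h1 h2 h3 h4 h5
  exact K4_abs_mod TΛ (fun i => KK.T p N (ell i)) Ψ hker hT b w hw c hwT

end FAG
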