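import Fermat.Agent.Gal.Real1
import Fermat.Agent.Igusa.MeroRing

/-! PROJECT G, [REAL] part 2: the relation `Real p χ f` for integral classes `χ`. -/

set_option autoImplicit false

open UpperHalfPlane ModularForm Function CongruenceSubgroup FA24 AlgebraicCurve
open ModularCurve.Period
open scoped Manifold MatrixGroups

namespace FAG

variable {N : ℕ} [NeZero N]

/-- the root of unity `exp (2π i / p)`. -/
noncomputable def zetaP (p : ℕ) : ℂˣ := FAIg.zetaU p 1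

lemma coe_zetaP (p : ℕ) : (zetaP p : ℂ) = Complex.exp (2 * Real.pi * Complex.I / p) := by
  rw [zetaP, FAIg.coe_zetaU, FA_IS.zetaAff]
  simp

lemma zetaP_isPrimitiveRoot {p : ℕ} (hp : 0 < p) : IsPrimitiveRoot (zetaP p) p := by
  rw [← IsPrimitiveRoot.coe_units_iff, coe_zetaP]
  exact Complex.isPrimitiveRoot_exp p hp.ne'

/-- the character `γ ↦ ζ_p ^ χ γ`. -/
noncomputable def chiC (p : ℕ) (χ : Additive ↥(Gamma0 N) →+ ℤ) : ↥(Gamma0 N) →* ℂˣ :=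
  HSys.expChar (zetaP p) χ

lemma chiC_apply (p : ℕ) (χ : Additive ↥(Gamma0 N) →+ ℤ) (γ : ↥(Gamma0 N)) :
    chiC p χ γ = zetaP p ^ χ (Additive.ofMul γ) := rfl

lemma chiC_pow {p : ℕ} (hp : 0 < p) (χ : Additive ↥(Gamma0 N) →+ ℤ) (γ : ↥(Gamma0 N)) :
    chiC p χ γ ^ p = 1 := by
  rw [chiC_apply, ← zpow_natCast, ← zpow_mul, mul_comm, zpow_mul, zpow_natCast,
    (zetaP_isPrimitiveRoot hp).pow_eq_one, one_zpow]

lemma norm_chiC {p : ℕ} (hp : 0 < p) (χ : Additive ↥(Gamma0 N) →+ ℤ) (γ : ↥(Gamma0 N)) :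
    ‖(chiC p χ γ : ℂ)‖ = 1 := by
  apply Complex.norm_eq_one_of_pow_eq_one (n := p) _ hp.ne'
  rw [← Units.val_pow_eq_pow_val, chiC_pow hp, Units.val_one]

lemma chiC_isParCh (p : ℕ) {χ : Additive ↥(Gamma0 N) →+ ℤ} (hχ : IsParabolicHom (Gamma0 N) χ) :
    IsParCh (chiC p χ) := by
  intro γ hγ
  rw [chiC_apply, hχ γ hγ, zpow_zero]

lemma chiC_of_pow_eq_one (p : ℕ) (χ : Additive ↥(Gamma0 N) →+ ℤ) (γ : ↥(Gamma0 N))
    (h : γ ^ 12 = 1) : chiC p χ γ = 1 := by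
  have h1 : (12 : ℕ) • χ (Additive.ofMul γ) = 0 := by
    rw [← map_nsmul, ← ofMul_pow, h, ofMul_one, map_zero]
  have h2 : χ (Additive.ofMul γ) = 0 := by
    simpa using h1
  rw [chiC_apply, h2, zpow_zero]

lemma chiC_add (p : ℕ) (χ χ' : Additive ↥(Gamma0 N) →+ ℤ) :
    chiC p (χ + χ') = chiC p χ * chiC p χ' := HSys.expChar_add _ _ _

lemma chiC_smul {p : ℕ} (hp : 0 < p) (ψ : Additive ↥(Gamma0 N) →+ ℤ) : chiC p (p • ψ) = 1 := by
  ext γ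
  rw [chiC_apply]
  simp only [AddMonoidHom.coe_smul, Pi.smul_apply, nsmul_eq_mul, MonoidHom.one_apply, Units.val_one]
  rw [zpow_mul, zpow_natCast, (zetaP_isPrimitiveRoot hp).pow_eq_one, one_zpow, Units.val_one]

lemma exists_of_chiC_eq_one {p : ℕ} (hp : 0 < p) {χ : Additive ↥(Gamma0 N) →+ ℤ}
    (h : chiC p χ = 1) : ∃ ψ : Additive ↥(Gamma0 N) →+ ℤ, χ = p • ψ := by
  have h1 : ∀ γ, (p : ℤ) ∣ χ γ := by
    intro γ
    have := DFunLike.congr_fun h γ.toMul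
    rw [chiC_apply, MonoidHom.one_apply] at this
    exact ((zetaP_isPrimitiveRoot hp).zpow_eq_one_iff_dvd _).mp this
  refine ⟨{ toFun := fun γ => χ γ / p
            map_zero' := by simp
            map_add' := fun a b => by rw [map_add, Int.add_ediv_of_dvd_left (h1 a)] }, ?_⟩
  ext γ
  show χ _ = p • (χ _ / (p : ℤ))
  rw [nsmul_eq_mul]
  exact (Int.mul_ediv_cancel' (h1 _)).symm

/-- **the realisation relation.** -/
def Real (p : ℕ) (χ : Additive ↥(Gamma0 N) →+ ℤ) (f : FAGP.FN ℂ N) : Prop :=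
  RealC p (chiC p χ) f

theorem Real.ne_zero {p : ℕ} {χ : Additive ↥(Gamma0 N) →+ ℤ} {f : FAGP.FN ℂ N}
    (h : Real p χ f) : f ≠ 0 := RealC.ne_zero h

theorem exists_real {p : ℕ} (hp : 0 < p) {χ : Additive ↥(Gamma0 N) →+ ℤ}
    (hχ : IsParabolicHom (Gamma0 N) χ) : ∃ f : FAGP.FN ℂ N, Real p χ f :=
  exists_realC _ (chiC_pow hp χ) (norm_chiC hp χ) (chiC_isParCh p hχ)

theorem Real.mul {p : ℕ} {χ χ' : Additive ↥(Gamma0 N) →+ ℤ} {f f' : FAGP.FN ℂ N}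
    (h : Real p χ f) (h' : Real p χ' f') : Real p (χ + χ') (f * f') := by
  rw [Real, chiC_add]
  exact RealC.mul h h'

theorem Real.unique {p : ℕ} (hp : 0 < p) {χ : Additive ↥(Gamma0 N) →+ ℤ} {f f' : FAGP.FN ℂ N}
    (h : Real p χ f) (h' : Real p χ f') : ∃ s : FAGP.FN ℂ N, s ≠ 0 ∧ f = f' * s ^ p :=
  RealC.unique hp (chiC_pow hp χ) h h'

theorem Real.smul_one {p : ℕ} (hp : 0 < p) (ψ : Additive ↥(Gamma0 N) →+ ℤ) :
    Real p (p • ψ) (1 : FAGP.FN ℂ N) := by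
  rw [Real, chiC_smul hp]
  exact RealC.one p

theorem Real.zero_one (p : ℕ) : Real p (0 : Additive ↥(Gamma0 N) →+ ℤ) (1 : FAGP.FN ℂ N) := by
  have : chiC p (0 : Additive ↥(Gamma0 N) →+ ℤ) = 1 := by
    ext γ
    simp [chiC_apply]
  rw [Real, this]
  exact RealC.one p

/-- `Real` only depends on `χ` modulo `p`. -/
theorem Real.congr {p : ℕ} (hp : 0 < p) {χ : Additive ↥(Gamma0 N) →+ ℤ} {f : FAGP.FN ℂ N}
    (h : Real p χ f) (ψ : Additive ↥(Gamma0 N) →+ ℤ) : Real p (χ + p • ψ) f := by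
  have := h.mul (Real.smul_one hp ψ)
  rwa [mul_one] at this

theorem Real.pow_of_smul {p : ℕ} (hp : 0 < p) {ψ : Additive ↥(Gamma0 N) →+ ℤ} {f : FAGP.FN ℂ N}
    (h : Real p (p • ψ) f) : ∃ s : FAGP.FN ℂ N, s ≠ 0 ∧ f = s ^ p := by
  obtain ⟨s, hs, h1⟩ := h.unique hp (Real.smul_one hp ψ)
  exact ⟨s, hs, by rw [h1, one_mul]⟩

theorem Real.dvd_of_pow {p : ℕ} (hp : 0 < p) {χ : Additive ↥(Gamma0 N) →+ ℤ} {f : FAGP.FN ℂ N}
    (h : Real p χ f) (s : FAGP.FN ℂ N) (hs : s ^ p = f) :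
    ∃ ψ : Additive ↥(Gamma0 N) →+ ℤ, χ = p • ψ :=
  exists_of_chiC_eq_one hp (RealC.eq_one_of_pow hp h s hs)

theorem Real.dvd_ord {p : ℕ} {χ : Additive ↥(Gamma0 N) →+ ℤ}
    (hχ : IsParabolicHom (Gamma0 N) χ) {f : FAGP.FN ℂ N} (h : Real p χ f)
    (v : Place ℂ (FAGP.FN ℂ N)) : (p : ℤ) ∣ v.ord f :=
  RealC.dvd_ord (chiC_isParCh p hχ) (chiC_of_pow_eq_one p χ) h v

end FAG
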