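/-
PROJECT G, [K4-ASM]: (K4) from [REAL] (helper1), [COH] (helper5) and the properties (S0)-(S6) of the
specialisation relation `Sp` (helper3 / helper6), taken here as hypotheses.
-/
import Fermat.Agent.Gal.K4Fun
import Fermat.Agent.Gal.Real2
import Fermat.Agent.Gal.Coh
import Fermat.Agent.Gal.HPK

set_option autoImplicit false

open AlgebraicCurve ModularCurve FA24 CongruenceSubgroup ModularCurve.Period
open scoped TensorProduct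

namespace FAG

/-- the lattice of integral parabolic classes -/
abbrev LamZ (N : ℕ) : Type := parabolicHoms ℤ (Gamma0 N) ℤ

/-- the index type of the good primes -/
abbrev GoodP (N : ℕ) : Type := {ℓ : ℕ // ℓ.Prime ∧ ¬ ℓ ∣ N}

/-- the properties of the specialisation relation, for the modulus `m` -/
structure SpHyp (m N : ℕ) [NeZero N] (Sp : FAGP.FN ℂ N → FN N → Prop) : Prop where
  ex : ∀ f, f ≠ 0 → ∃ fb, Sp f fb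
  ne : ∀ f fb, Sp f fb → fb ≠ 0
  mul : ∀ f f' fb fb', Sp f fb → Sp f' fb' → Sp (f * f') (fb * fb')
  dvd : ∀ f fb, Sp f fb → (∀ v : Place ℂ (FAGP.FN ℂ N), (m : ℤ) ∣ v.ord f) →
    ∀ Q : Place Kb (FN N), (m : ℤ) ∣ Q.ord fb
  uniq : ∀ f fb fb', Sp f fb → Sp f fb' → ∃ a : Kb, a ≠ 0 ∧ fb' = a • fb
  pow : ∀ s fb, Sp (s ^ m) fb → ∃ t : FN N, t ^ m = fb
  root : ∀ f fb, Sp f fb → (∀ v : Place ℂ (FAGP.FN ℂ N), (m : ℤ) ∣ v.ord f) →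
    (∃ t : FN N, t ^ m = fb) → ∃ s : FAGP.FN ℂ N, s ^ m = f
  hecke : ∀ (ℓ : ℕ) (hℓ : ℓ.Prime), ¬ ℓ ∣ N → ∀ f fb, Sp f fb →
    haveI : NeZero ℓ := ⟨hℓ.ne_zero⟩
    Sp (heckeMK ℂ N ℓ f) (heckeM N ℓ fb)

/-- Hecke equivariance of `Real` (helper1 / helper7), as a hypothesis -/
def RealHecke (m N : ℕ) [NeZero N] : Prop :=
  ∀ (ℓ : ℕ) (hℓ : ℓ.Prime) (hN : ¬ ℓ ∣ N) (χ : Additive ↥(Gamma0 N) →+ ℤ) (f : FAGP.FN ℂ N),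
    IsParabolicHom (Gamma0 N) χ → Real m χ f →
    haveI : NeZero ℓ := ⟨hℓ.ne_zero⟩
    Real m ((hsys N hℓ hN).heckeAdd χ) (heckeMK ℂ N ℓ f)

/-- the composite relation -/
def RelSp (m N : ℕ) [NeZero N] (Sp : FAGP.FN ℂ N → FN N → Prop) (χ : LamZ N) (fb : FN N) : Prop :=
  ∃ f : FAGP.FN ℂ N, Real m χ.1 f ∧ Sp f fb

section

variable {m N : ℕ} [NeZero N] [NeZero m] {Sp : FAGP.FN ℂ N → FN N → Prop}

theorem RelSp.ex (H : SpHyp m N Sp) (χ : LamZ N) : ∃ fb, RelSp m N Sp χ fb := by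
  obtain ⟨f, hf⟩ := exists_real (NeZero.pos m) χ.2
  obtain ⟨fb, hfb⟩ := H.ex f hf.ne_zero
  exact ⟨fb, f, hf, hfb⟩

theorem RelSp.ne_dvd (H : SpHyp m N Sp) (χ : LamZ N) (fb : FN N) (h : RelSp m N Sp χ fb) :
    fb ≠ 0 ∧ ∀ P : Place Kb (FN N), (m : ℤ) ∣ P.ord fb := by
  obtain ⟨f, hf, hfb⟩ := h
  exact ⟨H.ne f fb hfb, H.dvd f fb hfb (hf.dvd_ord χ.2)⟩

theorem RelSp.uniq (H : SpHyp m N Sp) (χ : LamZ N) (fb fb' : FN N) (h : RelSp m N Sp χ fb)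
    (h' : RelSp m N Sp χ fb') : ∃ s : FN N, s ^ m = fb * fb'⁻¹ := by
  obtain ⟨f, hf, hfb⟩ := h
  obtain ⟨f', hf', hfb'⟩ := h'
  obtain ⟨s, hs, hfs⟩ := hf.unique (NeZero.pos m) hf'
  obtain ⟨tb, htb⟩ := H.ex (s ^ m) (pow_ne_zero _ hs)
  obtain ⟨t, ht⟩ := H.pow s tb htb
  have h1 : Sp f (fb' * tb) := hfs ▸ H.mul _ _ _ _ hfb' htb
  obtain ⟨a, ha, hab⟩ := H.uniq f _ _ h1 hfb
  obtain ⟨α, hα⟩ := IsAlgClosed.exists_pow_nat_eq a (NeZero.pos m)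
  have hfb'0 := H.ne _ _ hfb'
  refine ⟨algebraMap Kb (FN N) α * t, ?_⟩
  rw [hab, mul_pow, ← map_pow, hα, ht, Algebra.smul_def]
  field_simp

theorem RelSp.mul (H : SpHyp m N Sp) (χ χ' : LamZ N) (fb fb' : FN N) (h : RelSp m N Sp χ fb)
    (h' : RelSp m N Sp χ' fb') : RelSp m N Sp (χ + χ') (fb * fb') := by
  obtain ⟨f, hf, hfb⟩ := h
  obtain ⟨f', hf', hfb'⟩ := h'
  exact ⟨f * f', hf.mul hf', H.mul _ _ _ _ hfb hfb'⟩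

theorem RelSp.ker (H : SpHyp m N Sp) (χ : LamZ N) (fb : FN N) (h : RelSp m N Sp χ fb)
    (ht : ∃ t : FN N, t ^ m = fb) : ∃ χ' : LamZ N, χ = m • χ' := by
  obtain ⟨f, hf, hfb⟩ := h
  obtain ⟨s, hs⟩ := H.root f fb hfb (hf.dvd_ord χ.2) ht
  obtain ⟨ψ, hψ⟩ := hf.dvd_of_pow (NeZero.pos m) s hs
  refine ⟨⟨ψ, fun γ hγ => ?_⟩, Subtype.ext hψ⟩
  have h1 := χ.2 γ hγ
  rw [hψ] at h1
  have h2 : (m : ℤ) * ψ (Additive.ofMul γ) = 0 := by simpa using h1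
  rcases mul_eq_zero.1 h2 with h | h
  · exact absurd (by exact_mod_cast h) (NeZero.ne m)
  · exact h

theorem RelSp.hecke (H : SpHyp m N Sp) (HR : RealHecke m N) (i : GoodP N) (χ : LamZ N) (fb : FN N)
    (h : RelSp m N Sp χ fb) :
    haveI : NeZero i.1 := ⟨i.2.1.ne_zero⟩
    RelSp m N Sp (heckePar N i.2.1 i.2.2 ℤ ℤ χ) (heckeM N i.1 fb) := by
  obtain ⟨f, hf, hfb⟩ := h
  exact ⟨_, HR i.1 i.2.1 i.2.2 χ.1 f χ.2 hf, H.hecke i.1 i.2.1 i.2.2 f fb hfb⟩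

/-- **the injective Hecke-equivariant homomorphism `Λ/mΛ → KK m N`** (any modulus `m ≥ 1`) -/
theorem exists_Psi (H : SpHyp m N Sp) (HR : RealHecke m N) :
    ∃ Ψ : LamZ N →+ KK m N, (∀ χ, Ψ χ = 0 → ∃ χ', χ = m • χ') ∧
      (∀ (i : GoodP N) χ, Ψ (heckePar N i.2.1 i.2.2 ℤ ℤ χ) = KK.T m N i.1 (Ψ χ)) ∧
      ∀ χ, ∃ fb, ∃ h : RelSp m N Sp χ fb,
        Ψ χ = KK.mk (UU.of fb (RelSp.ne_dvd H χ fb h).1 (RelSp.ne_dvd H χ fb h).2) := by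
  refine exists_Psi_of_relF (I := GoodP N) (fun i => i.1) (fun i => ⟨i.2.1.ne_zero⟩)
    (fun i => (heckePar N i.2.1 i.2.2 ℤ ℤ).toAddMonoidHom) (RelSp m N Sp) (RelSp.ex H)
    (RelSp.ne_dvd H) (RelSp.uniq H) (RelSp.mul H) (RelSp.ker H) (fun i χ fb h => ?_)
  have : NeZero i.1 := ⟨i.2.1.ne_zero⟩
  have h1 := RelSp.hecke H HR i χ fb h
  refine ⟨_, h1, 1, ?_⟩
  rw [one_pow, mul_inv_cancel₀ (RelSp.ne_dvd H _ _ h1).1]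

end

/-- **(K4)** relative to (S0)-(S6) and the Hecke equivariance of `Real`. -/
theorem K4_of_sp {N : ℕ} [NeZero N] {p : ℕ} [Fact p.Prime] {Sp : FAGP.FN ℂ N → FN N → Prop}
    (H : SpHyp p N Sp) (HR : RealHecke p N)
    {g : CuspForm (Gamma0 N) 2} (hg : g.IsNormalizedEigenform) {k1 : Type} [Field k1]
    [Algebra (ZMod p) k1] (ψ : integralClosure ℤ ℂ →+* k1) :
    ∃ w : k1 ⊗[ZMod p] KK p N, w ≠ 0 ∧ ∀ ℓ : ℕ, ℓ.Prime → ¬ ℓ ∣ N →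
      ∃ a : integralClosure ℤ ℂ, (a : ℂ) = ModularFormClass.qCoeff g ℓ ∧
        (KK.T p N ℓ).baseChange k1 w = ψ a • w := by
  have hp0 : NeZero p := ⟨(Fact.out : p.Prime).ne_zero⟩
  obtain ⟨Ψ, hker, hT, -⟩ := exists_Psi H HR
  obtain ⟨r, b, w, hw, hwT⟩ := COH hg ψ
  choose a ha hwa using hwT
  obtain ⟨W, hW, hWT⟩ := K4_abs_mod (I := GoodP N)
    (fun i => (heckePar N i.2.1 i.2.2 ℤ ℤ).toAddMonoidHom) (fun i => KK.T p N i.1) Ψ hker hT b w hw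
    (fun i => ψ (a i.1 i.2.1 i.2.2)) (fun i => hwa i.1 i.2.1 i.2.2)
  exact ⟨W, hW, fun ℓ hℓ hℓN => ⟨a ℓ hℓ hℓN, ha ℓ hℓ hℓN, hWT ⟨ℓ, hℓ, hℓN⟩⟩⟩

end FAG
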