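import Fermat.Agent.Gal.Real2
import Fermat.Agent.Gal.HPK
import Fermat.Agent.Igusa.ModEqC

/-! PROJECT G, [REAL] part 3 (E): Hecke equivariance of the realisation relation. -/

set_option autoImplicit false

open UpperHalfPlane ModularForm Function CongruenceSubgroup FA24 FA_IS AlgebraicCurve ModularCurve
open ModularCurve.Period
open FAIg (twistL zetaU)
open scoped Manifold MatrixGroups

namespace FAG

local notation "Δ" => ModularForm.discriminant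

/-- holomorphic with at most a pole at `i∞` (no periodicity). -/
structure HolPole (f : ℍ → ℂ) : Prop where
  hol : MDiff f
  pole : ∃ m : ℕ, IsBoundedAtImInfty (f * Δ ^ m)

lemma HolPole.of_mero {N : ℕ} {f : ℍ → ℂ} (h : MeroInf N f) : HolPole f := ⟨h.hol, h.pole⟩

lemma HolPole.mul {f g : ℍ → ℂ} (hf : HolPole f) (hg : HolPole g) : HolPole (f * g) := by
  obtain ⟨m, hm⟩ := hf.pole
  obtain ⟨m', hm'⟩ := hg.pole
  refine ⟨hf.hol.mul hg.hol, ⟨m + m', ?_⟩⟩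
  have : f * g * Δ ^ (m + m') = (f * Δ ^ m) * (g * Δ ^ m') := by
    rw [pow_add]; ring
  rw [this]
  exact hm.mul hm'

lemma HolPole.one : HolPole (1 : ℍ → ℂ) :=
  ⟨mdifferentiable_const, ⟨0, by
    rw [pow_zero, mul_one]
    exact Filter.const_boundedAtFilter _ (1 : ℂ)⟩⟩

lemma HolPole.prod {ι : Type*} (s : Finset ι) (F : ι → ℍ → ℂ) (h : ∀ i ∈ s, HolPole (F i)) :
    HolPole (∏ i ∈ s, F i) := by
  classical
  induction s using Finset.induction_on with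
  | empty => simpa using HolPole.one
  | insert a s ha ih =>
    rw [Finset.prod_insert ha]
    exact (h a (Finset.mem_insert_self a s)).mul
      (ih fun i hi => h i (Finset.mem_insert_of_mem hi))

lemma prod_ne_zero_of_holPole {ι : Type*} (s : Finset ι) (F : ι → ℍ → ℂ)
    (h : ∀ i ∈ s, HolPole (F i)) (h0 : ∀ i ∈ s, F i ≠ 0) : ∏ i ∈ s, F i ≠ 0 := by
  classical
  induction s using Finset.induction_on with
  | empty =>
    rw [Finset.prod_empty]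
    intro h1
    have := congrFun h1 UpperHalfPlane.I
    simp at this
  | insert a s ha ih =>
    rw [Finset.prod_insert ha]
    intro h1
    rcases (UpperHalfPlane.mul_eq_zero_iff (h a (Finset.mem_insert_self a s)).hol
      (HolPole.prod s F fun i hi => h i (Finset.mem_insert_of_mem hi)).hol).mp h1 with h2 | h2
    · exact h0 a (Finset.mem_insert_self a s) h2
    · exact ih (fun i hi => h i (Finset.mem_insert_of_mem hi))
        (fun i hi => h0 i (Finset.mem_insert_of_mem hi)) h2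

lemma HolPole.compAff {f : ℍ → ℂ} (hf : HolPole f) {a e : ℕ} (ha : 0 < a) (he : 0 < e) (b : ℤ) :
    HolPole (compAff f a e b) := by
  obtain ⟨m, hm⟩ := hf.pole
  refine ⟨compAff_mdiff hf.hol ha he b, ⟨a * m, ?_⟩⟩
  have e1 : FA_IS.compAff f a e b * Δ ^ (a * m) =
      FA_IS.compAff (f * Δ ^ m) a e b * (Δ ^ a / FA_IS.compAff Δ a e b) ^ m := by
    ext τ
    simp only [Pi.mul_apply, Pi.pow_apply, Pi.div_apply, FA_IS.compAff]
    have := discriminant_ne_zero (affPt a e b τ)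
    rw [div_pow, ← pow_mul, mul_assoc, mul_div_cancel₀ _ (pow_ne_zero m this)]
  rw [e1]
  have hb : ∀ k : ℕ, IsBoundedAtImInfty ((Δ ^ a / FA_IS.compAff Δ a e b) ^ k) := by
    intro k
    induction k with
    | zero => rw [pow_zero]; exact Filter.const_boundedAtFilter atImInfty (1 : ℂ)
    | succ k ih => rw [pow_succ]; exact ih.mul (bdd_disc_ratio_aff ha he b)
  have hb' : IsBoundedAtImInfty (FA_IS.compAff (f * Δ ^ m) a e b) :=
    hm.comp_tendsto (tendsto_affPt ha he b)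
  exact hb'.mul (hb m)

/-! ### the action of the representatives -/

lemma dR_smul_some {ℓ : ℕ} (hℓ : 0 < ℓ) (j : Fin ℓ) (τ : ℍ) :
    dR ℓ (some j) • τ = affPt 1 ℓ ((j : ℕ) : ℤ) τ := by
  apply UpperHalfPlane.ext
  rw [dR, coe_heckeMatrix_smul hℓ.ne', coe_affPt one_pos hℓ]
  push_cast
  ring

lemma dR_smul_none {ℓ : ℕ} (hℓ : 0 < ℓ) (τ : ℍ) : dR ℓ none • τ = affPt ℓ 1 0 τ := by
  apply UpperHalfPlane.ext
  rw [dR, coe_heckeDiagMatrix_smul hℓ.ne', coe_affPt hℓ one_pos]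
  push_cast
  ring

lemma holPole_comp_dR {ℓ : ℕ} (hℓ : 0 < ℓ) {V : ℍ → ℂ} (hV : HolPole V) (i : Option (Fin ℓ)) :
    HolPole (fun τ => V (dR ℓ i • τ)) := by
  cases i with
  | none =>
    have : (fun τ => V (dR ℓ none • τ)) = FA_IS.compAff V ℓ 1 0 := by
      funext τ
      rw [dR_smul_none hℓ]
      rfl
    rw [this]
    exact hV.compAff hℓ one_pos 0
  | some j =>
    have : (fun τ => V (dR ℓ (some j) • τ)) = FA_IS.compAff V 1 ℓ ((j : ℕ) : ℤ) := by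
      funext τ
      rw [dR_smul_some hℓ]
      rfl
    rw [this]
    exact hV.compAff one_pos hℓ _

/-- `U ↦ ∏ U ∘ δ_i`. -/
noncomputable def heckeFun (ℓ : ℕ) (U : ℍ → ℂ) : ℍ → ℂ :=
  fun τ => ∏ i : Option (Fin ℓ), U (dR ℓ i • τ)

lemma heckeFun_eq_prod (ℓ : ℕ) (U : ℍ → ℂ) :
    heckeFun ℓ U = ∏ i : Option (Fin ℓ), fun τ => U (dR ℓ i • τ) := by
  funext τ
  rw [Finset.prod_apply]
  rfl

variable {N : ℕ} [NeZero N]

lemma holPole_factor {ℓ : ℕ} (hℓ : ℓ.Prime) (U : MN N) (i : Option (Fin ℓ)) (γ : SL(2, ℤ)) :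
    HolPole (fun τ => U.1 (dR ℓ i • γ • τ)) := by
  obtain ⟨j, γ', h⟩ := exists_dR_mul_one hℓ i γ
  have : (fun τ => U.1 (dR ℓ i • γ • τ)) = fun τ => (fun τ' => U.1 (γ' • τ')) (dR ℓ j • τ) := by
    funext τ
    show U.1 (dR ℓ i • (Matrix.SpecialLinearGroup.mapGL ℝ γ) • τ) =
      U.1 ((Matrix.SpecialLinearGroup.mapGL ℝ γ') • dR ℓ j • τ)
    rw [← mul_smul, h, mul_smul]
  rw [this]
  exact holPole_comp_dR hℓ.pos (HolPole.of_mero (U.2 γ')) j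

lemma holPole_heckeFun {ℓ : ℕ} (hℓ : ℓ.Prime) (U : MN N) (γ : SL(2, ℤ)) :
    HolPole (fun τ => heckeFun ℓ U.1 (γ • τ)) := by
  have : (fun τ => heckeFun ℓ U.1 (γ • τ)) =
      ∏ i : Option (Fin ℓ), fun τ => U.1 (dR ℓ i • γ • τ) := by
    funext τ
    rw [Finset.prod_apply]
    rfl
  rw [this]
  exact HolPole.prod _ _ fun i _ => holPole_factor hℓ U i γ

lemma heckeFun_ne_zero {ℓ : ℕ} (hℓ : ℓ.Prime) {U : MN N} (hU : U ≠ 0) :
    heckeFun ℓ U.1 ≠ 0 := by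
  rw [heckeFun_eq_prod]
  refine prod_ne_zero_of_holPole _ _ (fun i _ => ?_) (fun i _ h => hU ?_)
  · have := holPole_factor hℓ U i 1
    simpa using this
  · apply Subtype.ext
    funext τ
    have := congrFun h ((dR ℓ i)⁻¹ • τ)
    simpa using this

lemma heckeFun_isTw {ℓ : ℕ} (hℓ : ℓ.Prime) (hN : ¬ ℓ ∣ N) {c : ↥(Gamma0 N) →* ℂˣ} {U : ℍ → ℂ}
    (hU : IsTw c U) : IsTw ((hsys N hℓ hN).heckeMul c) (heckeFun ℓ U) := by
  intro γ τ
  have h := (hsys N hℓ hN).prod_smul (X := ℍ) (M := ℂ) (c := (Units.coeHom ℂ).comp c) (U := U)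
    (fun γ x => hU γ x) γ τ
  have e : ((hsys N hℓ hN).heckeMul ((Units.coeHom ℂ).comp c)) γ =
      (((hsys N hℓ hN).heckeMul c γ : ℂˣ) : ℂ) := by
    rw [HSys.heckeMul_apply, HSys.heckeMul_apply, Units.coe_prod]
    rfl
  rw [e] at h
  exact h

lemma heckeFun_mem_MN {ℓ : ℕ} (hℓ : ℓ.Prime) (hN : ¬ ℓ ∣ N) {c : ↥(Gamma0 N) →* ℂˣ} {U : MN N}
    (hU : IsTw c U.1) (hc : IsParCh ((hsys N hℓ hN).heckeMul c)) : heckeFun ℓ U.1 ∈ MN N := by
  intro γ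
  have h := holPole_heckeFun hℓ U γ
  exact ⟨periodic_of_vadd_nat N fun τ => (heckeFun_isTw hℓ hN hU).vadd hc γ τ, h.hol, h.pole⟩

/-! ### the `q`-expansion -/

lemma zetaU_natCast (ℓ : ℕ) (b : ℕ) : zetaU ℓ (b : ℤ) = zetaU ℓ 1 ^ b := by
  apply Units.ext
  rw [Units.val_pow_eq_pow_val, FAIg.coe_zetaU, FAIg.coe_zetaU, zetaAff, zetaAff,
    ← Complex.exp_nat_mul]
  congr 1
  push_cast
  ring

lemma comp_dR_none {ℓ : ℕ} (hℓ : 0 < ℓ) (g : ℍ → ℂ) :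
    (fun τ => g (dR ℓ none • τ)) = FA_IS.compAff g ℓ 1 0 := by
  funext τ
  rw [dR_smul_none hℓ]
  rfl

lemma comp_dR_some {ℓ : ℕ} (hℓ : 0 < ℓ) (g : ℍ → ℂ) (j : Fin ℓ) :
    (fun τ => g (dR ℓ (some j) • τ)) = FA_IS.compAff g 1 ℓ ((j : ℕ) : ℤ) := by
  funext τ
  rw [dR_smul_some hℓ]
  rfl

lemma meroInf_comp_dR {ℓ : ℕ} [NeZero ℓ] {g : ℍ → ℂ} (hg : MeroInf 1 g) (i : Option (Fin ℓ)) :
    MeroInf ℓ (fun τ => g (dR ℓ i • τ)) := by
  have hℓ : 0 < ℓ := Nat.pos_of_ne_zero (NeZero.ne ℓ)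
  cases i with
  | none =>
    rw [comp_dR_none hℓ]
    exact FAIg.meroInf_compAff hg hℓ one_pos 0 (by simp)
  | some j =>
    rw [comp_dR_some hℓ]
    exact FAIg.meroInf_compAff hg one_pos hℓ _ (by simp)

lemma lau_comp_dR_none {ℓ : ℕ} [NeZero ℓ] {g : ℍ → ℂ} (hg : MeroInf 1 g) :
    lau ℓ (fun τ => g (dR ℓ none • τ)) = qExpand ℂ ℓ (qExpand ℂ ℓ (lau 1 g)) := by
  have hℓ : 0 < ℓ := Nat.pos_of_ne_zero (NeZero.ne ℓ)
  rw [comp_dR_none hℓ, FAIg.lau_compAff hg one_pos 0 (mul_one ℓ), FAIg.zetaU_one_zero,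
    FAIg.twistL_one, qExpand_qExpand]
  exact qExpand_congr (sq ℓ) _

lemma lau_comp_dR_some {ℓ : ℕ} [NeZero ℓ] {g : ℍ → ℂ} (hg : MeroInf 1 g) (j : Fin ℓ) :
    lau ℓ (fun τ => g (dR ℓ (some j) • τ)) = twistL (zetaU ℓ 1 ^ (j : ℕ)) (lau 1 g) := by
  have hℓ : 0 < ℓ := Nat.pos_of_ne_zero (NeZero.ne ℓ)
  rw [comp_dR_some hℓ, FAIg.lau_compAff hg hℓ _ (one_mul ℓ), qExpand_congr (one_pow 2 : 1 ^ 2 = 1),
    qExpand_one_apply, zetaU_natCast]

lemma lau_finset_prod {M : ℕ} [NeZero M] {ι : Type*} (s : Finset ι) (F : ι → ℍ → ℂ)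
    (h : ∀ i ∈ s, MeroInf M (F i)) :
    MeroInf M (∏ i ∈ s, F i) ∧ lau M (∏ i ∈ s, F i) = ∏ i ∈ s, lau M (F i) := by
  classical
  induction s using Finset.induction_on with
  | empty =>
    simp only [Finset.prod_empty]
    refine ⟨MeroInf.const M 1, ?_⟩
    have := lau_const M (1 : ℂ)
    rw [map_one] at this
    exact this
  | insert a s ha ih =>
    obtain ⟨h1, h2⟩ := ih fun i hi => h i (Finset.mem_insert_of_mem hi)
    have h3 := h a (Finset.mem_insert_self a s)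
    rw [Finset.prod_insert ha, Finset.prod_insert ha]
    exact ⟨h3.mul h1, by rw [lau_mul h3 h1, h2]⟩

lemma lau_heckeFun {ℓ : ℕ} [NeZero ℓ] (g : ℍ → ℂ) (hg : MeroInf 1 g) :
    lau ℓ (heckeFun ℓ g) =
      qExpand ℂ ℓ (qExpand ℂ ℓ (lau 1 g)) * ∏ b ∈ Finset.range ℓ, twistL (zetaU ℓ 1 ^ b) (lau 1 g) := by
  rw [heckeFun_eq_prod, (lau_finset_prod _ _ fun i _ => meroInf_comp_dR hg i).2,
    Fintype.prod_option, lau_comp_dR_none hg,
    ← Fin.prod_univ_eq_prod_range (fun b => twistL (zetaU ℓ 1 ^ b) (lau 1 g)) ℓ]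
  congr 1
  exact Finset.prod_congr rfl fun j _ => lau_comp_dR_some hg j

lemma zetaU_isPrimitiveRoot {ℓ : ℕ} (hℓ : 0 < ℓ) : IsPrimitiveRoot (zetaU ℓ 1) ℓ :=
  zetaP_isPrimitiveRoot hℓ

lemma heckeFun_pow (ℓ : ℕ) (U : ℍ → ℂ) (p : ℕ) : heckeFun ℓ (U ^ p) = heckeFun ℓ U ^ p := by
  funext τ
  simp only [heckeFun, Pi.pow_apply, Finset.prod_pow]

/-- (E) for characters. -/
theorem RealC.hecke {ℓ : ℕ} [NeZero ℓ] (hℓ : ℓ.Prime) (hN : ¬ ℓ ∣ N) {p : ℕ}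
    {c : ↥(Gamma0 N) →* ℂˣ} (hc : IsParCh ((hsys N hℓ hN).heckeMul c))
    (hcp : ∀ γ, (hsys N hℓ hN).heckeMul c γ ^ p = 1) {f : FAGP.FN ℂ N} (h : RealC p c f) :
    RealC p ((hsys N hℓ hN).heckeMul c) (heckeMK ℂ N ℓ f) := by
  obtain ⟨U, hU, hT, g, hg, hf⟩ := h
  let UT : MN N := ⟨heckeFun ℓ U.1, heckeFun_mem_MN hℓ hN hT hc⟩
  have hUT : IsTw ((hsys N hℓ hN).heckeMul c) UT.1 := heckeFun_isTw hℓ hN hT
  have hUT0 : UT ≠ 0 := fun h0 => heckeFun_ne_zero hℓ hU (congrArg (fun x : MN N => x.1) h0)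
  let G : RN N := ⟨UT.1 ^ p, hUT.pow_mem_RN hcp⟩
  refine ⟨UT, hUT0, hUT, G, rfl, ?_⟩
  apply qExpand_injective (R := ℂ) ℓ
  have hG : G.1 = heckeFun ℓ g.1 := by
    show heckeFun ℓ U.1 ^ p = heckeFun ℓ g.1
    rw [hg, heckeFun_pow]
  rw [qExpand_heckeMK_of_isAlgClosed N hℓ hN (zetaU ℓ 1) (zetaU_isPrimitiveRoot hℓ.pos) f, hf,
    Lam_apply, Lam_apply, ← lau_heckeFun g.1 (RN.mero_one g.2), ← lau_of_one (RN.mero_one G.2), hG]

/-- **(E): Hecke equivariance of the realisation relation.** -/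
theorem Real.hecke {ℓ : ℕ} [NeZero ℓ] (hℓ : ℓ.Prime) (hN : ¬ ℓ ∣ N) {p : ℕ} (hp : 0 < p)
    {χ : Additive ↥(Gamma0 N) →+ ℤ} (hχ : IsParabolicHom (Gamma0 N) χ) {f : FAGP.FN ℂ N}
    (h : Real p χ f) : Real p ((hsys N hℓ hN).heckeAdd χ) (heckeMK ℂ N ℓ f) := by
  have e : (hsys N hℓ hN).heckeMul (chiC p χ) = chiC p ((hsys N hℓ hN).heckeAdd χ) :=
    (hsys N hℓ hN).heckeMul_expChar (zetaP p) χ
  have h1 := RealC.hecke hℓ hN (p := p) (c := chiC p χ) (f := f)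
    (by rw [e]; exact chiC_isParCh p (heckeAdd_isParabolicHom N hℓ hN hχ))
    (by rw [e]; exact chiC_pow hp _) h
  rw [e] at h1
  exact h1

end FAG
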