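import Fermat.Agent.X0Genus.Theta

/-! Project G, package [PORT], part 1: the function field `K(X₀(N))` for an arbitrary field `K`
with an embedding into `ℂ`, and its embedding into the field of modular functions.
(Generalisation of `X0Genus/Theta.lean`.) -/

set_option autoImplicit false

open UpperHalfPlane ModularForm EisensteinSeries Function CongruenceSubgroup FA_IS FA24
open scoped Manifold MatrixGroups Real

namespace FAGP

/-- a field with a fixed embedding into `ℂ`. -/
class CEmb (K : Type) [Field K] where
  /-- the embedding -/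
  emb : K →+* ℂ

noncomputable instance : CEmb ℂ := ⟨RingHom.id ℂ⟩

noncomputable instance : CEmb FA24.Kb := ⟨FA24.iota⟩

/-- the function field as an intermediate field -/
noncomputable abbrev barK (K : Type) [Field K] [Algebra ℚ K] (N : ℕ) : IntermediateField K (LaurentSeries K) :=
  ModularCurve.laurentBaseChange K (ModularCurve.modularFunctionFieldFull N)

/-- the function field -/
abbrev FN (K : Type) [Field K] [Algebra ℚ K] (N : ℕ) : Type := ↥(barK K N)

variable {K : Type} [Field K] [Algebra ℚ K] [CEmb K]

/-- the fixed embedding of `K` into `ℂ`. -/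
noncomputable def iota : K →+* ℂ := CEmb.emb

/-- the induced map on Laurent series -/
noncomputable def cm : LaurentSeries K →+* LaurentSeries ℂ := ModularCurve.coeffMap iota

lemma iota_injective : Function.Injective (iota : K →+* ℂ) := RingHom.injective _

lemma cm_injective : Function.Injective (cm : LaurentSeries K →+* LaurentSeries ℂ) :=
  RingHom.injective _

lemma cm_coeffEmb (z : LaurentSeries ℚ) :
    cm (ModularCurve.coeffEmb K z) = ModularCurve.coeffMap (algebraMap ℚ ℂ) z := by
  rw [cm, ModularCurve.coeffEmb, ModularCurve.coeffMap_coeffMap]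
  exact ModularCurve.coeffMap_congr (Subsingleton.elim _ _) z

lemma cm_algebraMap (a : K) :
    cm (algebraMap K (LaurentSeries K) a) = HahnSeries.C (iota a) := by
  rw [ModularCurve.algebraMap_laurentSeries_eq_single, cm, ModularCurve.coeffMap_single]
  rfl

omit [CEmb K] in
/-- induction principle for the function field, at the level of Laurent series -/
lemma bar_le (N : ℕ) (𝒮 : Subfield (LaurentSeries K))
    (hc : ∀ a : K, algebraMap K (LaurentSeries K) a ∈ 𝒮)
    (hJ : ∀ (d : ℕ) (_ : NeZero d), d ∣ N →
      ModularCurve.coeffEmb K (ModularCurve.qExpand ℚ d ModularCurve.jq) ∈ 𝒮) :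
    ∀ f ∈ barK K N, f ∈ 𝒮 := by
  intro f hf
  rw [ModularCurve.mem_laurentBaseChange_iff] at hf
  refine (Subfield.closure_le.mpr ?_) hf
  rintro y (⟨a, rfl⟩ | ⟨z, hz, rfl⟩)
  · exact hc a
  · have hz' : z ∈ Subfield.closure (Set.range (algebraMap ℚ (LaurentSeries ℚ)) ∪
        ModularCurve.divisorExpansions N) := hz
    have hle : Subfield.closure (Set.range (algebraMap ℚ (LaurentSeries ℚ)) ∪
        ModularCurve.divisorExpansions N) ≤ 𝒮.comap (ModularCurve.coeffEmb K) := by
      rw [Subfield.closure_le]
      rintro w (⟨c, rfl⟩ | ⟨d, hd, hdN, rfl⟩)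
      · rw [eq_ratCast]
        exact SubfieldClass.ratCast_mem _ c
      · exact hJ d hd hdN
    exact hle hz'

variable {N : ℕ} [NeZero N]

lemma Lam_jdR {d : ℕ} [NeZero d] (hd : d ∣ N) :
    Lam (jdR hd) = cm (ModularCurve.coeffEmb K (ModularCurve.qExpand ℚ d ModularCurve.jq)) := by
  rw [cm_coeffEmb, ModularCurve.coeffMap_qExpand]
  exact lau_jd d

lemma cm_mem_range (f : LaurentSeries K) (hf : f ∈ barK K N) :
    cm f ∈ (LamF (N := N)).fieldRange := by
  refine bar_le N ((LamF (N := N)).fieldRange.comap cm) (fun a => ?_) (fun d hd hdN => ?_) f hf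
  · refine ⟨algebraMap (RN N) (FR N) (cst (iota a)), ?_⟩
    rw [LamF_algebraMap, Lam_cst, cm_algebraMap]
  · refine ⟨algebraMap (RN N) (FR N) (jdR hdN), ?_⟩
    rw [LamF_algebraMap, Lam_jdR (K := K)]

/-- the embedding of the function field into the field of modular functions, as a function -/
noncomputable def ThetaFun (f : FN K N) : FR N := (cm_mem_range f.1 f.2).choose

lemma LamF_ThetaFun (f : FN K N) : LamF (ThetaFun f) = cm f.1 :=
  (cm_mem_range f.1 f.2).choose_spec

/-- the embedding of the function field into the field of modular functions -/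
noncomputable def Theta : FN K N →+* FR N where
  toFun f := ThetaFun f
  map_one' := by
    apply (LamF (N := N)).injective
    rw [LamF_ThetaFun]
    simp
  map_mul' f g := by
    apply (LamF (N := N)).injective
    rw [map_mul, LamF_ThetaFun, LamF_ThetaFun, LamF_ThetaFun]
    simp
  map_zero' := by
    apply (LamF (N := N)).injective
    rw [LamF_ThetaFun]
    simp
  map_add' f g := by
    apply (LamF (N := N)).injective
    rw [map_add, LamF_ThetaFun, LamF_ThetaFun, LamF_ThetaFun]
    simp

lemma LamF_Theta (f : FN K N) : LamF (Theta f) = cm f.1 := LamF_ThetaFun f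

/-- the generators -/
noncomputable def Jd (K : Type) [Field K] [Algebra ℚ K] (N : ℕ) {d : ℕ} [NeZero d] (hd : d ∣ N) :
    FN K N :=
  ⟨ModularCurve.coeffEmb K (ModularCurve.qExpand ℚ d ModularCurve.jq),
    ModularCurve.coeffEmb_mem_laurentBaseChange _ (ModularCurve.jqd_mem_full N hd)⟩

lemma Theta_algebraMap (a : K) :
    Theta (algebraMap K (FN K N) a) = algebraMap (RN N) (FR N) (cst (iota a)) := by
  apply (LamF (N := N)).injective
  rw [LamF_Theta, LamF_algebraMap, Lam_cst, ← cm_algebraMap]
  rfl

lemma Theta_Jd {d : ℕ} [NeZero d] (hd : d ∣ N) :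
    Theta (Jd K N hd) = algebraMap (RN N) (FR N) (jdR hd) := by
  apply (LamF (N := N)).injective
  rw [LamF_Theta, LamF_algebraMap, Lam_jdR (K := K)]
  rfl

/-- the `j`-function as an element of the function field -/
noncomputable def xN (K : Type) [Field K] [Algebra ℚ K] (N : ℕ) : FN K N := Jd K N (one_dvd N)

omit [NeZero N] [CEmb K] in
lemma xN_val : (xN K N).1 = ModularCurve.coeffEmb K ModularCurve.jq := by
  show ModularCurve.coeffEmb K (ModularCurve.qExpand ℚ 1 ModularCurve.jq) = _
  rw [ModularCurve.qExpand_one_apply]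

lemma Theta_xN : Theta (xN K N) = algebraMap (RN N) (FR N) jR := by
  rw [xN, Theta_Jd]
  congr 1
  exact Subtype.ext jd_one

/-- every element of the function field is a quotient of modular functions -/
lemma exists_rep (f : FN K N) : ∃ g h : RN N, h ≠ 0 ∧
    Theta f * algebraMap (RN N) (FR N) h = algebraMap (RN N) (FR N) g := by
  obtain ⟨g, h, hh, e⟩ := IsFractionRing.div_surjective (A := RN N) (Theta f)
  have hh0 : h ≠ 0 := nonZeroDivisors.ne_zero hh
  refine ⟨g, h, hh0, ?_⟩
  rw [← e]
  have : algebraMap (RN N) (FR N) h ≠ 0 := by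
    simpa using hh0
  field_simp

omit [NeZero N] [CEmb K] in
/-- induction principle for the function field -/
lemma FN_induction {P : FN K N → Prop} (hc : ∀ a : K, P (algebraMap K (FN K N) a))
    (hJ : ∀ (d : ℕ) (_ : NeZero d) (hd : d ∣ N), P (Jd K N hd))
    (hadd : ∀ f g, P f → P g → P (f + g)) (hneg : ∀ f, P f → P (-f))
    (hmul : ∀ f g, P f → P g → P (f * g)) (hinv : ∀ f, P f → P f⁻¹) : ∀ f, P f := by
  let 𝒮 : Subfield (FN K N) :=
    { carrier := {f | P f}
      mul_mem' := fun {f g} hf hg => hmul f g hf hg
      one_mem' := by simpa using hc 1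
      add_mem' := fun {f g} hf hg => hadd f g hf hg
      zero_mem' := by simpa using hc 0
      neg_mem' := fun {f} hf => hneg f hf
      inv_mem' := fun f hf => hinv f hf }
  intro f
  have := bar_le N (𝒮.map (barK K N).val.toRingHom)
    (fun a => ⟨algebraMap K (FN K N) a, hc a, rfl⟩) (fun d hd hdN => ⟨Jd K N hdN, hJ d hd hdN, rfl⟩)
    f.1 f.2
  obtain ⟨f', hf', e⟩ := this
  have : f' = f := Subtype.ext e
  exact this ▸ hf'

end FAGP
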