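import Fermat.Agent.Gal.Chev
import Fermat.Agent.Gal.PortTheta
import Fermat.Agent.Red.M1W

/-! PROJECT G, [SPEC]: the fixed place `ℂ ⇢ ℚ̄` (a valuation ring `specB` of `ℂ` containing `ℚ̄`
and a retraction `specLam : specB → ℚ̄`). -/

set_option autoImplicit false

open FA24 ModularCurve

namespace FAG

theorem exists_specPlace : ∃ (B : ValuationSubring ℂ) (lam : B →+* Kb),
    ∀ c : Kb, ∃ h : FA24.iota c ∈ B, lam ⟨FA24.iota c, h⟩ = c := by
  letI : Algebra Kb ℂ := FA24.iota.toAlgebra
  exact exists_place Kb ℂ

/-- the fixed valuation ring of `ℂ` -/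
noncomputable def specB : ValuationSubring ℂ := exists_specPlace.choose

/-- the fixed place `ℂ ⇢ ℚ̄` -/
noncomputable def specLam : specB →+* Kb := exists_specPlace.choose_spec.choose

theorem specLam_spec (c : Kb) : ∃ h : FA24.iota c ∈ specB, specLam ⟨FA24.iota c, h⟩ = c :=
  exists_specPlace.choose_spec.choose_spec c

theorem iota_mem_specB (c : Kb) : FA24.iota c ∈ specB := (specLam_spec c).choose

theorem specLam_iota (c : Kb) : specLam ⟨FA24.iota c, iota_mem_specB c⟩ = c :=
  (specLam_spec c).choose_spec

theorem specLam_surjective : Function.Surjective specLam := fun c => ⟨_, specLam_iota c⟩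

/-- the lift `ℚ̄ → specB` -/
noncomputable def specLift : Kb →+* specB := FA24.iota.codRestrict specB.toSubring iota_mem_specB

theorem coe_specLift (c : Kb) : ((specLift c : specB) : ℂ) = FA24.iota c := rfl

theorem specLam_specLift (c : Kb) : specLam (specLift c) = c := specLam_iota c

/-- the lift of series `ℚ̄((q)) → specB((q))` -/
noncomputable def specUp : LaurentSeries Kb →+* LaurentSeries specB := coeffMap specLift

theorem iotaA_specUp (z : LaurentSeries Kb) :
    FA18.M1.iotaA specB (specUp z) = coeffMap FA24.iota z := by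
  rw [specUp, coeffMap_coeffMap]
  rfl

theorem redA_specUp (z : LaurentSeries Kb) : FA18.M1.redA specB specLam (specUp z) = z := by
  rw [specUp, coeffMap_coeffMap]
  ext n
  simp [specLam_specLift]

theorem coeffMap_iota_mem_WS (z : LaurentSeries Kb) :
    coeffMap FA24.iota z ∈ FA18.M1.WS specB specLam := by
  rw [← iotaA_specUp]
  exact FA18.M1.iotaA_mem_WS _

theorem redFun_coeffMap_iota (z : LaurentSeries Kb) :
    FA18.M1.redFun specB specLam (coeffMap FA24.iota z) = z := by
  rw [← iotaA_specUp, FA18.M1.redFun_iotaA, redA_specUp]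

end FAG
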