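import Fermat.Agent.Gal.SpecAbs
import Fermat.Agent.Gal.SpecDefs
import Fermat.Agent.Gal.Port
import Fermat.Agent.Red.M1

/-! PROJECT G, [SPEC]: specialisation `ℂ(X₀(N)) ⇢ ℚ̄(X₀(N))`. -/

set_option autoImplicit false

open AlgebraicCurve IntermediateField FA24 FA18 ModularCurve

namespace FAG

theorem li_val_of_li {k L : Type*} [Field k] [Field L] [Algebra k L] (E : IntermediateField k L)
    {x : E} (hx : Transcendental k x) {J : Type*} {b : J → E} (hb : LinearIndependent k⟮x⟯ b) :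
    LinearIndependent k⟮(x : L)⟯ (fun i => (b i : L)) := by
  have h1 := linearIndependent_pow_mul hx hb
  have h2 := h1.map' E.val.toLinearMap (LinearMap.ker_eq_bot.2 E.val.injective)
  exact linearIndependent_adjoin_of_pow_mul (by simpa [Function.comp_def] using h2)

section
variable (N : ℕ)

theorem coeffMap_iota_coeffEmb (z : LaurentSeries ℚ) :
    coeffMap FA24.iota (coeffEmb Kb z) = coeffEmb ℂ z :=
  FAGP.cm_coeffEmb (K := Kb) z

theorem coeffMap_iota_mem_barK {z : LaurentSeries Kb} (hz : z ∈ FAGP.barK Kb N) :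
    coeffMap FA24.iota z ∈ FAGP.barK ℂ N := by
  refine FAGP.bar_le N ((FAGP.barK ℂ N).toSubfield.comap (coeffMap FA24.iota)) (fun a => ?_)
    (fun d hd hdN => ?_) z hz
  · show coeffMap FA24.iota (algebraMap Kb (LaurentSeries Kb) a) ∈ FAGP.barK ℂ N
    have : coeffMap FA24.iota (algebraMap Kb (LaurentSeries Kb) a) =
        algebraMap ℂ (LaurentSeries ℂ) (FA24.iota a) := by
      rw [algebraMap_laurentSeries_eq_single, algebraMap_laurentSeries_eq_single, coeffMap_single]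
    rw [this]
    exact (FAGP.barK ℂ N).algebraMap_mem _
  · show coeffMap FA24.iota (coeffEmb Kb (qExpand ℚ d jq)) ∈ FAGP.barK ℂ N
    rw [coeffMap_iota_coeffEmb]
    exact coeffEmb_mem_laurentBaseChange _ (jqd_mem_full N hdN)

/-- the section `ℚ̄(X₀(N)) → ℂ(X₀(N))` -/
noncomputable def specSec : FAGP.FN Kb N →+* FAGP.FN ℂ N :=
  ((coeffMap FA24.iota).comp (FAGP.barK Kb N).val.toRingHom).codRestrict
    (FAGP.barK ℂ N).toSubfield.toSubring (fun f => coeffMap_iota_mem_barK N f.2)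

theorem coe_specSec (f : FAGP.FN Kb N) :
    ((specSec N f : FAGP.FN ℂ N) : LaurentSeries ℂ) = coeffMap FA24.iota f.1 := rfl

theorem specSec_algebraMap (c : Kb) :
    specSec N (algebraMap Kb (FAGP.FN Kb N) c) = algebraMap ℂ (FAGP.FN ℂ N) (FA24.iota c) := by
  apply Subtype.ext
  show coeffMap FA24.iota (algebraMap Kb (LaurentSeries Kb) c) =
    algebraMap ℂ (LaurentSeries ℂ) (FA24.iota c)
  rw [algebraMap_laurentSeries_eq_single, algebraMap_laurentSeries_eq_single, coeffMap_single]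

theorem specSec_xN : specSec N (FAGP.xN Kb N) = FAGP.xN ℂ N := by
  apply Subtype.ext
  rw [coe_specSec, FAGP.xN_val, FAGP.xN_val, coeffMap_iota_coeffEmb]

end

section
variable (N : ℕ) [NeZero N]

theorem exists_spec_hyp1 : ∃ Bf : Fin (dedekindPsi N) → LaurentSeries specB,
    M1.Hyp1 specLam (FAGP.barK ℂ N) (FAGP.barK Kb N) (dedekindPsi N)
      (specUp (FAGP.xN Kb N).1) Bf := by
  have hfr := FAGP.finrank_FN_eq_psi (K := Kb) (N := N)
  let b : Module.Basis (Fin (dedekindPsi N)) Kb⟮FAGP.xN Kb N⟯ (FAGP.FN Kb N) :=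
    (Module.finBasis Kb⟮FAGP.xN Kb N⟯ (FAGP.FN Kb N)).reindex (finCongr hfr)
  have htr := FAGP.transcendental_xN Kb N
  have hy : M1.iotaA specB (specUp (FAGP.xN Kb N).1) = (FAGP.xN ℂ N).1 := by
    rw [iotaA_specUp, ← coe_specSec, specSec_xN]
  have hym : M1.iotaA specB (specUp (FAGP.xN Kb N).1) ∈ FAGP.barK ℂ N := by
    rw [hy]; exact (FAGP.xN ℂ N).2
  have hyF : (⟨M1.iotaA specB (specUp (FAGP.xN Kb N).1), hym⟩ : FAGP.barK ℂ N) = FAGP.xN ℂ N :=
    Subtype.ext hy
  refine ⟨fun i => specUp (b i).1, ?_⟩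
  refine
    { π_surj := specLam_surjective
      y_mem := hym
      B_mem := fun i => by rw [iotaA_specUp]; exact coeffMap_iota_mem_barK N (b i).2
      ry_mem := by rw [redA_specUp]; exact (FAGP.xN Kb N).2
      rB_mem := fun i => by rw [redA_specUp]; exact (b i).2
      tr := ?_
      li := ?_
      fd := ?_
      deg := ?_
      gen := ?_ }
  · rw [redA_specUp]
    intro halg
    apply htr
    exact (isAlgebraic_algebraMap_iff (A := LaurentSeries Kb)
      (FaithfulSMul.algebraMap_injective (FAGP.FN Kb N) (LaurentSeries Kb))).1 halg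
  · have key : ∀ z : LaurentSeries Kb, z = (FAGP.xN Kb N).1 →
        LinearIndependent Kb⟮z⟯ (fun i => M1.redA specB specLam (specUp (b i).1)) := by
      rintro _ rfl
      simp only [redA_specUp]
      exact li_val_of_li (FAGP.barK Kb N) htr b.linearIndependent
    exact key _ (redA_specUp _)
  · rw [hyF]; exact FAGP.finiteDimensional_FN
  · rw [hyF]; exact (FAGP.finrank_FN_eq_psi (K := ℂ) (N := N)).le
  · refine ⟨(FAGP.barK Kb N : Set (LaurentSeries Kb)), (adjoin_self _ _).symm, fun s hs => ?_⟩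
    exact ⟨specUp s, by rw [iotaA_specUp]; exact coeffMap_iota_mem_barK N hs, redA_specUp s⟩

/-- the auxiliary family -/
noncomputable def specBf : Fin (dedekindPsi N) → LaurentSeries specB := (exists_spec_hyp1 N).choose

theorem specHyp : M1.Hyp1 specLam (FAGP.barK ℂ N) (FAGP.barK Kb N) (dedekindPsi N)
    (specUp (FAGP.xN Kb N).1) (specBf N) := (exists_spec_hyp1 N).choose_spec

/-- the specialisation data `ℂ(X₀(N)) ⇢ ℚ̄(X₀(N))` -/
noncomputable def specRD : RedData specB specLam (FAGP.FN ℂ N) (FAGP.FN Kb N) :=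
  (specHyp N).redData

theorem mem_specRD_O {f : FAGP.FN ℂ N} : f ∈ (specRD N).O ↔ f.1 ∈ M1.WS specB specLam := Iff.rfl

theorem coe_specRD_ρ (f : (specRD N).O) :
    (((specRD N).ρ f : FAGP.FN Kb N) : LaurentSeries Kb) = M1.redFun specB specLam (f : FAGP.FN ℂ N).1 :=
  rfl

theorem specRD_sec (y : FAGP.FN Kb N) :
    ∃ h : specSec N y ∈ (specRD N).O, (specRD N).ρ ⟨specSec N y, h⟩ = y := by
  have h : specSec N y ∈ (specRD N).O := by
    rw [mem_specRD_O, coe_specSec]
    exact coeffMap_iota_mem_WS _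
  refine ⟨h, Subtype.ext ?_⟩
  rw [coe_specRD_ρ]
  show M1.redFun specB specLam (specSec N y).1 = y.1
  rw [coe_specSec, redFun_coeffMap_iota]

theorem spec_hdeg : Module.finrank ℂ⟮specSec N (FAGP.xN Kb N)⟯ (FAGP.FN ℂ N) ≤
    Module.finrank Kb⟮FAGP.xN Kb N⟯ (FAGP.FN Kb N) := by
  rw [specSec_xN, FAGP.finrank_FN_eq_psi, FAGP.finrank_FN_eq_psi]

/-- (Sp3.1) the specialisation of a function is a function. -/
theorem spec_mem (f : FAGP.FN ℂ N) (hf : f.1 ∈ M1.WS specB specLam) :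
    M1.redFun specB specLam f.1 ∈ modularFunctionFieldBar N :=
  ((specRD N).ρ ⟨f, hf⟩).2

/-- (Sp3.2) every nonzero function can be scaled to have nonzero specialisation. -/
theorem spec_scale (f : FAGP.FN ℂ N) (hf : f ≠ 0) : ∃ c : ℂ, c ≠ 0 ∧
    HahnSeries.C c * f.1 ∈ M1.WS specB specLam ∧
      M1.redFun specB specLam (HahnSeries.C c * f.1) ≠ 0 := by
  obtain ⟨c, hc, h, h'⟩ := (specRD N).scale f hf
  have e : ((algebraMap ℂ (FAGP.FN ℂ N) c * f : FAGP.FN ℂ N) : LaurentSeries ℂ) =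
      HahnSeries.C c * f.1 := by
    rw [← M1.algebraMap_eq_C']
    rfl
  refine ⟨c, hc, ?_, ?_⟩
  · rw [← e]; exact h
  · rw [← e]
    intro h0
    exact h' (Subtype.ext h0)

/-- (Sp3.3) specialisation preserves divisibility of divisors. -/
theorem spec_dvd (m : ℤ) (f : FAGP.FN ℂ N) (hf : f.1 ∈ M1.WS specB specLam)
    (hne : M1.redFun specB specLam f.1 ≠ 0)
    (hdiv : ∀ P : Place ℂ (FAGP.FN ℂ N), m ∣ P.ord f) (Q : Place Kb (FN N)) :
    m ∣ Q.ord (⟨M1.redFun specB specLam f.1, spec_mem N f hf⟩ : FN N) :=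
  sec_dvd (specRD N) (specSec_algebraMap N) (specRD_sec N) FAGP.isFF_FN FAGP.isFF_FN
    (FAGP.xN Kb N) (FAGP.transcendental_xN Kb N) (spec_hdeg N) m ⟨f, hf⟩
    (fun h0 => hne (congrArg Subtype.val h0)) hdiv Q

/-- (Sp3.4) specialisation is injective modulo `m`-th powers. -/
theorem spec_pow (m : ℕ) (hm : m ≠ 0) (f : FAGP.FN ℂ N) (hf : f.1 ∈ M1.WS specB specLam)
    (hdiv : ∀ P : Place ℂ (FAGP.FN ℂ N), (m : ℤ) ∣ P.ord f) (t : FN N) (ht0 : t ≠ 0)
    (ht : M1.redFun specB specLam f.1 = (t ^ m : FN N).1) : ∃ s : FAGP.FN ℂ N, s ^ m = f :=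
  sec_pow (specRD N) (specSec_algebraMap N) (specRD_sec N) FAGP.isFF_FN FAGP.isFF_FN
    (FAGP.xN Kb N) (FAGP.transcendental_xN Kb N) (spec_hdeg N) m (Nat.cast_ne_zero.2 hm) ⟨f, hf⟩
    hdiv t ht0 (Subtype.ext ht)

end

end FAG
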