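/-
PROJECT G, [K4-ASM], middle layer: the specialisation relation `Sp` between functions on `X₀(N)`
over `ℂ` and over `ℚ̄`, and its properties (S0)-(S6).
-/
import Fermat.Agent.Gal.HPK
import Fermat.Agent.Gal.Cong
import Fermat.Agent.Gal.SpecDefs

set_option autoImplicit false

open AlgebraicCurve IntermediateField ModularCurve FA24 FA18.M1
open FAIg (twistL)

namespace FAG

/-- the output of [SPEC] (helper6's (Sp3)), as a hypothesis. -/
structure SpecHyp : Prop where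
  mem : ∀ (N : ℕ) [NeZero N] (f : FK ℂ N), (f : LaurentSeries ℂ) ∈ WS specB specLam →
    redFun specB specLam (f : LaurentSeries ℂ) ∈ modularFunctionFieldBar N
  scale : ∀ (N : ℕ) [NeZero N] (f : FK ℂ N), f ≠ 0 → ∃ c : ℂ, c ≠ 0 ∧
    ((c • f : FK ℂ N) : LaurentSeries ℂ) ∈ WS specB specLam ∧
      redFun specB specLam ((c • f : FK ℂ N) : LaurentSeries ℂ) ≠ 0
  dvd : ∀ (N : ℕ) [NeZero N] (m : ℕ) (f : FK ℂ N),
    (f : LaurentSeries ℂ) ∈ WS specB specLam → redFun specB specLam (f : LaurentSeries ℂ) ≠ 0 →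
    (∀ P : Place ℂ (FK ℂ N), (m : ℤ) ∣ P.ord f) →
    ∀ fb : FN N, (fb : LaurentSeries Kb) = redFun specB specLam (f : LaurentSeries ℂ) →
    ∀ Q : Place Kb (FN N), (m : ℤ) ∣ Q.ord fb
  pow : ∀ (N : ℕ) [NeZero N] (m : ℕ), m ≠ 0 → ∀ f : FK ℂ N,
    (f : LaurentSeries ℂ) ∈ WS specB specLam →
    (∀ P : Place ℂ (FK ℂ N), (m : ℤ) ∣ P.ord f) →
    ∀ t : FN N, t ≠ 0 →
    redFun specB specLam (f : LaurentSeries ℂ) = ((t ^ m : FN N) : LaurentSeries Kb) →
    ∃ s : FK ℂ N, s ^ m = f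

/-- `fb` is a specialisation of (a constant multiple of) `f`. -/
def Sp (N : ℕ) (f : FK ℂ N) (fb : FN N) : Prop :=
  ∃ c : ℂ, c ≠ 0 ∧ ((c • f : FK ℂ N) : LaurentSeries ℂ) ∈ WS specB specLam ∧
    redFun specB specLam ((c • f : FK ℂ N) : LaurentSeries ℂ) = (fb : LaurentSeries Kb) ∧ fb ≠ 0

theorem ord_const_smul {K F : Type*} [Field K] [Field F] [Algebra K F] (v : Place K F) {c : K}
    (hc : c ≠ 0) (f : F) : v.ord (c • f) = v.ord f := by
  rcases eq_or_ne f 0 with rfl | hf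
  · rw [smul_zero]
  have hu : IsUnit (algebraMap K v.toValuationSubring c) := (Ne.isUnit hc).map _
  have h1 : v.ord (algebraMap K F c) = 0 := by
    have := v.ord_coe_unit hu.unit
    simpa using this
  rw [Algebra.smul_def, v.ord_mul (by simpa using hc) hf, h1, zero_add]

variable {N : ℕ}

theorem coe_ne_zero_FN {fb : FN N} (h : fb ≠ 0) : (fb : LaurentSeries Kb) ≠ 0 :=
  fun h0 => h (Subtype.ext h0)

theorem Sp.ne_zero {f : FK ℂ N} {fb : FN N} (h : Sp N f fb) : f ≠ 0 := by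
  rintro rfl
  obtain ⟨c, -, -, h2, h3⟩ := h
  apply coe_ne_zero_FN h3
  rw [← h2, smul_zero]
  exact (redW specB specLam).map_zero

/-- (S0) -/
theorem SpecHyp.exists_sp (H : SpecHyp) [NeZero N] {f : FK ℂ N} (hf : f ≠ 0) :
    ∃ fb : FN N, Sp N f fb := by
  obtain ⟨c, hc, h1, h2⟩ := H.scale N f hf
  refine ⟨⟨_, H.mem N _ h1⟩, c, hc, h1, rfl, fun h0 => h2 ?_⟩
  exact congrArg Subtype.val h0

/-- (S1) -/
theorem Sp.mul {f f' : FK ℂ N} {fb fb' : FN N} (h : Sp N f fb) (h' : Sp N f' fb') :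
    Sp N (f * f') (fb * fb') := by
  obtain ⟨c, hc, h1, h2, h3⟩ := h
  obtain ⟨c', hc', h1', h2', h3'⟩ := h'
  have e : (((c * c') • (f * f') : FK ℂ N) : LaurentSeries ℂ) =
      ((c • f : FK ℂ N) : LaurentSeries ℂ) * ((c' • f' : FK ℂ N) : LaurentSeries ℂ) := by
    rw [← MulMemClass.coe_mul, smul_mul_smul_comm]
  refine ⟨c * c', mul_ne_zero hc hc', ?_, ?_, mul_ne_zero h3 h3'⟩
  · rw [e]
    exact (WS specB specLam).mul_mem h1 h1'
  · rw [e, redFun_mul h1 h1', h2, h2']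
    rfl

/-- (S1') -/
theorem Sp.inv {f : FK ℂ N} {fb : FN N} (h : Sp N f fb) : Sp N f⁻¹ fb⁻¹ := by
  obtain ⟨c, hc, h1, h2, h3⟩ := h
  have hne : redFun specB specLam ((c • f : FK ℂ N) : LaurentSeries ℂ) ≠ 0 := by
    rw [h2]
    exact coe_ne_zero_FN h3
  have e : ((c⁻¹ • f⁻¹ : FK ℂ N) : LaurentSeries ℂ) =
      ((c • f : FK ℂ N) : LaurentSeries ℂ)⁻¹ := by
    rw [← smul_inv₀]
    rfl
  refine ⟨c⁻¹, inv_ne_zero hc, ?_, ?_, inv_ne_zero h3⟩
  · rw [e]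
    exact inv_mem_of_redFun_ne_zero h1 hne
  · rw [e, redFun_inv h1 hne, h2]
    rfl

theorem Sp.one : Sp N 1 1 :=
  ⟨1, one_ne_zero, by rw [one_smul]; exact (WS specB specLam).one_mem,
    by rw [one_smul]; exact redFun_one, one_ne_zero⟩

theorem Sp.pow {f : FK ℂ N} {fb : FN N} (h : Sp N f fb) (n : ℕ) : Sp N (f ^ n) (fb ^ n) := by
  induction n with
  | zero => simpa using Sp.one
  | succ n ih =>
    rw [pow_succ, pow_succ]
    exact ih.mul h

/-- (S2) -/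
theorem SpecHyp.sp_dvd (H : SpecHyp) [NeZero N] {f : FK ℂ N} {fb : FN N} (h : Sp N f fb) (m : ℕ)
    (hdiv : ∀ P : Place ℂ (FK ℂ N), (m : ℤ) ∣ P.ord f) (Q : Place Kb (FN N)) :
    (m : ℤ) ∣ Q.ord fb := by
  obtain ⟨c, hc, h1, h2, h3⟩ := h
  refine H.dvd N m (c • f) h1 (by rw [h2]; exact coe_ne_zero_FN h3) (fun P => ?_) fb h2.symm Q
  rw [ord_const_smul P hc]
  exact hdiv P

theorem coe_smul_FK {K : Type} [Field K] [Algebra ℚ K] (c : K) (f : FK K N) :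
    ((c • f : FK K N) : LaurentSeries K) = HahnSeries.C c * (f : LaurentSeries K) := by
  rw [Algebra.smul_def]
  change algebraMap K (LaurentSeries K) c * (f : LaurentSeries K) = _
  rw [ModularCurve.algebraMap_laurentSeries_eq_single]
  rfl

theorem specLam_eq_zero (a : specB) (ha : ¬ IsUnit a) : specLam a = 0 := by
  have h1 : a ∈ IsLocalRing.maximalIdeal specB := ha
  rw [← ker_eq_maximalIdeal specLam_surjective] at h1
  exact h1

/-- a constant which is a quotient of two elements of `WS` with nonzero reduction. -/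
theorem const_of_WS {u : ℂ} {x x' : LaurentSeries ℂ} (hx : x ∈ WS specB specLam)
    (hx0 : redFun specB specLam x ≠ 0) (hx' : x' ∈ WS specB specLam)
    (h : x' = HahnSeries.C u * x) :
    ∃ hu : u ∈ specB, redFun specB specLam x' =
      HahnSeries.C (specLam ⟨u, hu⟩) * redFun specB specLam x := by
  have hxne : x ≠ 0 := by
    rintro rfl
    exact hx0 (redW specB specLam).map_zero
  have h1 : (HahnSeries.C u : LaurentSeries ℂ) = x' * x⁻¹ := by
    rw [h, mul_assoc, mul_inv_cancel₀ hxne, mul_one]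
  have h2 : (HahnSeries.C u : LaurentSeries ℂ) ∈ WS specB specLam := by
    rw [h1]
    exact (WS specB specLam).mul_mem hx' (inv_mem_of_redFun_ne_zero hx hx0)
  have hu : u ∈ specB := mem_of_C_mem_WS specLam_eq_zero h2
  refine ⟨hu, ?_⟩
  rw [h, redFun_mul h2 hx, redFun_C hu]

/-- (S3) -/
theorem Sp.unique {f : FK ℂ N} {fb fb' : FN N} (h : Sp N f fb) (h' : Sp N f fb') :
    ∃ a : Kb, a ≠ 0 ∧ fb' = a • fb := by
  obtain ⟨c, hc, h1, h2, h3⟩ := h
  obtain ⟨c', hc', h1', h2', h3'⟩ := h'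
  have e : ((c' • f : FK ℂ N) : LaurentSeries ℂ) =
      HahnSeries.C (c' / c) * ((c • f : FK ℂ N) : LaurentSeries ℂ) := by
    rw [← coe_smul_FK, smul_smul, div_mul_cancel₀ _ hc]
  obtain ⟨hu, h4⟩ := const_of_WS h1 (by rw [h2]; exact coe_ne_zero_FN h3) h1' e
  rw [h2, h2', ← coe_smul_FK] at h4
  have h5 : fb' = specLam ⟨c' / c, hu⟩ • fb := Subtype.ext h4
  refine ⟨_, ?_, h5⟩
  intro h0
  rw [h0, zero_smul] at h5
  exact h3' h5

/-- (S4) -/
theorem SpecHyp.sp_pow (H : SpecHyp) [NeZero N] {s : FK ℂ N} {fb : FN N} {p : ℕ} (hp : p ≠ 0)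
    (h : Sp N (s ^ p) fb) : ∃ t : FN N, t ^ p = fb := by
  have hs : s ≠ 0 := by
    rintro rfl
    exact h.ne_zero (zero_pow hp)
  obtain ⟨sb, hsb⟩ := H.exists_sp hs
  obtain ⟨a, -, ha⟩ := (hsb.pow p).unique h
  obtain ⟨d, hd⟩ := IsAlgClosed.exists_pow_nat_eq a (Nat.pos_of_ne_zero hp)
  refine ⟨d • sb, ?_⟩
  rw [smul_pow, hd, ha]

/-- (S5) -/
theorem SpecHyp.pow_of_sp (H : SpecHyp) [NeZero N] {f : FK ℂ N} {t : FN N} {p : ℕ} (hp : p ≠ 0)
    (h : Sp N f (t ^ p)) (hdiv : ∀ P : Place ℂ (FK ℂ N), (p : ℤ) ∣ P.ord f) :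
    ∃ s : FK ℂ N, s ^ p = f := by
  obtain ⟨c, hc, h1, h2, h3⟩ := h
  have ht0 : t ≠ 0 := by
    rintro rfl
    exact h3 (zero_pow hp)
  obtain ⟨s, hs⟩ := H.pow N p hp (c • f) h1 (fun P => by
    rw [ord_const_smul P hc]
    exact hdiv P) t ht0 h2
  obtain ⟨d, hd⟩ := IsAlgClosed.exists_pow_nat_eq c⁻¹ (Nat.pos_of_ne_zero hp)
  refine ⟨d • s, ?_⟩
  rw [smul_pow, hd, hs, smul_smul, inv_mul_cancel₀ hc, one_smul]

/-- (S6), abstract form: the two `q`-expansion formulas imply `Sp`. -/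
theorem SpecHyp.sp_of_HP (H : SpecHyp) [NeZero N] {l : ℕ} [NeZero l] (ζ₀ : Kbˣ)
    {f g : FK ℂ N} {fb gb : FN N} (h : Sp N f fb)
    (hg : qExpand ℂ l (g : LaurentSeries ℂ) = qExpand ℂ l (qExpand ℂ l (f : LaurentSeries ℂ)) *
      ∏ b ∈ Finset.range l, twistL ((Units.map (FA24.iota : Kb →* ℂ) ζ₀) ^ b)
        (f : LaurentSeries ℂ))
    (hgb : qExpand Kb l (gb : LaurentSeries Kb) =
      qExpand Kb l (qExpand Kb l (fb : LaurentSeries Kb)) *
        ∏ b ∈ Finset.range l, twistL (ζ₀ ^ b) (fb : LaurentSeries Kb)) :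
    Sp N g gb := by
  obtain ⟨c, hc, h1, h2, h3⟩ := h
  set x : LaurentSeries ℂ := ((c • f : FK ℂ N) : LaurentSeries ℂ) with hx
  have hxC : x = HahnSeries.C c * (f : LaurentSeries ℂ) := coe_smul_FK c f
  set ζ : ℂˣ := Units.map (FA24.iota : Kb →* ℂ) ζ₀ with hζ
  let ξ : specBˣ := Units.map (specLift : Kb →* specB) ζ₀
  have hξ1 : Units.map (specB.subtype : specB →* ℂ) ξ = ζ := by
    ext
    rfl
  have hξ2 : Units.map (specLam : specB →* Kb) ξ = ζ₀ := by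
    ext
    exact specLam_specLift _
  have hfb0 : (fb : LaurentSeries Kb) ≠ 0 := coe_ne_zero_FN h3
  -- the right hand side for `x`
  have htw : ∀ b ∈ Finset.range l, twistL (ζ ^ b) x ∈ WS specB specLam ∧
      redFun specB specLam (twistL (ζ ^ b) x) = twistL (ζ₀ ^ b) (fb : LaurentSeries Kb) := by
    intro b _
    have h := twistL_mem_WS (π := specLam) (ξ ^ b) h1
    rw [map_pow, map_pow, hξ1, hξ2, h2] at h
    exact h
  obtain ⟨hP1, hP2⟩ := prod_mem_WS (π := specLam) (Finset.range l)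
    (fun b => twistL (ζ ^ b) x) (fun b hb => (htw b hb).1)
  rw [Finset.prod_congr rfl (fun b hb => (htw b hb).2)] at hP2
  obtain ⟨hQ1, hQ2⟩ := qExpand_mem_WS (π := specLam) l h1
  obtain ⟨hQ3, hQ4⟩ := qExpand_mem_WS (π := specLam) l hQ1
  set R : LaurentSeries ℂ := qExpand ℂ l (qExpand ℂ l x) * ∏ b ∈ Finset.range l, twistL (ζ ^ b) x
    with hR
  have hR1 : R ∈ WS specB specLam := (WS specB specLam).mul_mem hQ3 hP1
  have hR2 : redFun specB specLam R = qExpand Kb l (gb : LaurentSeries Kb) := by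
    rw [hR, redFun_mul hQ3 hP1, hQ4, hQ2, hP2, h2, hgb]
  have hgb0 : qExpand Kb l (gb : LaurentSeries Kb) ≠ 0 := by
    rw [hgb]
    refine mul_ne_zero ((map_ne_zero _).2 ((map_ne_zero _).2 hfb0)) ?_
    exact Finset.prod_ne_zero_iff.mpr fun b _ => (map_ne_zero _).2 hfb0
  have hgb0' : gb ≠ 0 := by
    rintro rfl
    exact hgb0 (by rw [ZeroMemClass.coe_zero, map_zero])
  have hRg : R = HahnSeries.C (c ^ (l + 1)) * qExpand ℂ l (g : LaurentSeries ℂ) := by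
    rw [hR, hg, hxC]
    simp only [map_mul, qExpand_C, FAIg.twistL_C, Finset.prod_mul_distrib, Finset.prod_const,
      Finset.card_range, map_pow]
    ring
  have hg0 : g ≠ 0 := by
    rintro rfl
    apply hgb0
    rw [← hR2, hRg, ZeroMemClass.coe_zero, map_zero, mul_zero]
    exact (redW specB specLam).map_zero
  obtain ⟨d, hd, k1, k2⟩ := H.scale N g hg0
  set y : LaurentSeries ℂ := ((d • g : FK ℂ N) : LaurentSeries ℂ) with hy
  have hyC : y = HahnSeries.C d * (g : LaurentSeries ℂ) := coe_smul_FK d g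
  obtain ⟨hE1, hE2⟩ := qExpand_mem_WS (π := specLam) l k1
  have hE3 : redFun specB specLam (qExpand ℂ l y) ≠ 0 := by
    rw [hE2]
    exact (map_ne_zero _).2 k2
  have hRy : R = HahnSeries.C (c ^ (l + 1) / d) * qExpand ℂ l y := by
    rw [hRg, hyC, map_mul, qExpand_C, ← mul_assoc, ← map_mul, div_mul_cancel₀ _ hd]
  obtain ⟨hu, hu2⟩ := const_of_WS hE1 hE3 hR1 hRy
  have hcg : (((c ^ (l + 1)) • g : FK ℂ N) : LaurentSeries ℂ) =
      HahnSeries.C (c ^ (l + 1) / d) * y := by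
    rw [coe_smul_FK, hyC, ← mul_assoc, ← map_mul, div_mul_cancel₀ _ hd]
  have hCu : (HahnSeries.C (c ^ (l + 1) / d) : LaurentSeries ℂ) ∈ WS specB specLam := C_mem_WS hu
  refine ⟨c ^ (l + 1), pow_ne_zero _ hc, ?_, ?_, hgb0'⟩
  · rw [hcg]
    exact (WS specB specLam).mul_mem hCu k1
  · apply qExpand_injective (R := Kb) l
    rw [← hR2, hu2, hE2, hcg, redFun_mul hCu k1, redFun_C hu, map_mul, qExpand_C]

/-- (S6) -/
theorem SpecHyp.sp_heckeM (H : SpecHyp) [NeZero N] {l : ℕ} [NeZero l] (hl : l.Prime)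
    (hlN : ¬ l ∣ N) {f : FK ℂ N} {fb : FN N} (h : Sp N f fb) :
    Sp N (heckeMK ℂ N l f) (heckeM N l fb) := by
  obtain ⟨ζ0, hζ0⟩ : ∃ ζ : Kb, IsPrimitiveRoot ζ l :=
    HasEnoughRootsOfUnity.exists_primitiveRoot Kb l
  obtain ⟨ζ, rfl⟩ := hζ0.isUnit hl.ne_zero
  have hζ : IsPrimitiveRoot ζ l := IsPrimitiveRoot.coe_units_iff.1 hζ0
  have hζC : IsPrimitiveRoot (Units.map (FA24.iota : Kb →* ℂ) ζ) l := by
    rw [← IsPrimitiveRoot.coe_units_iff]
    exact hζ0.map_of_injective FA24.iota.injective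
  exact H.sp_of_HP ζ h (qExpand_heckeMK_of_isAlgClosed N hl hlN _ hζC f)
    (qExpand_heckeM N hl hlN ζ hζ fb)

end FAG
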