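/-
PROJECT G: the hypothesis `SpecHyp` of `SpecM.lean` holds (by `Spec.lean`).
-/
import Fermat.Agent.Gal.SpecM
import Fermat.Agent.Gal.Spec

set_option autoImplicit false

open AlgebraicCurve IntermediateField ModularCurve FA24 FA18.M1

namespace FAG

theorem specHypM : SpecHyp where
  mem N _ f hf := spec_mem N f hf
  scale N _ f hf := by
    obtain ⟨c, hc, h1, h2⟩ := spec_scale N f hf
    refine ⟨c, hc, ?_, ?_⟩
    · rw [coe_smul_FK]
      exact h1
    · rw [coe_smul_FK]
      exact h2
  dvd N _ m f hf hne hdiv fb hfb Q := by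
    have h := spec_dvd N (m : ℤ) f hf hne hdiv Q
    have e : fb = (⟨redFun specB specLam f.1, spec_mem N f hf⟩ : FN N) := Subtype.ext hfb
    rw [e]
    exact h
  pow N _ m hm f hf hdiv t ht0 ht := spec_pow N m hm f hf hdiv t ht0 ht

end FAG
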