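/-
PROJECT G, [K4-ASM]: **(K4)**, existence of the eigenclass in `k₁ ⊗ KK p N`; and the injective
Hecke-equivariant homomorphism `Λ/mΛ → KK m N` for every modulus `m ≥ 1`.
-/
import Fermat.Agent.Gal.K4Of
import Fermat.Agent.Gal.SpecM2
import Fermat.Agent.Gal.RealH

set_option autoImplicit false

open AlgebraicCurve ModularCurve FA24 CongruenceSubgroup ModularCurve.Period
open scoped TensorProduct

namespace FAG

theorem spHyp (m N : ℕ) [NeZero N] [NeZero m] : SpHyp m N (Sp N) where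
  ex _ hf := specHypM.exists_sp hf
  ne _ _ h := h.choose_spec.2.2.2
  mul _ _ _ _ h h' := h.mul h'
  dvd _ _ h hdiv Q := specHypM.sp_dvd h m hdiv Q
  uniq _ _ _ h h' := h.unique h'
  pow _ _ h := specHypM.sp_pow (NeZero.ne m) h
  root f fb h hdiv := by
    rintro ⟨t, rfl⟩
    exact specHypM.pow_of_sp (NeZero.ne m) h hdiv
  hecke ℓ hℓ hℓN _ _ h :=
    haveI : NeZero ℓ := ⟨hℓ.ne_zero⟩
    specHypM.sp_heckeM hℓ hℓN h

theorem realHecke (m N : ℕ) [NeZero N] [NeZero m] : RealHecke m N :=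
  fun _ hℓ hN _ _ hχ h =>
    haveI := NeZero.mk hℓ.ne_zero
    Real.hecke hℓ hN (NeZero.pos m) hχ h

/-- **the injective Hecke-equivariant homomorphism `Λ/mΛ → KK m N`** -/
theorem exists_PsiM (m N : ℕ) [NeZero N] [NeZero m] :
    ∃ Ψ : LamZ N →+ KK m N, (∀ χ, Ψ χ = 0 → ∃ χ', χ = m • χ') ∧
      (∀ (i : GoodP N) χ, Ψ (heckePar N i.2.1 i.2.2 ℤ ℤ χ) = KK.T m N i.1 (Ψ χ)) ∧
      ∀ χ, ∃ fb, ∃ h : RelSp m N (Sp N) χ fb,
        Ψ χ = KK.mk (UU.of fb (RelSp.ne_dvd (spHyp m N) χ fb h).1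
          (RelSp.ne_dvd (spHyp m N) χ fb h).2) :=
  exists_Psi (spHyp m N) (realHecke m N)

/-- **(K4)** -/
theorem K4 {N : ℕ} [NeZero N] {g : CuspForm (CongruenceSubgroup.Gamma0 N) 2}
    (hg : g.IsNormalizedEigenform) {p : ℕ} [Fact p.Prime] {k1 : Type} [Field k1]
    [Algebra (ZMod p) k1] (ψ : integralClosure ℤ ℂ →+* k1) (_hψ : Function.Surjective ψ) :
    ∃ w : k1 ⊗[ZMod p] KK p N, w ≠ 0 ∧ ∀ ℓ : ℕ, ℓ.Prime → ¬ ℓ ∣ N →
      ∃ a : integralClosure ℤ ℂ, (a : ℂ) = ModularFormClass.qCoeff g ℓ ∧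
        (KK.T p N ℓ).baseChange k1 w = ψ a • w :=
  haveI : NeZero p := ⟨(Fact.out : p.Prime).ne_zero⟩
  K4_of_sp (spHyp p N) (realHecke p N) hg ψ

end FAG
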