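/-
PROJECT G: the two-dimensional mod `p` representation attached to a normalised eigenform
(matrix form), from (K4), the engine and `KK`.
-/
import Fermat.Agent.Gal.Engine
import Fermat.Agent.Gal.KK
import Fermat.Agent.Gal.K4

set_option autoImplicit false

open FA24 Polynomial
open scoped TensorProduct

namespace FAG

/-- a field quotient of `ℤ̄` is algebraically closed -/
theorem isAlgClosed_of_surjective {k1 : Type*} [Field k1] (ψ : integralClosure ℤ ℂ →+* k1)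
    (hψ : Function.Surjective ψ) : IsAlgClosed k1 := by
  refine IsAlgClosed.of_exists_root k1 fun q hq hirr => ?_
  have hl : q ∈ Polynomial.lifts ψ := by
    rw [Polynomial.mem_lifts]
    exact Polynomial.map_surjective ψ hψ q
  obtain ⟨Q, hQ, hdeg, hQm⟩ := Polynomial.lifts_and_degree_eq_and_monic hl hq
  have hd : (Q.map (algebraMap (integralClosure ℤ ℂ) ℂ)).degree ≠ 0 := by
    rw [Polynomial.degree_map_eq_of_injective (FaithfulSMul.algebraMap_injective _ _), hdeg]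
    exact (Polynomial.degree_pos_of_irreducible hirr).ne'
  obtain ⟨z, hz⟩ := IsAlgClosed.exists_root _ hd
  have hz1 : IsIntegral (integralClosure ℤ ℂ) z := ⟨Q, hQm, by
    rwa [Polynomial.IsRoot.def, Polynomial.eval_map] at hz⟩
  have hz2 : IsIntegral ℤ z := isIntegral_trans z hz1
  refine ⟨ψ ⟨z, hz2⟩, ?_⟩
  rw [← hQ, Polynomial.eval_map, Polynomial.eval₂_hom]
  have : Q.eval (⟨z, hz2⟩ : integralClosure ℤ ℂ) = 0 := by
    apply Subtype.ext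
    rw [Polynomial.IsRoot.def, Polynomial.eval_map] at hz
    have h1 := Polynomial.hom_eval₂ Q (RingHom.id _) (algebraMap (integralClosure ℤ ℂ) ℂ)
      (⟨z, hz2⟩ : integralClosure ℤ ℂ)
    rw [RingHom.comp_id, Polynomial.eval₂_id] at h1
    exact h1.trans hz
  rw [this, map_zero]

/-- the mod `p` representation attached to a normalised eigenform, in matrix form. -/
theorem exists_matrix_rep {N : ℕ} [NeZero N] {g : CuspForm (CongruenceSubgroup.Gamma0 N) 2}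
    (hg : g.IsNormalizedEigenform) {p : ℕ} [Fact p.Prime] {k1 : Type} [Field k1]
    [Algebra (ZMod p) k1] (ψ : integralClosure ℤ ℂ →+* k1) (hψ : Function.Surjective ψ) :
    ∃ R : GQ →* Matrix (Fin 2) (Fin 2) k1, GaloisFactorsThroughFiniteLevel R ∧
      (∀ ℓ : ℕ, ℓ.Prime → ¬ ℓ ∣ N * p → ∀ A : ValuationSubring Kb, A.LiesOverPrime ℓ →
        ∀ σ ∈ A.inertiaSubgroupIn ℚ, R σ = 1) ∧
      (∀ ℓ : ℕ, ℓ.Prime → ¬ ℓ ∣ N * p → ∀ A : ValuationSubring Kb, A.LiesOverPrime ℓ →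
        ∀ σ : GQ, A.IsFrobeniusAt σ ℓ →
          ∃ a : integralClosure ℤ ℂ, (a : ℂ) = ModularFormClass.qCoeff g ℓ ∧
            (R σ).charpoly = X ^ 2 - C (ψ a) * X + C (ℓ : k1)) := by
  classical
  have hp : p.Prime := Fact.out
  have : NeZero p := ⟨hp.ne_zero⟩
  have : IsAlgClosed k1 := isAlgClosed_of_surjective ψ hψ
  obtain ⟨w, hw, hT⟩ := K4 hg (p := p) ψ hψ
  have hNp : N * p ≠ 0 := mul_ne_zero (NeZero.ne N) hp.ne_zero
  set S : Set ℕ := {ℓ | ℓ ∣ N * p} with hS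
  have hSfin : S.Finite := by
    refine Set.Finite.subset (Set.finite_Iic (N * p)) fun ℓ hℓ => ?_
    exact Nat.le_of_dvd (Nat.pos_of_ne_zero hNp) hℓ
  have hpS : p ∈ S := Dvd.intro_left N rfl
  have hN : ∀ ℓ : ℕ, ℓ ∉ S → ¬ ℓ ∣ N := fun ℓ h h' => h (Dvd.dvd.mul_right h' p)
  have hP : ∀ ℓ : ℕ, ℓ ∉ S → ¬ ℓ ∣ p := fun ℓ h h' => h (Dvd.dvd.mul_left h' N)
  let a : ℕ → integralClosure ℤ ℂ := fun ℓ =>
    if h : ℓ.Prime ∧ ¬ ℓ ∣ N then (hT ℓ h.1 h.2).choose else 0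
  have ha : ∀ ℓ : ℕ, ℓ.Prime → ¬ ℓ ∣ N → ((a ℓ : integralClosure ℤ ℂ) : ℂ) =
      ModularFormClass.qCoeff g ℓ ∧ (KK.T p N ℓ).baseChange k1 w = ψ (a ℓ) • w := by
    intro ℓ h1 h2
    have : a ℓ = (hT ℓ h1 h2).choose := dif_pos ⟨h1, h2⟩
    rw [this]
    exact (hT ℓ h1 h2).choose_spec
  obtain ⟨R, hR1, hR2, hR3⟩ := engine S hSfin hpS (KK.act p N) (KK.T p N) (KK.act_smooth p N)
    (KK.T_comm p N)
    (fun ℓ hℓ hℓS A hA σ hσ => KK.unram p N hℓ (hN ℓ hℓS) (hP ℓ hℓS) A hA σ hσ)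
    (fun ℓ hℓ hℓS A hA σ hσ => KK.ES p N hℓ (hN ℓ hℓS) (hP ℓ hℓS) A hA σ hσ)
    (fun ℓ => ψ (a ℓ)) w hw (fun ℓ hℓ hℓS => (ha ℓ hℓ (hN ℓ hℓS)).2)
  exact ⟨R, hR1, hR2, fun ℓ hℓ hℓS A hA σ hσ =>
    ⟨a ℓ, (ha ℓ hℓ (hN ℓ hℓS)).1, hR3 ℓ hℓ hℓS A hA σ hσ⟩⟩

end FAG
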