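/-
PROJECT G: auxiliary statements for S42: the field cut out by the `p`-torsion of the Frey curve,
trace and determinant from the characteristic polynomial.
-/
import Fermat.Agent.Gal.AlgRep
import Fermat.Agent.Maz.FreyTors
import Fermat.Prelude.Def_EllipticCurve_FrobeniusTrace

set_option autoImplicit false

open WeierstrassCurve WeierstrassCurve.Affine WeierstrassCurve.Affine.Point IntermediateField
open Polynomial

namespace FAG

local notation "Qb" => AlgebraicClosure ℚ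

theorem point_finiteLevel [DecidableEq Qb] (W : WeierstrassCurve ℚ) (Q : (W⁄Qb).Point) :
    ∃ L : IntermediateField ℚ Qb, FiniteDimensional ℚ L ∧
      ∀ σ : Qb ≃ₐ[ℚ] Qb, (∀ x ∈ L, σ x = x) → σ • Q = Q := by
  have halg : Algebra.IsAlgebraic ℚ Qb := AlgebraicClosure.isAlgebraic ℚ
  rcases Q with _ | ⟨x, y, h⟩
  · exact ⟨⊥, inferInstance, fun σ _ => rfl⟩
  · have h1 : FiniteDimensional ℚ ℚ⟮x⟯ :=
      IntermediateField.adjoin.finiteDimensional (Algebra.IsAlgebraic.isAlgebraic x).isIntegral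
    have h2 : FiniteDimensional ℚ ℚ⟮y⟯ :=
      IntermediateField.adjoin.finiteDimensional (Algebra.IsAlgebraic.isAlgebraic y).isIntegral
    refine ⟨ℚ⟮x⟯ ⊔ ℚ⟮y⟯, IntermediateField.finiteDimensional_sup _ _, fun σ hσ => ?_⟩
    have hx : σ x = x := hσ x ((le_sup_left : ℚ⟮x⟯ ≤ ℚ⟮x⟯ ⊔ ℚ⟮y⟯)
      (IntermediateField.mem_adjoin_simple_self ℚ x))
    have hy : σ y = y := hσ y ((le_sup_right : ℚ⟮y⟯ ≤ ℚ⟮x⟯ ⊔ ℚ⟮y⟯)
      (IntermediateField.mem_adjoin_simple_self ℚ y))
    rw [algEquiv_smul_def, Point.map_some]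
    exact (Point.some.injEq _ _ _ _ _ _).mpr ⟨hx, hy⟩

theorem frey_finiteLevel [dec : DecidableEq Qb] (P : FreyPackage) :
    ∃ L : IntermediateField ℚ Qb, FiniteDimensional ℚ L ∧
      ∀ σ : Qb ≃ₐ[ℚ] Qb, (∀ x ∈ L, σ x = x) →
        galoisRepModuleEnd (S := ℚ) (K := Qb) P.freyCurve P.p σ = 1 := by
  have hdec : dec = instDecEqAlgebraicClosureRat := Subsingleton.elim _ _
  subst hdec
  have hfin := FA13.frey_finite P
  choose Lf hLf1 hLf2 using point_finiteLevel P.freyCurve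
  refine ⟨⨆ Q : Submodule.torsionBy ℤ (P.freyCurve⁄Qb).Point P.p, Lf Q,
    IntermediateField.finiteDimensional_iSup_of_finite, fun σ hσ => ?_⟩
  refine LinearMap.ext fun Q => Subtype.ext ?_
  rw [galoisRepModuleEnd_apply, Module.End.one_apply]
  exact hLf2 Q σ fun x hx => hσ x
    ((le_iSup (fun Q : Submodule.torsionBy ℤ (P.freyCurve⁄Qb).Point P.p => Lf Q) Q) hx)

theorem trace_of_charpoly {k : Type*} [Field k] (M : Matrix (Fin 2) (Fin 2) k) {a b : k}
    (h : M.charpoly = X ^ 2 - C a * X + C b) : M.trace = a := by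
  rw [Matrix.trace_eq_neg_charpoly_coeff, h]
  simp [Polynomial.coeff_C]

theorem det_of_charpoly {k : Type*} [Field k] (M : Matrix (Fin 2) (Fin 2) k) {a b : k}
    (h : M.charpoly = X ^ 2 - C a * X + C b) : M.det = b := by
  rw [Matrix.det_eq_sign_charpoly_coeff, h]
  simp

theorem residualOfMatrix_trace {k : Type} [Field k]
    (R : (Qb ≃ₐ[ℚ] Qb) →* Matrix (Fin 2) (Fin 2) k)
    (hR : GaloisFactorsThroughFiniteLevel R) (σ : Qb ≃ₐ[ℚ] Qb) :
    LinearMap.trace k _ ((residualOfMatrix R hR).ρ σ) = (R σ).trace :=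
  Matrix.trace_toLin'_eq (R σ)

theorem residualOfMatrix_det {k : Type} [Field k]
    (R : (Qb ≃ₐ[ℚ] Qb) →* Matrix (Fin 2) (Fin 2) k)
    (hR : GaloisFactorsThroughFiniteLevel R) (σ : Qb ≃ₐ[ℚ] Qb) :
    LinearMap.det ((residualOfMatrix R hR).ρ σ) = (R σ).det :=
  LinearMap.det_toLin' (R σ)

end FAG
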