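import Mathlib

/-! PROJECT G: the abstract (transfer type) Hecke operator on `Hom(Γ, A)`. -/

set_option autoImplicit false

namespace FAG

/-- an abstract Hecke system: `Γ ↪ G`, representatives `δ i` of `Γ \ Γ δ Γ`. -/
structure HSys (Γ G I : Type*) [Group Γ] [Group G] where
  ι : Γ →* G
  inj : Function.Injective ι
  δ : I → G
  h1 : ∀ i γ, ∃ j γ', δ i * ι γ = ι γ' * δ j
  h2 : ∀ i j γ, δ i = ι γ * δ j → i = j

namespace HSys

variable {Γ G I : Type*} [Group Γ] [Group G] (D : HSys Γ G I)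

/-- the permutation of the representatives induced by right multiplication by `γ`. -/
noncomputable def nxt (γ : Γ) (i : I) : I := (D.h1 i γ).choose

/-- the cocycle: `δ i * γ = kap γ i * δ (nxt γ i)`. -/
noncomputable def kap (γ : Γ) (i : I) : Γ := (D.h1 i γ).choose_spec.choose

lemma spec (γ : Γ) (i : I) : D.δ i * D.ι γ = D.ι (D.kap γ i) * D.δ (D.nxt γ i) :=
  (D.h1 i γ).choose_spec.choose_spec

lemma uniq {i j : I} {γ γ' : Γ} (h : D.δ i * D.ι γ = D.ι γ' * D.δ j) :
    D.nxt γ i = j ∧ D.kap γ i = γ' := by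
  have h0 := D.spec γ i
  rw [h] at h0
  have h1 : D.δ j = D.ι (γ'⁻¹ * D.kap γ i) * D.δ (D.nxt γ i) := by
    rw [map_mul, map_inv, mul_assoc, ← h0, inv_mul_cancel_left]
  have h2 := D.h2 _ _ _ h1
  refine ⟨h2.symm, ?_⟩
  rw [← h2] at h0
  exact (D.inj (mul_right_cancel h0)).symm

lemma nxt_kap_mul (γ γ' : Γ) (i : I) :
    D.nxt (γ * γ') i = D.nxt γ' (D.nxt γ i) ∧
      D.kap (γ * γ') i = D.kap γ i * D.kap γ' (D.nxt γ i) := by
  apply D.uniq
  rw [map_mul, ← mul_assoc, D.spec γ i, mul_assoc, D.spec γ' _, map_mul, mul_assoc]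

lemma nxt_mul (γ γ' : Γ) (i : I) : D.nxt (γ * γ') i = D.nxt γ' (D.nxt γ i) :=
  (D.nxt_kap_mul γ γ' i).1

lemma kap_mul (γ γ' : Γ) (i : I) :
    D.kap (γ * γ') i = D.kap γ i * D.kap γ' (D.nxt γ i) :=
  (D.nxt_kap_mul γ γ' i).2

lemma nxt_kap_one (i : I) : D.nxt 1 i = i ∧ D.kap 1 i = 1 := by
  apply D.uniq
  simp

@[simp] lemma nxt_one (i : I) : D.nxt 1 i = i := (D.nxt_kap_one i).1

@[simp] lemma kap_one (i : I) : D.kap 1 i = 1 := (D.nxt_kap_one i).2

/-- `nxt γ` as a permutation. -/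
noncomputable def perm (γ : Γ) : Equiv.Perm I where
  toFun := D.nxt γ
  invFun := D.nxt γ⁻¹
  left_inv i := by rw [← D.nxt_mul, mul_inv_cancel, D.nxt_one]
  right_inv i := by rw [← D.nxt_mul, inv_mul_cancel, D.nxt_one]

@[simp] lemma perm_apply (γ : Γ) (i : I) : D.perm γ i = D.nxt γ i := rfl

lemma perm_mul (γ γ' : Γ) : D.perm (γ * γ') = D.perm γ' * D.perm γ := by
  ext i
  simp [D.nxt_mul]

lemma perm_one : D.perm 1 = 1 := by
  ext i
  simp

lemma perm_pow (γ : Γ) (n : ℕ) : D.perm (γ ^ n) = D.perm γ ^ n := by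
  induction n with
  | zero => simp [perm_one]
  | succ n ih => rw [pow_succ, perm_mul, ih, pow_succ']

/-- if `γ` fixes `i` then `kap γ i` is the conjugate of `γ` by `δ i`. -/
lemma kap_of_fixed {γ : Γ} {i : I} (h : D.nxt γ i = i) :
    D.ι (D.kap γ i) = D.δ i * D.ι γ * (D.δ i)⁻¹ := by
  have := D.spec γ i
  rw [h] at this
  rw [this, mul_inv_cancel_right]

variable [Fintype I]

/-- some positive power of `γ` fixes all the representatives. -/
lemma exists_pow_fix (γ : Γ) : ∃ n : ℕ, 0 < n ∧ ∀ i, D.nxt (γ ^ n) i = i := by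
  classical
  refine ⟨orderOf (D.perm γ), orderOf_pos _, fun i => ?_⟩
  rw [← perm_apply, perm_pow, pow_orderOf_eq_one]
  rfl

/-- the Hecke operator on multiplicative characters. -/
noncomputable def heckeMul {M : Type*} [CommMonoid M] (c : Γ →* M) : Γ →* M where
  toFun γ := ∏ i, c (D.kap γ i)
  map_one' := by simp
  map_mul' γ γ' := by
    simp only [D.kap_mul, map_mul, Finset.prod_mul_distrib]
    congr 1
    exact Equiv.prod_comp (D.perm γ) (fun i => c (D.kap γ' i))

lemma heckeMul_apply {M : Type*} [CommMonoid M] (c : Γ →* M) (γ : Γ) :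
    D.heckeMul c γ = ∏ i, c (D.kap γ i) := rfl

/-- the Hecke operator on additive characters. -/
noncomputable def heckeAdd {A : Type*} [AddCommMonoid A] (χ : Additive Γ →+ A) :
    Additive Γ →+ A where
  toFun γ := ∑ i, χ (Additive.ofMul (D.kap γ.toMul i))
  map_zero' := by simp
  map_add' γ γ' := by
    simp only [toMul_add, D.kap_mul, ofMul_mul, map_add, Finset.sum_add_distrib]
    congr 1
    exact Equiv.sum_comp (D.perm γ.toMul) (fun i => χ (Additive.ofMul (D.kap γ'.toMul i)))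

lemma heckeAdd_apply {A : Type*} [AddCommMonoid A] (χ : Additive Γ →+ A) (γ : Γ) :
    D.heckeAdd χ (Additive.ofMul γ) = ∑ i, χ (Additive.ofMul (D.kap γ i)) := rfl

lemma heckeAdd_add {A : Type*} [AddCommMonoid A] (χ χ' : Additive Γ →+ A) :
    D.heckeAdd (χ + χ') = D.heckeAdd χ + D.heckeAdd χ' := by
  ext γ
  simp [heckeAdd, Finset.sum_add_distrib]

lemma heckeAdd_zero {A : Type*} [AddCommMonoid A] :
    D.heckeAdd (0 : Additive Γ →+ A) = 0 := by
  ext γ
  simp [heckeAdd]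

lemma heckeAdd_comp {A B : Type*} [AddCommMonoid A] [AddCommMonoid B] (φ : A →+ B)
    (χ : Additive Γ →+ A) : D.heckeAdd (φ.comp χ) = φ.comp (D.heckeAdd χ) := by
  ext γ
  simp [heckeAdd]

/-- the Hecke operator as a linear map. -/
noncomputable def heckeLin (R A : Type*) [Semiring R] [AddCommGroup A] [Module R A] :
    (Additive Γ →+ A) →ₗ[R] (Additive Γ →+ A) where
  toFun := D.heckeAdd
  map_add' := D.heckeAdd_add
  map_smul' r χ := by
    ext γ
    simp [heckeAdd, Finset.smul_sum]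

@[simp] lemma heckeLin_apply (R A : Type*) [Semiring R] [AddCommGroup A] [Module R A]
    (χ : Additive Γ →+ A) : D.heckeLin R A χ = D.heckeAdd χ := rfl

/-- the character `γ ↦ ζ ^ χ γ`. -/
def expChar {M : Type*} [CommGroup M] (ζ : M) (χ : Additive Γ →+ ℤ) : Γ →* M where
  toFun γ := ζ ^ χ (Additive.ofMul γ)
  map_one' := by simp
  map_mul' γ γ' := by rw [ofMul_mul, map_add, zpow_add]

lemma expChar_apply {M : Type*} [CommGroup M] (ζ : M) (χ : Additive Γ →+ ℤ) (γ : Γ) :
    expChar ζ χ γ = ζ ^ χ (Additive.ofMul γ) := rfl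

lemma expChar_add {M : Type*} [CommGroup M] (ζ : M) (χ χ' : Additive Γ →+ ℤ) :
    expChar ζ (χ + χ') = expChar ζ χ * expChar ζ χ' := by
  ext γ
  simp [expChar_apply, zpow_add]

lemma heckeMul_expChar {M : Type*} [CommGroup M] (ζ : M) (χ : Additive Γ →+ ℤ) :
    D.heckeMul (expChar ζ χ) = expChar ζ (D.heckeAdd χ) := by
  ext γ
  rw [heckeMul_apply, expChar_apply, heckeAdd_apply]
  have : ∀ (s : Finset I) (f : I → ℤ), ∏ i ∈ s, ζ ^ f i = ζ ^ ∑ i ∈ s, f i := by
    intro s f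
    classical
    induction s using Finset.induction_on with
    | empty => simp
    | insert a s ha ih => rw [Finset.prod_insert ha, Finset.sum_insert ha, zpow_add, ih]
  exact this _ _

/-- multiplicative transformation rule. -/
lemma prod_smul {X M : Type*} [MulAction G X] [CommMonoid M] {c : Γ →* M} {U : X → M}
    (hU : ∀ γ x, U (D.ι γ • x) = c γ * U x) (γ : Γ) (x : X) :
    ∏ i, U (D.δ i • D.ι γ • x) = D.heckeMul c γ * ∏ i, U (D.δ i • x) := by
  rw [heckeMul_apply, ← Equiv.prod_comp (D.perm γ) (fun i => U (D.δ i • x)),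
    ← Finset.prod_mul_distrib]
  refine Finset.prod_congr rfl fun i _ => ?_
  rw [← mul_smul, D.spec γ i, mul_smul, hU, perm_apply]

/-- additive transformation rule. -/
lemma sum_smul {X A : Type*} [MulAction G X] [AddCommMonoid A] {χ : Additive Γ →+ A} {F : X → A}
    (hF : ∀ γ x, F (D.ι γ • x) = χ (Additive.ofMul γ) + F x) (γ : Γ) (x : X) :
    ∑ i, F (D.δ i • D.ι γ • x) = D.heckeAdd χ (Additive.ofMul γ) + ∑ i, F (D.δ i • x) := by
  rw [heckeAdd_apply, ← Equiv.sum_comp (D.perm γ) (fun i => F (D.δ i • x)),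
    ← Finset.sum_add_distrib]
  refine Finset.sum_congr rfl fun i _ => ?_
  rw [← mul_smul, D.spec γ i, mul_smul, hF, perm_apply]

/-- a class of elements stable under powers and under the conjugations `δ i · δ i⁻¹` on which `χ`
vanishes is killed by the Hecke transform as well (torsion free coefficients). -/
lemma heckeAdd_eq_zero {A : Type*} [AddCommGroup A] [IsAddTorsionFree A] (P : Γ → Prop)
    (hpow : ∀ γ (n : ℕ), P γ → P (γ ^ n))
    (hconj : ∀ γ γ' i, P γ → D.ι γ' = D.δ i * D.ι γ * (D.δ i)⁻¹ → P γ')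
    {χ : Additive Γ →+ A} (hχ : ∀ γ, P γ → χ (Additive.ofMul γ) = 0) {γ : Γ} (hγ : P γ) :
    D.heckeAdd χ (Additive.ofMul γ) = 0 := by
  obtain ⟨n, hn, hfix⟩ := D.exists_pow_fix γ
  have h1 : D.heckeAdd χ (Additive.ofMul (γ ^ n)) = 0 := by
    rw [heckeAdd_apply]
    refine Finset.sum_eq_zero fun i _ => hχ _ ?_
    exact hconj (γ ^ n) _ i (hpow γ n hγ) (D.kap_of_fixed (hfix i))
  rw [ofMul_pow, map_nsmul] at h1
  exact (nsmul_eq_zero_iff_right hn.ne').mp h1

end HSys

end FAG
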