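import Fermat.Agent.Gal.HeckeSys

/-! PROJECT T, [T-GEN]: the Hecke operator preserves parabolic classes with ARBITRARY coefficients
(orbit decomposition of the transfer). -/

set_option autoImplicit false

open CongruenceSubgroup
open scoped MatrixGroups

namespace FAG

open Function in
/-- if the sums of `a` over all the cycles of `σ` vanish, so does the total sum. -/
lemma sum_eq_zero_of_orbit_sums {I A : Type*} [Fintype I] [AddCommMonoid A]
    (σ : Equiv.Perm I) (a : I → A)
    (h : ∀ i, ∑ k ∈ Finset.range (minimalPeriod σ i), a ((σ ^ k) i) = 0) : ∑ i, a i = 0 := by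
  classical
  have hper : ∀ i, 0 < minimalPeriod σ i := by
    intro i
    apply minimalPeriod_pos_of_mem_periodicPts
    refine mk_mem_periodicPts (orderOf_pos σ) ?_
    show σ^[orderOf σ] i = i
    rw [← Equiv.Perm.coe_pow, pow_orderOf_eq_one]
    rfl
  have hmp : ∀ i, (σ ^ minimalPeriod σ i) i = i := by
    intro i
    have := isPeriodicPt_minimalPeriod σ i
    rw [Equiv.Perm.coe_pow]
    exact this
  have key : ∀ (n : ℕ) (s : Finset I), s.card = n → (∀ i, i ∈ s ↔ σ i ∈ s) →
      ∑ i ∈ s, a i = 0 := by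
    intro n
    induction n using Nat.strong_induction_on with
    | _ n ih =>
      intro s hs hst
      rcases s.eq_empty_or_nonempty with rfl | ⟨i, hi⟩
      · simp
      set m := minimalPeriod σ i with hm
      set O : Finset I := (Finset.range m).image (fun k => (σ ^ k) i) with hO
      have hpows : ∀ k : ℕ, (σ ^ k) i ∈ s := by
        intro k
        induction k with
        | zero => simpa using hi
        | succ k ihk =>
          rw [pow_succ', Equiv.Perm.mul_apply]
          exact (hst _).mp ihk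
      have hOs : O ⊆ s := by
        intro j hj
        obtain ⟨k, -, rfl⟩ := Finset.mem_image.mp hj
        exact hpows k
      have hiO : i ∈ O := Finset.mem_image.mpr ⟨0, Finset.mem_range.mpr (hper i), by simp⟩
      have hOst : ∀ j, j ∈ O ↔ σ j ∈ O := by
        intro j
        constructor
        · intro hj
          obtain ⟨k, hk, rfl⟩ := Finset.mem_image.mp hj
          rw [Finset.mem_range] at hk
          rcases Nat.lt_or_ge (k + 1) m with h1 | h1
          · exact Finset.mem_image.mpr ⟨k + 1, Finset.mem_range.mpr h1, by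
              rw [pow_succ', Equiv.Perm.mul_apply]⟩
          · have : k + 1 = m := by omega
            have e : σ ((σ ^ k) i) = i := by
              rw [← Equiv.Perm.mul_apply, ← pow_succ', this]
              exact hmp i
            rw [e]
            exact hiO
        · intro hj
          obtain ⟨k, hk, hk'⟩ := Finset.mem_image.mp hj
          rw [Finset.mem_range] at hk
          rcases Nat.eq_zero_or_pos k with rfl | h1
          · refine Finset.mem_image.mpr ⟨m - 1, Finset.mem_range.mpr (by have := hper i; omega), ?_⟩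
            apply σ.injective
            rw [← Equiv.Perm.mul_apply, ← pow_succ', Nat.sub_add_cancel (hper i), ← hk']
            simpa using hmp i
          · refine Finset.mem_image.mpr ⟨k - 1, Finset.mem_range.mpr (by omega), ?_⟩
            apply σ.injective
            rw [← Equiv.Perm.mul_apply, ← pow_succ', Nat.sub_add_cancel h1, hk']
      have h1 : ∑ j ∈ s \ O, a j = 0 := by
        refine ih (s \ O).card ?_ (s \ O) rfl ?_
        · rw [← hs]
          exact Finset.card_lt_card (Finset.sdiff_ssubset hOs ⟨i, hiO⟩)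
        · intro j
          rw [Finset.mem_sdiff, Finset.mem_sdiff, hst j, hOst j]
      have h2 : ∑ j ∈ O, a j = 0 := by
        rw [hO, Finset.sum_image]
        · exact h i
        · intro k hk k' hk' hkk
          have := iterate_injOn_Iio_minimalPeriod (f := σ) (x := i)
            (Set.mem_Iio.mpr (Finset.mem_range.mp hk)) (Set.mem_Iio.mpr (Finset.mem_range.mp hk'))
          apply this
          simp only [← Equiv.Perm.coe_pow]
          exact hkk
      rw [← Finset.sum_sdiff hOs, h1, h2, add_zero]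
  exact key _ Finset.univ rfl (fun i => by simp)

namespace HSys

variable {Γ G I : Type*} [Group Γ] [Group G] (D : HSys Γ G I)

lemma nxt_pow (γ : Γ) (k : ℕ) (i : I) : D.nxt (γ ^ k) i = (D.perm γ ^ k) i := by
  rw [← perm_pow, perm_apply]

/-- the cocycle along an orbit. -/
lemma map_kap_pow {A : Type*} [AddCommMonoid A] (χ : Additive Γ →+ A) (γ : Γ) (k : ℕ) (i : I) :
    χ (Additive.ofMul (D.kap (γ ^ k) i)) =
      ∑ t ∈ Finset.range k, χ (Additive.ofMul (D.kap γ ((D.perm γ ^ t) i))) := by
  induction k with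
  | zero => simp
  | succ k ih =>
    rw [pow_succ, D.kap_mul, ofMul_mul, map_add, ih, Finset.sum_range_succ, D.nxt_pow]

variable [Fintype I]

/-- a class of elements stable under powers and under the conjugations `δ i · δ i⁻¹` on which `χ`
vanishes is killed by the Hecke transform as well (ARBITRARY coefficients). -/
lemma heckeAdd_eq_zero' {A : Type*} [AddCommMonoid A] (P : Γ → Prop)
    (hpow : ∀ γ (n : ℕ), P γ → P (γ ^ n))
    (hconj : ∀ γ γ' i, P γ → D.ι γ' = D.δ i * D.ι γ * (D.δ i)⁻¹ → P γ')
    {χ : Additive Γ →+ A} (hχ : ∀ γ, P γ → χ (Additive.ofMul γ) = 0) {γ : Γ} (hγ : P γ) :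
    D.heckeAdd χ (Additive.ofMul γ) = 0 := by
  rw [heckeAdd_apply]
  apply sum_eq_zero_of_orbit_sums (D.perm γ)
  intro i
  rw [← D.map_kap_pow χ γ]
  apply hχ
  refine hconj (γ ^ _) _ i (hpow γ _ hγ) (D.kap_of_fixed ?_)
  rw [D.nxt_pow, Equiv.Perm.coe_pow]
  exact Function.isPeriodicPt_minimalPeriod _ i

end HSys

open ModularCurve.Period Matrix.SpecialLinearGroup in
/-- **`T_ℓ` preserves the parabolic classes** (arbitrary coefficients). -/
theorem heckeAdd_isParabolicHom' (N : ℕ) {ℓ : ℕ} (hℓ : ℓ.Prime) (hN : ¬ ℓ ∣ N)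
    {A : Type*} [AddCommGroup A] {χ : Additive ↥(Gamma0 N) →+ A}
    (hχ : IsParabolicHom (Gamma0 N) χ) :
    IsParabolicHom (Gamma0 N) ((hsys N hℓ hN).heckeAdd χ) := by
  intro γ hγ
  refine (hsys N hℓ hN).heckeAdd_eq_zero'
    (fun γ : ↥(Gamma0 N) => ((γ : SL(2, ℤ)) : Matrix (Fin 2) (Fin 2) ℤ).trace ^ 2 = 4)
    (fun γ n h => trace_sq_pow h n) (fun γ γ' i h h' => ?_) hχ hγ
  have e := trace_eq_of_conj (γ := (γ : SL(2, ℤ))) (γ' := (γ' : SL(2, ℤ))) h'
  show ((γ' : SL(2, ℤ)) : Matrix (Fin 2) (Fin 2) ℤ).trace ^ 2 = 4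
  rw [e]
  exact h

/-- `T_ℓ` preserves the classes which vanish on the elements of finite order. -/
theorem heckeAdd_eq_zero_of_finOrder (N : ℕ) {ℓ : ℕ} (hℓ : ℓ.Prime) (hN : ¬ ℓ ∣ N)
    {A : Type*} [AddCommGroup A] {χ : Additive ↥(Gamma0 N) →+ A}
    (hχ : ∀ γ : ↥(Gamma0 N), γ ^ 12 = 1 → χ (Additive.ofMul γ) = 0) (γ : ↥(Gamma0 N))
    (hγ : γ ^ 12 = 1) : (hsys N hℓ hN).heckeAdd χ (Additive.ofMul γ) = 0 := by
  refine (hsys N hℓ hN).heckeAdd_eq_zero' (fun γ : ↥(Gamma0 N) => γ ^ 12 = 1)
    (fun γ n h => by rw [← pow_mul, mul_comm, pow_mul, h, one_pow]) (fun γ γ' i h h' => ?_) hχ hγ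
  apply (hsys N hℓ hN).inj
  rw [map_pow, h', conj_pow, ← map_pow, h, map_one, mul_one, mul_inv_cancel]

end FAG
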