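import Fermat.Agent.Red.RFactsOf
import Fermat.Prelude.Def_AlgebraicCurve_Correspondence

/-!
# PROJECT G, [NF] part 1: finite extensions of function fields, `∑ e(w) = [F' : F]`
-/

set_option autoImplicit false

namespace FAG

open AlgebraicCurve IntermediateField Polynomial FA24 FAR

variable {K F F' : Type*} [Field K] [Field F] [Field F'] [Algebra K F] [Algebra K F']
  [Algebra F F'] [IsScalarTower K F F']

/-- the degree over `K(x)` is multiplicative in towers. -/
theorem finrank_adjoin_algebraMap (x : F) :
    Module.finrank K⟮algebraMap F F' x⟯ F' = Module.finrank K⟮x⟯ F * Module.finrank F F' := by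
  let f : F →ₐ[K] F' := IsScalarTower.toAlgHom K F F'
  have h1 : (K⟮x⟯).map f = K⟮algebraMap F F' x⟯ := by
    rw [IntermediateField.adjoin_map, Set.image_singleton]; rfl
  have hle : K⟮algebraMap F F' x⟯ ≤ f.fieldRange := by
    rw [← h1, AlgHom.fieldRange_eq_map]
    exact IntermediateField.map_mono _ le_top
  rw [← relfinrank_mul_finrank_top hle]
  congr 1
  · rw [← h1, AlgHom.fieldRange_eq_map, relfinrank_map_map, relfinrank_top_right]
  · refine (Algebra.finrank_eq_of_equiv_equiv (AlgEquiv.ofInjectiveField f).toRingEquiv
      (RingEquiv.refl F') ?_).symm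
    ext y
    rfl

theorem isFF_of_finite [Module.Finite F F'] (h : IsFF K F) : IsFF K F' := by
  obtain ⟨x, hx, hfin⟩ := h
  refine ⟨algebraMap F F' x, (transcendental_algebraMap_iff (algebraMap F F').injective).2 hx, ?_⟩
  apply Module.finite_of_finrank_pos
  rw [finrank_adjoin_algebraMap]
  exact Nat.mul_pos Module.finrank_pos Module.finrank_pos

/-- a morphism of function fields is finite. -/
theorem finite_of_isFF (h : IsFF K F) (h' : IsFF K F') : Module.Finite F F' := by
  obtain ⟨x, hx, -⟩ := h
  have hx' : Transcendental K (algebraMap F F' x) :=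
    (transcendental_algebraMap_iff (algebraMap F F').injective).2 hx
  have hfin := finDim_of_transcendental h' _ hx'
  let f : F →ₐ[K] F' := IsScalarTower.toAlgHom K F F'
  have hle : K⟮algebraMap F F' x⟯ ≤ f.fieldRange := by
    rw [adjoin_simple_le_iff]
    exact ⟨x, rfl⟩
  have h2 : 0 < Module.finrank f.fieldRange F' := by
    have h3 := relfinrank_mul_finrank_top hle
    have h4 : 0 < Module.finrank K⟮algebraMap F F' x⟯ F' := Module.finrank_pos
    rw [← h3] at h4
    exact Nat.pos_of_mul_pos_left h4
  have h5 : Module.finrank F F' = Module.finrank f.fieldRange F' := by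
    refine Algebra.finrank_eq_of_equiv_equiv (AlgEquiv.ofInjectiveField f).toRingEquiv
      (RingEquiv.refl F') ?_
    ext y
    rfl
  exact Module.finite_of_finrank_pos (h5 ▸ h2)

variable [IsAlgClosed K]

/-- Riemann: a nonconstant function whose only pole is `v`. -/
theorem exists_pole_only (h : IsFF K F) (v : Place K F) :
    ∃ x : F, Transcendental K x ∧ v.ord x < 0 ∧ ∀ w : Place K F, w ≠ v → 0 ≤ w.ord x := by
  classical
  set A : Divisor K F := Finsupp.single v ((gR h : ℤ) + 1) with hA
  have h1 := riemann_ineq h A
  rw [hA, degree_single' h] at h1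
  rw [← hA] at h1
  have h2 : 2 ≤ ell A := by omega
  have hfd := L_finiteDimensional h A
  have hex : ∃ x ∈ riemannRochSpace A, x ∉ Set.range (algebraMap K F) := by
    by_contra hcon
    push Not at hcon
    have hle : riemannRochSpace A ≤ riemannRochSpace (0 : Divisor K F) := fun x hx =>
      (mem_L_zero_iff h).2 (hcon x hx)
    have := L_finiteDimensional h (0 : Divisor K F)
    have h3 := Submodule.finrank_mono hle
    have h4 := ell_zero h
    rw [ell] at h2 h4
    omega
  obtain ⟨x, hxA, hxK⟩ := hex
  have hx0 : x ≠ 0 := by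
    rintro rfl
    exact hxK ⟨0, map_zero _⟩
  rw [mem_L_iff] at hxA
  have hw : ∀ w : Place K F, w ≠ v → 0 ≤ w.ord x := by
    intro w hwv
    have := (hxA w).le hx0
    rw [hA, Finsupp.single_apply, if_neg (Ne.symm hwv)] at this
    simpa using this
  refine ⟨x, FAFF.transcendental_of_notMem_range hxK, ?_, hw⟩
  by_contra hcon
  push Not at hcon
  apply hxK
  apply mem_range_of_ord_eq_zero h
  intro w
  by_cases hwv : w = v
  · rw [hwv]; exact hcon
  · exact hw w hwv

variable [Module.Finite F F'] [HasPrincipalDivisors K F']

/-- **NF1**: `∑_{w ∣ v} e(w) = [F' : F]`. -/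
theorem sum_ramificationIndex (h : IsFF K F) (v : Place K F) :
    ∑ w ∈ v.fiber F', (w.ramificationIndex F : ℤ) = (Module.finrank F F' : ℤ) := by
  classical
  have h' : IsFF K F' := isFF_of_finite h
  obtain ⟨x, hx, hxv, hxw⟩ := exists_pole_only h v
  have hx' : Transcendental K (algebraMap F F' x) :=
    (transcendental_algebraMap_iff (algebraMap F F').injective).2 hx
  set m : ℤ := -v.ord x with hm
  have hm0 : 0 < m := by omega
  -- downstairs
  have h1 : poleDiv h x = Finsupp.single v m := by
    ext w
    rw [poleDiv_apply, Finsupp.single_apply]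
    split_ifs with hwv
    · rw [← hwv]; omega
    · have := hxw w (Ne.symm hwv); omega
  have h2 : (Module.finrank K⟮x⟯ F : ℤ) = m := by
    rw [← degree_poleDiv h x hx, h1, degree_single' h]
  -- upstairs
  have h3 : ∀ w : Place K F', poleDiv h' (algebraMap F F' x) w =
      if w ∈ v.fiber F' then (w.ramificationIndex F : ℤ) * m else 0 := by
    intro w
    rw [poleDiv_apply, w.ord_restrict]
    have he : 0 < (w.ramificationIndex F : ℤ) := by
      exact_mod_cast w.ramificationIndex_pos (F := F)
    split_ifs with hw
    · rw [Place.mem_fiber] at hw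
      rw [hw]
      have : 0 < (w.ramificationIndex F : ℤ) * m := mul_pos he hm0
      rw [hm] at this ⊢
      rw [max_eq_left (by linarith)]
      ring
    · rw [Place.mem_fiber] at hw
      have := hxw _ hw
      have h4 : 0 ≤ (w.ramificationIndex F : ℤ) * (w.restrict F).ord x := mul_nonneg he.le this
      rw [max_eq_right (by linarith)]
  have h4 : (poleDiv h' (algebraMap F F' x)).support ⊆ v.fiber F' := by
    intro w hw
    rw [Finsupp.mem_support_iff, h3] at hw
    by_contra hcon
    exact hw (if_neg hcon)
  have h5 := degree_poleDiv h' _ hx'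
  rw [degree_eq_sum_of_subset' h' _ _ h4, finrank_adjoin_algebraMap] at h5
  have h6 : ∑ w ∈ v.fiber F', poleDiv h' (algebraMap F F' x) w =
      (∑ w ∈ v.fiber F', (w.ramificationIndex F : ℤ)) * m := by
    rw [Finset.sum_mul]
    exact Finset.sum_congr rfl fun w hw => by rw [h3, if_pos hw]
  rw [h6] at h5
  push_cast at h5
  rw [h2, mul_comm m] at h5
  exact mul_right_cancel₀ hm0.ne' h5

theorem fundamentalIdentity_of_isFF (h : IsFF K F) : FundamentalIdentity K F F' where
  sum_ramificationIndex_mul_deg v := by
    have h' : IsFF K F' := isFF_of_finite h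
    rw [place_deg h v, ← sum_ramificationIndex h v]
    simp only [Nat.cast_one, mul_one]
    exact Finset.sum_congr rfl fun w _ => by rw [place_deg h' w]; simp

omit [HasPrincipalDivisors K F'] in
theorem inertiaDeg_eq_one (h : IsFF K F) (w : Place K F') : w.inertiaDeg F = 1 := by
  have h' : IsFF K F' := isFF_of_finite h
  have h1 := w.deg_restrict_mul_inertiaDeg (F := F)
  rw [place_deg h, place_deg h' w, one_mul] at h1
  exact h1

end FAG
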