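import Fermat.Agent.Gal.NF1
import Fermat.Agent.Red.NSTrace

/-!
# PROJECT G, [NF] part 2: the norm of a function regular (vanishing) on a fibre
-/

set_option autoImplicit false

namespace FAG

open AlgebraicCurve IntermediateField Polynomial FA24 FAR

section Dom

variable {K F' Ω : Type*} [Field K] [Field F'] [Algebra K F'] [Field Ω]

/-- a valuation ring of `Ω` dominating the image of the local ring of `w0`. -/
theorem exists_dominating (w0 : Place K F') (σ0 : F' →+* Ω) :
    ∃ W : ValuationSubring Ω, ∀ y : F',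
      (OrdGE w0 y 0 → σ0 y ∈ W) ∧ (OrdGE w0 y 1 → σ0 y ∈ W.nonunits) := by
  obtain ⟨W, hW, hloc⟩ := IsLocalRing.exists_factor_valuationRing
    (σ0.comp w0.toValuationSubring.subtype)
  have h0 : ∀ y : F', OrdGE w0 y 0 → σ0 y ∈ W := by
    rintro y (rfl | hy)
    · rw [map_zero]; exact W.zero_mem
    · rcases eq_or_ne y 0 with rfl | hy0
      · rw [map_zero]; exact W.zero_mem
      · exact hW ⟨y, (FAFF.mem_iff_ord_nonneg _ hy0).2 hy⟩
  refine ⟨W, fun y => ⟨h0 y, ?_⟩⟩
  rintro (rfl | hy)
  · rw [map_zero, ValuationSubring.mem_nonunits_iff, map_zero]; exact zero_lt_one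
  · have hy0 : y ≠ 0 := by
      rintro rfl
      simp at hy
    have hmem : y ∈ w0.toValuationSubring := (FAFF.mem_iff_ord_nonneg _ hy0).2 (by omega)
    have hW1 : σ0 y ∈ W := hW ⟨y, hmem⟩
    rw [ValuationSubring.mem_nonunits_iff]
    refine lt_of_le_of_ne ((W.valuation_le_one_iff _).2 hW1) ?_
    intro h1
    have h2 : IsUnit (⟨σ0 y, hW1⟩ : W) := (W.valuation_eq_one_iff ⟨σ0 y, hW1⟩).2 h1
    have h3 : IsUnit (⟨y, hmem⟩ : w0.toValuationSubring) := hloc.map_nonunit ⟨y, hmem⟩ h2
    have h4 := w0.ord_coe_unit h3.unit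
    rw [IsUnit.unit_spec] at h4
    have h5 : w0.ord y = 0 := h4
    omega

theorem mul_mem_nonunits (W : ValuationSubring Ω) {a b : Ω} (ha : a ∈ W.nonunits) (hb : b ∈ W) :
    a * b ∈ W.nonunits := by
  rw [ValuationSubring.mem_nonunits_iff] at ha ⊢
  rw [map_mul]
  exact mul_lt_of_lt_of_le_one ha ((W.valuation_le_one_iff _).2 hb)

end Dom

variable {K F F' : Type*} [Field K] [Field F] [Field F'] [Algebra K F] [Algebra K F']
  [Algebra F F'] [IsScalarTower K F F'] [IsAlgClosed K] [Module.Finite F F']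

theorem exists_fibre_val (h : IsFF K F) (w0 : Place K F') :
    ∃ W : ValuationSubring (AlgebraicClosure F'),
      (∀ y : F', OrdGE w0 y 1 → algebraMap F' (AlgebraicClosure F') y ∈ W.nonunits) ∧
      (∀ σ : F' →ₐ[F] AlgebraicClosure F', ∃ P : Place K F', P.restrict F = w0.restrict F ∧
        ∀ y : F', OrdGE P y 0 → σ y ∈ W) ∧
      (∀ r : F, (algebraMap F (AlgebraicClosure F') r ∈ W → OrdGE (w0.restrict F) r 0) ∧
        (algebraMap F (AlgebraicClosure F') r ∈ W.nonunits → OrdGE (w0.restrict F) r 1)) := by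
  have h' : IsFF K F' := isFF_of_finite h
  set Ω := AlgebraicClosure F' with hΩ
  set v := w0.restrict F with hv
  obtain ⟨W, hW⟩ := exists_dominating w0 (algebraMap F' Ω)
  have he : 0 < (w0.ramificationIndex F : ℤ) := by
    exact_mod_cast w0.ramificationIndex_pos (F := F)
  have hmap : ∀ r : F, algebraMap F Ω r = algebraMap F' Ω (algebraMap F F' r) := fun r =>
    IsScalarTower.algebraMap_apply F F' Ω r
  -- membership in `W` of elements of `F`
  have hle : ∀ r : F, 0 ≤ v.ord r → algebraMap F Ω r ∈ W := by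
    intro r hr
    rw [hmap]
    refine (hW _).1 (Or.inr ?_)
    rw [w0.ord_restrict]
    exact mul_nonneg he.le hr
  have hlt : ∀ r : F, 0 < v.ord r → algebraMap F Ω r ∈ W.nonunits := by
    intro r hr
    rw [hmap]
    refine (hW _).2 (Or.inr ?_)
    rw [w0.ord_restrict]
    have := mul_pos he hr
    rw [← hv]
    omega
  have hge : ∀ r : F, r ≠ 0 → algebraMap F Ω r ∈ W → 0 ≤ v.ord r := by
    intro r hr0 hr
    by_contra hcon
    push Not at hcon
    have h1 := hlt r⁻¹ (by rw [v.ord_inv]; omega)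
    have hr0' : algebraMap F Ω r⁻¹ ≠ 0 := (_root_.map_ne_zero _).2 (inv_ne_zero hr0)
    rw [ValuationSubring.mem_nonunits_iff, val_lt_one_iff_inv_notMem W hr0', map_inv₀,
      inv_inv] at h1
    exact h1 hr
  have hgt : ∀ r : F, r ≠ 0 → algebraMap F Ω r ∈ W.nonunits → 0 < v.ord r := by
    intro r hr0 hr
    by_contra hcon
    push Not at hcon
    have h1 := hle r⁻¹ (by rw [v.ord_inv]; omega)
    have hr0' : algebraMap F Ω r ≠ 0 := (_root_.map_ne_zero _).2 hr0
    rw [ValuationSubring.mem_nonunits_iff, val_lt_one_iff_inv_notMem W hr0', ← map_inv₀] at hr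
    exact hr h1
  refine ⟨W, fun y => (hW y).2, ?_, ?_⟩
  · intro σ
    let B : ValuationSubring F' := W.comap (σ : F' →+* Ω)
    have hmem : ∀ y : F', y ∈ B ↔ σ y ∈ W := fun y => Iff.rfl
    have hK : ∀ a : K, algebraMap K F' a ∈ B := by
      intro a
      rw [hmem, IsScalarTower.algebraMap_apply K F F', σ.commutes]
      exact hle _ (FAFF.ord_algebraMap v a).ge
    obtain ⟨t, ht0, ht⟩ := exists_uniformizer v
    have hB : B ≠ ⊤ := by
      intro htop
      have h1 : algebraMap F F' t⁻¹ ∈ B := htop ▸ ValuationSubring.mem_top _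
      rw [hmem, σ.commutes] at h1
      have h2 := hge _ (inv_ne_zero ht0) h1
      rw [v.ord_inv] at h2
      omega
    refine ⟨placeOfValuationSubring h' B hK hB, ?_, ?_⟩
    · apply Place.ext
      ext r
      rw [Place.mem_restrict_iff]
      show algebraMap F F' r ∈ B ↔ _
      rw [hmem, σ.commutes]
      rcases eq_or_ne r 0 with rfl | hr0
      · simp only [map_zero]
        exact ⟨fun _ => zero_mem _, fun _ => zero_mem _⟩
      · rw [FAFF.mem_iff_ord_nonneg _ hr0]
        exact ⟨hge r hr0, hle r⟩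
    · rintro y (rfl | hy)
      · rw [map_zero]; exact W.zero_mem
      · rcases eq_or_ne y 0 with rfl | hy0
        · rw [map_zero]; exact W.zero_mem
        · exact (hmem y).1 ((FAFF.mem_iff_ord_nonneg _ hy0).2 hy)
  · intro r
    rcases eq_or_ne r 0 with rfl | hr0
    · exact ⟨fun _ => OrdGE.zero _ _, fun _ => OrdGE.zero _ _⟩
    · exact ⟨fun hr => Or.inr (hge r hr0 hr), fun hr => Or.inr (by have := hgt r hr0 hr; omega)⟩

variable [Algebra.IsSeparable F F']

/-- the norm of a function regular on the fibre of `w0`, is regular. -/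
theorem norm_ordGE_zero (h : IsFF K F) (w0 : Place K F') (f : F')
    (hf : ∀ P : Place K F', P.restrict F = w0.restrict F → OrdGE P f 0) :
    OrdGE (w0.restrict F) (Algebra.norm F f) 0 := by
  obtain ⟨W, -, h2, h3⟩ := exists_fibre_val h w0
  refine (h3 _).1 ?_
  rw [Algebra.norm_eq_prod_embeddings F (AlgebraicClosure F')]
  refine prod_mem fun σ _ => ?_
  obtain ⟨P, hP, hPy⟩ := h2 σ
  exact hPy f (hf P hP)

/-- the norm of a function regular on the fibre of `w0` and vanishing at `w0`, vanishes. -/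
theorem norm_ordGE_one (h : IsFF K F) (w0 : Place K F') (f : F')
    (hf : ∀ P : Place K F', P.restrict F = w0.restrict F → OrdGE P f 0) (hf0 : OrdGE w0 f 1) :
    OrdGE (w0.restrict F) (Algebra.norm F f) 1 := by
  classical
  obtain ⟨W, h1, h2, h3⟩ := exists_fibre_val h w0
  refine (h3 _).2 ?_
  rw [Algebra.norm_eq_prod_embeddings F (AlgebraicClosure F'),
    ← Finset.mul_prod_erase Finset.univ _
      (Finset.mem_univ (IsScalarTower.toAlgHom F F' (AlgebraicClosure F')))]
  refine mul_mem_nonunits W (h1 f hf0) (prod_mem fun σ _ => ?_)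
  obtain ⟨P, hP, hPy⟩ := h2 σ
  exact hPy f (hf P hP)

end FAG
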