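import Fermat.Agent.Gal.NF2

/-!
# PROJECT G, [NF] part 3: `ord_v (N f) = ∑_{w ∣ v} ord_w f`
-/

set_option autoImplicit false

namespace FAG

open AlgebraicCurve IntermediateField FA24 FAR

section Gen

variable {K F : Type*} [Field K] [Field F] [Algebra K F]

theorem ord_finset_prod (v : Place K F) {ι : Type*} (s : Finset ι) (g : ι → F)
    (hg : ∀ i ∈ s, g i ≠ 0) : v.ord (∏ i ∈ s, g i) = ∑ i ∈ s, v.ord (g i) := by
  classical
  induction s using Finset.induction_on with
  | empty => simp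
  | insert a s ha ih =>
    rw [Finset.prod_insert ha, Finset.sum_insert ha,
      v.ord_mul (hg a (Finset.mem_insert_self a s))
        (Finset.prod_ne_zero_iff.2 fun i hi => hg i (Finset.mem_insert_of_mem hi)),
      ih fun i hi => hg i (Finset.mem_insert_of_mem hi)]

/-- a function with a simple zero at `w`, and neither zero nor pole on the rest of `s`. -/
theorem exists_dual (s : Finset (Place K F)) (w : Place K F) (hw : w ∈ s) :
    ∃ t : F, t ≠ 0 ∧ w.ord t = 1 ∧ ∀ w' ∈ s, w' ≠ w → w'.ord t = 0 := by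
  classical
  obtain ⟨π, hπ0, hπ⟩ := exists_uniformizer w
  obtain ⟨z, hz⟩ := weak_approximation s (fun P => if P = w then π else 1) 2
  have h1 := hz w hw
  simp only [if_true] at h1
  have h2 := ord_add_of_ordGE hπ0 (g := z - π) (by rw [hπ]; exact h1)
  rw [add_sub_cancel] at h2
  refine ⟨z, h2.1, h2.2.trans hπ, fun w' hw' hne => ?_⟩
  have h3 := hz w' hw'
  simp only [if_neg hne] at h3
  have h4 := ord_add_of_ordGE (v := w') one_ne_zero (g := z - 1)
    (by rw [w'.ord_one]; exact h3.mono (by norm_num))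
  rw [add_sub_cancel] at h4
  rw [h4.2, w'.ord_one]

end Gen

variable {K F F' : Type*} [Field K] [Field F] [Field F'] [Algebra K F] [Algebra K F']
  [Algebra F F'] [IsScalarTower K F F'] [IsAlgClosed K] [Module.Finite F F']
  [Algebra.IsSeparable F F'] [HasPrincipalDivisors K F']

/-- **NF2**: `ord_v (N f) = ∑_{w ∣ v} ord_w f`. -/
theorem ord_norm (h : IsFF K F) (v : Place K F) (f : F') (hf : f ≠ 0) :
    v.ord (Algebra.norm F f) = ∑ w ∈ v.fiber F', w.ord f := by
  classical
  set s := v.fiber F' with hs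
  have hmem : ∀ w : Place K F', w ∈ s ↔ w.restrict F = v := fun w => Place.mem_fiber
  have hn : 0 < (Module.finrank F F' : ℤ) := by exact_mod_cast Module.finrank_pos
  have hsum := sum_ramificationIndex (F' := F') h v
  rw [← hs] at hsum
  obtain ⟨w0, hw0⟩ : s.Nonempty := by
    rw [Finset.nonempty_iff_ne_empty]
    intro hempty
    rw [hempty, Finset.sum_empty] at hsum
    omega
  have hN0 : ∀ g : F', g ≠ 0 → Algebra.norm F g ≠ 0 := fun g hg => Algebra.norm_ne_zero_iff.2 hg
  -- regular on the fibre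
  have hreg : ∀ g : F', g ≠ 0 → (∀ w ∈ s, 0 ≤ w.ord g) → 0 ≤ v.ord (Algebra.norm F g) := by
    intro g hg hgs
    have h1 := norm_ordGE_zero h w0 g (fun P hP => Or.inr (hgs P ((hmem P).2
      (hP.trans ((hmem w0).1 hw0)))))
    rw [(hmem w0).1 hw0] at h1
    exact h1.le (hN0 g hg)
  -- units on the fibre
  have hunit : ∀ g : F', g ≠ 0 → (∀ w ∈ s, w.ord g = 0) → v.ord (Algebra.norm F g) = 0 := by
    intro g hg hgs
    have h1 := hreg g hg fun w hw => (hgs w hw).ge
    have h2 := hreg g⁻¹ (inv_ne_zero hg) fun w hw => by rw [w.ord_inv, hgs w hw]; simp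
    rw [Algebra.norm_inv, v.ord_inv] at h2
    omega
  -- dual functions
  have hex : ∀ w : Place K F', ∃ t : F', t ≠ 0 ∧
      (w ∈ s → w.ord t = 1 ∧ ∀ w' ∈ s, w' ≠ w → w'.ord t = 0) := by
    intro w
    by_cases hw : w ∈ s
    · obtain ⟨t, ht0, ht1, ht2⟩ := exists_dual s w hw
      exact ⟨t, ht0, fun _ => ⟨ht1, ht2⟩⟩
    · exact ⟨1, one_ne_zero, fun hw' => absurd hw' hw⟩
  choose t ht0 ht using hex
  set c : Place K F' → ℤ := fun w => v.ord (Algebra.norm F (t w)) with hc
  have hc1 : ∀ w ∈ s, 1 ≤ c w := by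
    intro w hw
    have h1 := norm_ordGE_one h w (t w) (fun P hP => Or.inr ?_) (Or.inr (ht w hw).1.ge)
    · rw [(hmem w).1 hw] at h1
      exact h1.le (hN0 _ (ht0 w))
    · have hP' : P ∈ s := (hmem P).2 (hP.trans ((hmem w).1 hw))
      by_cases hPw : P = w
      · rw [hPw, (ht w hw).1]; norm_num
      · rw [(ht w hw).2 P hP' hPw]
  -- the general formula
  have hgen : ∀ g : F', g ≠ 0 → v.ord (Algebra.norm F g) = ∑ w ∈ s, w.ord g * c w := by
    intro g hg
    have hz : ∀ w ∈ s, t w ^ (-(w.ord g)) ≠ 0 := fun w _ => zpow_ne_zero _ (ht0 w)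
    have hp0 : ∏ w ∈ s, t w ^ (-(w.ord g)) ≠ 0 := Finset.prod_ne_zero_iff.2 hz
    have h1 := hunit (g * ∏ w ∈ s, t w ^ (-(w.ord g))) (mul_ne_zero hg hp0) (by
      intro w' hw'
      rw [w'.ord_mul hg hp0, ord_finset_prod w' s _ hz, Finset.sum_eq_single w']
      · rw [w'.ord_zpow, (ht w' hw').1]; ring
      · intro w hw hne
        rw [w'.ord_zpow, (ht w hw).2 w' hw' (Ne.symm hne), mul_zero]
      · intro hcon; exact absurd hw' hcon)
    rw [map_mul, map_prod, v.ord_mul (hN0 g hg)
      (Finset.prod_ne_zero_iff.2 fun w hw => hN0 _ (hz w hw)),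
      ord_finset_prod v s _ (fun w hw => hN0 _ (hz w hw))] at h1
    have h2 : ∑ w ∈ s, v.ord (Algebra.norm F (t w ^ (-(w.ord g)))) = -∑ w ∈ s, w.ord g * c w := by
      rw [← Finset.sum_neg_distrib]
      refine Finset.sum_congr rfl fun w _ => ?_
      rw [Algebra.norm_zpow, v.ord_zpow, hc]
      ring
    rw [h2] at h1
    omega
  -- the uniformizer
  obtain ⟨π, hπ0, hπ⟩ := exists_uniformizer v
  have h3 := hgen (algebraMap F F' π) ((_root_.map_ne_zero _).2 hπ0)
  rw [Algebra.norm_algebraMap, FAR.ord_pow, hπ, mul_one, ← hsum] at h3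
  have h4 : ∑ w ∈ s, (w.ramificationIndex F : ℤ) * (c w - 1) = 0 := by
    have h5 : ∑ w ∈ s, (w.ramificationIndex F : ℤ) * (c w - 1) =
        ∑ w ∈ s, w.ord (algebraMap F F' π) * c w - ∑ w ∈ s, (w.ramificationIndex F : ℤ) := by
      rw [← Finset.sum_sub_distrib]
      refine Finset.sum_congr rfl fun w hw => ?_
      rw [w.ord_restrict, (hmem w).1 hw, hπ]
      ring
    rw [h5, ← h3, sub_self]
  have h6 := (Finset.sum_eq_zero_iff_of_nonneg (fun w hw => mul_nonneg (Int.natCast_nonneg _)
    (by have := hc1 w hw; omega))).1 h4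
  have hc2 : ∀ w ∈ s, c w = 1 := by
    intro w hw
    have h7 := h6 w hw
    have he : (w.ramificationIndex F : ℤ) ≠ 0 := by
      exact_mod_cast (w.ramificationIndex_pos (F := F)).ne'
    have h8 := (mul_eq_zero.1 h7).resolve_left he
    omega
  rw [hgen f hf]
  exact Finset.sum_congr rfl fun w hw => by rw [hc2 w hw, mul_one]

omit [HasPrincipalDivisors K F'] in
theorem pushforwardNormFormula_of_isFF (h : IsFF K F) :
    Divisor.PushforwardNormFormula K F F' := by
  classical
  intro f hf D hD v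
  have h' : IsFF K F' := isFF_of_finite h
  have := hasPrincipalDivisors' h'
  rw [Divisor.pushforward_apply, ord_norm h v f hf, ← Finset.sum_filter]
  have hsub : D.support.filter (fun w => w.restrict F = v) ⊆ v.fiber F' := by
    intro w hw
    rw [Finset.mem_filter] at hw
    exact Place.mem_fiber.2 hw.2
  rw [← Finset.sum_subset hsub]
  · exact Finset.sum_congr rfl fun w _ => by rw [inertiaDeg_eq_one h w, hD w]; simp
  · intro w hw hw'
    rw [Finset.mem_filter, not_and] at hw'
    by_contra hne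
    exact hw' (by rw [Finsupp.mem_support_iff, hD w]; exact hne) (Place.mem_fiber.1 hw)

end FAG
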