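import Fermat.Agent.X0Genus.Count

/-! Project G, package [PORT], part 3: the sharp form of the counting lemma. -/

set_option autoImplicit false

open AlgebraicCurve IntermediateField IsDedekindDomain FA24
open scoped LaurentSeries

namespace FAGP

variable {K F : Type*} [Field K] [IsAlgClosed K] [CharZero K] [Field F] [Algebra K F]

/-- sharp form of `FA24.count_places`: the branch at a place, with the exact multiplier. -/
theorem count_places_sharp (y : F) (hy : Transcendental K y) [FiniteDimensional K⟮y⟯ F]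
    {X : Type} [Fintype X] (hX : Fintype.card X = Module.finrank K⟮y⟯ F)
    (φ : X → F →+* LaurentSeries ℂ) (hφinj : Function.Injective φ)
    (ι : K →+* ℂ) (hφK : ∀ k a, φ k (algebraMap K F a) = HahnSeries.C (ι a))
    (hφy : ∀ k k', φ k y = φ k' y)
    (S₀ : ℕ) (hS₀ : 0 < S₀) (hy0 : ∀ k, (φ k y).order = S₀)
    (r : Setoid X) (hr1 : ∀ k k', r k k' → ∀ f, (φ k f).order = (φ k' f).order)
    (hr2 : ∀ k f, f ≠ 0 → (S₀ : ℤ) ∣ (Nat.card {k' // r k' k} : ℤ) * (φ k f).order) :
    ∀ v : Place K F, 0 < v.ord y → ∃ k : X, ∀ f, f ≠ 0 →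
      (Nat.card {k' // r k' k} : ℤ) * (φ k f).order = S₀ * v.ord f := by
  classical
  have hFF : IsFF K F := ⟨y, hy, inferInstance⟩
  have hyne : y ≠ 0 := by
    rintro rfl
    exact hy (by simpa using (isAlgebraic_zero : IsAlgebraic K (0 : F)))
  choose vv cc hcc hvv using fun k => exists_place_of_branch (φ k) ι (hφK k) y
    (by rw [hy0 k]; exact_mod_cast hS₀)
  have hS : ∀ k, (S₀ : ℤ) = cc k * (vv k).ord y := fun k => by rw [← hvv k y hyne, hy0 k]
  have hvy : ∀ k, 0 < (vv k).ord y := by
    intro k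
    have h1 : (0 : ℤ) < cc k * (vv k).ord y := by rw [← hS k]; exact_mod_cast hS₀
    exact (pos_iff_pos_of_mul_pos h1).1 (hcc k)
  have hsurj := exists_branch_place y hy hX φ hφinj ι hφK hφy vv cc hcc hvv hvy
  -- the counting
  have hfin := finite_zeros hFF y hy
  haveI : Fintype {v : Place K F | 0 < v.ord y} := hfin.fintype
  have hrel : ∀ k k', r k k' → vv k = vv k' := by
    intro k k' hkk
    apply FAFF.place_ext
    intro f hf h0
    have h1 := hr1 k k' hkk f
    rw [hvv k f hf, hvv k' f hf] at h1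
    have h2 : 0 ≤ cc k' * (vv k').ord f := by
      rw [← h1]; exact mul_nonneg (hcc k).le h0
    exact nonneg_of_mul_nonneg_right h2 (hcc k')
  let g : Quotient r → {v : Place K F | 0 < v.ord y} :=
    Quotient.lift (fun k => (⟨vv k, hvy k⟩ : {v : Place K F | 0 < v.ord y}))
      (fun k k' h => Subtype.ext (hrel k k' h))
  have hg : Function.Surjective g := by
    rintro ⟨v, hv⟩
    obtain ⟨k, hk⟩ := hsurj v hv
    exact ⟨Quotient.mk r k, Subtype.ext hk⟩
  let s : Quotient r → ℤ := fun q => (Nat.card {k' // Quotient.mk r k' = q} : ℤ)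
  have hsmk : ∀ k, s (Quotient.mk r k) = (Nat.card {k' // r k' k} : ℤ) := by
    intro k
    show ((Nat.card {k' // Quotient.mk r k' = Quotient.mk r k} : ℕ) : ℤ) = _
    congr 1
    exact Nat.card_congr (Equiv.subtypeEquivRight fun k' => Quotient.eq)
  have hspos : ∀ q, 0 < s q := by
    intro q
    induction q using Quotient.inductionOn with
    | h k =>
      have : Nonempty {k' // Quotient.mk r k' = Quotient.mk r k} := ⟨⟨k, rfl⟩⟩
      show (0 : ℤ) < ((Nat.card {k' // Quotient.mk r k' = Quotient.mk r k} : ℕ) : ℤ)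
      exact_mod_cast Nat.card_pos
  have hle : ∀ q, ((g q : Place K F)).ord y ≤ s q := by
    intro q
    induction q using Quotient.inductionOn with
    | h k =>
      show (vv k).ord y ≤ s (Quotient.mk r k)
      obtain ⟨π, hπ⟩ := FAFF.exists_irreducible (vv k)
      have hπ0 := FAFF.coe_ne_zero_of_irreducible (vv k) hπ
      have h1 := hr2 k π hπ0
      rw [hvv k _ hπ0, (vv k).ord_coe_irreducible hπ, mul_one, hS k, ← hsmk, mul_comm] at h1
      have h2 : (vv k).ord y ∣ s (Quotient.mk r k) :=
        (mul_dvd_mul_iff_right (hcc k).ne').1 h1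
      exact Int.le_of_dvd (hspos _) h2
  have hsum : ∑ z : {v : Place K F | 0 < v.ord y}, (z : Place K F).ord y = ∑ q, s q := by
    have h1 := sum_zeros hFF y hy
    have h2 : ∑ z : {v : Place K F | 0 < v.ord y}, (z : Place K F).ord y
        = ∑ v ∈ (finite_zeros hFF y hy).toFinset, v.ord y := by
      rw [Finset.sum_set_coe (f := fun v : Place K F => v.ord y) {v : Place K F | 0 < v.ord y}]
      refine Finset.sum_congr ?_ fun _ _ => rfl
      ext v
      simp
    rw [h2, h1, ← hX]
    have h3 : Fintype.card X = ∑ q : Quotient r, Nat.card {k' // Quotient.mk r k' = q} := by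
      rw [← Fintype.card_congr (Equiv.sigmaFiberEquiv (Quotient.mk r)), Fintype.card_sigma]
      simp [Nat.card_eq_fintype_card]
    rw [h3]
    push_cast
    rfl
  have hinj := injective_of_sum_eq g hg (fun z => (z : Place K F).ord y) s hspos hle hsum
  have hsum2 : ∑ q, ((g q : Place K F)).ord y = ∑ q, s q := by
    rw [← hsum]
    exact Fintype.sum_bijective g ⟨hinj, hg⟩ _ _ (fun _ => rfl)
  have heq : ∀ q, ((g q : Place K F)).ord y = s q := by
    have := (Finset.sum_eq_sum_iff_of_le (s := Finset.univ) (fun q _ => hle q)).1 hsum2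
    exact fun q => this q (Finset.mem_univ q)
  intro v hv
  obtain ⟨k, rfl⟩ := hsurj v hv
  refine ⟨k, fun f hf => ?_⟩
  have h1 : (vv k).ord y = (Nat.card {k' // r k' k} : ℤ) := by
    rw [← hsmk]
    exact heq (Quotient.mk r k)
  rw [hvv k f hf, hS k, h1]
  ring

end FAGP
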