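import Fermat.Agent.Gal.PortDeg
import Fermat.Agent.Gal.PortCount
import Fermat.Agent.X0Genus.BrPts

/-! Project G, package [PORT], part 4: the places of `K(X₀(N))` and their branches, sharp form
(generalisation of `X0Genus/BrGen, BrEll, BrPts`). -/

set_option autoImplicit false

open Polynomial IntermediateField AlgebraicCurve UpperHalfPlane FA24
open scoped MatrixGroups

namespace FAGP

variable {K : Type} [Field K] [Algebra ℚ K] [CEmb K] {N : ℕ} [NeZero N]

lemma order_br (e : Expn N) (k : XN N) {f : FN K N} {g h : RN N} (hf : f ≠ 0) (hh : h ≠ 0)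
    (hr : Theta f * algebraMap (RN N) (FR N) h = algebraMap (RN N) (FR N) g) :
    (br e k f).order = (brR e k g).order - (brR e k h).order := by
  have h1 := br_mul_eq e k hr
  have hf' : br e k f ≠ 0 := (_root_.map_ne_zero _).mpr hf
  have hh' : brR e k h ≠ 0 := (map_ne_zero_iff _ (brR_injective e k)).mpr hh
  rw [← h1, HahnSeries.order_mul hf' hh']
  ring

lemma rep_num_ne_zero {f : FN K N} {g h : RN N} (hf : f ≠ 0) (hh : h ≠ 0)
    (hr : Theta f * algebraMap (RN N) (FR N) h = algebraMap (RN N) (FR N) g) : g ≠ 0 := by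
  rintro rfl
  rw [map_zero] at hr
  rcases mul_eq_zero.mp hr with h0 | h0
  · exact hf ((map_eq_zero _).mp h0)
  · exact hh ((map_eq_zero_iff _ (IsFractionRing.injective (RN N) (FR N))).mp h0)

lemma order_br_smul (e : Expn N) (s : SL(2, ℤ))
    (H2 : ∀ G : MN N, (e.ε (sig s G)).order = (e.ε G).order) (k : XN N) (f : FN K N) :
    (br e (s • k) f).order = (br e k f).order := by
  by_cases hf : f = 0
  · simp [hf]
  obtain ⟨g, h, hh, hr⟩ := exists_rep f
  rw [order_br e _ hf hh hr, order_br e _ hf hh hr, brR_apply, brR_apply, brR_apply, brR_apply,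
    ← sig_trnM, ← sig_trnM, H2, H2]

lemma order_br_of_rel (e : Expn N) (s : SL(2, ℤ))
    (H2 : ∀ G : MN N, (e.ε (sig s G)).order = (e.ε G).order) (k k' : XN N)
    (hk : MulAction.orbitRel (Subgroup.zpowers s) (XN N) k k') (f : FN K N) :
    (br e k f).order = (br e k' f).order := by
  let H : Subgroup SL(2, ℤ) :=
    { carrier := {z | ∀ (k : XN N) (f : FN K N), (br e (z • k) f).order = (br e k f).order}
      mul_mem' := fun {a b} ha hb k f => by rw [mul_smul, ha, hb]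
      one_mem' := fun k f => by rw [one_smul]
      inv_mem' := fun {a} ha k f => by
        have := ha (a⁻¹ • k) f
        rw [smul_inv_smul] at this
        exact this.symm }
  have hs : Subgroup.zpowers s ≤ H := by
    rw [Subgroup.zpowers_le]
    exact order_br_smul e s H2
  obtain ⟨⟨z, hz⟩, rfl⟩ := hk
  exact hs hz k' f

variable [IsAlgClosed K] [CharZero K]

theorem count_general (e : Expn N) (s : SL(2, ℤ)) (S₀ : ℕ) (hS₀ : 0 < S₀)
    (y : FN K N) (hy : Transcendental K y) (hadj : K⟮y⟯ = K⟮xN K N⟯)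
    (hyk : ∀ k k', br e k y = br e k' y) (hy0 : ∀ k, (br e k y).order = S₀)
    (H2 : ∀ G : MN N, (e.ε (sig s G)).order = (e.ε G).order)
    (H3 : ∀ (G : MN N) (m : ℕ), G ≠ 0 → sig (s ^ m) G = G → (S₀ : ℤ) ∣ m * (e.ε G).order) :
    ({v : Place K (FN K N) | 0 < v.ord y}.ncard =
        Nat.card (MulAction.orbitRel.Quotient (Subgroup.zpowers s) (XN N)) ∧
      ∀ v : Place K (FN K N), 0 < v.ord y → HasBranch v) ∧
    (∀ (G : MN N) (m : ℕ), G ≠ 0 → sig (s ^ m) G = G → (S₀ : ℤ) ∣ m * (e.ε G).order) ∧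
    ∀ v : Place K (FN K N), 0 < v.ord y → ∃ k : XN N, ∀ f : FN K N, f ≠ 0 →
      (Nat.card {k' // MulAction.orbitRel (Subgroup.zpowers s) (XN N) k' k} : ℤ) *
        (br e k f).order = S₀ * v.ord f := by
  have hfd : FiniteDimensional K⟮y⟯ (FN K N) := by
    rw [hadj]
    exact finiteDimensional_FN
  have hX : Fintype.card (XN N) = Module.finrank K⟮y⟯ (FN K N) := by
    rw [hadj]
    exact finrank_FN.symm
  have hr2 : ∀ (k : XN N) (f : FN K N), f ≠ 0 → (S₀ : ℤ) ∣
      (Nat.card {k' // MulAction.orbitRel (Subgroup.zpowers s) (XN N) k' k} : ℤ) *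
        (br e k f).order := ?_
  · exact ⟨count_places y hy hX (br e) (br_injective e) iota (br_algebraMap e) hyk S₀ hS₀ hy0
      (MulAction.orbitRel (Subgroup.zpowers s) (XN N)) (order_br_of_rel e s H2) hr2, H3,
      count_places_sharp y hy hX (br e) (br_injective e) iota (br_algebraMap e) hyk S₀ hS₀ hy0
      (MulAction.orbitRel (Subgroup.zpowers s) (XN N)) (order_br_of_rel e s H2) hr2⟩
  intro k f hf
  obtain ⟨g, h, hh, hr⟩ := exists_rep f
  have hg : g ≠ 0 := rep_num_ne_zero hf hh hr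
  set m := Nat.card {k' // MulAction.orbitRel (Subgroup.zpowers s) (XN N) k' k} with hm
  have hfix : s ^ m • k = k := pow_card_orbit_smul s k
  have key : ∀ g : RN N, g ≠ 0 → (S₀ : ℤ) ∣ m * (brR e k g).order := fun g hg =>
    H3 (trnM k g) m ((map_ne_zero_iff _ (trnM_injective k)).mpr hg) (by rw [sig_trnM, hfix])
  rw [order_br e k hf hh hr, mul_sub]
  exact dvd_sub (key g hg) (key h hh)

/-- the analytic data of an expansion point: either a Taylor expansion at a point `τ₀` fixed by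
`s` (with `S₀` the order of `s` in `PSL₂`), or the `q_N`-expansion at `i∞` (`s = T`, `S₀ = N`). -/
def ExpData (e : Expn N) (s : SL(2, ℤ)) (S₀ : ℕ) : Prop :=
  (∃ τ₀ : ℍ, e = expTay τ₀ ∧ s • τ₀ = τ₀ ∧
    ∀ n : ℕ, (denom (s : GL (Fin 2) ℝ) τ₀) ^ (2 * n) = 1 → S₀ ∣ n) ∨
  (e = expInf ∧ s = ModularGroup.T ∧ S₀ = N)

/-- a branch at the place `v` with the exact multiplier `S₀ / m`, `m` the size of the orbit of
the coset `k` under `s`. -/
def SharpBranch (v : Place K (FN K N)) : Prop :=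
  ∃ (e : Expn N) (s : SL(2, ℤ)) (S₀ m : ℕ) (k : XN N), 0 < S₀ ∧ 0 < m ∧ s ^ m • k = k ∧
    (s = ModularGroup.T ∨ s ^ 12 = 1) ∧ ExpData e s S₀ ∧
    (∀ (G : MN N) (m' : ℕ), G ≠ 0 → sig (s ^ m') G = G → (S₀ : ℤ) ∣ m' * (e.ε G).order) ∧
    ∀ f : FN K N, f ≠ 0 → (m : ℤ) * (br e k f).order = S₀ * v.ord f

omit [IsAlgClosed K] [CharZero K] in
lemma sharpBranch_of (e : Expn N) (s : SL(2, ℤ)) (S₀ : ℕ) (hS₀ : 0 < S₀)
    (hs : s = ModularGroup.T ∨ s ^ 12 = 1) (hd : ExpData e s S₀)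
    (H3 : ∀ (G : MN N) (m' : ℕ), G ≠ 0 → sig (s ^ m') G = G → (S₀ : ℤ) ∣ m' * (e.ε G).order)
    (v : Place K (FN K N)) (h : ∃ k : XN N, ∀ f : FN K N, f ≠ 0 →
      (Nat.card {k' // MulAction.orbitRel (Subgroup.zpowers s) (XN N) k' k} : ℤ) *
        (br e k f).order = S₀ * v.ord f) : SharpBranch v := by
  obtain ⟨k, hk⟩ := h
  have : Nonempty {k' // MulAction.orbitRel (Subgroup.zpowers s) (XN N) k' k} :=
    ⟨⟨k, Setoid.refl' _ k⟩⟩
  exact ⟨e, s, S₀, _, k, hS₀, Nat.card_pos, pow_card_orbit_smul s k, hs, hd, H3, hk⟩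

theorem count_tay (τ₀ : ℍ) (s : SL(2, ℤ)) (hs : s • τ₀ = τ₀) (hs12 : s ^ 12 = 1) (S₀ : ℕ)
    (hS₀ : 0 < S₀)
    (a : K) (ha : jf τ₀ = iota a)
    (hord : (tay τ₀ (fun τ => jf τ - jf τ₀)).order = S₀)
    (hmult : ∀ n : ℕ, (denom (s : GL (Fin 2) ℝ) τ₀) ^ (2 * n) = 1 → S₀ ∣ n) :
    ({v : Place K (FN K N) | 0 < v.ord (xN K N - algebraMap K (FN K N) a)}.ncard =
        Nat.card (MulAction.orbitRel.Quotient (Subgroup.zpowers s) (XN N)) ∧
      ∀ v : Place K (FN K N), 0 < v.ord (xN K N - algebraMap K (FN K N) a) → HasBranch v) ∧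
    ∀ v : Place K (FN K N), 0 < v.ord (xN K N - algebraMap K (FN K N) a) → SharpBranch v := by
  have hadj := gen_adjoin_sub (xN K N) a
  have hbr : ∀ k : XN N, br (expTay τ₀) k (xN K N - algebraMap K (FN K N) a) =
      HahnSeries.ofPowerSeries ℤ ℂ (tay τ₀ (fun τ => jf τ - jf τ₀)) := by
    intro k
    rw [map_sub, br_xN, br_algebraMap, ← (expTay (N := N) τ₀).const, ← map_sub, expTay_apply, ha]
    rfl
  have hne : tay τ₀ (fun τ => jf τ - jf τ₀) ≠ 0 := by
    intro h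
    rw [h, PowerSeries.order_zero] at hord
    exact ENat.top_ne_natCast _ hord
  have main := count_general (K := K) (expTay τ₀) s S₀ hS₀ _
    (gen_transcendental_of_adjoin_eq _ _ (transcendental_xN K N) hadj) hadj
    (fun k k' => by rw [hbr, hbr]) (fun k => by rw [hbr, order_oPS hne, hord]; rfl) ?_ ?_
  · exact ⟨main.1, fun v hv => sharpBranch_of (expTay τ₀) s S₀ hS₀ (Or.inr hs12)
      (Or.inl ⟨τ₀, rfl, hs, hmult⟩) main.2.1 v (main.2.2 v hv)⟩
  · intro G
    have hs' : s⁻¹ • τ₀ = τ₀ := by rw [inv_smul_eq_iff, hs]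
    have h1 := order_tay_comp s⁻¹ τ₀ hs' (MN.mdiff G.2)
    by_cases hG : G = 0
    · simp [hG]
    have hG1 : tay τ₀ G.1 ≠ 0 := by
      rw [Ne, tay_eq_zero_iff τ₀ (MN.mdiff G.2)]
      exact fun h => hG (Subtype.ext h)
    have hG2 : tay τ₀ (sig s G).1 ≠ 0 := by
      intro h
      have h2 : (tay τ₀ (fun τ => G.1 (s⁻¹ • τ))).order = ⊤ := by
        rw [PowerSeries.order_eq_top]
        exact h
      rw [h1, PowerSeries.order_eq_top] at h2
      exact hG1 h2
    rw [expTay_apply, expTay_apply, order_oPS hG1, order_oPS hG2]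
    congr 2
  · intro G m hG hinv
    have hG0 : G.1 ≠ 0 := fun h => hG (Subtype.ext h)
    have hG1 : tay τ₀ G.1 ≠ 0 := by
      rw [Ne, tay_eq_zero_iff τ₀ (MN.mdiff G.2)]
      exact hG0
    have h1 := tay_multiplier (s ^ m) τ₀ (pow_smul_fixed s τ₀ hs m) (MN.mdiff G.2) hG0 (fun τ => by
      have := congrFun (congrArg Subtype.val hinv) (s ^ m • τ)
      rw [sig_apply, inv_smul_smul] at this
      exact this.symm)
    rw [denom_pow_of_fixed s τ₀ hs, ← pow_mul,
      show m * (2 * (tay τ₀ G.1).order.toNat) = 2 * (m * (tay τ₀ G.1).order.toNat) by ring] at h1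
    have h2 := hmult _ h1
    rw [expTay_apply, order_oPS hG1]
    exact_mod_cast h2

end FAGP
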