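import Fermat.Agent.Gal.PortTheta
import Fermat.Agent.X0Genus.Degree

/-! Project G, package [PORT], part 2: branches, algebraic relations, descent and the degree of
`K(X₀(N))` over `K(j)` (generalisation of `X0Genus/MN, DegU1, DegU2, Degree`). -/

set_option autoImplicit false

open UpperHalfPlane ModularForm EisensteinSeries Function CongruenceSubgroup FA_IS FA24 Polynomial
open IntermediateField
open scoped Manifold MatrixGroups

namespace FAGP

variable {K : Type} [Field K] [Algebra ℚ K] [CEmb K]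

section br
variable {N : ℕ} [NeZero N]

/-- the branch on the function field -/
noncomputable def br (e : Expn N) (k : XN N) : FN K N →+* LaurentSeries ℂ :=
  (IsFractionRing.lift (brR_injective e k)).comp Theta

lemma br_of_Theta (e : Expn N) (k : XN N) {f : FN K N} {g : RN N}
    (h : Theta f = algebraMap (RN N) (FR N) g) : br e k f = brR e k g := by
  rw [br, RingHom.comp_apply, h, IsFractionRing.lift_algebraMap]

lemma br_mul_eq (e : Expn N) (k : XN N) {f : FN K N} {g h : RN N}
    (hr : Theta f * algebraMap (RN N) (FR N) h = algebraMap (RN N) (FR N) g) :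
    br e k f * brR e k h = brR e k g := by
  have := congrArg (IsFractionRing.lift (brR_injective e k)) hr
  rwa [map_mul, IsFractionRing.lift_algebraMap, IsFractionRing.lift_algebraMap] at this

lemma br_algebraMap (e : Expn N) (k : XN N) (a : K) :
    br e k (algebraMap K (FN K N) a) = HahnSeries.C (iota a) := by
  rw [br_of_Theta e k (Theta_algebraMap a), brR_apply, trnM_cst, e.const]

lemma br_xN (e : Expn N) (k : XN N) : br e k (xN K N) = e.ε jM := by
  rw [br_of_Theta e k Theta_xN, brR_apply, trnM_jR]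

lemma br_Jd (e : Expn N) (k : XN N) {d : ℕ} [NeZero d] (hd : d ∣ N) :
    br e k (Jd K N hd) = e.ε (trnM k (jdR hd)) := by
  rw [br_of_Theta e k (Theta_Jd hd), brR_apply]

lemma br_injective (e : Expn N) :
    Function.Injective (br e : XN N → FN K N →+* LaurentSeries ℂ) := by
  intro k k' h
  have h1 := congrArg (fun φ : FN K N →+* LaurentSeries ℂ => φ (Jd K N dvd_rfl)) h
  simp only [br_Jd] at h1
  have h2 := congrArg Subtype.val (e.inj h1)
  simp only [trnM_val] at h2
  have h3 : (rep k)⁻¹ * rep k' ∈ Gamma0 N := by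
    apply mem_Gamma0_of_jf_level_invariant
    intro τ
    have := congrFun h2 (rep k' • τ)
    simp only [trn, inv_smul_smul] at this
    rw [mul_smul]
    exact this
  rw [← mk_rep k, ← mk_rep k']
  exact QuotientGroup.eq.mpr h3

/-- the algebraic relation, in the field of modular functions -/
lemma exists_relation_FR (f : FN K N) :
    ∃ P : ℂ[X][X], P ≠ 0 ∧ P.natDegree ≤ Fintype.card (XN N) ∧
      P.eval₂ ((algebraMap (RN N) (FR N)).comp evR) (Theta f) = 0 := by
  obtain ⟨g, h, hh, hr⟩ := exists_rep f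
  obtain ⟨P, hP0, hPd, hP⟩ := exists_lift_Psi g hh
  refine ⟨P, hP0, hPd, ?_⟩
  set k₀ : XN N := ((1 : SL(2, ℤ)) : XN N)
  set e : Expn N := expInf
  apply (IsFractionRing.lift (brR_injective e k₀)).injective
  rw [map_zero, hom_eval₂]
  have h1 : (IsFractionRing.lift (brR_injective e k₀)).comp
      ((algebraMap (RN N) (FR N)).comp evR) = e.ε.comp (inclM.comp evR) := by
    refine RingHom.ext fun p => ?_
    simp only [RingHom.comp_apply, IsFractionRing.lift_algebraMap, brR_apply]
    rw [trnM_one]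
  rw [h1, ← eval₂_map, ← eval_map, hP, Psi, Polynomial.map_prod, eval_prod]
  apply Finset.prod_eq_zero (Finset.mem_univ k₀)
  have h2 := br_mul_eq e k₀ hr
  simp only [Polynomial.map_sub, Polynomial.map_mul, Polynomial.map_C, Polynomial.map_X, eval_sub,
    eval_mul, eval_C, eval_X]
  rw [sub_eq_zero, mul_comm]
  exact h2

/-- the algebraic relation, for `q`-expansions -/
lemma exists_relation_lau (f : FN K N) :
    ∃ P : ℂ[X][X], P ≠ 0 ∧ P.natDegree ≤ Fintype.card (XN N) ∧
      P.eval₂ (eval₂RingHom HahnSeries.C (cm (xN K N).1)) (cm f.1) = 0 := by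
  obtain ⟨P, hP0, hPd, hP⟩ := exists_relation_FR f
  refine ⟨P, hP0, hPd, ?_⟩
  have := congrArg LamF hP
  rw [map_zero, hom_eval₂, LamF_Theta] at this
  have h1 : LamF.comp ((algebraMap (RN N) (FR N)).comp evR) =
      eval₂RingHom HahnSeries.C (cm (xN K N).1) := by
    apply Polynomial.ringHom_ext
    · intro a
      simp only [coe_eval₂RingHom, eval₂_C, RingHom.comp_apply, evR, LamF_algebraMap]
      exact Lam_cst a
    · simp only [coe_eval₂RingHom, eval₂_X, RingHom.comp_apply, evR, LamF_algebraMap]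
      rw [← LamF_Theta, Theta_xN, LamF_algebraMap]
  rw [h1] at this
  exact this

end br

/-- a `ℚ̄`-linear functional on `ℂ` with prescribed nonzero value. -/
lemma exists_retraction (l : ℂ) (hl : l ≠ 0) :
    ∃ π : ℂ →+ K, (∀ z a, π (z * iota a) = π z * a) ∧ π l = 1 := by
  letI : Algebra K ℂ := iota.toAlgebra
  have hsm : ∀ (a : K) (z : ℂ), a • z = iota a * z := fun a z => rfl
  have hinj : LinearMap.ker (LinearMap.toSpanSingleton K ℂ l) = ⊥ := by
    rw [LinearMap.ker_eq_bot, injective_iff_map_eq_zero]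
    intro a ha
    rw [LinearMap.toSpanSingleton_apply, hsm] at ha
    rcases mul_eq_zero.mp ha with h | h
    · exact (map_eq_zero iota).mp h
    · exact absurd h hl
  obtain ⟨g, hg⟩ := LinearMap.exists_leftInverse_of_injective _ hinj
  refine ⟨g.toAddMonoidHom, fun z a => ?_, ?_⟩
  · show g (z * iota a) = g z * a
    rw [mul_comm z, ← hsm, map_smul, smul_eq_mul, mul_comm]
  · have := congrArg (fun φ : K →ₗ[K] K => φ 1) hg
    simpa [LinearMap.toSpanSingleton_apply] using this

/-- descent -/
lemma descent (X₀ Y₀ : LaurentSeries K) (P : ℂ[X][X]) (hP0 : P ≠ 0)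
    (hP : P.eval₂ (eval₂RingHom HahnSeries.C (cm X₀)) (cm Y₀) = 0) :
    ∃ Q : K[X][X], Q ≠ 0 ∧ Q.natDegree ≤ P.natDegree ∧
      Q.eval₂ (eval₂RingHom HahnSeries.C X₀) Y₀ = 0 := by
  obtain ⟨i₀, hi₀⟩ : ∃ i, P.coeff i ≠ 0 := by
    by_contra h
    push Not at h
    exact hP0 (Polynomial.ext (by simpa using h))
  obtain ⟨a₀, ha₀⟩ : ∃ a, (P.coeff i₀).coeff a ≠ 0 := by
    by_contra h
    push Not at h
    exact hi₀ (Polynomial.ext (by simpa using h))
  obtain ⟨π, hπ, hπ1⟩ := exists_retraction (K := K) _ ha₀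
  refine ⟨pmap (pmap π) P, ?_, natDegree_pmap_le _ _, ?_⟩
  · intro h
    have := congrArg (fun q : K[X][X] => (q.coeff i₀).coeff a₀) h
    simp only [coeff_pmap, hπ1, coeff_zero] at this
    exact one_ne_zero this
  · -- a common bound for the inner degrees
    obtain ⟨M, hM⟩ : ∃ M : ℕ, ∀ i, (P.coeff i).natDegree < M := by
      refine ⟨(∑ i ∈ P.support, (P.coeff i).natDegree) + 1, fun i => ?_⟩
      by_cases hi : i ∈ P.support
      · exact Nat.lt_succ_of_le
          (Finset.single_le_sum (f := fun i => (P.coeff i).natDegree) (fun _ _ => Nat.zero_le _) hi)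
      · rw [notMem_support_iff.mp hi]
        simp
    have e1 : ∀ (c : ℕ → ℕ → ℂ), (∑ i ∈ Finset.range (P.natDegree + 1),
        (∑ a ∈ Finset.range M, HahnSeries.C (c i a) * cm X₀ ^ a) * cm Y₀ ^ i) =
        ∑ i ∈ Finset.range (P.natDegree + 1), ∑ a ∈ Finset.range M,
          HahnSeries.C (c i a) * cm (X₀ ^ a * Y₀ ^ i) := by
      intro c
      refine Finset.sum_congr rfl fun i _ => ?_
      rw [Finset.sum_mul]
      refine Finset.sum_congr rfl fun a _ => ?_
      rw [map_mul, map_pow, map_pow, mul_assoc]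
    have e2 : ∀ (c : ℕ → ℕ → K), (∑ i ∈ Finset.range (P.natDegree + 1),
        (∑ a ∈ Finset.range M, HahnSeries.C (c i a) * X₀ ^ a) * Y₀ ^ i) =
        ∑ i ∈ Finset.range (P.natDegree + 1), ∑ a ∈ Finset.range M,
          HahnSeries.C (c i a) * (X₀ ^ a * Y₀ ^ i) := by
      intro c
      refine Finset.sum_congr rfl fun i _ => ?_
      rw [Finset.sum_mul]
      refine Finset.sum_congr rfl fun a _ => ?_
      rw [mul_assoc]
    rw [eval₂_eq_sum_range' _ (Nat.lt_succ_self _)] at hP
    simp only [coe_eval₂RingHom] at hP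
    simp only [eval₂_eq_sum_range' _ (hM _)] at hP
    rw [e1 fun i a => (P.coeff i).coeff a] at hP
    rw [eval₂_eq_sum_range' _ (Nat.lt_succ_of_le (natDegree_pmap_le _ _))]
    simp only [coe_eval₂RingHom]
    simp only [coeff_pmap, eval₂_eq_sum_range' _ (lt_of_le_of_lt (natDegree_pmap_le _ _) (hM _))]
    rw [e2 fun i a => π ((P.coeff i).coeff a)]
    ext n
    have h3 := congrArg (fun s : LaurentSeries ℂ => π (s.coeff n)) hP
    simp only [HahnSeries.coeff_sum, HahnSeries.coeff_zero, map_zero, map_sum,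
      HahnSeries.C_mul_eq_smul, HahnSeries.coeff_smul, smul_eq_mul] at h3 ⊢
    rw [← h3]
    refine Finset.sum_congr rfl fun i _ => Finset.sum_congr rfl fun a _ => ?_
    exact (hπ _ _).symm

lemma C_eq_algebraMap (a : K) :
    (HahnSeries.C a : LaurentSeries K) = algebraMap K (LaurentSeries K) a := by
  rw [ModularCurve.algebraMap_laurentSeries_eq_single]
  rfl

lemma transcendental_xN (K : Type) [Field K] [Algebra ℚ K] [IsAlgClosed K] (N : ℕ) :
    Transcendental K (xN K N) := by
  apply gen_transcendental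
  intro a ha
  have h1 : (xN K N).1 = algebraMap K (LaurentSeries K) a := congrArg Subtype.val ha
  have h2 := congrArg (fun s : LaurentSeries K => s.coeff (-1)) h1
  simp only [xN_val, ModularCurve.coeffEmb_coeff, ModularCurve.coeff_jq_neg_one, map_one,
    ModularCurve.algebraMap_laurentSeries_eq_single] at h2
  rw [HahnSeries.coeff_single_of_ne (by norm_num)] at h2
  exact one_ne_zero h2

variable [IsAlgClosed K] [CharZero K] {N : ℕ} [NeZero N]

lemma exists_relation (f : FN K N) : ∃ Q : K⟮xN K N⟯[X], Q ≠ 0 ∧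
    Q.natDegree ≤ Fintype.card (XN N) ∧ aeval f Q = 0 := by
  obtain ⟨P, hP0, hPd, hP⟩ := exists_relation_lau f
  obtain ⟨Q, hQ0, hQd, hQ⟩ := descent _ _ P hP0 hP
  have hQ' : Q.eval₂ (aeval (R := K) (xN K N)).toRingHom f = 0 := by
    apply Subtype.val_injective
    have h1 := hom_eval₂ Q (aeval (R := K) (xN K N)).toRingHom
      (barK K N).val.toRingHom f
    have h2 : (barK K N).val.toRingHom.comp
        (aeval (R := K) (xN K N)).toRingHom = eval₂RingHom HahnSeries.C (xN K N).1 := by
      apply Polynomial.ringHom_ext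
      · intro a
        simp only [RingHom.comp_apply, AlgHom.toRingHom_eq_coe, RingHom.coe_coe, aeval_C,
          coe_eval₂RingHom, eval₂_C, C_eq_algebraMap]
        rfl
      · simp only [RingHom.comp_apply, AlgHom.toRingHom_eq_coe, RingHom.coe_coe, aeval_X,
          coe_eval₂RingHom, eval₂_X]
        rfl
    rw [h2] at h1
    exact h1.trans hQ
  obtain ⟨Q', h0, hd, h⟩ := gen_relation (xN K N) (transcendental_xN K N) f Q hQ0 hQ'
  exact ⟨Q', h0, hd.trans (hQd.trans hPd), h⟩

/-- the set of generators -/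
def gens (K : Type) [Field K] [Algebra ℚ K] (N : ℕ) : Set (FN K N) :=
  {f | ∃ (d : ℕ) (_ : NeZero d) (hd : d ∣ N), f = Jd K N hd}

lemma finite_gens : (gens K N).Finite := by
  classical
  have : gens K N ⊆ ((N.divisors.attach.image fun d =>
      @Jd K _ _ N d.1 ⟨(Nat.pos_of_mem_divisors d.2).ne'⟩ (Nat.dvd_of_mem_divisors d.2) :
        Finset (FN K N)) : Set (FN K N)) := by
    rintro f ⟨d, hd, hdN, rfl⟩
    rw [Finset.mem_coe, Finset.mem_image]
    exact ⟨⟨d, Nat.mem_divisors.mpr ⟨hdN, NeZero.ne N⟩⟩, Finset.mem_attach _ _, rfl⟩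
  exact (Finset.finite_toSet _).subset this

omit [NeZero N] in
lemma adjoin_gens : adjoin K (gens K N) = ⊤ := by
  rw [eq_top_iff]
  intro f _
  refine FN_induction (P := fun f => f ∈ adjoin K (gens K N))
    (fun a => IntermediateField.algebraMap_mem _ a)
    (fun d hd hdN => subset_adjoin _ _ ⟨d, hd, hdN, rfl⟩) (fun f g hf hg => add_mem hf hg)
    (fun f hf => neg_mem hf) (fun f g hf hg => mul_mem hf hg) (fun f hf => inv_mem hf) f

instance finiteDimensional_FN : FiniteDimensional K⟮xN K N⟯ (FN K N) :=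
  (gen_finrank_le (xN K N) _ (gens K N) finite_gens adjoin_gens exists_relation).1

theorem finrank_FN : Module.finrank K⟮xN K N⟯ (FN K N) = Fintype.card (XN N) :=
  le_antisymm (gen_finrank_le (xN K N) _ (gens K N) finite_gens adjoin_gens exists_relation).2
    (gen_card_le (xN K N) (br expInf) (br_injective _)
      (fun k k' a => by rw [br_algebraMap, br_algebraMap]) (fun k k' => by rw [br_xN, br_xN]))

theorem isFF_FN : IsFF K (FN K N) := ⟨xN K N, transcendental_xN K N, finiteDimensional_FN⟩

end FAGP
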