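import Fermat.Agent.Gal.PortBr
import Fermat.Agent.X0Genus.Final

/-! Project G, package [PORT], part 5: all places of `K(X₀(N))` have sharp branches
(generalisation of `X0Genus/BrPts` and `hasBranch_all`). -/

set_option autoImplicit false

open Polynomial IntermediateField AlgebraicCurve UpperHalfPlane FA24
open scoped MatrixGroups Real

namespace FAGP

variable {K : Type} [Field K] [Algebra ℚ K] [CEmb K] [IsAlgClosed K] [CharZero K]
  {N : ℕ} [NeZero N]

lemma S_pow_twelve : ModularGroup.S ^ 12 = 1 := by decide +kernel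

lemma ST_pow_twelve : (ModularGroup.S * ModularGroup.T) ^ 12 = 1 := by decide +kernel

theorem count_generic (a : K) (h0 : a ≠ 0) (h1 : a ≠ 1728) :
    ({v : Place K (FN K N) | 0 < v.ord (xN K N - algebraMap K (FN K N) a)}.ncard =
        Fintype.card (XN N) ∧
      ∀ v : Place K (FN K N), 0 < v.ord (xN K N - algebraMap K (FN K N) a) → HasBranch v) ∧
    ∀ v : Place K (FN K N), 0 < v.ord (xN K N - algebraMap K (FN K N) a) → SharpBranch v := by
  obtain ⟨τ₀, hτ₀⟩ := jf_surjective (iota a)
  have h0' : jf τ₀ ≠ 0 := by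
    rw [hτ₀]
    exact (_root_.map_ne_zero iota).mpr h0
  have h1' : jf τ₀ ≠ 1728 := by
    rw [hτ₀]
    intro h
    apply h1
    apply iota_injective
    rw [h, map_ofNat]
  have := count_tay (N := N) τ₀ 1 (one_smul _ _) (one_pow _) 1 one_pos a hτ₀
    (by rw [order_tay_jf_generic τ₀ h0' h1']; rfl) (fun n _ => one_dvd n)
  rwa [card_orbits_one, Nat.card_eq_fintype_card] at this

theorem count_1728 :
    ({v : Place K (FN K N) | 0 < v.ord (xN K N - algebraMap K (FN K N) 1728)}.ncard =
        Nat.card (MulAction.orbitRel.Quotient (Subgroup.zpowers ModularGroup.S) (XN N)) ∧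
      ∀ v : Place K (FN K N), 0 < v.ord (xN K N - algebraMap K (FN K N) 1728) → HasBranch v) ∧
    ∀ v : Place K (FN K N), 0 < v.ord (xN K N - algebraMap K (FN K N) 1728) → SharpBranch v := by
  have hS : ModularGroup.S • UpperHalfPlane.I = UpperHalfPlane.I :=
    ModularGroup.stabilizer_I.mpr (by simp)
  refine count_tay (N := N) UpperHalfPlane.I ModularGroup.S hS S_pow_twelve 2 two_pos 1728
    (by rw [jf_I, map_ofNat]) (by rw [jf_I, order_tay_jf_I]; rfl) ?_
  intro n hn
  rw [ModularGroup.denom_S, UpperHalfPlane.coe_I, pow_mul, Complex.I_sq] at hn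
  exact (neg_one_pow_eq_one_iff_even (by norm_num)).mp hn |>.two_dvd

theorem count_0 :
    ({v : Place K (FN K N) | 0 < v.ord (xN K N - algebraMap K (FN K N) 0)}.ncard =
        Nat.card (MulAction.orbitRel.Quotient
          (Subgroup.zpowers (ModularGroup.S * ModularGroup.T)) (XN N)) ∧
      ∀ v : Place K (FN K N), 0 < v.ord (xN K N - algebraMap K (FN K N) 0) → HasBranch v) ∧
    ∀ v : Place K (FN K N), 0 < v.ord (xN K N - algebraMap K (FN K N) 0) → SharpBranch v := by
  have hS : (ModularGroup.S * ModularGroup.T) • UpperHalfPlane.ρ = UpperHalfPlane.ρ :=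
    ModularGroup.stabilizer_ρ.mpr (by simp)
  have hden : denom (ModularGroup.S * ModularGroup.T : SL(2, ℤ)) UpperHalfPlane.ρ =
      (UpperHalfPlane.ρ : ℂ) + 1 := by
    rw [ModularGroup.denom_apply]
    have h10 : (ModularGroup.S * ModularGroup.T : SL(2, ℤ)) 1 0 = 1 := by
      rw [Matrix.SpecialLinearGroup.coe_mul, ModularGroup.coe_S, ModularGroup.coe_T]
      simp [Matrix.mul_apply, Fin.sum_univ_two]
    have h11 : (ModularGroup.S * ModularGroup.T : SL(2, ℤ)) 1 1 = 1 := by
      rw [Matrix.SpecialLinearGroup.coe_mul, ModularGroup.coe_S, ModularGroup.coe_T]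
      simp [Matrix.mul_apply, Fin.sum_univ_two]
    rw [h10, h11]
    simp
  refine count_tay (N := N) UpperHalfPlane.ρ (ModularGroup.S * ModularGroup.T) hS ST_pow_twelve 3
    (by norm_num) 0
    (by rw [jf_rho, map_zero]) ?_ ?_
  · have : (fun τ => jf τ - jf UpperHalfPlane.ρ) = jf := by
      funext τ
      rw [jf_rho, sub_zero]
    rw [this, order_tay_jf_rho]
    rfl
  · intro n hn
    have h2 := UpperHalfPlane.ρ_sq
    have h3 : ((UpperHalfPlane.ρ : ℂ) + 1) ^ 2 = UpperHalfPlane.ρ := by linear_combination h2
    rw [hden, pow_mul, h3] at hn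
    have hprim : IsPrimitiveRoot (UpperHalfPlane.ρ : ℂ) 3 := by
      apply IsPrimitiveRoot.mk_of_lt _ (by norm_num)
      · linear_combination ((UpperHalfPlane.ρ : ℂ) - 1) * h2
      · intro l hl0 hl3 hl
        have hne1 : (UpperHalfPlane.ρ : ℂ) ≠ 1 := by
          intro h
          have := congrArg Complex.im h
          have hp := UpperHalfPlane.ρ.im_pos
          simp only [coe_im, Complex.one_im] at this
          linarith
        interval_cases l
        · exact hne1 (by simpa using hl)
        · rw [h2] at hl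
          have h4 : (UpperHalfPlane.ρ : ℂ) = -2 := by linear_combination -hl
          have := congrArg Complex.im h4
          have hp := UpperHalfPlane.ρ.im_pos
          simp only [coe_im, Complex.neg_im] at this
          norm_num at this
          linarith
    exact hprim.dvd_of_pow_eq_one n hn

theorem count_inf :
    ({v : Place K (FN K N) | 0 < v.ord (xN K N)⁻¹}.ncard =
        Nat.card (MulAction.orbitRel.Quotient (Subgroup.zpowers ModularGroup.T) (XN N)) ∧
      ∀ v : Place K (FN K N), 0 < v.ord (xN K N)⁻¹ → HasBranch v) ∧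
    ∀ v : Place K (FN K N), 0 < v.ord (xN K N)⁻¹ → SharpBranch v := by
  have hadj := gen_adjoin_inv (K := K) (xN K N)
  have hbr : ∀ k : XN N, br expInf k (xN K N)⁻¹ = (lau N jf)⁻¹ := by
    intro k
    rw [map_inv₀, br_xN, expInf_apply]
    rfl
  have hN : (N : ℂ) ≠ 0 := by exact_mod_cast NeZero.ne N
  have hne : lau N jf ≠ 0 := by
    intro h
    have := order_lau_jf (N := N)
    rw [h, HahnSeries.order_zero] at this
    have hN' : (N : ℤ) ≠ 0 := by exact_mod_cast NeZero.ne N
    omega
  have main := count_general (K := K) expInf ModularGroup.T N (Nat.pos_of_ne_zero (NeZero.ne N)) _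
    (gen_transcendental_of_adjoin_eq _ _ (transcendental_xN K N) hadj) hadj
    (fun k k' => by rw [hbr, hbr]) (fun k => ?_) ?_ ?_
  · exact ⟨main.1, fun v hv => sharpBranch_of expInf ModularGroup.T N
      (Nat.pos_of_ne_zero (NeZero.ne N)) (Or.inl rfl) (Or.inr ⟨rfl, rfl, rfl⟩) main.2.1 v
      (main.2.2 v hv)⟩
  · rw [hbr]
    have h1 := HahnSeries.order_mul hne (inv_ne_zero hne)
    rw [mul_inv_cancel₀ hne, HahnSeries.order_one, order_lau_jf] at h1
    linarith
  · intro G
    have h1 := sig_T_pow_val G 1
    rw [pow_one] at h1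
    rw [expInf_apply, expInf_apply, h1]
    exact order_eq_of_coeff_mul _ _ _ (fun n => Complex.exp_ne_zero _)
      (fun n => coeff_lau_shift (MN.mero G.2) _ n)
  · intro G m hG hinv
    have h1 := sig_T_pow_val G m
    rw [hinv] at h1
    have hG0 : lau N G.1 ≠ 0 := by
      rw [Ne, lau_eq_zero_iff (MN.mero G.2)]
      exact fun h => hG (Subtype.ext h)
    have h2 := coeff_lau_shift (MN.mero G.2) (-(m : ℤ)) (lau N G.1).order
    rw [← h1] at h2
    have hc : (lau N G.1).coeff (lau N G.1).order ≠ 0 :=
      fun h0 => hG0 (HahnSeries.coeff_order_eq_zero.mp h0)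
    have h3 : Complex.exp (2 * π * Complex.I * (-(m : ℤ) : ℤ) * (lau N G.1).order / N) = 1 := by
      have : (Complex.exp (2 * π * Complex.I * (-(m : ℤ) : ℤ) * (lau N G.1).order / N) - 1) *
          (lau N G.1).coeff (lau N G.1).order = 0 := by
        rw [sub_mul, one_mul, ← h2, sub_self]
      rcases mul_eq_zero.mp this with h | h
      · exact sub_eq_zero.mp h
      · exact absurd h hc
    obtain ⟨l, hl⟩ := Complex.exp_eq_one_iff.mp h3
    have h2pi : (2 * (π : ℂ) * Complex.I) ≠ 0 := two_pi_I_ne
    have h4 : ((-(m : ℤ) * (lau N G.1).order : ℤ) : ℂ) = ((l * N : ℤ) : ℂ) := by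
      have : (2 * (π : ℂ) * Complex.I) * (-(m : ℂ) * ((lau N G.1).order : ℂ)) =
          (2 * (π : ℂ) * Complex.I) * (l * N) := by
        have h6 : 2 * (π : ℂ) * Complex.I * (-(m : ℤ) : ℤ) * (lau N G.1).order =
            (l * (2 * π * Complex.I)) * N := by
          rw [← hl]
          field_simp
        push_cast at h6
        linear_combination h6
      push_cast
      exact mul_left_cancel₀ h2pi this
    have h5 : -(m : ℤ) * (lau N G.1).order = l * N := by exact_mod_cast h4
    rw [expInf_apply]
    exact ⟨-l, by linear_combination -h5⟩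

theorem sharpBranch_all (v : Place K (FN K N)) : SharpBranch v := by
  by_cases h : v.ord (xN K N) < 0
  · apply count_inf.2 v
    rw [Place.ord_inv]
    omega
  · obtain ⟨a, ha | ha⟩ := exists_ord_sub_pos isFF_FN v (xN K N) (not_lt.mp h)
    · exfalso
      apply transcendental_xN K N
      rw [ha]
      exact isAlgebraic_algebraMap a
    · by_cases h0 : a = 0
      · subst h0
        exact count_0.2 v ha
      · by_cases h1 : a = 1728
        · subst h1
          exact count_1728.2 v ha
        · exact (count_generic a h0 h1).2 v ha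

theorem hasBranch_all (v : Place K (FN K N)) : HasBranch v := by
  by_cases h : v.ord (xN K N) < 0
  · apply count_inf.1.2 v
    rw [Place.ord_inv]
    omega
  · obtain ⟨a, ha | ha⟩ := exists_ord_sub_pos isFF_FN v (xN K N) (not_lt.mp h)
    · exfalso
      apply transcendental_xN K N
      rw [ha]
      exact isAlgebraic_algebraMap a
    · by_cases h0 : a = 0
      · subst h0
        exact count_0.1.2 v ha
      · by_cases h1 : a = 1728
        · subst h1
          exact count_1728.1.2 v ha
        · exact (count_generic a h0 h1).1.2 v ha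

end FAGP
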