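import Fermat.Agent.Red.M1
import Fermat.Agent.Unram.Inertia
import Fermat.Agent.Red.FrickeB
import Fermat.Prelude.Def_ModularCurve_HeckeOperator

/-!
# PROJECT G, [RD]: the explicit reduction data of `X₀(N)`; functoriality (COMP), (GAL)
-/

set_option autoImplicit false
set_option linter.unusedSectionVars false

open AlgebraicCurve IntermediateField ModularCurve FA24 FA18 FA18.M1 FA18.St2

namespace FAG

/-! ### functoriality of the ring `WS` and of `redFun` -/

section WSmap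

variable {K K' : Type*} [Field K] [Field K'] {A : ValuationSubring K} {A' : ValuationSubring K'}
  {k k' : Type*} [Field k] [Field k'] {π : A →+* k} {π' : A' →+* k'}

/-- the general functoriality statement -/
theorem WS_map (ΦK : LaurentSeries K →+* LaurentSeries K')
    (ΦA : LaurentSeries A →+* LaurentSeries A') (Φk : LaurentSeries k →+* LaurentSeries k')
    (h1 : ∀ a, ΦK (iotaA A a) = iotaA A' (ΦA a)) (h2 : ∀ a, Φk (redA A π a) = redA A' π' (ΦA a))
    {f : LaurentSeries K} (hf : f ∈ WS A π) :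
    ΦK f ∈ WS A' π' ∧ redFun A' π' (ΦK f) = Φk (redFun A π f) := by
  obtain ⟨a, b, hb, h⟩ := hf
  have hb' : redA A' π' (ΦA b) ≠ 0 := by rw [← h2]; exact (map_ne_zero Φk).2 hb
  have h' : ΦK f * iotaA A' (ΦA b) = iotaA A' (ΦA a) := by rw [← h1, ← h1, ← map_mul, h]
  exact ⟨⟨ΦA a, ΦA b, hb', h'⟩, by rw [redFun_eq hb' h', redFun_eq hb h, map_div₀, h2, h2]⟩

/-- `q ↦ q ^ n` -/
theorem WS_qExpand (n : ℕ) [NeZero n] {f : LaurentSeries K} (hf : f ∈ WS A π) :
    qExpand K n f ∈ WS A π ∧ redFun A π (qExpand K n f) = qExpand k n (redFun A π f) :=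
  WS_map (qExpand K n) (qExpand A n) (qExpand k n) (fun a => (coeffMap_qExpand _ n a).symm)
    (fun a => (coeffMap_qExpand _ n a).symm) hf

/-- `q ↦ u q`, `u` a unit of `A` -/
theorem WS_twistL (u : Aˣ) {f : LaurentSeries K} (hf : f ∈ WS A π) :
    FAIg.twistL (Units.map (A.subtype : A →* K) u) f ∈ WS A π ∧
      redFun A π (FAIg.twistL (Units.map (A.subtype : A →* K) u) f) =
        FAIg.twistL (Units.map (π : A →* k) u) (redFun A π f) :=
  WS_map (FAIg.twistL _) (FAIg.twistL u) (FAIg.twistL _)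
    (fun a => (FAIg.coeffMap_twistL _ u a).symm) (fun a => (FAIg.coeffMap_twistL _ u a).symm) hf

/-- the restriction to `A` of an endomorphism of `K` preserving `A` -/
def resA (A : ValuationSubring K) (σ : K →+* K) (hσ : ∀ a ∈ A, σ a ∈ A) : A →+* A :=
  (σ.comp A.subtype).codRestrict A.toSubring (fun a => hσ a a.2)

@[simp] lemma coe_resA (σ : K →+* K) (hσ : ∀ a ∈ A, σ a ∈ A) (a : A) :
    ((resA A σ hσ a : A) : K) = σ (a : K) := rfl

/-- the action on the coefficients -/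
theorem WS_coeffMap (σ : K →+* K) (hσ : ∀ a ∈ A, σ a ∈ A) (σk : k →+* k)
    (hσk : ∀ a : A, σk (π a) = π (resA A σ hσ a)) {f : LaurentSeries K} (hf : f ∈ WS A π) :
    coeffMap σ f ∈ WS A π ∧ redFun A π (coeffMap σ f) = coeffMap σk (redFun A π f) :=
  WS_map (coeffMap σ) (coeffMap (resA A σ hσ)) (coeffMap σk)
    (fun a => by
      rw [coeffMap_coeffMap, coeffMap_coeffMap]
      exact coeffMap_congr (RingHom.ext fun x => rfl) a)
    (fun a => by
      rw [coeffMap_coeffMap, coeffMap_coeffMap]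
      exact coeffMap_congr (RingHom.ext fun x => hσk x) a) hf

/-- the induced endomorphism of the residue field -/
theorem exists_resHom (hπ : Function.Surjective π) (σ : K →+* K) (hσ : ∀ a, σ a ∈ A ↔ a ∈ A) :
    ∃ σk : k →+* k, ∀ a : A, σk (π a) = π (resA A σ (fun a ha => (hσ a).2 ha) a) := by
  have hker : ∀ a : A, π a = 0 → π (resA A σ (fun a ha => (hσ a).2 ha) a) = 0 := by
    intro a ha
    apply map_eq_zero_of_not_isUnit hπ
    intro hu
    by_cases ha0 : a = 0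
    · rw [ha0, map_zero] at hu
      exact not_isUnit_zero hu
    have ha0' : (a : K) ≠ 0 := fun h => ha0 (Subtype.ext h)
    obtain ⟨u, hu⟩ := hu
    have h1 : (((u⁻¹ : Aˣ) : A) : K) * σ (a : K) = 1 := by
      have : ((u⁻¹ : Aˣ) : A) * (u : A) = 1 := by simp
      rw [hu] at this
      exact congrArg Subtype.val this
    have h2 : σ ((a : K)⁻¹) = (((u⁻¹ : Aˣ) : A) : K) := by
      rw [map_inv₀]
      exact (eq_inv_of_mul_eq_one_left h1).symm
    have h3 : (a : K)⁻¹ ∈ A := (hσ _).1 (by rw [h2]; exact Subtype.mem _)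
    have h4 : a * ⟨(a : K)⁻¹, h3⟩ = 1 := Subtype.ext (mul_inv_cancel₀ ha0')
    have h5 := congrArg π h4
    rw [map_mul, ha, zero_mul, map_one] at h5
    exact zero_ne_one h5
  refine ⟨RingHom.liftOfRightInverse π (Function.surjInv hπ) (Function.rightInverse_surjInv hπ)
    ⟨π.comp (resA A σ (fun a ha => (hσ a).2 ha)), fun a ha => hker a ha⟩, fun a => ?_⟩
  exact RingHom.liftOfRightInverse_comp_apply π _ (Function.rightInverse_surjInv hπ) _ a

end WSmap

/-! ### decomposition, inertia, Frobenius on the residue field `k` -/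

section Dec

variable {K : Type*} [Field K] [Algebra ℚ K] {A : ValuationSubring K} {k : Type*} [Field k]
  {π : A →+* k}

lemma map_eq_of_sub_nonunit (hπ : Function.Surjective π) {a b : A}
    (h : A.valuation ((a : K) - (b : K)) < 1) : π a = π b := by
  rw [← sub_eq_zero, ← map_sub]
  apply map_eq_zero_of_not_isUnit hπ
  intro hu
  have h1 : A.valuation (((a - b : A)) : K) = 1 := (A.valuation_eq_one_iff _).1 hu
  have h2 : (((a - b : A)) : K) = (a : K) - (b : K) := rfl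
  rw [h2] at h1
  exact absurd h1 (ne_of_lt h)

/-- inertia acts trivially on `k` -/
theorem map_inertia (hπ : Function.Surjective π) {σ : K ≃ₐ[ℚ] K} (hσ : σ ∈ A.inertiaSubgroupIn ℚ)
    (a : A) (h : σ (a : K) ∈ A) : π ⟨σ (a : K), h⟩ = π a :=
  map_eq_of_sub_nonunit hπ
    (FAUnram.inertia_spec A hσ (a : K) ((A.valuation_le_one_iff _).2 a.2))

/-- a Frobenius acts as `x ↦ x ^ ℓ` on `k` -/
theorem map_frobenius (hπ : Function.Surjective π) {σ : K ≃ₐ[ℚ] K} {ℓ : ℕ}
    (hσ : A.IsFrobeniusAt σ ℓ) (a : A) (h : σ (a : K) ∈ A) : π ⟨σ (a : K), h⟩ = π a ^ ℓ := by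
  rw [← map_pow]
  apply map_eq_of_sub_nonunit hπ
  obtain ⟨hd, hF⟩ := hσ
  have h2 := hF (IsLocalRing.residue A a)
  rw [← IsLocalRing.ResidueField.residue_smul, ← map_pow, ← sub_eq_zero, ← map_sub,
    IsLocalRing.residue_eq_zero_iff, ValuationSubring.valuation_lt_one_iff] at h2
  exact h2

end Dec

/-! ### the maps on the function fields in characteristic `ℓ` -/

section FbMaps

variable (k : Type) [Field k]

/-- the inclusion `k(X₀(N)) ⊆ k(X₀(N'))` -/
noncomputable def inclB {N N' : ℕ} [NeZero N] [NeZero N'] (h : N ∣ N') : FbN k N →ₐ[k] FbN k N' :=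
  IntermediateField.inclusion (full_degeneracyC_le k h)

@[simp] lemma coe_inclB {N N' : ℕ} [NeZero N] [NeZero N'] (h : N ∣ N') (f : FbN k N) :
    ((inclB k h f : FbN k N') : LaurentSeries k) = (f : LaurentSeries k) :=
  IntermediateField.coe_inclusion _ f

/-- `q ↦ q ^ r` as a map `k(X₀(N)) → k(X₀(N r))` -/
noncomputable def betaB (N r : ℕ) [NeZero r] : FbN k N →ₐ[k] FbN k (N * r) :=
  ((qExpandAlgHomC k r).comp (modularFunctionFieldFullC k N).val).codRestrict
    (modularFunctionFieldFullC k (N * r)).toSubalgebra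
    (fun x => full_degeneracyC_map_le k N r ⟨x, x.2, rfl⟩)

@[simp] lemma coe_betaB (N r : ℕ) [NeZero r] (f : FbN k N) :
    ((betaB k N r f : FbN k (N * r)) : LaurentSeries k) = qExpand k r (f : LaurentSeries k) := rfl

variable {k}

lemma coeffMap_mem_fullC (τ : k →+* k) (N : ℕ) {x : LaurentSeries k}
    (hx : x ∈ modularFunctionFieldFullC k N) : coeffMap τ x ∈ modularFunctionFieldFullC k N := by
  induction hx using IntermediateField.adjoin_induction with
  | mem y hy =>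
    obtain ⟨d, hd, hdN, rfl⟩ := hy
    rw [coeffMap_qExpand, coeffMap_jqModC]
    exact jqModCd_mem_full k N hdN
  | algebraMap c =>
    rw [coeffMap_algebraMap]
    exact IntermediateField.algebraMap_mem _ _
  | add x y _ _ hx hy => rw [map_add]; exact add_mem hx hy
  | inv x _ hx => rw [map_inv₀]; exact inv_mem hx
  | mul x y _ _ hx hy => rw [map_mul]; exact mul_mem hx hy

/-- the action of an endomorphism of `k` on the coefficients -/
noncomputable def galB (τ : k →+* k) (N : ℕ) : FbN k N →+* FbN k N :=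
  ((coeffMap τ).comp (modularFunctionFieldFullC k N).val.toRingHom).codRestrict
    (modularFunctionFieldFullC k N).toSubfield (fun x => coeffMap_mem_fullC τ N x.2)

@[simp] lemma coe_galB (τ : k →+* k) (N : ℕ) (f : FbN k N) :
    ((galB τ N f : FbN k N) : LaurentSeries k) = coeffMap τ (f : LaurentSeries k) := rfl

end FbMaps

/-! ### the reduction data of level `N` -/

section RDN

variable (N : ℕ) [NeZero N] {ℓ : ℕ} [Fact ℓ.Prime] (hℓN : ¬ ℓ ∣ N)
  (A : ValuationSubring Kb) (hA : A.LiesOverPrime ℓ)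
  {k : Type} [Field k] (π : A →+* k) (hπ : Function.Surjective π)

/-- `(deg)` holds at `j`, for every instance of `Hyp1`. -/
theorem hasDeg_xN_of_hyp1 {n : ℕ} {B : Fin n → LaurentSeries A}
    (H : Hyp1 π (modularFunctionFieldBar N) (modularFunctionFieldFullC k N) n (FAIg.jdT A N) B) :
    HasDeg Kb k H.ρ (xN N) := by
  obtain ⟨W, hW⟩ := exists_frickeBar N
  have : NeZero (N / 1) := ⟨by rw [Nat.div_one]; exact NeZero.ne N⟩
  have h1 : W (xN N) = Jd N (dvd_refl N) := by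
    have := hW 1 (one_dvd N)
    rw [xN, this]
    apply Subtype.ext
    show coeffEmb Kb (qExpand ℚ (N / 1) jq) = coeffEmb Kb (qExpand ℚ N jq)
    simp only [Nat.div_one]
  have h2 : H.yF = Jd N (dvd_refl N) := by
    apply Subtype.ext
    show M1.iotaA A (FAIg.jdT A N) = _
    rw [M1.Jd_val, M1.coeffMap_jdT']
  have h3 : M1.iotaA A (FAIg.jdT A 1) = ((xN N : FN N) : LaurentSeries Kb) := by
    rw [xN, M1.Jd_val, M1.coeffMap_jdT']
  have h3m : M1.iotaA A (FAIg.jdT A 1) ∈ modularFunctionFieldBar N := by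
    rw [h3]; exact (xN N).2
  have h4 : (⟨M1.iotaA A (FAIg.jdT A 1), h3m⟩ : FN N) = xN N := Subtype.ext h3
  have hx : xN N ∈ H.O := by
    rw [← h4]; exact H.iotaA_mem_O _ h3m
  refine hasDeg_of_aut H.redBase W (x := xN N) ?_ hx ?_
  · rw [h1, ← h2]
    exact H.hasDeg_yF
  · intro halg
    have h5 := halg.algebraMap (A := LaurentSeries k)
    have h6 : algebraMap (FbN k N) (LaurentSeries k) (ext0 H.O H.ρ (xN N)) = jqNModC k 1 := by
      rw [ext0_of_mem _ hx]
      have h7 := H.coe_ρ_iotaA _ h3m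
      have h8 : M1.redA A π (FAIg.jdT A 1) = jqNModC k 1 := by
        rw [M1.coeffMap_jdT', FAIg.jdT_eq, jqNModC]
      rw [← h8, ← h7]
      have h9 : (⟨xN N, hx⟩ : H.O) = ⟨⟨M1.iotaA A (FAIg.jdT A 1), h3m⟩, H.iotaA_mem_O _ h3m⟩ :=
        Subtype.ext h4.symm
      rw [h9]
      rfl
    rw [h6] at h5
    exact FAIg.transcendental_jqNModC k 1 h5

/-- **[RD]** the reduction data of level `N` (prime to `ℓ`): `O = FN N ∩ WS A π`, `ρ = redFun`. -/
noncomputable def RDN : RedData A π (FN N) (FbN k N) :=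
  (M1.exists_hyp1 N hℓN A hA π hπ).choose_spec.redData

variable {N}

lemma mem_RDN_O {f : FN N} :
    f ∈ (RDN N hℓN A hA π hπ).O ↔ (f : LaurentSeries Kb) ∈ WS A π := Iff.rfl

lemma coe_RDN_ρ (f : (RDN N hℓN A hA π hπ).O) :
    (((RDN N hℓN A hA π hπ).ρ f : FbN k N) : LaurentSeries k) =
      redFun A π ((f : FN N) : LaurentSeries Kb) := rfl

/-- two elements of `FbN` are equal iff their `q`-expansions are. -/
lemma RDN_ρ_eq {f : (RDN N hℓN A hA π hπ).O} {g : FbN k N}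
    (h : redFun A π ((f : FN N) : LaurentSeries Kb) = (g : LaurentSeries k)) :
    (RDN N hℓN A hA π hπ).ρ f = g := Subtype.ext h

variable (N)

theorem RDN_hasDeg : HasDeg Kb k (RDN N hℓN A hA π hπ).ρ (xN N) :=
  hasDeg_xN_of_hyp1 N A π (M1.exists_hyp1 N hℓN A hA π hπ).choose_spec

variable {N}

include hℓN hA hπ in
/-- every nonzero `f` is `c⁻¹ Y₁ / Y₂` with integral series `Y₁, Y₂` of nonzero reduction. -/
theorem RDN_exists_frac (f : FN N) (hf : f ≠ 0) :
    ∃ (c : Kb) (Y1 Y2 : LaurentSeries A), c ≠ 0 ∧ redA A π Y1 ≠ 0 ∧ redA A π Y2 ≠ 0 ∧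
      redA A π Y1 ∈ modularFunctionFieldFullC k N ∧ redA A π Y2 ∈ modularFunctionFieldFullC k N ∧
      HahnSeries.C c * (f : LaurentSeries Kb) * iotaA A Y2 = iotaA A Y1 :=
  (M1.exists_hyp1 N hℓN A hA π hπ).choose_spec.exists_frac f hf

/-- integral series -/
lemma iotaA_mem_RDN_O (Y : LaurentSeries A) (hY : iotaA A Y ∈ modularFunctionFieldBar N) :
    (⟨iotaA A Y, hY⟩ : FN N) ∈ (RDN N hℓN A hA π hπ).O := iotaA_mem_WS Y

lemma coe_RDN_ρ_iotaA (Y : LaurentSeries A) (hY : iotaA A Y ∈ modularFunctionFieldBar N) :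
    (((RDN N hℓN A hA π hπ).ρ ⟨⟨iotaA A Y, hY⟩, iotaA_mem_RDN_O hℓN A hA π hπ Y hY⟩ : FbN k N) :
      LaurentSeries k) = redA A π Y := by
  rw [coe_RDN_ρ]
  exact redFun_iotaA Y

/-! #### (COMP) -/

section comp

variable {N' : ℕ} [NeZero N'] (hℓN' : ¬ ℓ ∣ N')

lemma incl_mem_RDN_O (h : N ∣ N') {f : FN N} :
    incl h f ∈ (RDN N' hℓN' A hA π hπ).O ↔ f ∈ (RDN N hℓN A hA π hπ).O := by
  rw [mem_RDN_O, mem_RDN_O, coe_incl]

theorem RDN_ρ_incl (h : N ∣ N') (f : (RDN N hℓN A hA π hπ).O)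
    (h' : incl h (f : FN N) ∈ (RDN N' hℓN' A hA π hπ).O) :
    (RDN N' hℓN' A hA π hπ).ρ ⟨incl h (f : FN N), h'⟩ =
      inclB k h ((RDN N hℓN A hA π hπ).ρ f) := by
  apply Subtype.ext
  rw [coe_RDN_ρ, coe_inclB, coe_RDN_ρ]
  show redFun A π ((incl h (f : FN N) : FN N') : LaurentSeries Kb) = _
  rw [coe_incl]

variable (r : ℕ) [NeZero r] [NeZero (N * r)] (hℓNr : ¬ ℓ ∣ N * r)

lemma alpha_mem_RDN_O {f : FN N} :
    heckeAlphaBar Kb N r f ∈ (RDN (N * r) hℓNr A hA π hπ).O ↔ f ∈ (RDN N hℓN A hA π hπ).O := by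
  rw [mem_RDN_O, mem_RDN_O, coe_heckeAlphaBar]

theorem RDN_ρ_alpha (f : (RDN N hℓN A hA π hπ).O)
    (h' : heckeAlphaBar Kb N r (f : FN N) ∈ (RDN (N * r) hℓNr A hA π hπ).O) :
    (RDN (N * r) hℓNr A hA π hπ).ρ ⟨heckeAlphaBar Kb N r (f : FN N), h'⟩ =
      inclB k (dvd_mul_right N r) ((RDN N hℓN A hA π hπ).ρ f) := by
  apply Subtype.ext
  rw [coe_RDN_ρ, coe_inclB, coe_RDN_ρ]
  show redFun A π ((heckeAlphaBar Kb N r (f : FN N) : FN (N * r)) : LaurentSeries Kb) = _
  rw [coe_heckeAlphaBar]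

lemma beta_mem_RDN_O {f : FN N} (hf : f ∈ (RDN N hℓN A hA π hπ).O) :
    heckeBetaBar Kb N r f ∈ (RDN (N * r) hℓNr A hA π hπ).O := by
  rw [mem_RDN_O, coe_heckeBetaBar]
  exact (WS_qExpand r hf).1

theorem RDN_ρ_beta (f : (RDN N hℓN A hA π hπ).O)
    (h' : heckeBetaBar Kb N r (f : FN N) ∈ (RDN (N * r) hℓNr A hA π hπ).O) :
    (RDN (N * r) hℓNr A hA π hπ).ρ ⟨heckeBetaBar Kb N r (f : FN N), h'⟩ =
      betaB k N r ((RDN N hℓN A hA π hπ).ρ f) := by
  apply Subtype.ext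
  rw [coe_RDN_ρ, coe_betaB, coe_RDN_ρ]
  show redFun A π ((heckeBetaBar Kb N r (f : FN N) : FN (N * r)) : LaurentSeries Kb) = _
  rw [coe_heckeBetaBar]
  exact (WS_qExpand r f.2).2

end comp

/-! #### (GAL) -/

section gal

variable {σ : Kb ≃ₐ[ℚ] Kb}

/-- the Galois action on `FN N` -/
noncomputable abbrev galN (N : ℕ) (σ : Kb ≃ₐ[ℚ] Kb) : FN N ≃+* FN N :=
  arithmeticRingAut (modularFunctionFieldFull N) σ

lemma gal_mem_RDN_O (hσ : σ ∈ A.decompositionSubgroup ℚ) {f : FN N}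
    (hf : f ∈ (RDN N hℓN A hA π hπ).O) : galN N σ f ∈ (RDN N hℓN A hA π hπ).O := by
  obtain ⟨σk, hσk⟩ := exists_resHom hπ (σ : Kb →+* Kb)
    (fun a => FAUnram.mem_iff_of_mem_decomposition A hσ a)
  rw [mem_RDN_O, coe_arithmeticRingAut_apply]
  exact (WS_coeffMap (σ : Kb →+* Kb) _ σk hσk hf).1

theorem RDN_ρ_gal (hσ : σ ∈ A.decompositionSubgroup ℚ) (σk : k →+* k)
    (hσk : ∀ (a : A) (h : σ (a : Kb) ∈ A), σk (π a) = π ⟨σ (a : Kb), h⟩)
    (f : (RDN N hℓN A hA π hπ).O) (h' : galN N σ (f : FN N) ∈ (RDN N hℓN A hA π hπ).O) :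
    (RDN N hℓN A hA π hπ).ρ ⟨galN N σ (f : FN N), h'⟩ =
      galB σk N ((RDN N hℓN A hA π hπ).ρ f) := by
  apply Subtype.ext
  rw [coe_RDN_ρ, coe_galB, coe_RDN_ρ]
  show redFun A π ((galN N σ (f : FN N) : FN N) : LaurentSeries Kb) = _
  rw [coe_arithmeticRingAut_apply]
  exact (WS_coeffMap (σ : Kb →+* Kb)
    (fun a ha => FAUnram.mem_of_mem_decomposition A hσ ha) σk (fun a => hσk a _) f.2).2

/-- inertia acts trivially after reduction -/
theorem RDN_ρ_inertia (hσ : σ ∈ A.inertiaSubgroupIn ℚ)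
    (f : (RDN N hℓN A hA π hπ).O) (h' : galN N σ (f : FN N) ∈ (RDN N hℓN A hA π hπ).O) :
    (RDN N hℓN A hA π hπ).ρ ⟨galN N σ (f : FN N), h'⟩ = (RDN N hℓN A hA π hπ).ρ f := by
  rw [RDN_ρ_gal hℓN A hA π hπ (FAUnram.inertia_le_decomposition A hσ) (RingHom.id k)
    (fun a h => (map_inertia hπ hσ a h).symm) f h']
  apply Subtype.ext
  rw [coe_galB, coeffMap_id]

/-- a Frobenius acts as the `ℓ`-power map on the coefficients -/
theorem RDN_ρ_frobenius (hσ : A.IsFrobeniusAt σ ℓ) (S : k →+* k) (hS : ∀ x, S x = x ^ ℓ)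
    (f : (RDN N hℓN A hA π hπ).O) (h' : galN N σ (f : FN N) ∈ (RDN N hℓN A hA π hπ).O) :
    (RDN N hℓN A hA π hπ).ρ ⟨galN N σ (f : FN N), h'⟩ =
      galB S N ((RDN N hℓN A hA π hπ).ρ f) :=
  RDN_ρ_gal hℓN A hA π hπ hσ.mem_decompositionSubgroup S
    (fun a h => by rw [hS, map_frobenius hπ hσ a h]) f h'

end gal

end RDN

end FAG
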