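import Fermat.Agent.Gal.TwExist
import Fermat.Agent.Gal.HeckeSys
import Fermat.Agent.Gal.Port

/-! PROJECT G, [REAL] part 1: the relation `RealC p c f` between characters of `Γ₀(N)` of exponent
`p` and elements of the function field `ℂ(X₀(N))`; multiplicativity, uniqueness modulo `p`-th
powers, injectivity, and [D1]: the divisor of `f` is divisible by `p`. -/

set_option autoImplicit false

open UpperHalfPlane ModularForm Function CongruenceSubgroup FA24 AlgebraicCurve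
open scoped Manifold MatrixGroups

namespace FAG

variable {N : ℕ} [NeZero N]

/-- `f = U ^ p` for a nonzero function `U` transforming by the character `c`. -/
def RealC (p : ℕ) (c : ↥(Gamma0 N) →* ℂˣ) (f : FAGP.FN ℂ N) : Prop :=
  ∃ U : MN N, U ≠ 0 ∧ IsTw c U.1 ∧ ∃ g : RN N, g.1 = U.1 ^ p ∧ (f : LaurentSeries ℂ) = Lam g

lemma IsTw.mul {c c' : ↥(Gamma0 N) →* ℂˣ} {U U' : ℍ → ℂ} (h : IsTw c U) (h' : IsTw c' U') :
    IsTw (c * c') (U * U') := by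
  intro γ τ
  simp only [Pi.mul_apply, h γ τ, h' γ τ, MonoidHom.mul_apply, Units.val_mul]
  ring

lemma IsTw.one : IsTw (1 : ↥(Gamma0 N) →* ℂˣ) (1 : ℍ → ℂ) := by
  intro γ τ
  simp

lemma IsTw.pow_apply {c : ↥(Gamma0 N) →* ℂˣ} {U : ℍ → ℂ} (h : IsTw c U) (n : ℕ)
    (γ : ↥(Gamma0 N)) (τ : ℍ) : U ((γ : SL(2, ℤ)) • τ) ^ n = (c γ : ℂ) ^ n * U τ ^ n := by
  rw [h γ τ, mul_pow]

/-- an invariant element of `MN N` is a modular function. -/
lemma mem_RN_of_inv {U : MN N} (h : ∀ (γ : ↥(Gamma0 N)) (τ : ℍ), U.1 ((γ : SL(2, ℤ)) • τ) = U.1 τ) :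
    U.1 ∈ RN N :=
  ⟨fun γ hγ τ => h ⟨γ, hγ⟩ τ, U.2⟩

lemma coe_pow_eq_one {c : ↥(Gamma0 N) →* ℂˣ} {p : ℕ} (hc : ∀ γ, c γ ^ p = 1) (γ : ↥(Gamma0 N)) :
    (c γ : ℂ) ^ p = 1 := by
  rw [← Units.val_pow_eq_pow_val, hc γ, Units.val_one]

/-- (B) -/
lemma IsTw.pow_mem_RN {c : ↥(Gamma0 N) →* ℂˣ} {U : MN N} (h : IsTw c U.1) {p : ℕ}
    (hc : ∀ γ, c γ ^ p = 1) : U.1 ^ p ∈ RN N := by
  refine mem_RN_of_inv (U := U ^ p) fun γ τ => ?_
  show U.1 _ ^ p = U.1 τ ^ p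
  rw [h.pow_apply, coe_pow_eq_one hc, one_mul]

lemma RealC.ne_zero {p : ℕ} {c : ↥(Gamma0 N) →* ℂˣ} {f : FAGP.FN ℂ N} (h : RealC p c f) :
    f ≠ 0 := by
  obtain ⟨U, hU, -, g, hg, hf⟩ := h
  intro h0
  rw [h0] at hf
  have h1 : Lam g = 0 := hf.symm
  have h2 : g = 0 := Lam_injective (h1.trans (map_zero _).symm)
  have h3 : (U ^ p : MN N) = 0 := Subtype.ext (by
    show U.1 ^ p = 0
    rw [← hg, h2]; rfl)
  exact pow_ne_zero p hU h3

/-- existence -/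
theorem exists_realC {p : ℕ} (c : ↥(Gamma0 N) →* ℂˣ) (hp : ∀ γ, c γ ^ p = 1) (hn : ∀ γ, ‖(c γ : ℂ)‖ = 1)
    (hc : IsParCh c) : ∃ f : FAGP.FN ℂ N, RealC p c f := by
  obtain ⟨U, hU, hT⟩ := exists_tw c hn hc
  exact ⟨⟨Lam ⟨U.1 ^ p, hT.pow_mem_RN hp⟩, FAGP.Lam_mem_barK _⟩, U, hU, hT, _, rfl, rfl⟩

/-- multiplicativity -/
theorem RealC.mul {p : ℕ} {c c' : ↥(Gamma0 N) →* ℂˣ} {f f' : FAGP.FN ℂ N} (h : RealC p c f)
    (h' : RealC p c' f') : RealC p (c * c') (f * f') := by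
  obtain ⟨U, hU, hT, g, hg, hf⟩ := h
  obtain ⟨U', hU', hT', g', hg', hf'⟩ := h'
  refine ⟨U * U', mul_ne_zero hU hU', hT.mul hT', g * g', ?_, ?_⟩
  · show g.1 * g'.1 = (U.1 * U'.1) ^ p
    rw [hg, hg', mul_pow]
  · show (f : LaurentSeries ℂ) * (f' : LaurentSeries ℂ) = _
    rw [hf, hf', map_mul]

theorem RealC.one (p : ℕ) : RealC p (1 : ↥(Gamma0 N) →* ℂˣ) (1 : FAGP.FN ℂ N) :=
  ⟨1, one_ne_zero, IsTw.one, 1, (one_pow p).symm, (map_one Lam).symm⟩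

/-- (C): uniqueness modulo `p`-th powers. -/
theorem RealC.unique {p : ℕ} (hp : 0 < p) {c : ↥(Gamma0 N) →* ℂˣ} (hc : ∀ γ, c γ ^ p = 1)
    {f f' : FAGP.FN ℂ N} (h : RealC p c f) (h' : RealC p c f') :
    ∃ s : FAGP.FN ℂ N, s ≠ 0 ∧ f = f' * s ^ p := by
  have hf0 := h.ne_zero
  have hf0' := h'.ne_zero
  obtain ⟨U, hU, hT, g, hg, hf⟩ := h
  obtain ⟨U', hU', hT', g', hg', hf'⟩ := h'
  have h1 : ∀ (γ : ↥(Gamma0 N)) (τ : ℍ), (U * U' ^ (p - 1) : MN N).1 ((γ : SL(2, ℤ)) • τ) =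
      (U * U' ^ (p - 1) : MN N).1 τ := by
    intro γ τ
    show U.1 _ * U'.1 _ ^ (p - 1) = U.1 τ * U'.1 τ ^ (p - 1)
    rw [hT γ τ, hT'.pow_apply]
    have e : (c γ : ℂ) * (c γ : ℂ) ^ (p - 1) = 1 := by
      rw [← pow_succ', Nat.sub_add_cancel hp, coe_pow_eq_one hc]
    linear_combination (U.1 τ * U'.1 τ ^ (p - 1)) * e
  let V : RN N := ⟨_, mem_RN_of_inv h1⟩
  have h2 : V ^ p * g' = g * g' ^ p := by
    apply Subtype.ext
    show (U.1 * U'.1 ^ (p - 1)) ^ p * g'.1 = g.1 * g'.1 ^ p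
    rw [hg, hg', mul_pow, mul_assoc, ← pow_mul, ← pow_mul, ← pow_add]
    congr 2
    obtain ⟨q, rfl⟩ : ∃ q, p = q + 1 := ⟨p - 1, by omega⟩
    simp only [Nat.add_sub_cancel]
    ring
  let t : FAGP.FN ℂ N := ⟨Lam V, FAGP.Lam_mem_barK V⟩
  have h3 : t ^ p * f' = f * f' ^ p := by
    apply Subtype.ext
    show (Lam V) ^ p * (f' : LaurentSeries ℂ) = (f : LaurentSeries ℂ) * (f' : LaurentSeries ℂ) ^ p
    rw [hf, hf', ← map_pow, ← map_pow, ← map_mul, ← map_mul, h2]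
  have ht : t ≠ 0 := by
    intro h0
    rw [h0, zero_pow hp.ne', zero_mul] at h3
    exact mul_ne_zero hf0 (pow_ne_zero p hf0') h3.symm
  refine ⟨t / f', div_ne_zero ht hf0', ?_⟩
  rw [div_pow]
  field_simp
  rw [← h3]
  ring

/-- constants as a ring homomorphism. -/
def cstHom : ℂ →+* MN N where
  toFun := cstM
  map_one' := rfl
  map_mul' _ _ := rfl
  map_zero' := rfl
  map_add' _ _ := rfl

lemma cstHom_injective : Function.Injective (cstHom (N := N)) := by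
  intro a b h
  exact congrFun (congrArg Subtype.val h) UpperHalfPlane.I

/-- in `MN N`: `x ^ p = y ^ p` implies `x = w y` with a constant `w`. -/
lemma eq_cst_mul_of_pow_eq {p : ℕ} (hp : 0 < p) {x y : MN N} (h : x ^ p = y ^ p) :
    ∃ w : ℂ, x = cstM w * y := by
  have hζ : IsPrimitiveRoot (cstHom (N := N) (Complex.exp (2 * Real.pi * Complex.I / p))) p :=
    (Complex.isPrimitiveRoot_exp p hp.ne').map_of_injective cstHom_injective
  have h1 := hζ.pow_sub_pow_eq_prod_sub_mul x y hp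
  rw [h, sub_self] at h1
  obtain ⟨w, hw, h2⟩ := Finset.prod_eq_zero_iff.mp h1.symm
  rw [Polynomial.mem_nthRootsFinset hp] at hw
  have : NeZero p := ⟨hp.ne'⟩
  obtain ⟨i, -, rfl⟩ := hζ.eq_pow_of_pow_eq_one hw
  refine ⟨(Complex.exp (2 * Real.pi * Complex.I / p)) ^ i, ?_⟩
  rw [sub_eq_zero] at h2
  rw [h2, ← map_pow]
  rfl

/-- (D): injectivity. -/
theorem RealC.eq_one_of_pow {p : ℕ} (hp : 0 < p) {c : ↥(Gamma0 N) →* ℂˣ} {f : FAGP.FN ℂ N}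
    (h : RealC p c f) (s : FAGP.FN ℂ N) (hs : s ^ p = f) : c = 1 := by
  have hf0 := h.ne_zero
  obtain ⟨U, hU, hT, g, hg, hf⟩ := h
  obtain ⟨a, b, hb, hab⟩ := IsFractionRing.div_surjective (A := RN N) (FAGP.ThetaEquiv s)
  have hb0 : b ≠ 0 := nonZeroDivisors.ne_zero hb
  have hs1 : (s : LaurentSeries ℂ) * Lam b = Lam a := by
    rw [← FAGP.LamF_ThetaEquiv, ← hab, ← LamF_algebraMap, ← LamF_algebraMap, ← map_mul]
    congr 1
    have : algebraMap (RN N) (FR N) b ≠ 0 := by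
      simpa using hb0
    field_simp
  have h1 : g * b ^ p = a ^ p := by
    apply Lam_injective
    rw [map_mul, map_pow, map_pow, ← hf, ← hs1, mul_pow, ← hs]
    rfl
  have h2 : (U * inclM b) ^ p = (inclM a) ^ p := by
    apply Subtype.ext
    show (U.1 * b.1) ^ p = a.1 ^ p
    rw [mul_pow, ← hg]
    exact congrArg Subtype.val h1
  obtain ⟨w, hw⟩ := eq_cst_mul_of_pow_eq hp h2
  have hW : U * inclM b ≠ 0 := mul_ne_zero hU (by
    intro h0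
    exact hb0 (Subtype.ext (congrArg (fun x : MN N => x.1) h0)))
  obtain ⟨τ, hτ⟩ : ∃ τ, (U * inclM b : MN N).1 τ ≠ 0 := by
    by_contra hcon
    push Not at hcon
    exact hW (Subtype.ext (funext hcon))
  ext γ
  have e1 : (U * inclM b : MN N).1 ((γ : SL(2, ℤ)) • τ) = (c γ : ℂ) * (U * inclM b : MN N).1 τ := by
    show U.1 _ * b.1 _ = (c γ : ℂ) * (U.1 τ * b.1 τ)
    rw [hT γ τ, RN.inv b.2 γ.2]
    ring
  have e2 : (U * inclM b : MN N).1 ((γ : SL(2, ℤ)) • τ) = (U * inclM b : MN N).1 τ := by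
    rw [hw]
    show w * a.1 _ = w * a.1 τ
    rw [RN.inv a.2 γ.2]
  rw [e2] at e1
  have := mul_right_cancel₀ hτ ((one_mul _).trans e1)
  simpa using this.symm

lemma trace_conj_T_zpow (γ : SL(2, ℤ)) (n : ℤ) :
    ((γ * ModularGroup.T ^ n * γ⁻¹ : SL(2, ℤ)) : Matrix (Fin 2) (Fin 2) ℤ).trace = 2 := by
  have e1 : ((γ * ModularGroup.T ^ n * γ⁻¹ : SL(2, ℤ)) : Matrix (Fin 2) (Fin 2) ℤ) =
      (γ : Matrix (Fin 2) (Fin 2) ℤ) * ((ModularGroup.T ^ n : SL(2, ℤ)) :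
        Matrix (Fin 2) (Fin 2) ℤ) * ((γ⁻¹ : SL(2, ℤ)) : Matrix (Fin 2) (Fin 2) ℤ) := rfl
  rw [e1, Matrix.trace_mul_comm, ← Matrix.mul_assoc, sl_inv_mul, Matrix.one_mul,
    ModularGroup.coe_T_zpow, Matrix.trace_fin_two]
  simp

lemma sig_ne_zero (s : SL(2, ℤ)) {U : MN N} (hU : U ≠ 0) : sig s U ≠ 0 := by
  intro h
  apply hU
  apply Subtype.ext
  funext τ
  have h1 := congrFun (congrArg (fun x : MN N => x.1) h) (s • τ)
  simp only [sig_apply, inv_smul_smul] at h1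
  exact h1

/-- **[D1]**: the divisor of `U ^ p` is divisible by `p`. -/
theorem RealC.dvd_ord {p : ℕ} {c : ↥(Gamma0 N) →* ℂˣ} (hpar : IsParCh c)
    (hfin : ∀ γ : ↥(Gamma0 N), γ ^ 12 = 1 → c γ = 1) {f : FAGP.FN ℂ N} (h : RealC p c f)
    (v : Place ℂ (FAGP.FN ℂ N)) : (p : ℤ) ∣ v.ord f := by
  have hf0 := h.ne_zero
  obtain ⟨U, hU, hT, g, hg, hf⟩ := h
  obtain ⟨e, s, S₀, m, k, hS₀, hm, hfix, hs, -, H3, hord⟩ := FAGP.sharpBranch_all v
  have hfe : f = FAGP.ThetaEquiv.symm (algebraMap (RN N) (FR N) g) := by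
    apply Subtype.ext
    rw [FAGP.coe_ThetaEquiv_symm, LamF_algebraMap, hf]
  set r : SL(2, ℤ) := (rep k)⁻¹ with hr
  set G : MN N := sig (rep k) U with hG
  have hG0 : G ≠ 0 := sig_ne_zero _ hU
  have hGp : trnM k g = G ^ p := by
    apply Subtype.ext
    funext τ
    show g.1 ((rep k)⁻¹ • τ) = U.1 ((rep k)⁻¹ • τ) ^ p
    rw [hg]
    rfl
  have hmem : r * (s ^ m)⁻¹ * r⁻¹ ∈ Gamma0 N := by
    have h1 : ((s ^ m * rep k : SL(2, ℤ)) : XN N) = ((rep k : SL(2, ℤ)) : XN N) := by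
      have h2 : s ^ m • ((rep k : SL(2, ℤ)) : XN N) = ((rep k : SL(2, ℤ)) : XN N) := by
        rw [mk_rep]; exact hfix
      exact h2
    rw [QuotientGroup.eq, mul_inv_rev] at h1
    rw [hr, inv_inv]
    exact h1
  have hc1 : c ⟨_, hmem⟩ = 1 := by
    rcases hs with hs | hs
    · apply hpar
      show ((r * (s ^ m)⁻¹ * r⁻¹ : SL(2, ℤ)) : Matrix (Fin 2) (Fin 2) ℤ).trace ^ 2 = 4
      have e : (s ^ m)⁻¹ = ModularGroup.T ^ (-(m : ℤ)) := by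
        rw [hs, zpow_neg, zpow_natCast]
      rw [e, trace_conj_T_zpow]
      norm_num
    · apply hfin
      apply Subtype.ext
      show (r * (s ^ m)⁻¹ * r⁻¹) ^ 12 = 1
      rw [conj_pow, inv_pow, ← pow_mul, mul_comm, pow_mul, hs, one_pow, inv_one, mul_one,
        mul_inv_cancel]
  have hsig : sig (s ^ m) G = G := by
    apply Subtype.ext
    funext τ
    show U.1 ((rep k)⁻¹ • (s ^ m)⁻¹ • τ) = U.1 ((rep k)⁻¹ • τ)
    have h1 := hT ⟨_, hmem⟩ ((rep k)⁻¹ • τ)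
    rw [hc1, Units.val_one, one_mul] at h1
    rw [← h1]
    have e : r • (s ^ m)⁻¹ • τ = (r * (s ^ m)⁻¹ * r⁻¹) • r • τ := by
      rw [mul_smul, mul_smul, inv_smul_smul]
    exact congrArg U.1 e
  obtain ⟨t, ht⟩ := H3 G m hG0 hsig
  have h1 := hord f hf0
  have h2 : FAGP.br e k f = (e.ε G) ^ p := by
    rw [hfe, FAGP.br_ThetaEquiv_symm, hGp, map_pow]
  rw [h2, HahnSeries.order_pow, nsmul_eq_mul] at h1
  refine ⟨t, ?_⟩
  have hS : (S₀ : ℤ) ≠ 0 := by exact_mod_cast hS₀.ne'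
  apply mul_left_cancel₀ hS
  rw [← h1]
  linear_combination (p : ℤ) * ht

end FAG
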