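import Fermat.Agent.Gal.RealH
import Fermat.Agent.Gal.HeckeOrb

/-! PROJECT T, [T-GEN]: the realisation relation for classes with values in `ZMod m`. -/

set_option autoImplicit false

open UpperHalfPlane ModularForm Function CongruenceSubgroup FA24 AlgebraicCurve ModularCurve
open ModularCurve.Period
open scoped Manifold MatrixGroups

namespace FAG

/-- `x ↦ ζ_m ^ x` on `ZMod m`. -/
noncomputable def eZ (m : ℕ) [NeZero m] : ZMod m →+ Additive ℂˣ :=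
  ZMod.lift m ⟨zmultiplesHom (Additive ℂˣ) (Additive.ofMul (zetaP m)), by
    have h := (zetaP_isPrimitiveRoot (Nat.pos_of_ne_zero (NeZero.ne m))).pow_eq_one
    rw [zmultiplesHom_apply, natCast_zsmul, ← ofMul_pow, h, ofMul_one]⟩

lemma eZ_intCast (m : ℕ) [NeZero m] (k : ℤ) :
    (eZ m (k : ZMod m)).toMul = zetaP m ^ k := by
  rw [eZ, ZMod.lift_coe]
  rfl

lemma eZ_injective (m : ℕ) [NeZero m] : Function.Injective (eZ m) := by
  rw [injective_iff_map_eq_zero]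
  intro x hx
  obtain ⟨k, rfl⟩ := ZMod.intCast_surjective x
  have h1 : zetaP m ^ k = 1 := by
    rw [← eZ_intCast, hx]
    rfl
  rw [(zetaP_isPrimitiveRoot (Nat.pos_of_ne_zero (NeZero.ne m))).zpow_eq_one_iff_dvd] at h1
  exact (ZMod.intCast_zmod_eq_zero_iff_dvd k m).mpr h1

lemma eZ_surj (m : ℕ) [NeZero m] (z : ℂˣ) (hz : z ^ m = 1) : ∃ x : ZMod m, (eZ m x).toMul = z := by
  have h1 : IsPrimitiveRoot (zetaP m : ℂ) m :=
    IsPrimitiveRoot.coe_units_iff.mpr (zetaP_isPrimitiveRoot (Nat.pos_of_ne_zero (NeZero.ne m)))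
  have h2 : (z : ℂ) ^ m = 1 := by
    rw [← Units.val_pow_eq_pow_val, hz, Units.val_one]
  obtain ⟨i, -, hi⟩ := h1.eq_pow_of_pow_eq_one h2
  refine ⟨((i : ℤ) : ZMod m), ?_⟩
  rw [eZ_intCast, zpow_natCast]
  apply Units.ext
  rw [Units.val_pow_eq_pow_val, hi]

variable {N : ℕ}

/-- the character `γ ↦ ζ_m ^ χ γ`. -/
noncomputable def chiZ (m : ℕ) [NeZero m] (χ : Additive ↥(Gamma0 N) →+ ZMod m) :
    ↥(Gamma0 N) →* ℂˣ :=
  MonoidHom.toAdditive.symm ((eZ m).comp χ)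

lemma chiZ_apply (m : ℕ) [NeZero m] (χ : Additive ↥(Gamma0 N) →+ ZMod m) (γ : ↥(Gamma0 N)) :
    chiZ m χ γ = (eZ m (χ (Additive.ofMul γ))).toMul := rfl

lemma chiZ_pow (m : ℕ) [NeZero m] (χ : Additive ↥(Gamma0 N) →+ ZMod m) (γ : ↥(Gamma0 N)) :
    chiZ m χ γ ^ m = 1 := by
  rw [chiZ_apply]
  obtain ⟨k, hk⟩ := ZMod.intCast_surjective (χ (Additive.ofMul γ))
  rw [← hk, eZ_intCast, ← zpow_natCast, ← zpow_mul, mul_comm, zpow_mul, zpow_natCast,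
    (zetaP_isPrimitiveRoot (Nat.pos_of_ne_zero (NeZero.ne m))).pow_eq_one, one_zpow]

lemma norm_chiZ (m : ℕ) [NeZero m] (χ : Additive ↥(Gamma0 N) →+ ZMod m) (γ : ↥(Gamma0 N)) :
    ‖(chiZ m χ γ : ℂ)‖ = 1 := by
  apply Complex.norm_eq_one_of_pow_eq_one (n := m) _ (NeZero.ne m)
  rw [← Units.val_pow_eq_pow_val, chiZ_pow, Units.val_one]

lemma chiZ_add (m : ℕ) [NeZero m] (χ χ' : Additive ↥(Gamma0 N) →+ ZMod m) :
    chiZ m (χ + χ') = chiZ m χ * chiZ m χ' := by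
  ext γ
  simp only [chiZ_apply, AddMonoidHom.add_apply, map_add, toMul_add, MonoidHom.mul_apply]

lemma chiZ_zero (m : ℕ) [NeZero m] : chiZ m (0 : Additive ↥(Gamma0 N) →+ ZMod m) = 1 := by
  ext γ
  simp [chiZ_apply]

lemma chiZ_injective (m : ℕ) [NeZero m] :
    Function.Injective (chiZ m : (Additive ↥(Gamma0 N) →+ ZMod m) → _) := by
  intro χ χ' h
  ext γ
  apply eZ_injective m
  have := DFunLike.congr_fun h γ
  rw [chiZ_apply, chiZ_apply] at this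
  exact Additive.toMul.injective this

lemma chiZ_eq_one_iff (m : ℕ) [NeZero m] (χ : Additive ↥(Gamma0 N) →+ ZMod m) (γ : ↥(Gamma0 N)) :
    chiZ m χ γ = 1 ↔ χ (Additive.ofMul γ) = 0 := by
  rw [chiZ_apply]
  constructor
  · intro h
    apply eZ_injective m
    rw [map_zero]
    exact Additive.toMul.injective h
  · intro h
    rw [h, map_zero]
    rfl

/-- every character of exponent `m` is a `chiZ`. -/
lemma exists_chiZ_eq (m : ℕ) [NeZero m] (c : ↥(Gamma0 N) →* ℂˣ) (hc : ∀ γ, c γ ^ m = 1) :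
    ∃ χ : Additive ↥(Gamma0 N) →+ ZMod m, chiZ m χ = c := by
  choose x hx using fun γ => eZ_surj m (c γ) (hc γ)
  refine ⟨{ toFun := fun γ => x γ.toMul
            map_zero' := ?_
            map_add' := fun a b => ?_ }, ?_⟩
  · apply eZ_injective m
    apply Additive.toMul.injective
    show (eZ m (x 1)).toMul = (eZ m 0).toMul
    rw [hx, _root_.map_one, _root_.map_zero]
    rfl
  · apply eZ_injective m
    apply Additive.toMul.injective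
    show (eZ m (x (a.toMul * b.toMul))).toMul = (eZ m (x a.toMul + x b.toMul)).toMul
    rw [hx, _root_.map_add (eZ m), toMul_add, hx, hx, _root_.map_mul]
  · ext γ
    rw [chiZ_apply]
    exact congrArg Units.val (hx γ)

/-- reduction of integral classes. -/
lemma chiC_eq_chiZ [NeZero N] (m : ℕ) [NeZero m] (χ : Additive ↥(Gamma0 N) →+ ℤ) :
    chiC m χ = chiZ m ((Int.castAddHom (ZMod m)).comp χ) := by
  ext γ
  rw [chiC_apply, chiZ_apply]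
  simp only [AddMonoidHom.coe_comp, Function.comp_apply, Int.coe_castAddHom]
  rw [eZ_intCast]

lemma heckeMul_chiZ (m : ℕ) [NeZero m] {ℓ : ℕ} (hℓ : ℓ.Prime) (hN : ¬ ℓ ∣ N)
    (χ : Additive ↥(Gamma0 N) →+ ZMod m) :
    (hsys N hℓ hN).heckeMul (chiZ m χ) = chiZ m ((hsys N hℓ hN).heckeAdd χ) := by
  ext γ
  rw [HSys.heckeMul_apply, chiZ_apply, HSys.heckeAdd_apply, map_sum, toMul_sum]
  rfl

/-- `ζ_{m'} ^ (m'/m) = ζ_m`. -/
lemma zetaP_pow_div {m d : ℕ} (hm : 0 < m) (hd : 0 < d) : zetaP (m * d) ^ d = zetaP m := by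
  apply Units.ext
  rw [Units.val_pow_eq_pow_val, coe_zetaP, coe_zetaP, ← Complex.exp_nat_mul]
  congr 1
  have h1 : (m : ℂ) ≠ 0 := by exact_mod_cast hm.ne'
  have h2 : (d : ℂ) ≠ 0 := by exact_mod_cast hd.ne'
  push_cast
  field_simp

lemma chiZ_pow_div {m d : ℕ} [NeZero m] [NeZero d] [NeZero (m * d)]
    (χ : Additive ↥(Gamma0 N) →+ ZMod (m * d)) (γ : ↥(Gamma0 N)) :
    chiZ (m * d) χ γ ^ d =
      chiZ m ((ZMod.castHom (dvd_mul_right m d) (ZMod m)).toAddMonoidHom.comp χ) γ := by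
  rw [chiZ_apply, chiZ_apply]
  obtain ⟨k, hk⟩ := ZMod.intCast_surjective (χ (Additive.ofMul γ))
  simp only [AddMonoidHom.coe_comp, Function.comp_apply, RingHom.toAddMonoidHom_eq_coe,
    AddMonoidHom.coe_coe]
  have e1 : (ZMod.castHom (dvd_mul_right m d) (ZMod m)) ((k : ZMod (m * d))) = (k : ZMod m) :=
    map_intCast _ k
  rw [← hk, e1, eZ_intCast, eZ_intCast,
    ← zetaP_pow_div (Nat.pos_of_ne_zero (NeZero.ne m)) (Nat.pos_of_ne_zero (NeZero.ne d)),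
    ← zpow_natCast, ← zpow_natCast, ← zpow_mul, ← zpow_mul, mul_comm k]

/-- `Lam_m`: parabolic classes with values in `ZMod m` vanishing on the elements of finite
order. -/
def LamM (m N : ℕ) : Submodule (ZMod m) (Additive ↥(Gamma0 N) →+ ZMod m) where
  carrier := {χ | IsParabolicHom (Gamma0 N) χ ∧
    ∀ γ : ↥(Gamma0 N), γ ^ 12 = 1 → χ (Additive.ofMul γ) = 0}
  zero_mem' := ⟨fun _ _ => rfl, fun _ _ => rfl⟩
  add_mem' := by
    rintro χ χ' ⟨h1, h2⟩ ⟨h1', h2'⟩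
    refine ⟨fun γ hγ => ?_, fun γ hγ => ?_⟩
    · rw [AddMonoidHom.add_apply, h1 γ hγ, h1' γ hγ, add_zero]
    · rw [AddMonoidHom.add_apply, h2 γ hγ, h2' γ hγ, add_zero]
  smul_mem' := by
    rintro a χ ⟨h1, h2⟩
    refine ⟨fun γ hγ => ?_, fun γ hγ => ?_⟩
    · rw [AddMonoidHom.smul_apply, h1 γ hγ, smul_zero]
    · rw [AddMonoidHom.smul_apply, h2 γ hγ, smul_zero]

lemma mem_LamM {m N : ℕ} {χ : Additive ↥(Gamma0 N) →+ ZMod m} :
    χ ∈ LamM m N ↔ IsParabolicHom (Gamma0 N) χ ∧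
      ∀ γ : ↥(Gamma0 N), γ ^ 12 = 1 → χ (Additive.ofMul γ) = 0 := Iff.rfl

/-- `T_ℓ` on `Lam_m`. -/
noncomputable def heckeLamM (m N : ℕ) {ℓ : ℕ} (hℓ : ℓ.Prime) (hN : ¬ ℓ ∣ N) :
    LamM m N →ₗ[ZMod m] LamM m N :=
  ((hsys N hℓ hN).heckeLin (ZMod m) (ZMod m)).restrict fun _ hχ =>
    ⟨heckeAdd_isParabolicHom' N hℓ hN hχ.1, heckeAdd_eq_zero_of_finOrder N hℓ hN hχ.2⟩

lemma coe_heckeLamM (m N : ℕ) {ℓ : ℕ} (hℓ : ℓ.Prime) (hN : ¬ ℓ ∣ N) (χ : LamM m N) :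
    (heckeLamM m N hℓ hN χ : Additive ↥(Gamma0 N) →+ ZMod m) = (hsys N hℓ hN).heckeAdd χ := rfl

/-- reduction of an integral parabolic class. -/
lemma cast_mem_LamM (m : ℕ) {χ : Additive ↥(Gamma0 N) →+ ℤ} (hχ : IsParabolicHom (Gamma0 N) χ) :
    (Int.castAddHom (ZMod m)).comp χ ∈ LamM m N := by
  refine ⟨fun γ hγ => ?_, fun γ hγ => ?_⟩
  · simp [hχ γ hγ]
  · have h1 : (12 : ℕ) • χ (Additive.ofMul γ) = 0 := by
      rw [← map_nsmul, ← ofMul_pow, hγ, ofMul_one, map_zero]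
    have h2 : χ (Additive.ofMul γ) = 0 := by simpa using h1
    simp [h2]

/-- transition maps. -/
lemma castHom_mem_LamM {m m' : ℕ} (h : m ∣ m') {χ : Additive ↥(Gamma0 N) →+ ZMod m'}
    (hχ : χ ∈ LamM m' N) : (ZMod.castHom h (ZMod m)).toAddMonoidHom.comp χ ∈ LamM m N := by
  refine ⟨fun γ hγ => ?_, fun γ hγ => ?_⟩
  · simp [hχ.1 γ hγ]
  · simp [hχ.2 γ hγ]

variable [NeZero N]

/-- **the realisation relation for `ZMod m`-valued classes.** -/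
def RealZ (m : ℕ) [NeZero m] (χ : Additive ↥(Gamma0 N) →+ ZMod m) (f : FAGP.FN ℂ N) : Prop :=
  RealC m (chiZ m χ) f

variable {m : ℕ} [NeZero m]

theorem RealZ.ne_zero {χ : Additive ↥(Gamma0 N) →+ ZMod m} {f : FAGP.FN ℂ N}
    (h : RealZ m χ f) : f ≠ 0 := RealC.ne_zero h

theorem exists_realZ {χ : Additive ↥(Gamma0 N) →+ ZMod m}
    (hχ : IsParabolicHom (Gamma0 N) χ) : ∃ f : FAGP.FN ℂ N, RealZ m χ f :=
  exists_realC _ (chiZ_pow m χ) (norm_chiZ m χ)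
    (fun γ hγ => (chiZ_eq_one_iff m χ γ).mpr (hχ γ hγ))

theorem RealZ.mul {χ χ' : Additive ↥(Gamma0 N) →+ ZMod m} {f f' : FAGP.FN ℂ N}
    (h : RealZ m χ f) (h' : RealZ m χ' f') : RealZ m (χ + χ') (f * f') := by
  rw [RealZ, chiZ_add]
  exact RealC.mul h h'

theorem RealZ.zero_one : RealZ m (0 : Additive ↥(Gamma0 N) →+ ZMod m) (1 : FAGP.FN ℂ N) := by
  rw [RealZ, chiZ_zero]
  exact RealC.one m

theorem RealZ.unique {χ : Additive ↥(Gamma0 N) →+ ZMod m} {f f' : FAGP.FN ℂ N}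
    (h : RealZ m χ f) (h' : RealZ m χ f') : ∃ s : FAGP.FN ℂ N, s ≠ 0 ∧ f = f' * s ^ m :=
  RealC.unique (Nat.pos_of_ne_zero (NeZero.ne m)) (chiZ_pow m χ) h h'

theorem RealZ.eq_zero_of_pow {χ : Additive ↥(Gamma0 N) →+ ZMod m} {f : FAGP.FN ℂ N}
    (h : RealZ m χ f) (s : FAGP.FN ℂ N) (hs : s ^ m = f) : χ = 0 := by
  apply chiZ_injective m
  rw [chiZ_zero]
  exact RealC.eq_one_of_pow (Nat.pos_of_ne_zero (NeZero.ne m)) h s hs

/-- multiplying by an `m`-th power does not change the class. -/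
theorem RealZ.dvd_ord {χ : Additive ↥(Gamma0 N) →+ ZMod m} (hχ : χ ∈ LamM m N)
    {f : FAGP.FN ℂ N} (h : RealZ m χ f) (v : Place ℂ (FAGP.FN ℂ N)) : (m : ℤ) ∣ v.ord f :=
  RealC.dvd_ord (fun γ hγ => (chiZ_eq_one_iff m χ γ).mpr (hχ.1 γ hγ))
    (fun γ hγ => (chiZ_eq_one_iff m χ γ).mpr (hχ.2 γ hγ)) h v

theorem RealZ.hecke {ℓ : ℕ} [NeZero ℓ] (hℓ : ℓ.Prime) (hN : ¬ ℓ ∣ N)
    {χ : Additive ↥(Gamma0 N) →+ ZMod m} (hχ : IsParabolicHom (Gamma0 N) χ) {f : FAGP.FN ℂ N}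
    (h : RealZ m χ f) : RealZ m ((hsys N hℓ hN).heckeAdd χ) (heckeMK ℂ N ℓ f) := by
  have e := heckeMul_chiZ m hℓ hN χ
  have h1 := RealC.hecke hℓ hN (p := m) (c := chiZ m χ) (f := f)
    (by
      rw [e]
      exact fun γ hγ => (chiZ_eq_one_iff m _ γ).mpr (heckeAdd_isParabolicHom' N hℓ hN hχ γ hγ))
    (by rw [e]; exact chiZ_pow m _) h
  rw [e] at h1
  exact h1

/-- comparison with the integral relation. -/
theorem real_iff_realZ {χ : Additive ↥(Gamma0 N) →+ ℤ} {f : FAGP.FN ℂ N} :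
    Real m χ f ↔ RealZ m ((Int.castAddHom (ZMod m)).comp χ) f := by
  rw [Real, RealZ, chiC_eq_chiZ]

/-- **compatibility with the transition maps** `m ∣ m'`. -/
theorem RealZ.of_mul {d : ℕ} [NeZero d] [NeZero (m * d)]
    {χ : Additive ↥(Gamma0 N) →+ ZMod (m * d)} {f : FAGP.FN ℂ N} (h : RealZ (m * d) χ f) :
    RealZ m ((ZMod.castHom (dvd_mul_right m d) (ZMod m)).toAddMonoidHom.comp χ) f := by
  obtain ⟨U, hU, hT, g, hg, hf⟩ := h
  refine ⟨U ^ d, pow_ne_zero d hU, fun γ τ => ?_, g, ?_, hf⟩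
  · show U.1 _ ^ d = _ * U.1 τ ^ d
    rw [hT.pow_apply, ← chiZ_pow_div, Units.val_pow_eq_pow_val]
  · show g.1 = (U.1 ^ d) ^ m
    rw [hg, ← pow_mul, mul_comm]

/-- a twisted function with a character of exponent `m` gives a realisation. -/
theorem exists_realZ_of_isTw {c : ↥(Gamma0 N) →* ℂˣ} (hc : ∀ γ, c γ ^ m = 1) (hpar : IsParCh c)
    (hfin : ∀ γ : ↥(Gamma0 N), γ ^ 12 = 1 → c γ = 1) {f : FAGP.FN ℂ N} (h : RealC m c f) :
    ∃ χ ∈ LamM m N, RealZ m χ f := by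
  obtain ⟨χ, rfl⟩ := exists_chiZ_eq m c hc
  exact ⟨χ, ⟨fun γ hγ => (chiZ_eq_one_iff m χ γ).mp (hpar γ hγ),
    fun γ hγ => (chiZ_eq_one_iff m χ γ).mp (hfin γ hγ)⟩, h⟩

end FAG
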