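import Fermat.Statements.S29
import Fermat.Statements.S42
import Fermat.Agent.Maz.FreyTors

/-!
# S42 from S29
-/

set_option autoImplicit false

open WeierstrassCurve WeierstrassCurve.Affine WeierstrassCurve.Affine.Point Polynomial

namespace FAG

/-- the statement of S29. -/
def S29Statement : Prop :=
  ∀ {N : ℕ} {g : CuspForm (CongruenceSubgroup.Gamma0 N) 2} (_ : g.IsNormalizedEigenform)
    {p : ℕ} (_ : p.Prime) {k : Type} [Field k] [CharP k p]
    (φ : integralClosure ℤ ℂ →+* k),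
    ∃ ρ : ResidualGaloisRep k, ρ.IsAttachedTo g φ ∧
      ∀ ℓ : ℕ, ℓ.Prime → ¬ ℓ ∣ N * p → ρ.IsUnramifiedAt ℓ

theorem trace_of_charpoly {K V : Type*} [Field K] [AddCommGroup V] [Module K V]
    [Module.Finite K V] (hV : Module.finrank K V = 2) (f : Module.End K V) (a d : K)
    (h : LinearMap.charpoly f = X ^ 2 - C a * X + C d) : LinearMap.trace K V f = a := by
  let b := Module.finBasisOfFinrankEq K V hV
  rw [LinearMap.trace_eq_matrix_trace K b, Matrix.trace_eq_neg_charpoly_coeff,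
    LinearMap.charpoly_toMatrix, h]
  simp [coeff_C]

theorem det_of_charpoly {K V : Type*} [Field K] [AddCommGroup V] [Module K V]
    [Module.Finite K V] (hV : Module.finrank K V = 2) (f : Module.End K V) (a d : K)
    (h : LinearMap.charpoly f = X ^ 2 - C a * X + C d) : LinearMap.det f = d := by
  rw [LinearMap.det_eq_sign_charpoly_coeff, h, hV]
  simp

theorem exists_level_point (W : Affine ℚ) (T : (W⁄(AlgebraicClosure ℚ)).Point) :
    ∃ E : IntermediateField ℚ (AlgebraicClosure ℚ), FiniteDimensional ℚ E ∧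
      ∀ σ : AlgebraicClosure ℚ ≃ₐ[ℚ] AlgebraicClosure ℚ, (∀ x ∈ E, σ x = x) → σ • T = T := by
  have halg : Algebra.IsAlgebraic ℚ (AlgebraicClosure ℚ) := AlgebraicClosure.isAlgebraic ℚ
  rcases T with _ | ⟨x, y, h⟩
  · exact ⟨⊥, inferInstance, fun σ _ => rfl⟩
  · refine ⟨IntermediateField.adjoin ℚ {x, y}, ?_, fun σ hσ => ?_⟩
    · exact IntermediateField.finiteDimensional_adjoin
        (fun z _ => (Algebra.IsAlgebraic.isAlgebraic z).isIntegral)
    · have hx : σ x = x := hσ x (IntermediateField.subset_adjoin ℚ _ (by simp))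
      have hy : σ y = y := hσ y (IntermediateField.subset_adjoin ℚ _ (by simp))
      rw [algEquiv_smul_def]
      simp [Point.map, hx, hy]

theorem exists_level_frey (P : FreyPackage) :
    ∃ E : IntermediateField ℚ (AlgebraicClosure ℚ), FiniteDimensional ℚ E ∧
      ∀ σ : AlgebraicClosure ℚ ≃ₐ[ℚ] AlgebraicClosure ℚ, (∀ x ∈ E, σ x = x) →
        galoisRepModuleEnd (S := ℚ) (K := AlgebraicClosure ℚ) P.freyCurve P.p σ = 1 := by
  have hfin := FA13.frey_finite P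
  choose E hE1 hE2 using fun T : Submodule.torsionBy ℤ (P.freyCurve⁄(AlgebraicClosure ℚ)).Point P.p =>
    exists_level_point P.freyCurve T.1
  refine ⟨⨆ T, E T, IntermediateField.finiteDimensional_iSup_of_finite, fun σ hσ => ?_⟩
  ext T : 1
  rw [galoisRepModuleEnd_apply]
  refine Subtype.ext ?_
  exact hE2 T σ fun x hx => hσ x ((le_iSup E T) hx)

theorem S42_of_S29 (h29 : S29Statement) (P : FreyPackage) :
    ∀ M : ℕ, 0 < M → P.EigenformResidualAttachmentAt M := by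
  intro M _ g hg 𝔪 h𝔪 hp𝔪
  have : Algebra.IsAlgebraic ℚ (AlgebraicClosure ℚ) := AlgebraicClosure.isAlgebraic ℚ
  have : IsAlgClosure ℚ (AlgebraicClosure ℚ) := ⟨inferInstance, inferInstance⟩
  have : Normal ℚ (AlgebraicClosure ℚ) := IsAlgClosure.normal ℚ (AlgebraicClosure ℚ)
  let _ : Field (integralClosure ℤ ℂ ⧸ 𝔪) := Ideal.Quotient.field 𝔪
  have hchar : CharP (integralClosure ℤ ℂ ⧸ 𝔪) P.p := by
    rw [CharP.charP_iff_prime_eq_zero P.pp, ← map_natCast (Ideal.Quotient.mk 𝔪),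
      Ideal.Quotient.eq_zero_iff_mem]
    exact hp𝔪
  obtain ⟨ρ, hatt, -⟩ := h29 hg P.pp (Ideal.Quotient.mk 𝔪)
  obtain ⟨L₁, hL₁, hρ⟩ := ρ.factorsThroughFiniteLevel
  obtain ⟨L₂, hL₂, hE⟩ := exists_level_frey P
  let F : IntermediateField ℚ (AlgebraicClosure ℚ) :=
    IntermediateField.normalClosure ℚ (↥(L₁ ⊔ L₂)) (AlgebraicClosure ℚ)
  have hFfin : FiniteDimensional ℚ F := inferInstance
  have hFnorm : Normal ℚ F := normalClosure.normal ℚ (↥(L₁ ⊔ L₂)) (AlgebraicClosure ℚ)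
  have hle : L₁ ⊔ L₂ ≤ F := IntermediateField.le_normalClosure _
  have hker : ∀ σ : AlgebraicClosure ℚ ≃ₐ[ℚ] AlgebraicClosure ℚ,
      σ ∈ (AlgEquiv.restrictNormalHom (F := ℚ) (K₁ := AlgebraicClosure ℚ) F).ker →
      ∀ x ∈ F, σ x = x := by
    intro σ hσ x hx
    have h1 := AlgEquiv.restrictNormal_commutes σ F ⟨x, hx⟩
    have h2 : σ.restrictNormal F = 1 := hσ
    rw [h2] at h1
    exact h1.symm
  refine ⟨integralClosure ℤ ℂ ⧸ 𝔪, inferInstance, ZMod.algebra _ P.p, ρ.V, inferInstance,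
    inferInstance, ρ.ρ, Ideal.Quotient.mk 𝔪, F, inferInstance, ⟨⟩, ⟨⟩, inferInstance,
    inferInstance, ?_, ρ.finrank_eq, ?_, ?_, ?_⟩
  · rw [Ideal.mk_ker]
  · intro σ hσ
    have h3 := hker σ hσ
    refine ⟨?_, ?_⟩
    · exact hE σ fun x hx => h3 x (hle ((le_sup_right : L₂ ≤ L₁ ⊔ L₂) hx))
    · exact hρ σ fun x hx => h3 x (hle ((le_sup_left : L₁ ≤ L₁ ⊔ L₂) hx))
  · intro ℓ hℓ hℓM hℓp A hA τ hτ
    have hne : ((ℓ : ℕ) : integralClosure ℤ ℂ ⧸ 𝔪) ≠ 0 := by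
      intro h0
      have := (CharP.cast_eq_zero_iff (integralClosure ℤ ℂ ⧸ 𝔪) P.p ℓ).mp h0
      exact hℓp ((Nat.prime_dvd_prime_iff_eq P.pp hℓ).mp this).symm
    obtain ⟨a, ha, hcp⟩ := hatt ℓ hℓ hℓM hne A hA τ hτ
    exact ⟨a, ha, trace_of_charpoly ρ.finrank_eq _ _ _ hcp⟩
  · intro ℓ hℓ hℓM hℓp A hA τ hτ
    have hne : ((ℓ : ℕ) : integralClosure ℤ ℂ ⧸ 𝔪) ≠ 0 := by
      intro h0
      have := (CharP.cast_eq_zero_iff (integralClosure ℤ ℂ ⧸ 𝔪) P.p ℓ).mp h0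
      exact hℓp ((Nat.prime_dvd_prime_iff_eq P.pp hℓ).mp this).symm
    obtain ⟨a, ha, hcp⟩ := hatt ℓ hℓ hℓM hne A hA τ hτ
    exact det_of_charpoly ρ.finrank_eq _ _ _ hcp

end FAG
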