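import Fermat.Agent.Red.G4
import Fermat.Agent.Red.RSpecial
import Fermat.Agent.X0Genus.OrdAPI

set_option autoImplicit false

open AlgebraicCurve IntermediateField FA24 FA18

/-! Abstract specialisation along a place of the constant field, with a section. -/

namespace FAG


section nonspecial
variable {k Fb : Type*} [Field k] [IsAlgClosed k] [Field Fb] [Algebra k Fb]

/-- non-special effective divisors of degree `g` exist. -/
theorem exists_nonspecial (h : IsFF k Fb) :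
    ∃ S : Finset (Place k Fb), S.card = FAR.gR h ∧
      Module.finrank k (riemannRochSpace (sumDiv S)) = 1 := by
  classical
  have key : ∀ i : ℕ, i ≤ FAR.gR h → ∃ S : Finset (Place k Fb), S.card = i ∧
      FAR.ell (FAR.sumPl S) = 1 := by
    intro i
    induction i with
    | zero =>
      intro _
      exact ⟨∅, rfl, by simpa [FAR.sumPl] using FAR.ell_zero h⟩
    | succ i ih =>
      intro hi
      obtain ⟨S, hS, hS1⟩ := ih (by omega)
      have hB : Divisor.degree (FAR.sumPl S) + 1 - FAR.gR h < FAR.ell (FAR.sumPl S) := by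
        rw [FAR.degree_sumPl h, hS, hS1]
        push_cast
        omega
      have hfin := FAR.finite_ell_add_single_ne h _ hB
      have hinf := FAR.infinite_places h
      obtain ⟨P, -, hP⟩ := (hinf.sdiff (hfin.union S.finite_toSet)).nonempty
      have hP1 : FAR.ell (FAR.sumPl S + Finsupp.single P 1) = FAR.ell (FAR.sumPl S) := by
        by_contra hne
        exact hP (Or.inl hne)
      have hP2 : P ∉ S := fun hmem => hP (Or.inr hmem)
      refine ⟨insert P S, by rw [Finset.card_insert_of_notMem hP2, hS], ?_⟩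
      rw [FAR.sumPl_insert hP2, hP1, hS1]
  obtain ⟨S, hS, hS1⟩ := key _ le_rfl
  exact ⟨S, hS, hS1⟩

end nonspecial



section r1
variable {K k : Type*} [Field K] [Field k] [IsAlgClosed K] [IsAlgClosed k]
  {A : ValuationSubring K} {π : A →+* k}
  {F Fb : Type*} [Field F] [Algebra K F] [Field Fb] [Algebra k Fb] (R : RedData A π F Fb)

/-- (R1) for abstract reduction data with good reduction. -/
theorem exists_r1 (hF : IsFF K F) (hFb : IsFF k Fb) (g : ℕ)
    (I2 : ∀ B : Divisor K F,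
      Divisor.degree B + 1 - g ≤ (Module.finrank K (riemannRochSpace B) : ℤ))
    (I3 : ∃ S : Finset (Place k Fb), S.card = g ∧
      Module.finrank k (riemannRochSpace (sumDiv S)) = 1) :
    ∃ r : Place K F → Place k Fb, Function.Surjective r ∧
      ∀ x : R.O, R.ρ x ≠ 0 → ∀ D : Divisor K F, (∀ P, D P = P.ord (x : F)) →
        ∀ Q : Place k Fb, Finsupp.mapDomain r D Q = Q.ord (R.ρ x) := by
  obtain ⟨cF, HF⟩ := FAR.rfacts_of_isFF hF
  obtain ⟨cb, Hb⟩ := FAR.rfacts_of_isFF hFb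
  obtain ⟨S, hS, hS1⟩ := I3
  have H : DeuringHyp K F k Fb R.O R.ρ g (FAR.gR hF) cF (FAR.gR hFb) cb :=
    { HF := HF
      Hb := Hb
      I2 := I2
      I3 := by
        have h1 := Hb.riemann (sumDiv S)
        rw [hS1, G4.sumDiv_eq_sumPts, G4.degree_sumPts Hb.deg_one, hS] at h1
        push_cast at h1
        omega
      surj := R.ρ_surj
      red := fun V hV => ⟨R.redSub V, fun _ => R.mem_redSub, R.finrank_redSub hF V hV⟩
      FI := R.FI hF }
  have hne : Nonempty (Place K F) := by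
    obtain ⟨P, -⟩ := (FAR.infinite_places hF).nonempty
    exact ⟨P⟩
  obtain ⟨r, hr, -, hR1⟩ := H.main (c0 := max (cb + g) (cb + 1)) (le_max_left _ _)
    (le_max_right _ _) hne
  exact ⟨r, hr, fun x hx D hD Q => hR1 x (isUnit_of_map_ne_zero R.ρ_surj hx) D hD Q⟩

theorem dvd_ord_red (hF : IsFF K F) (hFb : IsFF k Fb) (g : ℕ)
    (I2 : ∀ B : Divisor K F,
      Divisor.degree B + 1 - g ≤ (Module.finrank K (riemannRochSpace B) : ℤ))
    (I3 : ∃ S : Finset (Place k Fb), S.card = g ∧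
      Module.finrank k (riemannRochSpace (sumDiv S)) = 1)
    (m : ℤ) (f : R.O) (hf : R.ρ f ≠ 0) (hdiv : ∀ P : Place K F, m ∣ P.ord (f : F))
    (Q : Place k Fb) : m ∣ Q.ord (R.ρ f) := by
  classical
  obtain ⟨r, -, hr⟩ := exists_r1 R hF hFb g I2 I3
  rw [← hr f hf (FAR.divOf hF (f : F)) (fun P => rfl) Q, G4.mapDomain_apply_eq_sum]
  refine Finset.dvd_sum fun P _ => ?_
  split_ifs
  · exact hdiv P
  · exact dvd_zero _

end r1



section genus
variable {K k : Type*} [Field K] [Field k]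
  {A : ValuationSubring K} {π : A →+* k}
  {F Fb : Type*} [Field F] [Algebra K F] [Field Fb] [Algebra k Fb] (R : RedData A π F Fb)
  {ι : k →+* K} {s : Fb →+* F}

omit [Algebra k Fb] in
/-- restriction of a place along a section -/
theorem sec_ord [Algebra k Fb] (hs : ∀ c : k, s (algebraMap k Fb c) = algebraMap K F (ι c))
    (v : Place K F) :
    (∀ y : Fb, v.ord (s y) = 0) ∨
      ∃ (w : Place k Fb) (c : ℤ), 0 < c ∧ ∀ y : Fb, v.ord (s y) = c * w.ord y := by
  have hw : IsOrd (fun y : Fb => v.ord (s y)) := (isOrd_place v).comp s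
  by_cases hnt : ∃ f : Fb, f ≠ 0 ∧ v.ord (s f) ≠ 0
  · right
    obtain ⟨w, c, hc, hwc⟩ := exists_place_of_isOrd (K := k) hw (fun a _ => by
      show v.ord (s (algebraMap k Fb a)) = 0
      rw [hs]; exact FAFF.ord_algebraMap v _) hnt
    refine ⟨w, c, hc, fun y => ?_⟩
    rcases eq_or_ne y 0 with rfl | hy
    · simp
    · exact hwc y hy
  · left
    push Not at hnt
    intro y
    rcases eq_or_ne y 0 with rfl | hy
    · simp
    · exact hnt y hy

variable [IsAlgClosed K] [IsAlgClosed k]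

theorem sec_mem_L (hs : ∀ c : k, s (algebraMap k Fb c) = algebraMap K F (ι c))
    (hF : IsFF K F) (hFb : IsFF k Fb) (xb : Fb) (n : ℕ) {y : Fb}
    (hy : y ∈ riemannRochSpace (n • FAR.poleDiv hFb xb)) :
    s y ∈ riemannRochSpace (n • FAR.poleDiv hF (s xb)) := by
  rw [FAR.mem_L_iff] at hy ⊢
  intro v
  rcases eq_or_ne y 0 with rfl | hy0
  · rw [map_zero]; exact FAR.OrdGE.zero v _
  right
  simp only [Finsupp.smul_apply, FAR.poleDiv_apply, nsmul_eq_mul]
  rcases sec_ord hs v with h0 | ⟨w, c, hc, hw⟩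
  · rw [h0 y, h0 xb]
    simp
  · have h1 := (hy w).le hy0
    simp only [Finsupp.smul_apply, FAR.poleDiv_apply, nsmul_eq_mul] at h1
    rw [hw y, hw xb]
    have h2 : max (-(c * w.ord xb)) 0 = c * max (-w.ord xb) 0 := by
      rw [mul_max_of_nonneg _ _ hc.le, mul_zero, mul_neg]
    rw [h2]
    have h3 : c * (-((n : ℤ) * max (-w.ord xb) 0)) ≤ c * w.ord y :=
      mul_le_mul_of_nonneg_left h1 hc.le
    linarith

include R in
theorem sec_li (hsO : ∀ y : Fb, ∃ h : s y ∈ R.O, R.ρ ⟨s y, h⟩ = y) {J : Type*} {e : J → Fb}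
    (he : LinearIndependent k e) : LinearIndependent K (fun i => s (e i)) := by
  apply R.toRedBase.linearIndependent_of_ext0 (fun i => (hsO (e i)).choose)
  have : (fun i => ext0 R.O R.ρ (s (e i))) = e := by
    funext i
    obtain ⟨h, h'⟩ := hsO (e i)
    rw [ext0_of_mem _ h, h']
  rw [this]
  exact he

include R in
theorem sec_ell_le (hs : ∀ c : k, s (algebraMap k Fb c) = algebraMap K F (ι c))
    (hsO : ∀ y : Fb, ∃ h : s y ∈ R.O, R.ρ ⟨s y, h⟩ = y)
    (hF : IsFF K F) (hFb : IsFF k Fb) (xb : Fb) (n : ℕ) :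
    FAR.ell (n • FAR.poleDiv hFb xb) ≤ FAR.ell (n • FAR.poleDiv hF (s xb)) := by
  have h1 := FAR.L_finiteDimensional hFb (n • FAR.poleDiv hFb xb)
  have h2 := FAR.L_finiteDimensional hF (n • FAR.poleDiv hF (s xb))
  let b := Module.finBasis k (riemannRochSpace (n • FAR.poleDiv hFb xb))
  have hli : LinearIndependent k (fun i => ((b i : riemannRochSpace (n • FAR.poleDiv hFb xb)) : Fb)) :=
    b.linearIndependent.map' (Submodule.subtype _) (Submodule.ker_subtype _)
  have hli2 := sec_li R hsO hli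
  have hli3 : LinearIndependent K (fun i =>
      (⟨s (b i : Fb), sec_mem_L hs hF hFb xb n (b i).2⟩ :
        riemannRochSpace (n • FAR.poleDiv hF (s xb)))) := by
    apply LinearIndependent.of_comp (Submodule.subtype _)
    exact hli2
  have h3 := hli3.fintype_card_le_finrank
  rw [Fintype.card_fin] at h3
  exact h3

include R in
/-- the genus does not increase under a constant field extension with a place -/
theorem sec_gR_le (hs : ∀ c : k, s (algebraMap k Fb c) = algebraMap K F (ι c))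
    (hsO : ∀ y : Fb, ∃ h : s y ∈ R.O, R.ρ ⟨s y, h⟩ = y)
    (hF : IsFF K F) (hFb : IsFF k Fb) (xb : Fb) (hx : Transcendental k xb)
    (hdeg : Module.finrank K⟮s xb⟯ F ≤ Module.finrank k⟮xb⟯ Fb) :
    FAR.gR hF ≤ FAR.gR hFb := by
  obtain ⟨hmem, hρ⟩ := hsO xb
  have hxK : Transcendental K (s xb) :=
    R.transcendental_coe ⟨s xb, hmem⟩ (by rw [hρ]; exact hx)
  obtain ⟨c, hc⟩ := FAR.exists_riemann_eq hF
  have hd1 : 0 < Module.finrank K⟮s xb⟯ F := FAR.finrank_pos_of_transcendental hF _ hxK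
  set d := Module.finrank K⟮s xb⟯ F with hd
  set db := Module.finrank k⟮xb⟯ Fb with hdb
  set n := c.toNat with hn
  have e1 : Divisor.degree (n • FAR.poleDiv hF (s xb)) = (n : ℤ) * d := by
    rw [map_nsmul, FAR.degree_poleDiv hF _ hxK, nsmul_eq_mul]
  have e2 : Divisor.degree (n • FAR.poleDiv hFb xb) = (n : ℤ) * db := by
    rw [map_nsmul, FAR.degree_poleDiv hFb _ hx, nsmul_eq_mul]
  have h1 : c ≤ Divisor.degree (n • FAR.poleDiv hF (s xb)) := by
    rw [e1]
    have h2 : c ≤ n := Int.self_le_toNat c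
    have h3 : (1 : ℤ) ≤ d := by exact_mod_cast hd1
    have h4 : (0 : ℤ) ≤ n := Int.natCast_nonneg _
    nlinarith
  have h2 := hc _ h1
  have h3 := FAR.riemann_ineq hFb (n • FAR.poleDiv hFb xb)
  have h4 : (FAR.ell (n • FAR.poleDiv hFb xb) : ℤ) ≤ FAR.ell (n • FAR.poleDiv hF (s xb)) := by
    exact_mod_cast sec_ell_le R hs hsO hF hFb xb n
  rw [e1] at h2
  rw [e2] at h3
  have h5 : (n : ℤ) * d ≤ n * db := by
    have : (d : ℤ) ≤ db := by exact_mod_cast hdeg
    exact mul_le_mul_of_nonneg_left this (Int.natCast_nonneg _)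
  have h6 : (FAR.gR hF : ℤ) ≤ FAR.gR hFb := by linarith
  exact_mod_cast h6

include R in
theorem sec_I2 (hs : ∀ c : k, s (algebraMap k Fb c) = algebraMap K F (ι c))
    (hsO : ∀ y : Fb, ∃ h : s y ∈ R.O, R.ρ ⟨s y, h⟩ = y)
    (hF : IsFF K F) (hFb : IsFF k Fb) (xb : Fb) (hx : Transcendental k xb)
    (hdeg : Module.finrank K⟮s xb⟯ F ≤ Module.finrank k⟮xb⟯ Fb) (B : Divisor K F) :
    Divisor.degree B + 1 - (FAR.gR hFb : ℕ) ≤ (Module.finrank K (riemannRochSpace B) : ℤ) := by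
  have h1 := FAR.riemann_ineq hF B
  have h2 : (FAR.gR hF : ℤ) ≤ FAR.gR hFb := by
    exact_mod_cast sec_gR_le R hs hsO hF hFb xb hx hdeg
  have h3 : (FAR.ell B : ℤ) = (Module.finrank K (riemannRochSpace B) : ℤ) := rfl
  omega

/-- specialisation preserves divisibility of divisors -/
theorem sec_dvd (hs : ∀ c : k, s (algebraMap k Fb c) = algebraMap K F (ι c))
    (hsO : ∀ y : Fb, ∃ h : s y ∈ R.O, R.ρ ⟨s y, h⟩ = y)
    (hF : IsFF K F) (hFb : IsFF k Fb) (xb : Fb) (hx : Transcendental k xb)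
    (hdeg : Module.finrank K⟮s xb⟯ F ≤ Module.finrank k⟮xb⟯ Fb)
    (m : ℤ) (f : R.O) (hf : R.ρ f ≠ 0) (hdiv : ∀ P : Place K F, m ∣ P.ord (f : F))
    (Q : Place k Fb) : m ∣ Q.ord (R.ρ f) :=
  dvd_ord_red R hF hFb (FAR.gR hFb) (sec_I2 R hs hsO hF hFb xb hx hdeg) (exists_nonspecial hFb)
    m f hf hdiv Q

/-- specialisation is injective on classes modulo `m`-th powers -/
theorem sec_pow (hs : ∀ c : k, s (algebraMap k Fb c) = algebraMap K F (ι c))
    (hsO : ∀ y : Fb, ∃ h : s y ∈ R.O, R.ρ ⟨s y, h⟩ = y)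
    (hF : IsFF K F) (hFb : IsFF k Fb) (xb : Fb) (hx : Transcendental k xb)
    (hdeg : Module.finrank K⟮s xb⟯ F ≤ Module.finrank k⟮xb⟯ Fb)
    (m : ℕ) (hm : (m : k) ≠ 0) (f : R.O) (hdiv : ∀ P : Place K F, (m : ℤ) ∣ P.ord (f : F))
    (t : Fb) (ht0 : t ≠ 0) (ht : R.ρ f = t ^ m) : ∃ u : F, u ^ m = (f : F) := by
  obtain ⟨hmem, hρ⟩ := hsO t
  set T : R.O := ⟨s t, hmem⟩ with hT
  have hT0 : R.ρ T ≠ 0 := by rw [hρ]; exact ht0
  set Ti : R.O := ⟨((T : F))⁻¹, R.inv_mem hT0⟩ with hTi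
  have hTiρ : R.ρ Ti = t⁻¹ := by rw [hTi, R.ρ_inv hT0, hρ]
  have hst0 : s t ≠ 0 := (map_ne_zero s).2 ht0
  have hf0 : (f : F) ≠ 0 := by
    intro h0
    have : f = 0 := Subtype.ext h0
    rw [this, map_zero] at ht
    exact pow_ne_zero m ht0 ht.symm
  have h1 : R.ρ (f * Ti ^ m) = 1 := by
    rw [map_mul, map_pow, ht, hTiρ, inv_pow, mul_inv_cancel₀ (pow_ne_zero m ht0)]
  have h2 : ∀ P : Place K F, (m : ℤ) ∣ P.ord ((f * Ti ^ m : R.O) : F) := by
    intro P
    have e : ((f * Ti ^ m : R.O) : F) = (f : F) * ((s t)⁻¹) ^ m := rfl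
    rw [e, P.ord_mul hf0 (pow_ne_zero m (inv_ne_zero hst0)), FAR.ord_pow]
    exact dvd_add (hdiv P) (Dvd.intro _ rfl)
  obtain ⟨u, hu⟩ := thmG R hF hFb (FAR.gR hFb) (sec_I2 R hs hsO hF hFb xb hx hdeg)
    (exists_nonspecial hFb) m hm (f * Ti ^ m) h1 h2
  refine ⟨u * s t, ?_⟩
  have e : ((f * Ti ^ m : R.O) : F) = (f : F) * ((s t)⁻¹) ^ m := rfl
  rw [mul_pow, hu, e, mul_assoc, ← mul_pow, inv_mul_cancel₀ hst0, one_pow, mul_one]

end genus

end FAG
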