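import Mathlib
import Fermat.Agent.X0Genus.MN

/-! PROJECT G, [EIS]: weighted Eisenstein sums. -/

set_option autoImplicit false

open UpperHalfPlane ModularForm EisensteinSeries Function CongruenceSubgroup Matrix
open scoped Manifold MatrixGroups Real

namespace FAG

/-- weighted Eisenstein sum -/
noncomputable def wE (k : ℤ) (w : (Fin 2 → ℤ) → ℂ) (z : ℍ) : ℂ :=
  ∑' v : Fin 2 → ℤ, w v * eisSummand k v z

variable {k : ℤ} {w : (Fin 2 → ℤ) → ℂ}

lemma norm_term_le (hw : ∀ v, ‖w v‖ ≤ 1) (v : Fin 2 → ℤ) (z : ℍ) :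
    ‖w v * eisSummand k v z‖ ≤ ‖eisSummand k v z‖ := by
  rw [norm_mul]
  exact mul_le_of_le_one_left (norm_nonneg _) (hw v)

lemma summable_wE (hk : 3 ≤ k) (hw : ∀ v, ‖w v‖ ≤ 1) (z : ℍ) :
    Summable fun v => w v * eisSummand k v z :=
  Summable.of_norm_bounded (summable_norm_eisSummand hk z) (fun v => norm_term_le hw v z)

theorem wE_tendstoLocallyUniformly (hk : 3 ≤ k) (hw : ∀ v, ‖w v‖ ≤ 1) :
    TendstoLocallyUniformly (fun (s : Finset (Fin 2 → ℤ)) ↦ (∑ x ∈ s, w x * eisSummand k x ·))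
      (wE k w ·) Filter.atTop := by
  have hk' : (2 : ℝ) < k := by norm_cast
  have p_sum : Summable fun x : Fin 2 → ℤ ↦ ‖x‖ ^ (-k) :=
    mod_cast (summable_one_div_norm_rpow hk')
  simp only [tendstoLocallyUniformly_iff_forall_isCompact, wE]
  intro K hK
  obtain ⟨A, B, hB, HABK⟩ := subset_verticalStrip_of_isCompact hK
  refine (tendstoUniformlyOn_tsum (hu := p_sum.mul_left <| r ⟨⟨A, B⟩, hB⟩ ^ (-k : ℝ))
    (fun p z hz ↦ ?_)).mono HABK
  refine (norm_term_le hw p z).trans ?_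
  simpa only [eisSummand, one_div, ← _root_.zpow_neg, norm_zpow, ← Real.rpow_intCast,
    Int.cast_neg] using summand_bound_of_mem_verticalStrip (by positivity) p hB hz

lemma wE_tendstoLocallyUniformlyOn (hk : 3 ≤ k) (hw : ∀ v, ‖w v‖ ≤ 1) :
    TendstoLocallyUniformlyOn (fun (s : Finset (Fin 2 → ℤ)) ↦
      ↑ₕ(fun (z : ℍ) ↦ ∑ x ∈ s, w x * eisSummand k x z)) (↑ₕ(wE k w))
          Filter.atTop {z : ℂ | 0 < z.im} := by
  rw [← upperHalfPlaneSet, ← range_coe, ← Set.image_univ]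
  apply TendstoLocallyUniformlyOn.comp (s := ⊤) _ _ _ (OpenPartialHomeomorph.continuousOn_symm _)
  · simp only [Set.top_eq_univ, tendstoLocallyUniformlyOn_univ]
    apply wE_tendstoLocallyUniformly hk hw
  · simp only [Topology.IsOpenEmbedding.toOpenPartialHomeomorph_target, Set.top_eq_univ,
      Set.mapsTo_range_iff, Set.mem_univ, forall_const]

theorem wE_mdiff (hk : 3 ≤ k) (hw : ∀ v, ‖w v‖ ≤ 1) : MDiff (wE k w) := by
  intro τ
  suffices DifferentiableAt ℂ (↑ₕ(wE k w)) τ.1 by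
    convert!
      MDifferentiableAt.comp τ (DifferentiableAt.mdifferentiableAt this) τ.mdifferentiable_coe
    exact funext fun z ↦ (comp_ofComplex (wE k w) z).symm
  refine DifferentiableOn.differentiableAt ?_ (isOpen_upperHalfPlaneSet.mem_nhds τ.2)
  refine (wE_tendstoLocallyUniformlyOn hk hw).differentiableOn
    (Filter.Eventually.of_forall fun s ↦ ?_) isOpen_upperHalfPlaneSet
  have h1 : (↑ₕ(fun (z : ℍ) ↦ ∑ x ∈ s, w x * eisSummand k x z)) =
      fun z : ℂ => ∑ x ∈ s, w x * (↑ₕ(eisSummand k x)) z := by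
    funext z
    simp [Function.comp]
  rw [h1]
  exact DifferentiableOn.fun_sum
    fun x _ ↦ (eisSummand_extension_differentiableOn k x).const_mul (w x)

lemma sl_mul_inv (γ : SL(2, ℤ)) :
    (γ : Matrix (Fin 2) (Fin 2) ℤ) * ((γ⁻¹ : SL(2, ℤ)) : Matrix (Fin 2) (Fin 2) ℤ) = 1 := by
  exact congrArg Subtype.val (mul_inv_cancel γ)

lemma sl_inv_mul (γ : SL(2, ℤ)) :
    ((γ⁻¹ : SL(2, ℤ)) : Matrix (Fin 2) (Fin 2) ℤ) * (γ : Matrix (Fin 2) (Fin 2) ℤ) = 1 := by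
  exact congrArg Subtype.val (inv_mul_cancel γ)

/-- right multiplication by `γ` on row vectors -/
def vecEquiv (γ : SL(2, ℤ)) : (Fin 2 → ℤ) ≃ (Fin 2 → ℤ) where
  toFun v := v ᵥ* (γ : Matrix (Fin 2) (Fin 2) ℤ)
  invFun v := v ᵥ* ((γ⁻¹ : SL(2, ℤ)) : Matrix (Fin 2) (Fin 2) ℤ)
  left_inv v := by
    show (v ᵥ* (γ : Matrix (Fin 2) (Fin 2) ℤ)) ᵥ* ((γ⁻¹ : SL(2, ℤ)) : Matrix (Fin 2) (Fin 2) ℤ) = v
    rw [vecMul_vecMul, sl_mul_inv, vecMul_one]
  right_inv v := by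
    show (v ᵥ* ((γ⁻¹ : SL(2, ℤ)) : Matrix (Fin 2) (Fin 2) ℤ)) ᵥ* (γ : Matrix (Fin 2) (Fin 2) ℤ) = v
    rw [vecMul_vecMul, sl_inv_mul, vecMul_one]

lemma vecEquiv_apply (γ : SL(2, ℤ)) (v : Fin 2 → ℤ) :
    vecEquiv γ v = v ᵥ* (γ : Matrix (Fin 2) (Fin 2) ℤ) := rfl

lemma vecEquiv_symm_apply (γ : SL(2, ℤ)) (v : Fin 2 → ℤ) :
    (vecEquiv γ).symm v = v ᵥ* ((γ⁻¹ : SL(2, ℤ)) : Matrix (Fin 2) (Fin 2) ℤ) := rfl

theorem wE_smul (γ : SL(2, ℤ)) (z : ℍ) :
    wE k w (γ • z) = denom γ z ^ k * wE k (fun v => w ((vecEquiv γ).symm v)) z := by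
  unfold wE
  rw [← tsum_mul_left, ← (vecEquiv γ).tsum_eq (fun v => denom γ z ^ k *
    (w ((vecEquiv γ).symm v) * eisSummand k v z))]
  refine tsum_congr fun v => ?_
  rw [Equiv.symm_apply_apply, eisSummand_SL2_apply, vecEquiv_apply]
  ring

/-- the majorant -/
noncomputable def sE (k : ℤ) (z : ℍ) : ℝ := ∑' v : Fin 2 → ℤ, ‖eisSummand k v z‖

lemma norm_wE_le (hk : 3 ≤ k) (hw : ∀ v, ‖w v‖ ≤ 1) (z : ℍ) : ‖wE k w z‖ ≤ sE k z := by
  have h1 : Summable fun v => ‖w v * eisSummand k v z‖ :=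
    Summable.of_nonneg_of_le (fun _ => norm_nonneg _) (fun v => norm_term_le hw v z)
      (summable_norm_eisSummand hk z)
  exact (norm_tsum_le_tsum_norm h1).trans
    (h1.tsum_le_tsum (fun v => norm_term_le hw v z) (summable_norm_eisSummand hk z))

lemma sE_T (n : ℤ) (z : ℍ) : sE k (ModularGroup.T ^ n • z) = sE k z := by
  unfold sE
  rw [← (vecEquiv (ModularGroup.T ^ n)).tsum_eq (fun v => ‖eisSummand k v z‖)]
  refine tsum_congr fun v => ?_
  rw [eisSummand_SL2_apply, vecEquiv_apply]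
  have h1 : denom (ModularGroup.T ^ n : SL(2, ℤ)) z = 1 := by
    rw [ModularGroup.denom_apply, ModularGroup.coe_T_zpow]
    simp
  rw [h1, _root_.one_zpow, one_mul]

theorem wE_bounded (hk : 3 ≤ k) (hw : ∀ v, ‖w v‖ ≤ 1) : IsBoundedAtImInfty (wE k w) := by
  rw [UpperHalfPlane.isBoundedAtImInfty_iff]
  refine ⟨∑'(x : Fin 2 → ℤ), r ⟨⟨1, 2⟩, Nat.ofNat_pos⟩ ^ (-k) * ‖x‖ ^ (-k), 2, ?_⟩
  intro z hz
  obtain ⟨n, hn⟩ := (ModularGroup_T_zpow_mem_verticalStrip z (N := 1) one_pos)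
  have hn' : ModularGroup.T ^ n • z ∈ verticalStrip 1 z.im := by simpa using hn
  refine (norm_wE_le hk hw z).trans ?_
  rw [← sE_T (k := k) n z]
  have hk' : (2 : ℝ) < k := by norm_cast
  apply (summable_norm_eisSummand hk _).tsum_le_tsum _
  · exact_mod_cast (summable_one_div_norm_rpow hk').mul_left <| r ⟨⟨1, 2⟩, Nat.ofNat_pos⟩ ^ (-k)
  · intro x
    simp_rw [eisSummand, norm_zpow]
    exact_mod_cast
      summand_bound_of_mem_verticalStrip (lt_trans two_pos hk').le x two_pos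
      (verticalStrip_anti_right 1 hz hn')

/-- the points `(n+1) i` -/
noncomputable def zI (n : ℕ) : ℍ := ⟨Complex.I * ((n : ℂ) + 1), by
  simp
  positivity⟩

lemma zI_coe (n : ℕ) : ((zI n : ℍ) : ℂ) = Complex.I * ((n : ℂ) + 1) := rfl

lemma zI_mem (n : ℕ) : zI n ∈ verticalStrip 0 1 := by
  constructor
  · simp [zI, UpperHalfPlane.re]
  · simp [zI, UpperHalfPlane.im]

theorem wE_tendsto (hk : 3 ≤ k) (hw : ∀ v, ‖w v‖ ≤ 1) :
    Filter.Tendsto (fun n : ℕ => wE k w (zI n)) Filter.atTop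
      (nhds (∑' v : Fin 2 → ℤ, if v 0 = 0 then w v * ((v 1 : ℤ) : ℂ) ^ (-k) else 0)) := by
  have hk' : (2 : ℝ) < k := by norm_cast
  have p_sum : Summable fun x : Fin 2 → ℤ ↦ ‖x‖ ^ (-k) :=
    mod_cast (summable_one_div_norm_rpow hk')
  unfold wE
  refine tendsto_tsum_of_dominated_convergence
    (bound := fun x => r ⟨⟨0, 1⟩, one_pos⟩ ^ (-k : ℝ) * ‖x‖ ^ (-k))
    (p_sum.mul_left _) (fun v => ?_) (Filter.Eventually.of_forall fun n v => ?_)
  · by_cases hv : v 0 = 0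
    · rw [if_pos hv]
      have : ∀ n, w v * eisSummand k v (zI n) = w v * ((v 1 : ℤ) : ℂ) ^ (-k) := by
        intro n
        simp [eisSummand, hv]
      simp_rw [this]
      exact tendsto_const_nhds
    · rw [if_neg hv, tendsto_zero_iff_norm_tendsto_zero]
      refine squeeze_zero (fun _ => norm_nonneg _) (fun n => ?_)
        tendsto_one_div_add_atTop_nhds_zero_nat
      refine (norm_term_le hw v _).trans ?_
      rw [eisSummand, norm_zpow]
      have h1 : ((n : ℝ) + 1) ≤ ‖((v 0 : ℤ) : ℂ) * ((zI n : ℍ) : ℂ) + ((v 1 : ℤ) : ℂ)‖ := by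
        refine le_trans ?_ (Complex.abs_im_le_norm _)
        have h2 : (((v 0 : ℤ) : ℂ) * ((zI n : ℍ) : ℂ) + ((v 1 : ℤ) : ℂ)).im =
            (v 0 : ℝ) * ((n : ℝ) + 1) := by
          simp [zI_coe]
        rw [h2, abs_mul, abs_of_pos (by positivity : (0 : ℝ) < (n : ℝ) + 1)]
        have h3 : (1 : ℝ) ≤ |((v 0 : ℤ) : ℝ)| := by
          have : (1 : ℤ) ≤ |v 0| := Int.one_le_abs hv
          exact_mod_cast this
        nlinarith [show (0 : ℝ) < (n : ℝ) + 1 by positivity]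
      have h0 : (1 : ℝ) ≤ (n : ℝ) + 1 := by linarith [(Nat.cast_nonneg n : (0 : ℝ) ≤ n)]
      have h4 := zpow_le_zpow_right₀ (h0.trans h1) (show -k ≤ -1 by omega)
      refine h4.trans ?_
      rw [_root_.zpow_neg_one, one_div]
      exact inv_anti₀ (by positivity) h1
  · refine (norm_term_le hw v _).trans ?_
    simpa only [eisSummand, one_div, ← _root_.zpow_neg, norm_zpow, ← Real.rpow_intCast,
      Int.cast_neg] using summand_bound_of_mem_verticalStrip (by positivity) v one_pos (zI_mem n)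

end FAG
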