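import Mathlib
import Fermat.Agent.Gal.TwEis

/-! PROJECT G, [EIS]: existence of a nonzero twisted modular function for a unitary character
of `Γ₀(N)` which is trivial on parabolic elements. -/

set_option autoImplicit false

open UpperHalfPlane ModularForm EisensteinSeries Function CongruenceSubgroup Matrix FA24
open scoped Manifold MatrixGroups Real

namespace FAG

variable {N : ℕ}

/-- `U` transforms under `Γ₀(N)` by the character `c`. -/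
def IsTw (c : ↥(Gamma0 N) →* ℂˣ) (U : ℍ → ℂ) : Prop :=
  ∀ (γ : ↥(Gamma0 N)) (τ : ℍ), U ((γ : SL(2, ℤ)) • τ) = (c γ : ℂ) * U τ

/-- `c` is trivial on the elements of trace `±2`. -/
def IsParCh (c : ↥(Gamma0 N) →* ℂˣ) : Prop :=
  ∀ γ : ↥(Gamma0 N), ((γ : SL(2, ℤ)) : Matrix (Fin 2) (Fin 2) ℤ).trace ^ 2 = 4 → c γ = 1

open Classical in
/-- the weight function on bottom rows -/
noncomputable def wt (c : ↥(Gamma0 N) →* ℂˣ) (v : Fin 2 → ℤ) : ℂ :=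
  if h : ∃ γ : ↥(Gamma0 N), ((γ : SL(2, ℤ)) : Matrix (Fin 2) (Fin 2) ℤ) 1 = v then
    (((c h.choose)⁻¹ : ℂˣ) : ℂ) else 0

lemma row_mul (A B : SL(2, ℤ)) : ((A * B : SL(2, ℤ)) : Matrix (Fin 2) (Fin 2) ℤ) 1 =
    (A : Matrix (Fin 2) (Fin 2) ℤ) 1 ᵥ* (B : Matrix (Fin 2) (Fin 2) ℤ) :=
  Matrix.mul_apply_eq_vecMul _ _ _

lemma ch_eq_of_row_eq {c : ↥(Gamma0 N) →* ℂˣ} (hc : IsParCh c) (γ γ' : ↥(Gamma0 N))
    (h : ((γ : SL(2, ℤ)) : Matrix (Fin 2) (Fin 2) ℤ) 1 =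
      ((γ' : SL(2, ℤ)) : Matrix (Fin 2) (Fin 2) ℤ) 1) : c γ = c γ' := by
  have h1 : (((γ' * γ⁻¹ : ↥(Gamma0 N)) : SL(2, ℤ)) : Matrix (Fin 2) (Fin 2) ℤ) 1 = ![0, 1] := by
    have e1 : ((γ' * γ⁻¹ : ↥(Gamma0 N)) : SL(2, ℤ)) = (γ' : SL(2, ℤ)) * (γ : SL(2, ℤ))⁻¹ := rfl
    rw [e1, row_mul, ← h, ← row_mul, mul_inv_cancel]
    ext i
    fin_cases i <;> simp
  set δ : ↥(Gamma0 N) := γ' * γ⁻¹ with hδ
  have h10 : ((δ : SL(2, ℤ)) : Matrix (Fin 2) (Fin 2) ℤ) 1 0 = 0 := by rw [h1]; rfl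
  have h11 : ((δ : SL(2, ℤ)) : Matrix (Fin 2) (Fin 2) ℤ) 1 1 = 1 := by rw [h1]; rfl
  have hdet := (δ : SL(2, ℤ)).2
  rw [Matrix.det_fin_two, h10, h11] at hdet
  have h00 : ((δ : SL(2, ℤ)) : Matrix (Fin 2) (Fin 2) ℤ) 0 0 = 1 := by linarith
  have h2 : c δ = 1 := hc δ (by rw [Matrix.trace_fin_two, h00, h11]; norm_num)
  rw [hδ, map_mul, map_inv, mul_inv_eq_one] at h2
  exact h2.symm

lemma wt_row {c : ↥(Gamma0 N) →* ℂˣ} (hc : IsParCh c) (γ : ↥(Gamma0 N)) :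
    wt c (((γ : SL(2, ℤ)) : Matrix (Fin 2) (Fin 2) ℤ) 1) = (((c γ)⁻¹ : ℂˣ) : ℂ) := by
  have h : ∃ γ' : ↥(Gamma0 N), ((γ' : SL(2, ℤ)) : Matrix (Fin 2) (Fin 2) ℤ) 1 =
      ((γ : SL(2, ℤ)) : Matrix (Fin 2) (Fin 2) ℤ) 1 := ⟨γ, rfl⟩
  rw [wt, dif_pos h, ch_eq_of_row_eq hc _ _ h.choose_spec]

lemma wt_of_not {c : ↥(Gamma0 N) →* ℂˣ} {v : Fin 2 → ℤ}
    (h : ¬ ∃ γ : ↥(Gamma0 N), ((γ : SL(2, ℤ)) : Matrix (Fin 2) (Fin 2) ℤ) 1 = v) : wt c v = 0 := by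
  rw [wt, dif_neg h]

lemma norm_wt_le {c : ↥(Gamma0 N) →* ℂˣ} (hn : ∀ γ, ‖(c γ : ℂ)‖ = 1) (v : Fin 2 → ℤ) :
    ‖wt c v‖ ≤ 1 := by
  unfold wt
  split_ifs with h
  · rw [Units.val_inv_eq_inv_val, norm_inv, hn, inv_one]
  · simp

lemma wt_vecEquiv {c : ↥(Gamma0 N) →* ℂˣ} (hc : IsParCh c) (γ₀ : ↥(Gamma0 N)) (v : Fin 2 → ℤ) :
    wt c ((vecEquiv (γ₀ : SL(2, ℤ))).symm v) = (c γ₀ : ℂ) * wt c v := by
  by_cases h : ∃ γ : ↥(Gamma0 N), ((γ : SL(2, ℤ)) : Matrix (Fin 2) (Fin 2) ℤ) 1 = v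
  · obtain ⟨γ, rfl⟩ := h
    have e1 : (vecEquiv (γ₀ : SL(2, ℤ))).symm (((γ : SL(2, ℤ)) : Matrix (Fin 2) (Fin 2) ℤ) 1) =
        (((γ * γ₀⁻¹ : ↥(Gamma0 N)) : SL(2, ℤ)) : Matrix (Fin 2) (Fin 2) ℤ) 1 := by
      rw [vecEquiv_symm_apply]
      exact (row_mul _ _).symm
    rw [e1, wt_row hc, wt_row hc, map_mul, map_inv, mul_inv, inv_inv, Units.val_mul, mul_comm]
  · rw [wt_of_not h, mul_zero]
    apply wt_of_not
    rintro ⟨γ, hγ⟩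
    apply h
    refine ⟨γ * γ₀, ?_⟩
    have e1 : ((γ * γ₀ : ↥(Gamma0 N)) : SL(2, ℤ)) = (γ : SL(2, ℤ)) * (γ₀ : SL(2, ℤ)) := rfl
    rw [e1, row_mul, hγ, ← vecEquiv_apply, Equiv.apply_symm_apply]

lemma wt_zero_one {c : ↥(Gamma0 N) →* ℂˣ} (hc : IsParCh c) : wt c ![0, 1] = 1 := by
  have h := wt_row hc (1 : ↥(Gamma0 N))
  have e : (((1 : ↥(Gamma0 N)) : SL(2, ℤ)) : Matrix (Fin 2) (Fin 2) ℤ) 1 = ![0, 1] := by
    ext i
    fin_cases i <;> simp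
  rw [e, map_one] at h
  simpa using h

lemma neg_one_mem : (-1 : SL(2, ℤ)) ∈ Gamma0 N := by
  rw [Gamma0_mem]
  simp

lemma wt_zero_neg_one {c : ↥(Gamma0 N) →* ℂˣ} (hc : IsParCh c) : wt c ![0, -1] = 1 := by
  have h := wt_row hc (⟨-1, neg_one_mem⟩ : ↥(Gamma0 N))
  have e : (((⟨-1, neg_one_mem⟩ : ↥(Gamma0 N)) : SL(2, ℤ)) : Matrix (Fin 2) (Fin 2) ℤ) 1 =
      ![0, -1] := by
    ext i
    fin_cases i <;> simp
  have h2 : c (⟨-1, neg_one_mem⟩ : ↥(Gamma0 N)) = 1 := hc _ (by simp)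
  rw [e, h2] at h
  simpa using h

lemma wt_of_zero {c : ↥(Gamma0 N) →* ℂˣ} {v : Fin 2 → ℤ} (h0 : v 0 = 0) (h1 : v ≠ ![0, 1])
    (h2 : v ≠ ![0, -1]) : wt c v = 0 := by
  apply wt_of_not
  rintro ⟨γ, rfl⟩
  have hdet := (γ : SL(2, ℤ)).2
  rw [Matrix.det_fin_two, h0, mul_zero, sub_zero] at hdet
  rcases Int.isUnit_iff.mp (IsUnit.of_mul_eq_one _ (by rw [mul_comm]; exact hdet)) with h | h
  · apply h1
    ext i
    fin_cases i
    · exact h0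
    · exact h
  · apply h2
    ext i
    fin_cases i
    · exact h0
    · exact h

lemma tsum_wt {c : ↥(Gamma0 N) →* ℂˣ} (hc : IsParCh c) :
    (∑' v : Fin 2 → ℤ, if v 0 = 0 then wt c v * ((v 1 : ℤ) : ℂ) ^ (-12 : ℤ) else 0) = 2 := by
  have hne : (![0, 1] : Fin 2 → ℤ) ≠ ![0, -1] := by
    intro h
    have := congrFun h 1
    simp at this
  rw [tsum_eq_sum (s := {![0, 1], ![0, -1]})]
  · rw [Finset.sum_pair hne]
    simp only [Matrix.cons_val_zero, if_true, wt_zero_one hc, wt_zero_neg_one hc]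
    norm_num
  · intro v hv
    simp only [Finset.mem_insert, Finset.mem_singleton, not_or] at hv
    split_ifs with h0
    · rw [wt_of_zero h0 hv.1 hv.2, zero_mul]
    · rfl

lemma wE_wt_ne_zero {c : ↥(Gamma0 N) →* ℂˣ} (hn : ∀ γ, ‖(c γ : ℂ)‖ = 1) (hc : IsParCh c) :
    ∃ τ : ℍ, wE 12 (wt c) τ ≠ 0 := by
  by_contra hcon
  push Not at hcon
  have h := wE_tendsto (k := 12) (by norm_num) (norm_wt_le hn)
  rw [tsum_wt hc] at h
  simp_rw [hcon] at h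
  have := tendsto_nhds_unique h tendsto_const_nhds
  norm_num at this

lemma periodic_of_vadd_nat {g : ℍ → ℂ} (M : ℕ) (h : ∀ τ : ℍ, g ((M : ℝ) +ᵥ τ) = g τ) :
    Function.Periodic (g ∘ ofComplex) (((M : ℕ) : ℝ) : ℂ) := by
  intro w
  by_cases hw : 0 < w.im
  · have hw' : 0 < (w + (((M : ℕ) : ℝ) : ℂ)).im := by simpa using hw
    simp only [Function.comp_apply, ofComplex_apply_of_im_pos hw', ofComplex_apply_of_im_pos hw]
    rw [← h ⟨w, hw⟩]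
    congr 1
    ext
    simp [add_comm]
  · have hw1 : w.im ≤ 0 := not_lt.mp hw
    have hw' : (w + (((M : ℕ) : ℝ) : ℂ)).im ≤ 0 := by simpa using hw1
    simp only [Function.comp_apply]
    rw [ofComplex_apply_eq_of_im_nonpos hw' hw1]

lemma conj_T_mem (γ : SL(2, ℤ)) : γ * ModularGroup.T ^ (N : ℤ) * γ⁻¹ ∈ Gamma0 N := by
  have h1 : ModularGroup.T ^ (N : ℤ) ∈ Gamma N := by
    have := ModularGroup_T_pow_mem_Gamma (N : ℤ) (N : ℤ) dvd_rfl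
    simpa using this
  have h2 := (Gamma_normal N).conj_mem _ h1 γ
  rw [Gamma_mem] at h2
  rw [Gamma0_mem]
  exact h2.2.2.1

lemma trace_conj_T (γ : SL(2, ℤ)) :
    ((γ * ModularGroup.T ^ (N : ℤ) * γ⁻¹ : SL(2, ℤ)) : Matrix (Fin 2) (Fin 2) ℤ).trace = 2 := by
  have e1 : ((γ * ModularGroup.T ^ (N : ℤ) * γ⁻¹ : SL(2, ℤ)) : Matrix (Fin 2) (Fin 2) ℤ) =
      (γ : Matrix (Fin 2) (Fin 2) ℤ) * ((ModularGroup.T ^ (N : ℤ) : SL(2, ℤ)) :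
        Matrix (Fin 2) (Fin 2) ℤ) * ((γ⁻¹ : SL(2, ℤ)) : Matrix (Fin 2) (Fin 2) ℤ) := rfl
  rw [e1, Matrix.trace_mul_comm, ← Matrix.mul_assoc, sl_inv_mul, Matrix.one_mul,
    ModularGroup.coe_T_zpow, Matrix.trace_fin_two]
  simp

lemma IsTw.vadd {c : ↥(Gamma0 N) →* ℂˣ} {U : ℍ → ℂ} (hU : IsTw c U) (hc : IsParCh c)
    (γ : SL(2, ℤ)) (τ : ℍ) : U (γ • ((N : ℝ) +ᵥ τ)) = U (γ • τ) := by
  have e1 : γ • ((N : ℝ) +ᵥ τ) = (γ * ModularGroup.T ^ (N : ℤ) * γ⁻¹) • (γ • τ) := by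
    have := T_zpow_smul (N : ℤ) τ
    rw [Int.cast_natCast] at this
    rw [← this, ← mul_smul, ← mul_smul]
    congr 1
    group
  have h2 := hU ⟨_, conj_T_mem (N := N) γ⟩ (γ • τ)
  rw [hc ⟨_, conj_T_mem (N := N) γ⟩ (by rw [trace_conj_T]; norm_num), Units.val_one, one_mul] at h2
  rw [e1]
  exact h2

/-- **[EIS]**: existence of a nonzero twisted modular function. -/
theorem exists_tw [NeZero N] (c : ↥(Gamma0 N) →* ℂˣ) (hn : ∀ γ, ‖(c γ : ℂ)‖ = 1)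
    (hc : IsParCh c) : ∃ U : MN N, U ≠ 0 ∧ IsTw c U.1 := by
  set U : ℍ → ℂ := fun τ => wE 12 (wt c) τ / ModularForm.discriminant τ with hU
  have hsm : ∀ (γ : SL(2, ℤ)) (τ : ℍ), U (γ • τ) =
      wE 12 (fun v => wt c ((vecEquiv γ).symm v)) τ / ModularForm.discriminant τ := by
    intro γ τ
    simp only [hU]
    rw [wE_smul, disc_smul, mul_div_mul_left _ _ (zpow_ne_zero _ (denom_ne_zero γ τ))]
  have htw : IsTw c U := by
    intro γ τ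
    rw [hsm]
    simp only [hU]
    have e1 : (fun v => wt c ((vecEquiv (γ : SL(2, ℤ))).symm v)) = fun v => (c γ : ℂ) * wt c v :=
      funext fun v => wt_vecEquiv hc γ v
    rw [e1, ← mul_div_assoc]
    congr 1
    unfold wE
    rw [← tsum_mul_left]
    exact tsum_congr fun v => by ring
  have hmem : U ∈ MN N := by
    intro γ
    have hw : ∀ v, ‖wt c ((vecEquiv γ).symm v)‖ ≤ 1 := fun v => norm_wt_le hn _
    have e1 : (fun τ => U (γ • τ)) = fun τ =>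
        wE 12 (fun v => wt c ((vecEquiv γ).symm v)) τ / ModularForm.discriminant τ :=
      funext (hsm γ)
    refine ⟨periodic_of_vadd_nat N (fun τ => htw.vadd hc γ τ), ?_, 1, ?_⟩
    · rw [e1]
      exact (wE_mdiff (by norm_num) hw).div disc_mdiff discriminant_ne_zero
    · have e2 : (fun τ => U (γ • τ)) * ModularForm.discriminant ^ 1 =
          wE 12 (fun v => wt c ((vecEquiv γ).symm v)) := by
        rw [e1]
        funext τ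
        simp only [Pi.mul_apply, Pi.pow_apply, pow_one]
        exact div_mul_cancel₀ _ (discriminant_ne_zero τ)
      rw [e2]
      exact wE_bounded (by norm_num) hw
  refine ⟨⟨U, hmem⟩, ?_, htw⟩
  intro h0
  obtain ⟨τ, hτ⟩ := wE_wt_ne_zero hn hc
  have h1 : U τ = 0 := congrFun (congrArg Subtype.val h0) τ
  simp only [hU] at h1
  rcases div_eq_zero_iff.mp h1 with h | h
  · exact hτ h
  · exact discriminant_ne_zero τ h

end FAG
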