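/-
PROJECT G, [REAL](E): the multiplicative Hecke transform `U ↦ ∏_i U ∘ δ_i` of (twisted) modular
functions, its `q`-expansion, and the comparison with the algebraic operator `heckeMK ℂ N ℓ`.
-/
import Fermat.Agent.Gal.TwExist
import Fermat.Agent.Gal.HeckeSys
import Fermat.Agent.Gal.HPK
import Fermat.Agent.Igusa.MeroRing

set_option autoImplicit false

open UpperHalfPlane ModularForm CongruenceSubgroup FA_IS FA24 ModularCurve Function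
open scoped Manifold MatrixGroups
open FAIg (twistL zetaU)

namespace FAG

local notation "Δ" => ModularForm.discriminant

/-! ### the representatives as affine maps -/

/-- `δ_i τ = (a τ + b) / e` -/
def dA (ℓ : ℕ) : Option (Fin ℓ) → ℕ
  | none => ℓ
  | some _ => 1

/-- `δ_i τ = (a τ + b) / e` -/
def dE (ℓ : ℕ) : Option (Fin ℓ) → ℕ
  | none => 1
  | some _ => ℓ

/-- `δ_i τ = (a τ + b) / e` -/
def dB (ℓ : ℕ) : Option (Fin ℓ) → ℤ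
  | none => 0
  | some j => ((j : ℕ) : ℤ)

lemma dA_pos {ℓ : ℕ} (hℓ : 0 < ℓ) (i : Option (Fin ℓ)) : 0 < dA ℓ i := by
  cases i <;> simp [dA, hℓ]

lemma dE_pos {ℓ : ℕ} (hℓ : 0 < ℓ) (i : Option (Fin ℓ)) : 0 < dE ℓ i := by
  cases i <;> simp [dE, hℓ]

lemma dE_dvd (ℓ : ℕ) (i : Option (Fin ℓ)) : dE ℓ i ∣ ℓ := by
  cases i <;> simp [dE]

lemma dA_mul_dE (ℓ : ℕ) (i : Option (Fin ℓ)) : dA ℓ i * dE ℓ i = ℓ := by
  cases i <;> simp [dA, dE]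

lemma dR_smul {ℓ : ℕ} (hℓ : 0 < ℓ) (i : Option (Fin ℓ)) (τ : ℍ) :
    dR ℓ i • τ = affPt (dA ℓ i) (dE ℓ i) (dB ℓ i) τ := by
  apply UpperHalfPlane.ext
  rw [coe_affPt (dA_pos hℓ i) (dE_pos hℓ i)]
  cases i with
  | none =>
    rw [dR, coe_heckeDiagMatrix_smul hℓ.ne']
    simp [dA, dE, dB]
  | some j =>
    rw [dR, coe_heckeMatrix_smul hℓ.ne']
    simp [dA, dE, dB]

/-! ### composition with affine maps, for `N`-periodic functions -/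

lemma compAff_per_gen {F : ℍ → ℂ} {N : ℕ} (hF : Function.Periodic (F ∘ ofComplex) ((N : ℝ) : ℂ))
    {a e : ℕ} (he : 0 < e) (b : ℤ) {M : ℕ} (hM : N * e ∣ M) :
    Function.Periodic (compAff F a e b ∘ ofComplex) ((M : ℝ) : ℂ) := by
  have heC : (e : ℂ) ≠ 0 := by exact_mod_cast he.ne'
  obtain ⟨k, rfl⟩ := hM
  intro w
  by_cases hw : 0 < w.im
  · have hw' : 0 < (w + (((N * e * k : ℕ) : ℝ) : ℂ)).im := by simpa using hw
    rw [compAff_comp_ofComplex F a e b hw', compAff_comp_ofComplex F a e b hw]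
    have e1 : ((a : ℂ) * (w + (((N * e * k : ℕ) : ℝ) : ℂ)) + b) / e =
        ((a : ℂ) * w + b) / e + ((a * k : ℕ) : ℂ) * ((N : ℝ) : ℂ) := by
      push_cast
      field_simp
      ring
    rw [e1]
    exact (hF.nat_mul (a * k)) _
  · have hw1 : w.im ≤ 0 := not_lt.mp hw
    have hw' : (w + (((N * e * k : ℕ) : ℝ) : ℂ)).im ≤ 0 := by simpa using hw1
    simp only [comp_apply]
    rw [ofComplex_apply_eq_of_im_nonpos hw' hw1]

theorem meroInf_compAff_gen {f : ℍ → ℂ} {N : ℕ} (hf : MeroInf N f) {a e M : ℕ} (ha : 0 < a)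
    (he : 0 < e) (b : ℤ) (hM : N * e ∣ M) : MeroInf M (compAff f a e b) := by
  obtain ⟨m, hm⟩ := hf.pole
  refine ⟨compAff_per_gen hf.per he b hM, compAff_mdiff hf.hol ha he b, ⟨a * m, ?_⟩⟩
  have e1 : compAff f a e b * Δ ^ (a * m) =
      compAff (f * Δ ^ m) a e b * (Δ ^ a / compAff Δ a e b) ^ m := by
    ext τ
    simp only [Pi.mul_apply, Pi.pow_apply, Pi.div_apply, compAff]
    have := discriminant_ne_zero (affPt a e b τ)
    rw [div_pow, ← pow_mul, mul_assoc, mul_div_cancel₀ _ (pow_ne_zero m this)]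
  rw [e1]
  have hb : ∀ k : ℕ, IsBoundedAtImInfty ((Δ ^ a / compAff Δ a e b) ^ k) := by
    intro k
    induction k with
    | zero => rw [pow_zero]; exact Filter.const_boundedAtFilter atImInfty (1 : ℂ)
    | succ k ih => rw [pow_succ]; exact ih.mul (bdd_disc_ratio_aff ha he b)
  have hb' : IsBoundedAtImInfty (compAff (f * Δ ^ m) a e b) :=
    hm.comp_tendsto (tendsto_affPt ha he b)
  exact hb'.mul (hb m)

/-! ### the transform -/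

/-- `U ↦ ∏_i U ∘ δ_i`. -/
noncomputable def prodT (ℓ : ℕ) (U : ℍ → ℂ) : ℍ → ℂ :=
  fun τ => ∏ i : Option (Fin ℓ), U (dR ℓ i • τ)

lemma prodT_apply (ℓ : ℕ) (U : ℍ → ℂ) (τ : ℍ) :
    prodT ℓ U τ = ∏ i : Option (Fin ℓ), U (dR ℓ i • τ) := rfl

lemma prodT_mul (ℓ : ℕ) (U V : ℍ → ℂ) : prodT ℓ (U * V) = prodT ℓ U * prodT ℓ V := by
  funext τ
  simp only [prodT_apply, Pi.mul_apply, Finset.prod_mul_distrib]

lemma prodT_one (ℓ : ℕ) : prodT ℓ 1 = 1 := by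
  funext τ
  simp [prodT_apply]

lemma prodT_pow (ℓ : ℕ) (U : ℍ → ℂ) (n : ℕ) : prodT ℓ (U ^ n) = prodT ℓ U ^ n := by
  funext τ
  simp only [prodT_apply, Pi.pow_apply, Finset.prod_pow]

lemma prodT_eq {ℓ : ℕ} (hℓ : 0 < ℓ) (U : ℍ → ℂ) :
    prodT ℓ U = ∏ i : Option (Fin ℓ), compAff U (dA ℓ i) (dE ℓ i) (dB ℓ i) := by
  funext τ
  rw [prodT_apply, Finset.prod_apply]
  exact Finset.prod_congr rfl fun i _ => by rw [dR_smul hℓ]; rfl

/-- translates of the transform. -/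
lemma prodT_smul {ℓ : ℕ} (hℓ : ℓ.Prime) (U : ℍ → ℂ) (γ : SL(2, ℤ)) :
    ∃ (j : Option (Fin ℓ) → Option (Fin ℓ)) (γ' : Option (Fin ℓ) → SL(2, ℤ)),
      (fun τ => prodT ℓ U (γ • τ)) = ∏ i : Option (Fin ℓ),
        compAff (fun τ => U (γ' i • τ)) (dA ℓ (j i)) (dE ℓ (j i)) (dB ℓ (j i)) := by
  choose j γ' h using fun i => exists_dR_mul_one hℓ i γ
  refine ⟨j, γ', ?_⟩
  funext τ
  rw [prodT_apply, Finset.prod_apply]
  refine Finset.prod_congr rfl fun i _ => ?_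
  have e1 : dR ℓ i • γ • τ = γ' i • dR ℓ (j i) • τ := by
    have e2 : dR ℓ i • γ • τ = (dR ℓ i * Matrix.SpecialLinearGroup.mapGL ℝ γ) • τ := by
      rw [mul_smul]; rfl
    rw [e2, h i, mul_smul]
    rfl
  rw [e1, dR_smul hℓ.pos]
  rfl

variable {N : ℕ}

/-- **(E3)** the transform of a twisted function is twisted by the Hecke transform of the
character. -/
theorem isTw_prodT {ℓ : ℕ} (hℓ : ℓ.Prime) (hN : ¬ ℓ ∣ N) {c : ↥(Gamma0 N) →* ℂˣ} {U : ℍ → ℂ}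
    (hU : IsTw c U) : IsTw ((hsys N hℓ hN).heckeMul c) (prodT ℓ U) := by
  intro γ τ
  have h := (hsys N hℓ hN).prod_smul (c := (Units.coeHom ℂ).comp c) (U := U)
    (fun γ x => hU γ x) γ τ
  have e1 : (hsys N hℓ hN).heckeMul ((Units.coeHom ℂ).comp c) γ =
      (((hsys N hℓ hN).heckeMul c γ : ℂˣ) : ℂ) := by
    rw [HSys.heckeMul_apply, HSys.heckeMul_apply, Units.coe_prod]
    rfl
  rw [e1] at h
  exact h

lemma heckeMul_one' {ℓ : ℕ} (hℓ : ℓ.Prime) (hN : ¬ ℓ ∣ N) :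
    (hsys N hℓ hN).heckeMul (1 : ↥(Gamma0 N) →* ℂˣ) = 1 := by
  ext γ
  simp [HSys.heckeMul_apply]

lemma isParCh_one : IsParCh (1 : ↥(Gamma0 N) →* ℂˣ) := fun _ _ => rfl

lemma meroInf_factor {ℓ : ℕ} (hℓ : 0 < ℓ) {U : ℍ → ℂ} (hU : MeroInf N U) (i : Option (Fin ℓ)) :
    MeroInf (N * ℓ) (compAff U (dA ℓ i) (dE ℓ i) (dB ℓ i)) :=
  meroInf_compAff_gen hU (dA_pos hℓ i) (dE_pos hℓ i) _ (Nat.mul_dvd_mul_left N (dE_dvd ℓ i))

variable [NeZero N]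

/-- **(E1)** -/
theorem prodT_mem_MN {ℓ : ℕ} (hℓ : ℓ.Prime) {c' : ↥(Gamma0 N) →* ℂˣ} (hc' : IsParCh c')
    (U : MN N) (hT : IsTw c' (prodT ℓ U.1)) : prodT ℓ U.1 ∈ MN N := by
  intro γ
  have : NeZero (N * ℓ) := ⟨Nat.mul_ne_zero (NeZero.ne N) hℓ.ne_zero⟩
  obtain ⟨j, γ', heq⟩ := prodT_smul hℓ U.1 γ
  have hM : MeroInf (N * ℓ) (fun τ => prodT ℓ U.1 (γ • τ)) := by
    rw [heq]
    exact (FAIg.meroRing (N * ℓ)).prod_mem fun i _ => meroInf_factor hℓ.pos (U.2 (γ' i)) (j i)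
  exact ⟨periodic_of_vadd_nat N (fun τ => hT.vadd hc' γ τ), hM.hol, hM.pole⟩

/-- **(E2)** -/
theorem prodT_ne_zero {ℓ : ℕ} (hℓ : 0 < ℓ) {U : ℍ → ℂ} (hU : MeroInf N U) (h0 : U ≠ 0) :
    prodT ℓ U ≠ 0 := by
  have : NeZero (N * ℓ) := ⟨Nat.mul_ne_zero (NeZero.ne N) hℓ.ne'⟩
  intro h
  rw [prodT_eq hℓ] at h
  let x : Option (Fin ℓ) → FAIg.meroRing (N * ℓ) := fun i => ⟨_, meroInf_factor hℓ hU i⟩
  have h1 : ∏ i, x i = 0 := by
    apply Subtype.ext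
    rw [SubmonoidClass.coe_finsetProd]
    exact h
  have h2 := congrArg (FAIg.lauHom (N * ℓ)) h1
  rw [map_prod, map_zero, Finset.prod_eq_zero_iff] at h2
  obtain ⟨i, -, hi⟩ := h2
  have h3 : x i = 0 := FAIg.lauHom_injective _ (by rw [hi, map_zero])
  have h4 : compAff U (dA ℓ i) (dE ℓ i) (dB ℓ i) = 0 := congrArg Subtype.val h3
  apply h0
  funext τ
  have h5 := congrFun h4 ((dR ℓ i)⁻¹ • τ)
  rw [compAff, ← dR_smul hℓ, smul_inv_smul] at h5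
  exact h5

/-- the transform preserves modular functions. -/
theorem prodT_mem_RN {ℓ : ℕ} (hℓ : ℓ.Prime) (hN : ¬ ℓ ∣ N) (g : RN N) : prodT ℓ g.1 ∈ RN N := by
  have h1 : IsTw (1 : ↥(Gamma0 N) →* ℂˣ) g.1 := fun γ τ => by
    rw [g.2.1 γ γ.2 τ]
    simp
  have h2 := isTw_prodT hℓ hN h1
  rw [heckeMul_one'] at h2
  refine ⟨fun γ hγ τ => ?_, prodT_mem_MN hℓ isParCh_one (inclM g) h2⟩
  have := h2 ⟨γ, hγ⟩ τ
  simpa using this

/-- the transform on modular functions. -/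
noncomputable def prodTR {ℓ : ℕ} (hℓ : ℓ.Prime) (hN : ¬ ℓ ∣ N) (g : RN N) : RN N :=
  ⟨prodT ℓ g.1, prodT_mem_RN hℓ hN g⟩

lemma coe_prodTR {ℓ : ℕ} (hℓ : ℓ.Prime) (hN : ¬ ℓ ∣ N) (g : RN N) :
    (prodTR hℓ hN g).1 = prodT ℓ g.1 := rfl

/-! ### `q`-expansions -/

lemma zetaU_prim {ℓ : ℕ} (hℓ : ℓ ≠ 0) : IsPrimitiveRoot (zetaU ℓ 1) ℓ := by
  rw [← IsPrimitiveRoot.coe_units_iff]
  have h := Complex.isPrimitiveRoot_exp ℓ hℓ
  have e : ((zetaU ℓ 1 : ℂˣ) : ℂ) = Complex.exp (2 * Real.pi * Complex.I / ℓ) := by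
    rw [FAIg.coe_zetaU, zetaAff]
    simp
  rw [e]
  exact h

lemma zetaU_natCast7 (ℓ : ℕ) (b : ℕ) : zetaU ℓ (b : ℤ) = zetaU ℓ 1 ^ b := by
  ext
  rw [Units.val_pow_eq_pow_val, FAIg.coe_zetaU, FAIg.coe_zetaU, zetaAff, zetaAff,
    ← Complex.exp_nat_mul]
  congr 1
  push_cast
  ring

lemma zetaU_one_zero' : zetaU 1 0 = 1 := by
  ext
  simp [zetaAff]

omit [NeZero N] in
lemma lau_none {ℓ : ℕ} [NeZero ℓ] {g : ℍ → ℂ} (hg : MeroInf 1 g) :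
    lau ℓ (compAff g ℓ 1 0) = qExpand ℂ ℓ (qExpand ℂ ℓ (lau 1 g)) := by
  rw [FAIg.lau_compAff hg one_pos 0 (mul_one ℓ), zetaU_one_zero', FAIg.twistL_one,
      qExpand_qExpand, qExpand_congr (sq ℓ)]

omit [NeZero N] in
lemma lau_some {ℓ : ℕ} [NeZero ℓ] {g : ℍ → ℂ} (hg : MeroInf 1 g) (b : ℕ) :
    lau ℓ (compAff g 1 ℓ (b : ℤ)) = twistL (zetaU ℓ 1 ^ b) (lau 1 g) := by
  have hℓ : 0 < ℓ := Nat.pos_of_ne_zero (NeZero.ne ℓ)
  rw [FAIg.lau_compAff hg hℓ _ (one_mul ℓ), qExpand_congr (one_pow 2 : 1 ^ 2 = 1),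
      qExpand_one_apply, zetaU_natCast7]

omit [NeZero N] in
lemma lau_finset_prod7 {M : ℕ} [NeZero M] {ι : Type*} (s : Finset ι) (f : ι → ℍ → ℂ)
    (hf : ∀ i ∈ s, MeroInf M (f i)) : lau M (∏ i ∈ s, f i) = ∏ i ∈ s, lau M (f i) := by
  classical
  induction s using Finset.induction_on with
  | empty =>
    rw [Finset.prod_empty, Finset.prod_empty]
    have := lau_const M 1
    rw [map_one] at this
    exact this
  | insert a s ha ih =>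
    have h1 : MeroInf M (∏ i ∈ s, f i) :=
      (FAIg.meroRing M).prod_mem fun i hi => hf i (Finset.mem_insert_of_mem hi)
    rw [Finset.prod_insert ha, Finset.prod_insert ha,
      lau_mul (hf a (Finset.mem_insert_self a s)) h1,
      ih fun i hi => hf i (Finset.mem_insert_of_mem hi)]

omit [NeZero N] in
theorem lau_prodT {ℓ : ℕ} [NeZero ℓ] {g : ℍ → ℂ} (hg : MeroInf 1 g) :
    lau ℓ (prodT ℓ g) = qExpand ℂ ℓ (qExpand ℂ ℓ (lau 1 g)) *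
      ∏ b ∈ Finset.range ℓ, twistL (zetaU ℓ 1 ^ b) (lau 1 g) := by
  have hℓ : 0 < ℓ := Nat.pos_of_ne_zero (NeZero.ne ℓ)
  rw [prodT_eq hℓ, lau_finset_prod7 _ _ fun i _ =>
    FAIg.meroInf_compAff hg (dA_pos hℓ i) (dE_pos hℓ i) _ (dvd_of_eq (dA_mul_dE ℓ i)),
    Fintype.prod_option,
    ← Fin.prod_univ_eq_prod_range (fun b => twistL (zetaU ℓ 1 ^ b) (lau 1 g)) ℓ]
  congr 1
  · exact lau_none hg
  · exact Finset.prod_congr rfl fun b _ => lau_some hg b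

/-- **(E4)** -/
theorem qExpand_Lam_prodTR {ℓ : ℕ} [NeZero ℓ] (hℓ : ℓ.Prime) (hN : ¬ ℓ ∣ N) (g : RN N) :
    qExpand ℂ ℓ (Lam (prodTR hℓ hN g)) = qExpand ℂ ℓ (qExpand ℂ ℓ (Lam g)) *
      ∏ b ∈ Finset.range ℓ, twistL (zetaU ℓ 1 ^ b) (Lam g) := by
  rw [Lam_apply, Lam_apply, ← lau_of_one (RN.mero_one (prodTR hℓ hN g).2)]
  exact lau_prodT (RN.mero_one g.2)

/-- **(E5)** the analytic transform is the algebraic multiplicative Hecke operator. -/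
theorem heckeMK_ThetaEquiv_symm {ℓ : ℕ} [NeZero ℓ] (hℓ : ℓ.Prime) (hN : ¬ ℓ ∣ N) (g : RN N) :
    heckeMK ℂ N ℓ (FAGP.ThetaEquiv.symm (algebraMap (RN N) (FR N) g)) =
      FAGP.ThetaEquiv.symm (algebraMap (RN N) (FR N) (prodTR hℓ hN g)) := by
  apply Subtype.ext
  apply qExpand_injective ℓ
  rw [qExpand_heckeMK_of_isAlgClosed N hℓ hN (zetaU ℓ 1) (zetaU_prim hℓ.ne_zero),
    FAGP.coe_ThetaEquiv_symm, FAGP.coe_ThetaEquiv_symm, LamF_algebraMap, LamF_algebraMap,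
    qExpand_Lam_prodTR]

/-- **(E)**, packaged: the class of `U ^ p` is mapped by the algebraic Hecke operator to the class
of `(U^T) ^ p`, and `U^T` is twisted by the Hecke transform of the character. -/
theorem exists_tw_hecke {ℓ : ℕ} [NeZero ℓ] (hℓ : ℓ.Prime) (hN : ¬ ℓ ∣ N)
    {c : ↥(Gamma0 N) →* ℂˣ} (hc' : IsParCh ((hsys N hℓ hN).heckeMul c)) (U : MN N) (hU0 : U ≠ 0)
    (hU : IsTw c U.1) (p : ℕ) (h : U.1 ^ p ∈ RN N) :
    ∃ U' : MN N, U' ≠ 0 ∧ IsTw ((hsys N hℓ hN).heckeMul c) U'.1 ∧ ∃ h' : U'.1 ^ p ∈ RN N,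
      heckeMK ℂ N ℓ (FAGP.ThetaEquiv.symm (algebraMap (RN N) (FR N) ⟨U.1 ^ p, h⟩)) =
        FAGP.ThetaEquiv.symm (algebraMap (RN N) (FR N) ⟨U'.1 ^ p, h'⟩) := by
  have hT := isTw_prodT hℓ hN hU
  have e : prodT ℓ U.1 ^ p = (prodTR hℓ hN ⟨U.1 ^ p, h⟩).1 := by
    rw [coe_prodTR, prodT_pow]
  refine ⟨⟨prodT ℓ U.1, prodT_mem_MN hℓ hc' U hT⟩, fun h0 => ?_, hT, ?_, ?_⟩
  · exact prodT_ne_zero hℓ.pos (MN.mero U.2) (fun h1 => hU0 (Subtype.ext h1))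
      (congrArg Subtype.val h0)
  · show prodT ℓ U.1 ^ p ∈ RN N
    rw [e]
    exact (prodTR hℓ hN ⟨U.1 ^ p, h⟩).2
  · rw [heckeMK_ThetaEquiv_symm hℓ hN]
    congr 2
    exact Subtype.ext e.symm

end FAG
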