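import Mathlib

/-!
# PROJECT T, [ALG-W]: Wiles' construction of a two-dimensional representation from a module on
which `g + u(g) g⁻¹` acts as a scalar `t(g)`.
-/

set_option autoImplicit false

open Matrix

namespace FAG

section Field

variable {E : Type*} [Field E] [CharZero E] {G : Type*} [Group G]

/-- the "upper left entry" -/
noncomputable def wA (t : G → E) (c : G) (g : G) : E := (t g + t (c * g)) / 2
/-- the "lower right entry" -/
noncomputable def wD (t : G → E) (c : G) (g : G) : E := (t g - t (c * g)) / 2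
/-- the product of the off-diagonal entries -/
noncomputable def wX (t : G → E) (c : G) (g h : G) : E := wA t c (g * h) - wA t c g * wA t c h
/-- the product of the off-diagonal entries, the other way -/
noncomputable def wY (t : G → E) (c : G) (g h : G) : E := wD t c (g * h) - wD t c g * wD t c h

omit [CharZero E] in
/-- a two-dimensional invariant subspace with a basis gives a matrix representation. -/
lemma w_exists_matrix_rep {V : Type*} [AddCommGroup V] [Module E V] (r : G →* Module.End E V)
    {v w : V} (hli : ∀ s s' : E, s • v + s' • w = 0 → s = 0 ∧ s' = 0) (α β γ δ : G → E)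
    (hv : ∀ g, r g v = α g • v + γ g • w) (hw : ∀ g, r g w = β g • v + δ g • w) :
    ∃ R : G →* Matrix (Fin 2) (Fin 2) E, ∀ g, R g = !![α g, β g; γ g, δ g] := by
  have huniq : ∀ s1 s2 s1' s2' : E, s1 • v + s2 • w = s1' • v + s2' • w → s1 = s1' ∧ s2 = s2' := by
    intro s1 s2 s1' s2' h
    have := hli (s1 - s1') (s2 - s2') (by linear_combination (norm := module) h)
    exact ⟨sub_eq_zero.1 this.1, sub_eq_zero.1 this.2⟩
  have h1 : α 1 = 1 ∧ γ 1 = 0 := by
    have := hv 1
    rw [map_one, Module.End.one_apply] at this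
    have := huniq 1 0 (α 1) (γ 1) (by rw [← this]; module)
    exact ⟨this.1.symm, this.2.symm⟩
  have h2 : β 1 = 0 ∧ δ 1 = 1 := by
    have := hw 1
    rw [map_one, Module.End.one_apply] at this
    have := huniq 0 1 (β 1) (δ 1) (by rw [← this]; module)
    exact ⟨this.1.symm, this.2.symm⟩
  have h3 : ∀ g h, α (g * h) = α g * α h + β g * γ h ∧ γ (g * h) = γ g * α h + δ g * γ h := by
    intro g h
    have e := hv (g * h)
    rw [map_mul, Module.End.mul_apply, hv h, map_add, map_smul, map_smul, hv g, hw g] at e
    exact (huniq _ _ _ _ (by rw [← e]; module)).imp Eq.symm Eq.symm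
  have h4 : ∀ g h, β (g * h) = α g * β h + β g * δ h ∧ δ (g * h) = γ g * β h + δ g * δ h := by
    intro g h
    have e := hw (g * h)
    rw [map_mul, Module.End.mul_apply, hw h, map_add, map_smul, map_smul, hv g, hw g] at e
    exact (huniq _ _ _ _ (by rw [← e]; module)).imp Eq.symm Eq.symm
  refine ⟨{ toFun := fun g => !![α g, β g; γ g, δ g], map_one' := ?_, map_mul' := ?_ },
    fun g => rfl⟩
  · rw [h1.1, h1.2, h2.1, h2.2]
    exact Matrix.one_fin_two.symm
  · intro g h
    rw [Matrix.mul_fin_two, (h3 g h).1, (h3 g h).2, (h4 g h).1, (h4 g h).2]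

section Main

variable {V : Type*} [AddCommGroup V] [Module E V]
  (r : G →* Module.End E V) (u : G →* Eˣ) (t : G → E) (c : G)
  (hrel : ∀ g, r g + (u g : E) • r g⁻¹ = t g • 1) (hc : c * c = 1) (huc : u c = -1)

include hrel in
omit [CharZero E] in
lemma w_rel (g : G) (v : V) : r g v + (u g : E) • r g⁻¹ v = t g • v := by
  have := congrArg (fun f : Module.End E V => f v) (hrel g)
  simpa using this

include hc in
omit [CharZero E] in
lemma w_cc (v : V) : r c (r c v) = v := by
  rw [← Module.End.mul_apply, ← map_mul, hc, map_one, Module.End.one_apply]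

omit [CharZero E] in
lemma w_inv_apply (g : G) (v : V) : r g⁻¹ (r g v) = v := by
  rw [← Module.End.mul_apply, ← map_mul, inv_mul_cancel, map_one, Module.End.one_apply]

omit [CharZero E] in
lemma w_apply_inv (g : G) (v : V) : r g (r g⁻¹ v) = v := by
  rw [← Module.End.mul_apply, ← map_mul, mul_inv_cancel, map_one, Module.End.one_apply]

omit [CharZero E] in
lemma w_apply_ne_zero (g : G) {v : V} (hv : v ≠ 0) : r g v ≠ 0 := by
  intro h
  apply hv
  rw [← w_inv_apply r g v, h, map_zero]

include hrel hc huc in
omit [CharZero E] in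
lemma w_star (g : G) (v : V) :
    r c (r g v) + r g (r c v) = t g • r c v + t (c * g) • v := by
  have h1 := w_rel r u t hrel (c * g) v
  have h2 := w_rel r u t hrel g (r c v)
  have hcinv : c⁻¹ = c := inv_eq_of_mul_eq_one_left hc
  rw [map_mul r, Module.End.mul_apply, _root_.mul_inv_rev, hcinv, map_mul r, Module.End.mul_apply,
    map_mul u, huc] at h1
  have h3 : (((-1 * u g : Eˣ)) : E) = -(u g : E) := by simp
  rw [h3] at h1
  linear_combination (norm := module) h1 + h2

omit [CharZero E] in
lemma w_scalar [Nontrivial V] {s s' : E} (h : ∀ v : V, s • v = s' • v) : s = s' := by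
  obtain ⟨v, hv⟩ := exists_ne (0 : V)
  have h1 : (s - s') • v = 0 := by rw [sub_smul, h v, sub_self]
  rcases smul_eq_zero.1 h1 with h2 | h2
  · exact sub_eq_zero.1 h2
  · exact absurd h2 hv

include hrel in
omit [CharZero E] in
lemma w_t_one [Nontrivial V] : t 1 = 2 := by
  apply w_scalar (V := V)
  intro v
  have := w_rel r u t hrel 1 v
  simp only [map_one, inv_one, Module.End.one_apply, Units.val_one, one_smul] at this
  rw [← this, two_smul]

include hrel hc huc in
omit [CharZero E] in
lemma w_t_c [Nontrivial V] : t c = 0 := by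
  apply w_scalar (V := V)
  intro v
  have := w_rel r u t hrel c v
  have hcinv : c⁻¹ = c := inv_eq_of_mul_eq_one_left hc
  rw [hcinv, huc] at this
  rw [← this]
  simp

include hrel in
omit [CharZero E] in
lemma w_t_comm [Nontrivial V] (g h : G) : t (g * h) = t (h * g) := by
  obtain ⟨w, hw⟩ := exists_ne (0 : V)
  have h1 := w_rel r u t hrel (g * h) (r g w)
  have h2 := w_rel r u t hrel (h * g) w
  have e1 : r (g * h) (r g w) = r g (r (h * g) w) := by
    simp only [map_mul, Module.End.mul_apply]
  have e2 : r (g * h)⁻¹ (r g w) = r g (r (h * g)⁻¹ w) := by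
    rw [← Module.End.mul_apply, ← Module.End.mul_apply, ← map_mul, ← map_mul]
    congr 2
    group
  have e3 : u (g * h) = u (h * g) := by rw [map_mul, map_mul, mul_comm]
  rw [e1, e2, e3, ← map_smul, ← map_add, h2, map_smul] at h1
  have h3 : (t (h * g) - t (g * h)) • r g w = 0 := by rw [sub_smul, h1, sub_self]
  rcases smul_eq_zero.1 h3 with h4 | h4
  · exact (sub_eq_zero.1 h4).symm
  · exact absurd h4 (w_apply_ne_zero r g hw)

include hrel hc huc in
lemma w_plus (g : G) {v : V} (hv : r c v = v) :
    r c (r g v - wA t c g • v) = -(r g v - wA t c g • v) := by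
  have h := w_star r u t c hrel hc huc g v
  rw [hv] at h
  rw [map_sub, map_smul, hv, wA]
  linear_combination (norm := module) h

include hrel hc huc in
lemma w_minus (g : G) {w : V} (hw : r c w = -w) :
    r c (r g w - wD t c g • w) = r g w - wD t c g • w := by
  have h := w_star r u t c hrel hc huc g w
  rw [hw, map_neg] at h
  rw [map_sub, map_smul, hw, wD]
  linear_combination (norm := module) h

lemma w_split {p q : V} (hp : r c p = p) (hq : r c q = -q) (h : p + q = 0) : p = 0 ∧ q = 0 := by
  have h1 := congrArg (r c) h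
  rw [map_add, hp, hq, map_zero] at h1
  have h2 : (2 : E) • p = 0 := by linear_combination (norm := module) h + h1
  have h3 : p = 0 := by
    rcases smul_eq_zero.1 h2 with h4 | h4
    · exact absurd h4 two_ne_zero
    · exact h4
  refine ⟨h3, ?_⟩
  rw [h3, zero_add] at h
  exact h

include hrel hc huc in
lemma w_key1 (g h : G) {v : V} (hv : r c v = v) :
    r g (r h v - wA t c h • v) = wD t c g • (r h v - wA t c h • v) + wX t c g h • v := by
  have hq := w_plus r u t c hrel hc huc h hv
  have hq1 := w_plus r u t c hrel hc huc g hv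
  have hq2 := w_plus r u t c hrel hc huc (g * h) hv
  have hb := w_minus r u t c hrel hc huc g hq
  set q := r h v - wA t c h • v with hqdef
  have e1 : r (g * h) v = r g (r h v) := by rw [map_mul, Module.End.mul_apply]
  have e2 : r g q = r g (r h v) - wA t c h • r g v := by rw [hqdef, map_sub, map_smul]
  have hP : r c ((r g q - wD t c g • q) - wX t c g h • v) =
      (r g q - wD t c g • q) - wX t c g h • v := by
    rw [map_sub, hb, map_smul, hv]
  have hQ : r c (-(r (g * h) v - wA t c (g * h) • v) + wA t c h • (r g v - wA t c g • v) +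
      wD t c g • q) = -(-(r (g * h) v - wA t c (g * h) • v) + wA t c h • (r g v - wA t c g • v) +
      wD t c g • q) := by
    rw [map_add, map_add, map_neg, map_smul, map_smul, hq, hq1, hq2]
    module
  have hsum : ((r g q - wD t c g • q) - wX t c g h • v) +
      (-(r (g * h) v - wA t c (g * h) • v) + wA t c h • (r g v - wA t c g • v) +
      wD t c g • q) = 0 := by
    rw [e2, e1, wX]
    module
  have := (w_split r c hP hQ hsum).1
  linear_combination (norm := module) this

include hrel hc huc in
lemma w_key2 (g h : G) {w : V} (hw : r c w = -w) :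
    r g (r h w - wD t c h • w) = wA t c g • (r h w - wD t c h • w) + wY t c g h • w := by
  have hq := w_minus r u t c hrel hc huc h hw
  have hq1 := w_minus r u t c hrel hc huc g hw
  have hq2 := w_minus r u t c hrel hc huc (g * h) hw
  have hb := w_plus r u t c hrel hc huc g hq
  set q := r h w - wD t c h • w with hqdef
  have e1 : r (g * h) w = r g (r h w) := by rw [map_mul, Module.End.mul_apply]
  have e2 : r g q = r g (r h w) - wD t c h • r g w := by rw [hqdef, map_sub, map_smul]
  have hQ : r c ((r g q - wA t c g • q) - wY t c g h • w) =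
      -((r g q - wA t c g • q) - wY t c g h • w) := by
    rw [map_sub, hb, map_smul, hw]
    module
  have hP : r c (-(r (g * h) w - wD t c (g * h) • w) + wD t c h • (r g w - wD t c g • w) +
      wA t c g • q) = (-(r (g * h) w - wD t c (g * h) • w) + wD t c h • (r g w - wD t c g • w) +
      wA t c g • q) := by
    rw [map_add, map_add, map_neg, map_smul, map_smul, hq, hq1, hq2]
  have hsum : (-(r (g * h) w - wD t c (g * h) • w) + wD t c h • (r g w - wD t c g • w) +
      wA t c g • q) + ((r g q - wA t c g • q) - wY t c g h • w) = 0 := by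
    rw [e2, e1, wY]
    module
  have := (w_split r c hP hQ hsum).2
  linear_combination (norm := module) this

omit [CharZero E] in
lemma wA_add_wD [NeZero (2 : E)] (g : G) : wA t c g + wD t c g = t g := by
  have : (2 : E) ≠ 0 := NeZero.ne _
  rw [wA, wD]; field_simp; ring

include hrel in
omit [CharZero E] in
/-- an eigenvector gives a character -/
lemma w_char {w : V} (hw : w ≠ 0) (ψ : G → E) (h : ∀ g, r g w = ψ g • w) :
    (∀ g h, ψ (g * h) = ψ g * ψ h) ∧ ψ 1 = 1 ∧ ∀ g, ψ g * (t g - ψ g) = u g := by
  have hs : ∀ s s' : E, s • w = s' • w → s = s' := by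
    intro s s' hss
    have h1 : (s - s') • w = 0 := by rw [sub_smul, hss, sub_self]
    rcases smul_eq_zero.1 h1 with h2 | h2
    · exact sub_eq_zero.1 h2
    · exact absurd h2 hw
  have hmul : ∀ g h, ψ (g * h) = ψ g * ψ h := by
    intro g k
    apply hs
    rw [← h, map_mul, Module.End.mul_apply, h k, map_smul, h g, smul_smul, mul_comm]
  have hone : ψ 1 = 1 := by
    apply hs
    rw [← h, map_one, Module.End.one_apply, one_smul]
  refine ⟨hmul, hone, fun g => ?_⟩
  have h1 := w_rel r u t hrel g w
  rw [h g, h g⁻¹, smul_smul, ← add_smul] at h1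
  have h2 := hs _ _ h1
  have h3 : ψ g * ψ g⁻¹ = 1 := by rw [← hmul, mul_inv_cancel, hone]
  rw [← h2]
  linear_combination (u g : E) * h3

omit [CharZero E] in
/-- the diagonal case -/
lemma w_diag (a d : G → E) (ha : ∀ g h, a (g * h) = a g * a h) (ha1 : a 1 = 1)
    (hd : ∀ g h, d (g * h) = d g * d h) (hd1 : d 1 = 1) :
    ∃ R : G →* Matrix (Fin 2) (Fin 2) E, ∀ g, R g = !![a g, 0; 0, d g] := by
  refine ⟨{ toFun := fun g => !![a g, 0; 0, d g], map_one' := ?_, map_mul' := ?_ }, fun g => rfl⟩
  · rw [ha1, hd1]
    exact Matrix.one_fin_two.symm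
  · intro g h
    rw [Matrix.mul_fin_two, ha, hd]
    simp

omit [CharZero E] in
/-- if `ψ` is a character and `ψ ψ' = u` then `ψ'` is a character. -/
lemma w_char' (ψ ψ' : G → E) (h : ∀ g h, ψ (g * h) = ψ g * ψ h) (h1 : ψ 1 = 1)
    (hu : ∀ g, ψ g * ψ' g = u g) : (∀ g h, ψ' (g * h) = ψ' g * ψ' h) ∧ ψ' 1 = 1 := by
  have hne : ∀ g, ψ g ≠ 0 := by
    intro g h0
    have := hu g
    rw [h0, zero_mul] at this
    exact (u g).ne_zero this.symm
  constructor
  · intro g k
    apply mul_left_cancel₀ (hne (g * k))
    rw [hu, h, map_mul, Units.val_mul, ← hu g, ← hu k]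
    ring
  · have := hu 1
    rw [h1, one_mul, map_one, Units.val_one] at this
    exact this

include hrel hc huc in
/-- **Wiles' construction** over a field. -/
theorem wiles_field [Nontrivial V] :
    ∃ (R : G →* Matrix (Fin 2) (Fin 2) E) (g0 h0 : G) (κ : E),
      ∀ g, R g = !![wA t c g, wX t c g h0; κ * wY t c g g0, wD t c g] ∧ (R g).det = u g := by
  have hAD : ∀ g, t g - wA t c g = wD t c g := fun g => by rw [← wA_add_wD t c g]; ring
  have hDA : ∀ g, t g - wD t c g = wA t c g := fun g => by rw [← wA_add_wD t c g]; ring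
  -- the diagonal case
  have hdiag : (∀ g h, wA t c (g * h) = wA t c g * wA t c h) → wA t c 1 = 1 →
      (∀ g h, wD t c (g * h) = wD t c g * wD t c h) → wD t c 1 = 1 →
      (∀ g, wA t c g * wD t c g = u g) →
      ∃ (R : G →* Matrix (Fin 2) (Fin 2) E) (g0 h0 : G) (κ : E),
      ∀ g, R g = !![wA t c g, wX t c g h0; κ * wY t c g g0, wD t c g] ∧ (R g).det = u g := by
    intro h1 h2 h3 h4 h5
    obtain ⟨R, hR⟩ := w_diag (wA t c) (wD t c) h1 h2 h3 h4
    refine ⟨R, 1, 1, 0, fun g => ?_⟩
    have hx : wX t c g 1 = 0 := by rw [wX, h1, sub_self]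
    rw [hR, hx, zero_mul]
    refine ⟨rfl, ?_⟩
    rw [Matrix.det_fin_two_of, h5]
    ring
  have hcaseA : ∀ w : V, w ≠ 0 → (∀ g, r g w = wA t c g • w) →
      ∃ (R : G →* Matrix (Fin 2) (Fin 2) E) (g0 h0 : G) (κ : E),
      ∀ g, R g = !![wA t c g, wX t c g h0; κ * wY t c g g0, wD t c g] ∧ (R g).det = u g := by
    intro w hw h
    obtain ⟨h1, h2, h3⟩ := w_char r u t hrel hw _ h
    simp only [hAD] at h3
    obtain ⟨h4, h5⟩ := w_char' u _ _ h1 h2 h3
    exact hdiag h1 h2 h4 h5 h3
  have hcaseD : ∀ w : V, w ≠ 0 → (∀ g, r g w = wD t c g • w) →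
      ∃ (R : G →* Matrix (Fin 2) (Fin 2) E) (g0 h0 : G) (κ : E),
      ∀ g, R g = !![wA t c g, wX t c g h0; κ * wY t c g g0, wD t c g] ∧ (R g).det = u g := by
    intro w hw h
    obtain ⟨h1, h2, h3⟩ := w_char r u t hrel hw _ h
    simp only [hDA] at h3
    obtain ⟨h4, h5⟩ := w_char' u _ _ h1 h2 h3
    exact hdiag h4 h5 h1 h2 (fun g => by rw [mul_comm, h3])
  by_cases hplus : ∃ v : V, v ≠ 0 ∧ r c v = v
  · obtain ⟨v, hv0, hv⟩ := hplus
    by_cases hX : ∃ g0 h0, wX t c g0 h0 ≠ 0
    · -- the irreducible-type case
      obtain ⟨g0, h0, hX0⟩ := hX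
      set X0 := wX t c g0 h0 with hX0def
      have hwm := w_plus r u t c hrel hc huc h0 hv
      have k1 := fun g => w_key1 r u t c hrel hc huc g h0 hv
      set w := r h0 v - wA t c h0 • v with hwdef
      have hw0 : w ≠ 0 := by
        intro h
        have := k1 g0
        rw [h, map_zero, smul_zero, zero_add] at this
        rcases smul_eq_zero.1 this.symm with h2 | h2
        · exact hX0 h2
        · exact hv0 h2
      have k2 := fun g => w_key2 r u t c hrel hc huc g g0 hwm
      have e1 : r g0 w - wD t c g0 • w = X0 • v := by rw [k1 g0]; module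
      have hrv : ∀ g, r g v = wA t c g • v + (X0⁻¹ * wY t c g g0) • w := by
        intro g
        have := k2 g
        rw [e1, map_smul] at this
        have h3 : r g v = X0⁻¹ • (X0 • r g v) := by rw [smul_smul, inv_mul_cancel₀ hX0, one_smul]
        rw [h3, this, smul_add, smul_smul, smul_smul, smul_smul]
        congr 2
        rw [mul_comm X0⁻¹, mul_assoc, inv_mul_cancel₀ hX0, mul_one]
      have hrw : ∀ g, r g w = wX t c g h0 • v + wD t c g • w := by
        intro g
        rw [k1 g, add_comm]
      have hli : ∀ s s' : E, s • v + s' • w = 0 → s = 0 ∧ s' = 0 := by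
        intro s s' h
        have := w_split r c (p := s • v) (q := s' • w) (by rw [map_smul, hv])
          (by rw [map_smul, hwm, smul_neg]) h
        exact ⟨(smul_eq_zero.1 this.1).resolve_right hv0, (smul_eq_zero.1 this.2).resolve_right hw0⟩
      obtain ⟨R, hR⟩ := w_exists_matrix_rep r hli _ _ _ _ hrv hrw
      refine ⟨R, g0, h0, X0⁻¹, fun g => ⟨hR g, ?_⟩⟩
      have h00 : wA t c (g * g) = wA t c g * wA t c g + wX t c g h0 * (X0⁻¹ * wY t c g g0) := by
        have := congrFun (congrFun (map_mul R g g) 0) 0
        rw [hR, hR, Matrix.mul_fin_two] at this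
        simpa using this
      have hq := w_rel r u t hrel g (r g v)
      rw [w_inv_apply, ← Module.End.mul_apply, ← map_mul, hrv (g * g), hrv g] at hq
      have hq' := (hli (wA t c (g * g) + u g - t g * wA t c g)
        (X0⁻¹ * wY t c (g * g) g0 - t g * (X0⁻¹ * wY t c g g0))
        (by linear_combination (norm := module) hq)).1
      rw [hR, Matrix.det_fin_two_of]
      have ht := wA_add_wD t c g
      rw [h00, ← ht] at hq'
      linear_combination -hq'
    · push Not at hX
      by_cases hγ : ∀ h, r h v = wA t c h • v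
      · exact hcaseA v hv0 hγ
      · push Not at hγ
        obtain ⟨h, hh⟩ := hγ
        refine hcaseD (r h v - wA t c h • v) (sub_ne_zero.2 hh) fun g => ?_
        rw [w_key1 r u t c hrel hc huc g h hv, hX, zero_smul, add_zero]
  · push Not at hplus
    obtain ⟨w, hw0⟩ := exists_ne (0 : V)
    have hminus : ∀ x : V, r c x = -x := by
      intro x
      by_contra hx
      have h1 : x + r c x ≠ 0 := fun h => hx (by rw [eq_neg_iff_add_eq_zero, add_comm]; exact h)
      exact hplus _ h1 (by rw [map_add, w_cc r c hc, add_comm])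
    refine hcaseD w hw0 fun g => ?_
    by_contra hne
    exact hplus _ (sub_ne_zero.2 hne) (w_minus r u t c hrel hc huc g (hminus w))

end Main

end Field

end FAG
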