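import Fermat.Agent.Gal.Wiles

/-!
# PROJECT T, [ALG-W], integral form: lattice, characteristic polynomial, continuity.
-/

set_option autoImplicit false

open Matrix Polynomial Module

namespace FAG

section Lattice

variable {O E : Type*} [CommRing O] [IsDomain O] [IsPrincipalIdealRing O] [Field E] [Algebra O E]
  [IsFractionRing O E] {G : Type*} [Group G]

/-- a bounded two-dimensional representation over the fraction field of a PID is conjugate to an
integral one. -/
theorem w_exists_integral_conj (R : G →* Matrix (Fin 2) (Fin 2) E) (δ : O) (hδ : δ ≠ 0)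
    (hb : ∀ g i j, ∃ o : O, algebraMap O E o = algebraMap O E δ * R g i j) :
    ∃ (R' : G →* Matrix (Fin 2) (Fin 2) O) (P Q : Matrix (Fin 2) (Fin 2) E),
      P * Q = 1 ∧ Q * P = 1 ∧ ∀ g, (R' g).map (algebraMap O E) = Q * R g * P := by
  classical
  have hinj := IsFractionRing.injective O E
  have hδE : algebraMap O E δ ≠ 0 := (map_ne_zero_iff _ hinj).2 hδ
  let W := Fin 2 → E
  let T : G → (W →ₗ[O] W) := fun g => ((R g).mulVecLin).restrictScalars O
  have hT : ∀ g x, T g x = (R g) *ᵥ x := fun _ _ => rfl
  let s : Set W := {x | ∃ g i, x = (R g) *ᵥ (Pi.single i 1)}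
  let L : Submodule O W := Submodule.span O s
  have hstab : ∀ g, ∀ x ∈ L, T g x ∈ L := by
    intro g x hx
    have : Submodule.map (T g) L ≤ L := by
      rw [Submodule.map_span_le]
      rintro _ ⟨h, i, rfl⟩
      apply Submodule.subset_span
      refine ⟨g * h, i, ?_⟩
      rw [hT, Matrix.mulVec_mulVec, map_mul]
    exact this ⟨x, hx, rfl⟩
  have he : ∀ i : Fin 2, (Pi.single i 1 : W) ∈ L := by
    intro i
    apply Submodule.subset_span
    exact ⟨1, i, by rw [map_one, Matrix.one_mulVec]⟩
  -- finiteness
  let L0 : Submodule O W :=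
    Submodule.span O (Set.range fun i : Fin 2 => (Pi.single i (algebraMap O E δ)⁻¹ : W))
  have hL0 : L0.FG := Submodule.fg_span (Set.finite_range _)
  have hle : L ≤ L0 := by
    rw [Submodule.span_le]
    rintro _ ⟨g, i, rfl⟩
    choose o ho using fun k => hb g k i
    have : (R g) *ᵥ (Pi.single i 1) =
        ∑ k : Fin 2, o k • (Pi.single k (algebraMap O E δ)⁻¹ : W) := by
      ext k
      rw [Matrix.mulVec_single_one, Finset.sum_apply]
      simp only [Pi.smul_apply, Algebra.smul_def, ho, Pi.single_apply, mul_ite, mul_zero,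
        Finset.sum_ite_eq, Finset.mem_univ, if_true, Matrix.col_apply]
      field_simp
    rw [this]
    exact Submodule.sum_mem _ fun k _ => Submodule.smul_mem _ _ (Submodule.subset_span ⟨k, rfl⟩)
  have hLfg : L.FG := (isNoetherian_submodule.1 (isNoetherian_of_fg_of_noetherian L0 hL0)) L hle
  have : Module.Finite O L := Module.Finite.iff_fg.2 hLfg
  have : Module.IsTorsionFree O W := inferInstance
  have : Module.IsTorsionFree O L := inferInstance
  have : Module.Free O L := Module.free_of_finite_type_torsion_free'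
  obtain ⟨n, ⟨b⟩⟩ : ∃ n, Nonempty (Basis (Fin n) O L) := ⟨_, ⟨Module.finBasis O L⟩⟩
  have hli : LinearIndependent E (fun i => (b i : W)) := by
    rw [← LinearIndependent.iff_fractionRing O E]
    exact b.linearIndependent.map' L.subtype (Submodule.ker_subtype L)
  have hLE : ∀ y ∈ L, y ∈ Submodule.span E (Set.range fun i => (b i : W)) := by
    intro y hy
    have h1 := congrArg Subtype.val (b.sum_repr ⟨y, hy⟩)
    have h2 : y = ∑ i, b.repr ⟨y, hy⟩ i • (b i : W) := by
      rw [Submodule.coe_sum] at h1
      simp only [Submodule.coe_smul] at h1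
      exact h1.symm
    rw [h2]
    exact Submodule.sum_mem _ fun i _ => by
      rw [← algebraMap_smul E]
      exact Submodule.smul_mem _ _ (Submodule.subset_span ⟨i, rfl⟩)
  have hsp : ⊤ ≤ Submodule.span E (Set.range fun i => (b i : W)) := by
    intro x _
    have : x = ∑ k, x k • (Pi.single k 1 : W) := by
      ext j
      simp [Pi.single_apply, Finset.sum_apply]
    rw [this]
    exact Submodule.sum_mem _ fun k _ => Submodule.smul_mem _ _ (hLE _ (he k))
  let bE : Basis (Fin n) E W := Basis.mk hli hsp
  have hn : n = 2 := by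
    have := Module.finrank_eq_card_basis bE
    rw [Module.finrank_fin_fun, Fintype.card_fin] at this
    exact this.symm
  subst hn
  let rL : G →* Module.End O L :=
    { toFun := fun g => (T g).restrict (hstab g)
      map_one' := by
        ext x
        simp [hT]
      map_mul' := fun g h => by
        apply LinearMap.ext
        intro x
        apply Subtype.ext
        show (R (g * h)) *ᵥ (x : W) = (R g) *ᵥ ((R h) *ᵥ (x : W))
        rw [Matrix.mulVec_mulVec, map_mul] }
  let R' : G →* Matrix (Fin 2) (Fin 2) O :=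
    ((LinearMap.toMatrixAlgEquiv b : Module.End O L ≃ₐ[O] _) : Module.End O L →* _).comp rL
  have hR' : ∀ g i j, R' g i j = b.repr ((T g).restrict (hstab g) (b j)) i := fun g i j =>
    LinearMap.toMatrixAlgEquiv_apply b _ i j
  let P : Matrix (Fin 2) (Fin 2) E := (Pi.basisFun E (Fin 2)).toMatrix bE
  let Q : Matrix (Fin 2) (Fin 2) E := bE.toMatrix (Pi.basisFun E (Fin 2))
  have hPQ : P * Q = 1 := Basis.toMatrix_mul_toMatrix_flip _ _
  have hQP : Q * P = 1 := Basis.toMatrix_mul_toMatrix_flip _ _
  have hP : ∀ k j, P k j = (b j : W) k := by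
    intro k j
    show (Pi.basisFun E (Fin 2)).toMatrix bE k j = _
    rw [Basis.toMatrix_apply, Pi.basisFun_repr, Basis.mk_apply]
  have key : ∀ g, R g * P = P * (R' g).map (algebraMap O E) := by
    intro g
    ext k j
    have h1 : (R g) *ᵥ (b j : W) = ∑ i, R' g i j • (b i : W) := by
      have h2 := congrArg Subtype.val (b.sum_repr ((T g).restrict (hstab g) (b j)))
      simp only [hR']
      rw [Submodule.coe_sum] at h2
      simp only [Submodule.coe_smul] at h2
      rw [h2]
      rfl
    have h3 := congrFun h1 k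
    rw [Finset.sum_apply] at h3
    rw [Matrix.mul_apply, Matrix.mul_apply]
    simp only [hP, Matrix.map_apply]
    simp only [Matrix.mulVec, dotProduct, Algebra.smul_def] at h3
    rw [h3]
    exact Finset.sum_congr rfl fun i _ => mul_comm _ _
  refine ⟨R', P, Q, hPQ, hQP, fun g => ?_⟩
  rw [mul_assoc, key, ← mul_assoc, hQP, one_mul]

omit [IsPrincipalIdealRing O] in
lemma w_exists_den (A : Matrix (Fin 2) (Fin 2) E) :
    ∃ (d : O) (A' : Matrix (Fin 2) (Fin 2) O), d ≠ 0 ∧
      A'.map (algebraMap O E) = algebraMap O E d • A := by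
  obtain ⟨b, hb⟩ := IsLocalization.exist_integer_multiples_of_finite (nonZeroDivisors O)
    (fun ij : Fin 2 × Fin 2 => A ij.1 ij.2)
  choose f hf using hb
  refine ⟨b, Matrix.of fun i j => f (i, j), nonZeroDivisors.ne_zero b.2, ?_⟩
  ext i j
  simp [hf, Algebra.smul_def]

end Lattice

section Integral

variable {O : Type*} [CommRing O] [IsDomain O] [IsPrincipalIdealRing O] [CharZero O]
  {G : Type*} [Group G] {M : Type*} [AddCommGroup M] [Module O M]

open TensorProduct in
theorem wiles_nontorsion (r : G →* Module.End O M) (u : G →* Oˣ) (t : G → O) (c : G)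
    (x0 : M) (hx0 : ∀ a : O, a • x0 = 0 → a = 0)
    (hrel : ∀ g, r g + (u g : O) • r g⁻¹ = t g • 1) (hc : c * c = 1) (huc : (u c : O) = -1) :
    ∃ (R : G →* Matrix (Fin 2) (Fin 2) O) (δ : O), δ ≠ 0 ∧
      (∀ g, (R g).charpoly = X ^ 2 - C (t g) * X + C (u g : O)) ∧
      ∀ (I : Ideal O) (σ : G), (∀ h, t (σ * h) - t h ∈ I) → ∀ i j, δ * (R σ - 1) i j ∈ I := by
  classical
  let E := FractionRing O
  have hinj : Function.Injective (algebraMap O E) := IsFractionRing.injective O E
  have : CharZero E := charZero_of_injective_algebraMap hinj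
  let V := E ⊗[O] M
  have hV : Nontrivial V := by
    refine ⟨⟨TensorProduct.mk O E M 1 x0, 0, fun h => ?_⟩⟩
    obtain ⟨s, hs⟩ := (IsLocalizedModule.eq_zero_iff (nonZeroDivisors O)
      (TensorProduct.mk O E M 1)).1 h
    exact nonZeroDivisors.ne_zero s.2 (hx0 _ hs)
  let rE : G →* Module.End E V :=
    ((Module.End.baseChangeHom O E M : Module.End O M →ₐ[O] Module.End E V) :
      Module.End O M →* Module.End E V).comp r
  let uE : G →* Eˣ := (Units.map (algebraMap O E : O →* E)).comp u
  let tE : G → E := fun g => algebraMap O E (t g)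
  have huE : ∀ g, (uE g : E) = algebraMap O E (u g) := fun _ => rfl
  have hrelE : ∀ g, rE g + (uE g : E) • rE g⁻¹ = tE g • 1 := by
    intro g
    have := congrArg (Module.End.baseChangeHom O E M) (hrel g)
    rw [map_add, map_smul, map_smul, map_one] at this
    rw [huE, algebraMap_smul, algebraMap_smul]
    exact this
  have hucE : uE c = -1 := by
    apply Units.ext
    rw [huE, huc]
    simp
  obtain ⟨R, g0, h0, κ, hR⟩ := wiles_field rE uE tE c hrelE hc hucE
  have ht1 : t 1 = 2 := hinj (by
    have := w_t_one rE uE tE hrelE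
    rw [map_ofNat]
    exact this)
  have htc : t c = 0 := hinj (by
    have := w_t_c rE uE tE c hrelE hc hucE
    rw [map_zero]
    exact this)
  have htcomm : ∀ g h, t (g * h) = t (h * g) := fun g h => hinj (w_t_comm rE uE tE hrelE g h)
  -- integral numerators
  let a2 : G → O := fun g => t g + t (c * g)
  let d2 : G → O := fun g => t g - t (c * g)
  let x4 : G → G → O := fun g h => 2 * a2 (g * h) - a2 g * a2 h
  let y4 : G → G → O := fun g h => 2 * d2 (g * h) - d2 g * d2 h
  have ha2 : ∀ g, algebraMap O E (a2 g) = 2 * wA tE c g := by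
    intro g
    simp only [a2, wA, tE, map_add]
    ring
  have hd2 : ∀ g, algebraMap O E (d2 g) = 2 * wD tE c g := by
    intro g
    simp only [d2, wD, tE, map_sub]
    ring
  have hx4 : ∀ g h, algebraMap O E (x4 g h) = 4 * wX tE c g h := by
    intro g h
    simp only [x4, map_sub, map_mul, ha2, wX, map_ofNat]
    ring
  have hy4 : ∀ g h, algebraMap O E (y4 g h) = 4 * wY tE c g h := by
    intro g h
    simp only [y4, map_sub, map_mul, hd2, wY, map_ofNat]
    ring
  obtain ⟨κn, κd, hκd, hκ⟩ : ∃ κn κd : O, κd ≠ 0 ∧ κ = algebraMap O E κn / algebraMap O E κd := by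
    obtain ⟨a, b, hb, h⟩ := IsFractionRing.div_surjective (A := O) κ
    exact ⟨a, b, nonZeroDivisors.ne_zero hb, h.symm⟩
  have hκdE : algebraMap O E κd ≠ 0 := (map_ne_zero_iff _ hinj).2 hκd
  let δ0 : O := 4 * κd
  have hδ0 : δ0 ≠ 0 := mul_ne_zero (by norm_num) hκd
  let B : G → Matrix (Fin 2) (Fin 2) O := fun g =>
    !![2 * κd * a2 g, κd * x4 g h0; κn * y4 g g0, 2 * κd * d2 g]
  have hB : ∀ g, (B g).map (algebraMap O E) = algebraMap O E δ0 • R g := by
    intro g
    rw [(hR g).1]
    ext i j
    fin_cases i <;> fin_cases j <;>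
      simp only [B, δ0, Matrix.map_apply, Matrix.smul_apply, Matrix.of_apply, Matrix.cons_val',
        Matrix.cons_val_zero, Matrix.cons_val_one, Matrix.cons_val_fin_one, Fin.zero_eta,
        Fin.mk_one, Fin.isValue, map_mul, map_ofNat, ha2, hd2, hx4, hy4, smul_eq_mul, hκ]
    · ring
    · ring
    · have e : (algebraMap O E κn / algebraMap O E κd) * algebraMap O E κd = algebraMap O E κn :=
        div_mul_cancel₀ _ hκdE
      linear_combination (-4 * wY tE c g g0) * e
    · ring
  obtain ⟨R', P, Q, hPQ, hQP, hR'⟩ := w_exists_integral_conj R δ0 hδ0 (fun g i j =>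
    ⟨B g i j, by
      have := congrFun (congrFun (hB g) i) j
      rwa [Matrix.map_apply, Matrix.smul_apply, smul_eq_mul] at this⟩)
  obtain ⟨dP, P', hdP, hP'⟩ := w_exists_den (O := O) P
  obtain ⟨dQ, Q', hdQ, hQ'⟩ := w_exists_den (O := O) Q
  refine ⟨R', dQ * δ0 * dP, mul_ne_zero (mul_ne_zero hdQ hδ0) hdP, fun g => ?_, ?_⟩
  · have htr : (R' g).trace = t g := by
      apply hinj
      rw [AddMonoidHom.map_trace, hR', Matrix.trace_mul_cycle, hPQ, one_mul, (hR g).1,
        Matrix.trace_fin_two_of, wA_add_wD]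
    have hdet : (R' g).det = u g := by
      apply hinj
      rw [RingHom.map_det, RingHom.mapMatrix_apply, hR', Matrix.det_mul, Matrix.det_mul,
        mul_right_comm, ← Matrix.det_mul, hQP, Matrix.det_one, one_mul, (hR g).2, huE]
    rw [Matrix.charpoly_fin_two, htr, hdet]
  · intro I σ hσ
    have hA : ∀ h, a2 (σ * h) - a2 h ∈ I := by
      intro h
      have e : a2 (σ * h) - a2 h = (t (σ * h) - t h) + (t (σ * (h * c)) - t (h * c)) := by
        simp only [a2]
        rw [htcomm c (σ * h), htcomm c h, mul_assoc]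
        ring
      rw [e]
      exact I.add_mem (hσ _) (hσ _)
    have hD : ∀ h, d2 (σ * h) - d2 h ∈ I := by
      intro h
      have e : d2 (σ * h) - d2 h = (t (σ * h) - t h) - (t (σ * (h * c)) - t (h * c)) := by
        simp only [d2]
        rw [htcomm c (σ * h), htcomm c h, mul_assoc]
        ring
      rw [e]
      exact I.sub_mem (hσ _) (hσ _)
    have ha1 : a2 1 = 2 := by
      simp only [a2]
      rw [mul_one, ht1, htc, add_zero]
    have hd1 : d2 1 = 2 := by
      simp only [d2]
      rw [mul_one, ht1, htc, sub_zero]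
    have hA1 : a2 σ - 2 ∈ I := by
      have := hA 1
      rwa [mul_one, ha1] at this
    have hD1 : d2 σ - 2 ∈ I := by
      have := hD 1
      rwa [mul_one, hd1] at this
    have hX : x4 σ h0 ∈ I := by
      have e : x4 σ h0 = 2 * (a2 (σ * h0) - a2 h0) - (a2 σ - 2) * a2 h0 := by
        simp only [x4]
        ring
      rw [e]
      exact I.sub_mem (I.mul_mem_left _ (hA _)) (I.mul_mem_right _ hA1)
    have hY : y4 σ g0 ∈ I := by
      have e : y4 σ g0 = 2 * (d2 (σ * g0) - d2 g0) - (d2 σ - 2) * d2 g0 := by
        simp only [y4]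
        ring
      rw [e]
      exact I.sub_mem (I.mul_mem_left _ (hD _)) (I.mul_mem_right _ hD1)
    let Cm : Matrix (Fin 2) (Fin 2) O :=
      !![2 * κd * (a2 σ - 2), κd * x4 σ h0; κn * y4 σ g0, 2 * κd * (d2 σ - 2)]
    have hC : ∀ k l, Cm k l ∈ I := by
      intro k l
      fin_cases k <;> fin_cases l
      · exact I.mul_mem_left _ hA1
      · exact I.mul_mem_left _ hX
      · exact I.mul_mem_left _ hY
      · exact I.mul_mem_left _ hD1
    have hCB : Cm = B σ - δ0 • 1 := by
      ext k l
      fin_cases k <;> fin_cases l <;> simp [Cm, B, δ0] <;> ring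
    have hCm : Cm.map (algebraMap O E) = algebraMap O E δ0 • (R σ - 1) := by
      rw [hCB, Matrix.map_sub _ (map_sub _), hB, Matrix.map_smul' _ _ _ (map_mul _),
        Matrix.map_one _ (map_zero _) (map_one _), smul_sub]
    have key : (dQ * δ0 * dP) • (R' σ - 1) = Q' * Cm * P' := by
      apply Matrix.map_injective hinj
      show ((dQ * δ0 * dP) • (R' σ - 1)).map (algebraMap O E) =
        (Q' * Cm * P').map (algebraMap O E)
      rw [Matrix.map_smul' _ _ _ (map_mul _), Matrix.map_mul, Matrix.map_mul,
        Matrix.map_sub _ (map_sub _), hR', hP', hQ', hCm,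
        Matrix.map_one _ (map_zero _) (map_one _)]
      simp only [Matrix.smul_mul, Matrix.mul_smul, smul_smul, mul_sub, sub_mul, mul_one, hQP,
        map_mul]
      rw [← smul_sub, smul_smul]
      congr 1
      ring
    intro i j
    have h1 := congrFun (congrFun key i) j
    rw [Matrix.smul_apply, smul_eq_mul] at h1
    rw [h1, Matrix.mul_apply]
    refine I.sum_mem fun l _ => I.mul_mem_right _ ?_
    rw [Matrix.mul_apply]
    exact I.sum_mem fun k _ => I.mul_mem_left _ (hC k l)

/-- **[ALG-W], integral form.** -/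
theorem wiles_main (r : G →* Module.End O M) (u : G →* Oˣ) (t : G → O) (c : G)
    (hfaith : ∀ a : O, (∀ x : M, a • x = 0) → a = 0)
    (hrel : ∀ g, r g + (u g : O) • r g⁻¹ = t g • 1) (hc : c * c = 1) (huc : (u c : O) = -1) :
    ∃ (R : G →* Matrix (Fin 2) (Fin 2) O) (δ : O), δ ≠ 0 ∧
      (∀ g, (R g).charpoly = X ^ 2 - C (t g) * X + C (u g : O)) ∧
      ∀ (I : Ideal O) (σ : G), (∀ h, t (σ * h) - t h ∈ I) → ∀ i j, δ * (R σ - 1) i j ∈ I := by
  let r' : G →* Module.End O (M → M) :=
    { toFun := fun g => (r g).compLeft M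
      map_one' := by
        ext f x
        simp
      map_mul' := fun g h => by
        ext f x
        simp }
  refine wiles_nontorsion r' u t c id (fun a ha => hfaith a fun x => congrFun ha x) ?_ hc huc
  intro g
  ext f x
  have := congrArg (fun T : Module.End O M => T (f x)) (hrel g)
  simpa [r'] using this

end Integral

end FAG
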